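import Fermat.Agent.CFT.LocalBr.Fin
import Fermat.Agent.CFT.Global.CountLocal

/-!
# Local Brauer package: quantitative LOC-FIN (the `(c1)` input of the count)

For `E/ℚ_q` finite inside `ℚ̄_q` with `μ_p ⊂ E`, the `𝔽_p`-space `homLC p E` of level-constant
homomorphisms `Fix E → 𝔽_p` satisfies

  `#(homLC p E) ≤ [E^× : (E^×)^p] = p ^ (2 + [E : ℚ_q]·[q = p])`,

hence `dim_{𝔽_p} H¹(G_E, 𝔽_p) ≤ 2 + [E : ℚ_q]·[q = p]`.

The injection `c ↦ [β^p]` is the Kummer map of `LocalBr/Fin.lean` (`exists_kummer`).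
-/

set_option autoImplicit false

open CategoryTheory groupCohomology ExtCitation

namespace Fermat.Agent.CFT.LocalBr.FinCard

open Fermat.Agent.CFT.LocalBr.Fin

variable {q : ℕ} [Fact q.Prime] (p : ℕ) [Fact p.Prime]

/-- The `𝔽_p`-space of level-constant homomorphisms `Fix E → 𝔽_p` (`= H¹(G_E, 𝔽_p)`). -/
def homLC (E : IntermediateField ℚ_[q] (PadicAlgCl q)) :
    Submodule (ZMod p) (↥E.fixingSubgroup → ZMod p) where
  carrier := {c | (∀ s t, c (s * t) = c s + c t) ∧ IsLevelConstant₁ (lvl q E.fixingSubgroup) c}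
  add_mem' := by
    rintro c c' ⟨h1, h2⟩ ⟨h1', h2'⟩
    refine ⟨fun s t => ?_, h2.add h2'⟩
    simp only [Pi.add_apply, h1, h1']
    ring
  zero_mem' := ⟨fun _ _ => by simp, isLevelConstant₁_const _ (0 : ZMod p)⟩
  smul_mem' := by
    rintro a c ⟨h1, h2⟩
    refine ⟨fun s t => ?_, h2.comp (a • ·)⟩
    simp only [Pi.smul_apply, h1, smul_add]

theorem mem_homLC_iff (E : IntermediateField ℚ_[q] (PadicAlgCl q))
    (c : ↥E.fixingSubgroup → ZMod p) :
    c ∈ homLC p E ↔ (∀ s t, c (s * t) = c s + c t) ∧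
      IsLevelConstant₁ (lvl q E.fixingSubgroup) c := Iff.rfl

/-- **Quantitative LOC-FIN**: `#H¹(G_E, 𝔽_p) ≤ [E^× : (E^×)^p]` (`μ_p ⊂ E`). -/
theorem card_homLC_le (E : IntermediateField ℚ_[q] (PadicAlgCl q)) [FiniteDimensional ℚ_[q] E]
    (hμ : ∀ u ∈ E.fixingSubgroup, cycloChar p (localGaloisToGlobal q u) = 1) :
    Nat.card (homLC p E) ≤ (powMonoidHom p : Eˣ →* Eˣ).range.index := by
  classical
  have hQ := finite_units_quotient_pow p E
  have key : ∀ c : homLC p E, ∃ (e : Eˣ) (β : (PadicAlgCl q)ˣ),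
      (((e : E) : PadicAlgCl q) = (β : PadicAlgCl q) ^ p) ∧
      ∀ g : ↥E.fixingSubgroup, (g : Gq q) • β = β * zp p q (c.1 g) := fun c =>
    exists_kummer p E hμ c.1 c.2.1 c.2.2
  choose ee ββ hee hββ using key
  let Φ : homLC p E → Eˣ ⧸ (powMonoidHom p : Eˣ →* Eˣ).range := fun c => QuotientGroup.mk (ee c)
  have hΦ : Function.Injective Φ := by
    intro c c' hcc
    have h1 : (ee c)⁻¹ * ee c' ∈ (powMonoidHom p : Eˣ →* Eˣ).range := QuotientGroup.eq.1 hcc
    obtain ⟨d, hd⟩ := h1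
    have hd' : d ^ p = (ee c)⁻¹ * ee c' := hd
    let D : (PadicAlgCl q)ˣ := Units.map (algebraMap E (PadicAlgCl q)).toMonoidHom d
    have hD : ∀ g ∈ E.fixingSubgroup, g • D = D := by
      intro g hg
      ext
      have := (IntermediateField.mem_fixingSubgroup_iff E g).1 hg ((d : E) : PadicAlgCl q)
        (d : E).2
      simpa [D] using this
    have hDp : (D : PadicAlgCl q) ^ p * (ββ c : PadicAlgCl q) ^ p = (ββ c' : PadicAlgCl q) ^ p := by
      have h2 : ee c * d ^ p = ee c' := by rw [hd']; group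
      have h3 := congrArg (fun u : Eˣ => (((u : E)) : PadicAlgCl q)) h2
      simp only [Units.val_mul, Units.val_pow_eq_pow_val, MulMemClass.coe_mul,
        SubmonoidClass.coe_pow] at h3
      rw [hee c, hee c'] at h3
      rw [← h3, mul_comm]
      rfl
    set w : (PadicAlgCl q)ˣ := ββ c * D / ββ c' with hw
    have hwp : w ^ p = 1 := by
      rw [hw, div_pow, mul_pow, div_eq_one]
      ext
      simp only [Units.val_mul, Units.val_pow_eq_pow_val]
      rw [← hDp, mul_comm]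
    obtain ⟨a, ha⟩ := exists_zp_of_pow_eq_one p w hwp
    apply Subtype.ext
    funext g
    have hwg : (g : Gq q) • w = w := by rw [← ha]; exact smul_zp p (hμ g g.2) a
    have h4 : (g : Gq q) • w = w * (zp p q (c.1 g) / zp p q (c'.1 g)) := by
      rw [hw, smul_div', smul_mul', hββ c g, hββ c' g, hD g g.2]
      rw [div_mul_div_comm, mul_right_comm]
    rw [hwg] at h4
    have h5 : zp p q (c.1 g) / zp p q (c'.1 g) = 1 := by
      have := mul_left_cancel (a := w) (b := 1) (c := zp p q (c.1 g) / zp p q (c'.1 g))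
        (by rw [mul_one]; exact h4)
      exact this.symm
    exact zp_injective p (div_eq_one.1 h5)
  have h := Nat.card_le_card_of_injective Φ hΦ
  rwa [← Subgroup.index_eq_card] at h

/-- `μ_p ⊂ E` (cyclotomic character trivial on `Fix E`) gives a primitive `p`-th root in `E`. -/
theorem exists_primitiveRoot_of_containsMu (E : IntermediateField ℚ_[q] (PadicAlgCl q))
    (hμ : ∀ u ∈ E.fixingSubgroup, cycloChar p (localGaloisToGlobal q u) = 1) :
    ∃ ζ : E, IsPrimitiveRoot ζ p := by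
  have hp : p.Prime := Fact.out
  have hmem : zetaLoc q p ∈ E := by
    apply mem_of_forall_fixingSubgroup E
    intro g hg
    rw [apply_zetaLoc, hμ g hg]
    have : ((1 : (ZMod p)ˣ) : ZMod p).val = 1 := by
      have : Fact (1 < p) := ⟨hp.one_lt⟩
      simp [ZMod.val_one]
    rw [this, pow_one]
  refine ⟨⟨zetaLoc q p, hmem⟩, ?_⟩
  exact IsPrimitiveRoot.of_map_of_injective (f := algebraMap E (PadicAlgCl q))
    (by exact isPrimitiveRoot_zetaLoc q p) (algebraMap E (PadicAlgCl q)).injective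

/-- `#H¹(G_E, 𝔽_p) ≤ p ^ (2 + [E : ℚ_q]·[q = p])`. -/
theorem card_homLC_le_pow (E : IntermediateField ℚ_[q] (PadicAlgCl q)) [FiniteDimensional ℚ_[q] E]
    (hμ : ∀ u ∈ E.fixingSubgroup, cycloChar p (localGaloisToGlobal q u) = 1) :
    Nat.card (homLC p E) ≤ p ^ (2 + if q = p then Module.finrank ℚ_[q] E else 0) := by
  obtain ⟨ζ, hζ⟩ := exists_primitiveRoot_of_containsMu p E hμ
  have h := card_homLC_le p E hμ
  rwa [Fermat.Agent.CFT.Global.CountLocal.index_pow_units_padicExt q p E hζ] at h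

/-- `H¹(G_E, 𝔽_p)` is finite. -/
theorem finite_homLC (E : IntermediateField ℚ_[q] (PadicAlgCl q)) [FiniteDimensional ℚ_[q] E]
    (hμ : ∀ u ∈ E.fixingSubgroup, cycloChar p (localGaloisToGlobal q u) = 1) :
    Finite (homLC p E) :=
  (finite_hom p ⟨E, inferInstance, rfl⟩ hμ).to_subtype

/-- **`(c1)` input**: `dim_{𝔽_p} H¹(G_E, 𝔽_p) ≤ 2 + [E : ℚ_q]·[q = p]` (`μ_p ⊂ E`). -/
theorem finrank_homLC_le (E : IntermediateField ℚ_[q] (PadicAlgCl q)) [FiniteDimensional ℚ_[q] E]
    (hμ : ∀ u ∈ E.fixingSubgroup, cycloChar p (localGaloisToGlobal q u) = 1) :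
    Module.finrank (ZMod p) (homLC p E) ≤ 2 + if q = p then Module.finrank ℚ_[q] E else 0 := by
  have hp : p.Prime := Fact.out
  have := finite_homLC p E hμ
  have h1 : Nat.card (homLC p E) = p ^ Module.finrank (ZMod p) (homLC p E) := by
    rw [Module.natCard_eq_pow_finrank (K := ZMod p) (V := homLC p E), Nat.card_zmod]
  have h2 := card_homLC_le_pow p E hμ
  rw [h1] at h2
  exact (Nat.pow_le_pow_iff_right hp.one_lt).1 h2

/-- The same bound for an open subgroup `U` (`IsOpenSub q U`, `ContainsMu p U`). -/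
theorem exists_field_finrank_homLC_le {U : Subgroup (Gq q)} (hU : IsOpenSub q U)
    (hμ : ∀ u ∈ U, cycloChar p (localGaloisToGlobal q u) = 1) :
    ∃ E : IntermediateField ℚ_[q] (PadicAlgCl q), FiniteDimensional ℚ_[q] E ∧
      U = E.fixingSubgroup ∧
      Module.finrank (ZMod p) (homLC p E) ≤ 2 + if q = p then Module.finrank ℚ_[q] E else 0 := by
  obtain ⟨E, hE, rfl⟩ := hU
  exact ⟨E, hE, rfl, finrank_homLC_le p E hμ⟩

end Fermat.Agent.CFT.LocalBr.FinCard
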