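import Mathlib
import Fermat.Prelude.Def_GroupCohomology_ContinuousUnramified

/-!
# Local Brauer package (LOC): definitions

Consumer-facing vocabulary for the local class field theory input of S55, in the Prelude's
level-constant cochain language (`groupCohomology.continuousH2`).

* `Gq q`          : the local absolute Galois group `Gal(ℚ̄_q/ℚ_q)` (`= primeLocalGaloisGroup`).
* `lvl q U`       : the level structure `U → Gal(ℚ̄/ℚ)` of a subgroup `U ≤ Gq q`.
* `IsOpenSub q U` : `U` is the fixing subgroup of a finite extension `E/ℚ_q` inside `ℚ̄_q`.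
* `unitsRep q`    : `ℚ̄_q^×` as a `ℤ[Gq q]`-module;  `muLoc q p` : `μ_p = 𝔽_p(1)` restricted to
  `Gq q` (Prelude shape `ofChar (cycloChar p)`);  `trivLoc q p` : the trivial module `𝔽_p`.
* `H2loc q A U`   : `H²` of level-constant cochains of `U` with values in `A` restricted to `U`.
* `resLoc`        : restriction `H2loc q A U → H2loc q A U'` for `U' ≤ U`.
* `layer q U V`   : the finite layer `(U ⧸ V, (ℚ̄_q^×)^V)` (Mathlib `groupCohomology` object).
* `cup11 χ c`     : the cup product cochain `(s, t) ↦ χ s • (s • c t)`.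
-/

set_option autoImplicit false

open CategoryTheory groupCohomology ExtCitation

namespace Fermat.Agent.CFT.LocalBr

variable (q : ℕ) [Fact q.Prime]

/-- The local absolute Galois group `Gal(ℚ̄_q/ℚ_q)`. -/
abbrev Gq : Type := PadicAlgCl q ≃ₐ[ℚ_[q]] PadicAlgCl q

/-- The level structure of a subgroup of the local Galois group. -/
noncomputable abbrev lvl (U : Subgroup (Gq q)) :
    ↥U →* (AlgebraicClosure ℚ ≃ₐ[ℚ] AlgebraicClosure ℚ) :=
  (localGaloisToGlobal q).comp U.subtype

/-- `U` is open: it is the fixing subgroup of a finite extension of `ℚ_q` inside `ℚ̄_q`. -/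
def IsOpenSub (U : Subgroup (Gq q)) : Prop :=
  ∃ E : IntermediateField ℚ_[q] (PadicAlgCl q), FiniteDimensional ℚ_[q] E ∧ U = E.fixingSubgroup

/-- The formation module `ℚ̄_q^×` as a `ℤ[Gq q]`-module. -/
noncomputable abbrev unitsRep : Rep ℤ (Gq q) := Rep.ofAlgebraAutOnUnits ℚ_[q] (PadicAlgCl q)

variable (p : ℕ) [Fact p.Prime]

/-- `μ_p = 𝔽_p(1)` as a representation of the local Galois group (Prelude shape). -/
noncomputable abbrev muLoc : Rep (ZMod p) (Gq q) :=
  Rep.res (localGaloisToGlobal q) (ofChar (k := ZMod p) (cycloChar p))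

/-- The trivial module `𝔽_p` of the local Galois group. -/
noncomputable abbrev trivLoc : Rep (ZMod p) (Gq q) := Rep.trivial (ZMod p) (Gq q) (ZMod p)

variable {q}

/-- `H²` of level-constant cochains of `U ≤ Gq q` with coefficients `A` restricted to `U`. -/
abbrev H2loc {k : Type} [CommRing k] (A : Rep k (Gq q)) (U : Subgroup (Gq q)) : Type :=
  continuousH2 (lvl q U) (Rep.res U.subtype A)

/-- Restriction `H²(U, A) → H²(U', A)` for `U' ≤ U`. -/
noncomputable def resLoc {k : Type} [CommRing k] (A : Rep k (Gq q)) {U' U : Subgroup (Gq q)}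
    (h : U' ≤ U) : H2loc A U →ₗ[k] H2loc A U' :=
  continuousH2Map (rH := lvl q U) (rG := lvl q U') (Subgroup.inclusion h) (fun _ => rfl)
    (LinearMap.id : (Rep.res U.subtype A) →ₗ[k] (Rep.res U'.subtype A)) (fun _ _ => rfl)

/-- The finite layer `(U ⧸ V, (ℚ̄_q^×)^V)`: for `U = Fix E`, `V = Fix L`, `L/E` finite Galois,
this is `(Gal(L/E), L^×)`. -/
noncomputable abbrev layer (U V : Subgroup (Gq q)) [(V.subgroupOf U).Normal] :
    Rep ℤ (↥U ⧸ V.subgroupOf U) :=
  (Rep.res U.subtype (unitsRep q)).quotientToInvariants (V.subgroupOf U)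

/-- The cup product cochain `(s, t) ↦ χ s • (s • c t)` of a function `χ : U → k` and a
`1`-cochain `c : U → A`. -/
noncomputable def cup11 {k : Type} [CommRing k] (A : Rep k (Gq q)) {U : Subgroup (Gq q)} (χ : ↥U → k)
    (c : ↥U → A) : ↥U × ↥U → (Rep.res U.subtype A) :=
  fun st => χ st.1 • A.ρ (st.1 : Gq q) (c st.2)

end Fermat.Agent.CFT.LocalBr
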