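import Fermat.Agent.CFT.LocalBr.Defs

/-!
# LOC-C1: `μ_p` inside `ℚ̄_q^×`

* `cycloChar_spec`      : `σ x = x ^ (cycloChar p σ).val` for every `p`-th root of unity of `ℚ̄`.
* `zetaLoc q p`         : a primitive `p`-th root of unity of `ℚ̄_q` (image of one of `ℚ̄`).
* `muEmb q p`           : the additive map `𝔽_p(1) → ℚ̄_q^×`, `a ↦ ζ ^ a`.
* `muEmb_injective`, `muEmb_equivariant`, `range_muEmb` (= the `p`-torsion),
  `exists_pow_eq_units` (`ℚ̄_q^×` is `p`-divisible).
-/

set_option autoImplicit false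

open CategoryTheory groupCohomology ExtCitation

namespace Fermat.Agent.CFT.LocalBr

variable (q : ℕ) [Fact q.Prime] (p : ℕ) [Fact p.Prime]

/-- The defining property of the Prelude's mod `p` cyclotomic character. -/
theorem cycloChar_spec (σ : AlgebraicClosure ℚ ≃ₐ[ℚ] AlgebraicClosure ℚ) {x : AlgebraicClosure ℚ}
    (hx : x ^ p = 1) : σ x = x ^ ((cycloChar p σ : ZMod p)).val := by
  have hp : p.Prime := Fact.out
  have : NeZero p := ⟨hp.ne_zero⟩
  have hx0 : x ≠ 0 := by
    rintro rfl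
    rw [zero_pow hp.ne_zero] at hx
    exact zero_ne_one hx
  have ht : Units.mk0 x hx0 ∈ rootsOfUnity p (AlgebraicClosure ℚ) := by
    rw [mem_rootsOfUnity]
    ext
    simp [hx]
  exact modularCyclotomicCharacter.spec (AlgebraicClosure ℚ) (card_rootsOfUnity_eq_self p)
    (σ : AlgebraicClosure ℚ ≃+* AlgebraicClosure ℚ) ht

/-- A chosen primitive `p`-th root of unity of `ℚ̄`. -/
noncomputable def zetaQb : AlgebraicClosure ℚ :=
  haveI : NeZero p := ⟨(Fact.out : p.Prime).ne_zero⟩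
  (HasEnoughRootsOfUnity.exists_primitiveRoot (AlgebraicClosure ℚ) p).choose

theorem isPrimitiveRoot_zetaQb : IsPrimitiveRoot (zetaQb p) p :=
  haveI : NeZero p := ⟨(Fact.out : p.Prime).ne_zero⟩
  (HasEnoughRootsOfUnity.exists_primitiveRoot (AlgebraicClosure ℚ) p).choose_spec

/-- Its image in `ℚ̄_q`. -/
noncomputable def zetaLoc : PadicAlgCl q := padicEmbedding q (zetaQb p)

theorem isPrimitiveRoot_zetaLoc : IsPrimitiveRoot (zetaLoc q p) p :=
  (isPrimitiveRoot_zetaQb p).map_of_injective (padicEmbedding q).toRingHom.injective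

theorem zetaLoc_pow : zetaLoc q p ^ p = 1 := (isPrimitiveRoot_zetaLoc q p).pow_eq_one

/-- The Galois action on `ζ` is through the cyclotomic character. -/
theorem apply_zetaLoc (τ : Gq q) :
    τ (zetaLoc q p) = zetaLoc q p ^ ((cycloChar p (localGaloisToGlobal q τ) : ZMod p)).val := by
  rw [zetaLoc, ← padicEmbedding_localGaloisToGlobal,
    cycloChar_spec p _ (isPrimitiveRoot_zetaQb p).pow_eq_one, map_pow]

/-- `ζ` as a unit. -/
noncomputable def zetaUnit : (PadicAlgCl q)ˣ :=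
  Units.mk0 (zetaLoc q p) ((isPrimitiveRoot_zetaLoc q p).ne_zero (Fact.out : p.Prime).ne_zero)

@[simp] theorem coe_zetaUnit : ((zetaUnit q p : (PadicAlgCl q)ˣ) : PadicAlgCl q) = zetaLoc q p := rfl

theorem zetaUnit_pow : zetaUnit q p ^ p = 1 := by
  ext
  simp [zetaLoc_pow]

theorem smul_zetaUnit (τ : Gq q) :
    τ • zetaUnit q p = zetaUnit q p ^ ((cycloChar p (localGaloisToGlobal q τ) : ZMod p)).val := by
  ext
  simp [apply_zetaLoc]

/-- The embedding `𝔽_p(1) → ℚ̄_q^×`, `a ↦ ζ ^ a`, as an additive map. -/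
noncomputable def muEmb : ZMod p →+ Additive (PadicAlgCl q)ˣ :=
  ZMod.lift p ⟨zmultiplesHom _ (Additive.ofMul (zetaUnit q p)), by
    simp [← ofMul_pow, zetaUnit_pow]⟩

theorem muEmb_intCast (n : ℤ) : muEmb q p (n : ZMod p) = Additive.ofMul (zetaUnit q p ^ n) := by
  rw [muEmb, ZMod.lift_coe]
  simp [ofMul_zpow]

theorem muEmb_natCast (n : ℕ) : muEmb q p (n : ZMod p) = Additive.ofMul (zetaUnit q p ^ n) := by
  rw [← Int.cast_natCast, muEmb_intCast, zpow_natCast]

theorem muEmb_apply (a : ZMod p) :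
    muEmb q p a = Additive.ofMul (zetaUnit q p ^ a.val) := by
  have hp : p.Prime := Fact.out
  have : NeZero p := ⟨hp.ne_zero⟩
  have h := muEmb_natCast q p a.val
  rwa [ZMod.natCast_zmod_val] at h

theorem muEmb_injective : Function.Injective (muEmb q p) := by
  have hp : p.Prime := Fact.out
  have : NeZero p := ⟨hp.ne_zero⟩
  rw [injective_iff_map_eq_zero]
  intro a ha
  rw [muEmb_apply] at ha
  have h1 : zetaLoc q p ^ a.val = 1 := by
    have := congrArg (fun u : Additive (PadicAlgCl q)ˣ => ((Additive.toMul u : (PadicAlgCl q)ˣ) : PadicAlgCl q)) ha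
    simpa using this
  have h2 : p ∣ a.val := (isPrimitiveRoot_zetaLoc q p).dvd_of_pow_eq_one _ h1
  have h3 : a.val = 0 := Nat.eq_zero_of_dvd_of_lt h2 (ZMod.val_lt a)
  exact (ZMod.val_eq_zero a).1 h3

/-- Equivariance: the action on `ℚ̄_q^×` corresponds to the twist by the cyclotomic character. -/
theorem muEmb_equivariant (τ : Gq q) (a : ZMod p) :
    (unitsRep q).ρ τ (muEmb q p a) = muEmb q p ((muLoc q p).ρ τ a) := by
  have hp : p.Prime := Fact.out
  have : NeZero p := ⟨hp.ne_zero⟩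
  have hact : (muLoc q p).ρ τ a = (cycloChar p (localGaloisToGlobal q τ) : ZMod p) * a := rfl
  rw [hact]
  have h1 : ((cycloChar p (localGaloisToGlobal q τ) : ZMod p) * a) =
      (((cycloChar p (localGaloisToGlobal q τ) : ZMod p).val * a.val : ℕ) : ZMod p) := by
    rw [Nat.cast_mul, ZMod.natCast_zmod_val, ZMod.natCast_zmod_val]
  rw [h1, muEmb_natCast, muEmb_apply]
  change Additive.ofMul (τ • (zetaUnit q p ^ a.val)) = _
  rw [smul_pow', smul_zetaUnit, ← pow_mul]

/-- The range of `muEmb` is the `p`-torsion of `ℚ̄_q^×`. -/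
theorem mem_range_muEmb_iff (u : Additive (PadicAlgCl q)ˣ) :
    u ∈ Set.range (muEmb q p) ↔ p • u = 0 := by
  have hp : p.Prime := Fact.out
  have : NeZero p := ⟨hp.ne_zero⟩
  constructor
  · rintro ⟨a, rfl⟩
    rw [← map_nsmul]
    simp
  · intro h
    have h1 : ((Additive.toMul u : (PadicAlgCl q)ˣ) : PadicAlgCl q) ^ p = 1 := by
      have := congrArg (fun u : Additive (PadicAlgCl q)ˣ => ((Additive.toMul u : (PadicAlgCl q)ˣ) : PadicAlgCl q)) h
      simpa using this
    obtain ⟨i, _, hi⟩ := (isPrimitiveRoot_zetaLoc q p).eq_pow_of_pow_eq_one h1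
    refine ⟨(i : ZMod p), ?_⟩
    rw [muEmb_natCast]
    change Additive.ofMul (zetaUnit q p ^ i) = Additive.ofMul (Additive.toMul u)
    apply congrArg Additive.ofMul
    apply Units.ext
    rw [Units.val_pow_eq_pow_val, coe_zetaUnit, hi]

/-- `ℚ̄_q^×` is `p`-divisible (indeed `n`-divisible for every `n ≠ 0`). -/
theorem exists_nsmul_eq_units {n : ℕ} (hn : n ≠ 0) (u : Additive (PadicAlgCl q)ˣ) :
    ∃ v : Additive (PadicAlgCl q)ˣ, n • v = u := by
  obtain ⟨z, hz⟩ := IsAlgClosed.exists_pow_nat_eq ((Additive.toMul u : (PadicAlgCl q)ˣ) : PadicAlgCl q)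
    (Nat.pos_of_ne_zero hn)
  have hz0 : z ≠ 0 := by
    rintro rfl
    rw [zero_pow hn] at hz
    exact (Additive.toMul u).ne_zero hz.symm
  refine ⟨Additive.ofMul (Units.mk0 z hz0), ?_⟩
  rw [← ofMul_pow]
  change Additive.ofMul (Units.mk0 z hz0 ^ n) = Additive.ofMul (Additive.toMul u)
  apply congrArg Additive.ofMul
  apply Units.ext
  rw [Units.val_pow_eq_pow_val, Units.val_mk0, hz]

end Fermat.Agent.CFT.LocalBr
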