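import Fermat.Agent.CFT.LocalBr.Cup
import Fermat.Agent.S55.Glue.LocalLevel
import Fermat.Agent.S55.Glue.LocalRange
import Fermat.Agent.S55.Glue.PlacesAbove

/-!
# Local Brauer package, language adapter (LOC-AD), part 1: transport

The LOC package (`LocalBr/Main.lean`) speaks about open subgroups `U` of the local Galois group
`Gq q = Gal(ℚ̄_q/ℚ_q)` with the level structure `lvl q U`.  The global consumers (BASE, HP) speak
about the subgroups `decomp A K = A.decompositionSubgroup ℚ ⊓ K.fixingSubgroup` of `G_ℚ`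
(`A` a valuation subring of `ℚ̄` over `q`, `K` a number field), with the level structure given by
the inclusion.  This file provides the dictionary:

* `ConjData rG rH` : an isomorphism `e : G ≃* H` with `rH (e x) = g * rG x * g⁻¹`; its transports
  `T₁`, `T₂` of cochains (`f ↦ ρ(g⁻¹) ∘ f ∘ e`) commute with `d`, preserve cocycles, level-constancy
  and level-constant coboundaries in both directions, and induce `H2Equiv` on `continuousH2`.
* `decomp A K`, `localSub q g K` (open in `Gq q`), `localEquiv q g K`, `conjData q g K`,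
  `exists_smul_padicPlace_eq`.
* the `G_ℚ`-side vocabulary `H2sub`, `resSub`, `cup11Q`, `muQ`, and
  `cup11Q_mem_levelCocycles₂`, `T₂_cup11Q`, `H2Equiv_resSub`, `relIndex_localSub`.

The transported LOC theorems are in `LocalBr/AdapterMain.lean`.
-/

set_option autoImplicit false

open CategoryTheory groupCohomology ExtCitation
open scoped Pointwise

noncomputable section

namespace Fermat.Agent.CFT.LocalBr.Adapter

local notation "Qb" => AlgebraicClosure ℚ
local notation "GQ" => (AlgebraicClosure ℚ ≃ₐ[ℚ] AlgebraicClosure ℚ)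

/-! ### Part 0: conjugation transport of level-constant cochains -/

section Conj

/-- If `s` fixes `g⁻¹(F)` pointwise then `g s g⁻¹` fixes `F` pointwise. -/
theorem conj_mem_fixingSubgroup {F : IntermediateField ℚ Qb} (g s : GQ)
    (hs : s ∈ (F.map ((g⁻¹ : GQ) : Qb →ₐ[ℚ] Qb)).fixingSubgroup) :
    g * s * g⁻¹ ∈ F.fixingSubgroup := by
  rw [IntermediateField.mem_fixingSubgroup_iff] at hs ⊢
  intro y hy
  have h1 : (g⁻¹ : GQ) y ∈ F.map ((g⁻¹ : GQ) : Qb →ₐ[ℚ] Qb) :=
    (IntermediateField.mem_map _).2 ⟨y, hy, rfl⟩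
  have h2 := hs _ h1
  show g (s ((g⁻¹ : GQ) y)) = y
  rw [h2]
  show (g * g⁻¹) y = y
  rw [mul_inv_cancel]
  rfl

variable {G H : Type} [Group G] [Group H] {rH : H →* GQ} {rG : G →* GQ}

/-- Level-constancy is preserved by pull-back along a homomorphism which is compatible with the
level maps up to conjugation by a fixed `g`. -/
theorem isLevelConstant₁_comp_of_conj (f : G →* H) (g : GQ)
    (hf : ∀ x, rH (f x) = g * rG x * g⁻¹) {X : Type*} {x : H → X}
    (hx : IsLevelConstant₁ rH x) : IsLevelConstant₁ rG (x ∘ f) := by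
  obtain ⟨F, hF, h⟩ := hx
  have := hF
  refine ⟨F.map ((g⁻¹ : GQ) : Qb →ₐ[ℚ] Qb), inferInstance, fun a s hs => ?_⟩
  simp only [Function.comp_apply, map_mul]
  exact h (f a) (f s) (by rw [hf]; exact conj_mem_fixingSubgroup g _ hs)

theorem isLevelConstant₂_comp_of_conj (f : G →* H) (g : GQ)
    (hf : ∀ x, rH (f x) = g * rG x * g⁻¹) {X : Type*} {x : H × H → X}
    (hx : IsLevelConstant₂ rH x) : IsLevelConstant₂ rG (x ∘ Prod.map f f) := by
  obtain ⟨F, hF, h⟩ := hx
  have := hF
  refine ⟨F.map ((g⁻¹ : GQ) : Qb →ₐ[ℚ] Qb), inferInstance, fun a a' s s' hs hs' => ?_⟩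
  simp only [Function.comp_apply, Prod.map_apply, map_mul]
  exact h (f a) (f a') (f s) (f s') (by rw [hf]; exact conj_mem_fixingSubgroup g _ hs)
    (by rw [hf]; exact conj_mem_fixingSubgroup g _ hs')

/-- A conjugation datum between two groups with level maps to `Gal(ℚ̄/ℚ)`: an isomorphism
`e : G ≃* H` such that `rH ∘ e` is the conjugate of `rG` by a fixed `g`. -/
structure ConjData (rG : G →* GQ) (rH : H →* GQ) where
  /-- the isomorphism -/
  e : G ≃* H
  /-- the conjugating element -/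
  g : GQ
  conj : ∀ x, rH (e x) = g * rG x * g⁻¹

namespace ConjData

variable (c : ConjData rG rH)

/-- The inverse conjugation datum. -/
def symm : ConjData rH rG where
  e := c.e.symm
  g := c.g⁻¹
  conj x := by
    have h := c.conj (c.e.symm x)
    rw [MulEquiv.apply_symm_apply] at h
    rw [h, inv_inv]
    group

@[simp] theorem symm_e : c.symm.e = c.e.symm := rfl
@[simp] theorem symm_g : c.symm.g = c.g⁻¹ := rfl

variable {k : Type} [CommRing k] (M : Rep k GQ)

/-- The coefficient map of the transport: the action of `g⁻¹`. -/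
def coeff : (Rep.res rH M) →ₗ[k] (Rep.res rG M) := M.ρ c.g⁻¹

theorem coeff_apply (m : M) : c.coeff M m = M.ρ c.g⁻¹ m := rfl

theorem coeff_equivariant (x : G) (a : Rep.res rH M) :
    c.coeff M ((Rep.res rH M).ρ (c.e.toMonoidHom x) a) = (Rep.res rG M).ρ x (c.coeff M a) := by
  show M.ρ c.g⁻¹ (M.ρ (rH (c.e x)) a) = M.ρ (rG x) (M.ρ c.g⁻¹ a)
  rw [c.conj, ← Module.End.mul_apply, ← Module.End.mul_apply, ← map_mul, ← map_mul]
  congr 2
  group

theorem coeff_symm_coeff (m : M) : c.symm.coeff M (c.coeff M m) = m := by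
  show M.ρ (c.g⁻¹)⁻¹ (M.ρ c.g⁻¹ m) = m
  rw [← Module.End.mul_apply, ← map_mul, inv_inv, mul_inv_cancel, map_one]
  rfl

theorem coeff_coeff_symm (m : M) : c.coeff M (c.symm.coeff M m) = m := by
  show M.ρ c.g⁻¹ (M.ρ (c.g⁻¹)⁻¹ m) = m
  rw [← Module.End.mul_apply, ← map_mul, inv_inv, inv_mul_cancel, map_one]
  rfl

/-- Transport of `1`-cochains: `f ↦ ρ(g⁻¹) ∘ f ∘ e`. -/
def T₁ : (H → Rep.res rH M) →ₗ[k] (G → Rep.res rG M) :=
  cochainsPullPush₁ c.e.toMonoidHom (c.coeff M)

/-- Transport of `2`-cochains: `f ↦ ρ(g⁻¹) ∘ f ∘ (e × e)`. -/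
def T₂ : (H × H → Rep.res rH M) →ₗ[k] (G × G → Rep.res rG M) :=
  cochainsPullPush₂ c.e.toMonoidHom (c.coeff M)

@[simp] theorem T₁_apply (f : H → Rep.res rH M) (x : G) :
    c.T₁ M f x = M.ρ c.g⁻¹ (f (c.e x)) := rfl

@[simp] theorem T₂_apply (f : H × H → Rep.res rH M) (x : G × G) :
    c.T₂ M f x = M.ρ c.g⁻¹ (f (c.e x.1, c.e x.2)) := rfl

theorem T₁_symm_T₁ (f : H → Rep.res rH M) : c.symm.T₁ M (c.T₁ M f) = f := by
  funext x
  show c.symm.coeff M (c.coeff M (f (c.e (c.e.symm x)))) = f x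
  rw [coeff_symm_coeff, MulEquiv.apply_symm_apply]

theorem T₂_symm_T₂ (f : H × H → Rep.res rH M) : c.symm.T₂ M (c.T₂ M f) = f := by
  funext x
  show c.symm.coeff M (c.coeff M (f (c.e (c.e.symm x.1), c.e (c.e.symm x.2)))) = f x
  rw [coeff_symm_coeff, MulEquiv.apply_symm_apply, MulEquiv.apply_symm_apply]

theorem T₁_T₁_symm (f : G → Rep.res rG M) : c.T₁ M (c.symm.T₁ M f) = f := by
  funext x
  show c.coeff M (c.symm.coeff M (f (c.e.symm (c.e x)))) = f x
  rw [coeff_coeff_symm, MulEquiv.symm_apply_apply]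

theorem T₂_T₂_symm (f : G × G → Rep.res rG M) : c.T₂ M (c.symm.T₂ M f) = f := by
  funext x
  show c.coeff M (c.symm.coeff M (f (c.e.symm (c.e x.1), c.e.symm (c.e x.2)))) = f x
  rw [coeff_coeff_symm, MulEquiv.symm_apply_apply, MulEquiv.symm_apply_apply]

/-- The transport commutes with the differential `d¹`. -/
theorem T₂_d₁₂ (f : H → Rep.res rH M) :
    c.T₂ M ((d₁₂ (Rep.res rH M)).hom f) = (d₁₂ (Rep.res rG M)).hom (c.T₁ M f) :=
  cochainsPullPush₂_d₁₂ c.e.toMonoidHom (c.coeff M) (c.coeff_equivariant M) f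

theorem T₂_mem_cocycles₂ {f : H × H → Rep.res rH M} (hf : f ∈ cocycles₂ (Rep.res rH M)) :
    c.T₂ M f ∈ cocycles₂ (Rep.res rG M) :=
  cochainsPullPush₂_mem_cocycles₂ c.e.toMonoidHom (c.coeff M) (c.coeff_equivariant M) hf

theorem T₁_mem_cocycles₁ {f : H → Rep.res rH M} (hf : f ∈ cocycles₁ (Rep.res rH M)) :
    c.T₁ M f ∈ cocycles₁ (Rep.res rG M) := by
  rw [mem_cocycles₁_iff] at hf ⊢
  intro x y
  have h := hf (c.e x) (c.e y)
  simp only [T₁_apply, map_mul, h, map_add]
  congr 1
  exact c.coeff_equivariant M x (f (c.e y))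

/-- The transport of a `1`-coboundary is the `1`-coboundary of the transported element. -/
theorem T₁_coboundary (m : M) :
    c.T₁ M (fun h : H => M.ρ (rH h) m - m) = fun x : G => M.ρ (rG x) (M.ρ c.g⁻¹ m) - M.ρ c.g⁻¹ m := by
  funext x
  show M.ρ c.g⁻¹ (M.ρ (rH (c.e x)) m - m) = M.ρ (rG x) (M.ρ c.g⁻¹ m) - M.ρ c.g⁻¹ m
  rw [map_sub, c.conj, ← Module.End.mul_apply, ← Module.End.mul_apply, ← map_mul, ← map_mul]
  congr 3
  group

theorem T₁_isLevelConstant {f : H → Rep.res rH M} (hf : IsLevelConstant₁ rH f) :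
    IsLevelConstant₁ rG (c.T₁ M f) :=
  ((isLevelConstant₁_comp_of_conj c.e.toMonoidHom c.g c.conj hf).comp (c.coeff M) :)

theorem T₂_isLevelConstant {f : H × H → Rep.res rH M} (hf : IsLevelConstant₂ rH f) :
    IsLevelConstant₂ rG (c.T₂ M f) :=
  ((isLevelConstant₂_comp_of_conj c.e.toMonoidHom c.g c.conj hf).comp (c.coeff M) :)

theorem T₁_isLevelConstant_iff (f : H → Rep.res rH M) :
    IsLevelConstant₁ rG (c.T₁ M f) ↔ IsLevelConstant₁ rH f :=
  ⟨fun h => by simpa [T₁_symm_T₁] using c.symm.T₁_isLevelConstant M h, c.T₁_isLevelConstant M⟩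

theorem T₂_isLevelConstant_iff (f : H × H → Rep.res rH M) :
    IsLevelConstant₂ rG (c.T₂ M f) ↔ IsLevelConstant₂ rH f :=
  ⟨fun h => by simpa [T₂_symm_T₂] using c.symm.T₂_isLevelConstant M h, c.T₂_isLevelConstant M⟩

theorem T₁_mem_cocycles₁_iff (f : H → Rep.res rH M) :
    c.T₁ M f ∈ cocycles₁ (Rep.res rG M) ↔ f ∈ cocycles₁ (Rep.res rH M) :=
  ⟨fun h => by simpa [T₁_symm_T₁] using c.symm.T₁_mem_cocycles₁ M h, c.T₁_mem_cocycles₁ M⟩

theorem T₂_mem_levelCocycles₂ {f : H × H → Rep.res rH M}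
    (hf : f ∈ levelCocycles₂ rH (Rep.res rH M)) :
    c.T₂ M f ∈ levelCocycles₂ rG (Rep.res rG M) :=
  ⟨c.T₂_mem_cocycles₂ M hf.1, c.T₂_isLevelConstant M hf.2⟩

theorem T₂_mem_levelCocycles₂_iff (f : H × H → Rep.res rH M) :
    c.T₂ M f ∈ levelCocycles₂ rG (Rep.res rG M) ↔ f ∈ levelCocycles₂ rH (Rep.res rH M) :=
  ⟨fun h => by simpa [T₂_symm_T₂] using c.symm.T₂_mem_levelCocycles₂ M h,
    c.T₂_mem_levelCocycles₂ M⟩

theorem T₂_mem_levelCoboundaries₂ {f : H × H → Rep.res rH M}
    (hf : f ∈ levelCoboundaries₂ rH (Rep.res rH M)) :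
    c.T₂ M f ∈ levelCoboundaries₂ rG (Rep.res rG M) := by
  obtain ⟨y, hy, rfl⟩ := (mem_levelCoboundaries₂_iff rH _ f).1 hf
  exact (mem_levelCoboundaries₂_iff rG _ _).2
    ⟨c.T₁ M y, c.T₁_isLevelConstant M hy, (c.T₂_d₁₂ M y).symm⟩

theorem T₂_mem_levelCoboundaries₂_iff (f : H × H → Rep.res rH M) :
    c.T₂ M f ∈ levelCoboundaries₂ rG (Rep.res rG M) ↔ f ∈ levelCoboundaries₂ rH (Rep.res rH M) :=
  ⟨fun h => by simpa [T₂_symm_T₂] using c.symm.T₂_mem_levelCoboundaries₂ M h,
    c.T₂_mem_levelCoboundaries₂ M⟩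

/-- The transport of level-constant `2`-cocycles. -/
def cocyclesMap : ↥(levelCocycles₂ rH (Rep.res rH M)) →ₗ[k] ↥(levelCocycles₂ rG (Rep.res rG M)) :=
  (c.T₂ M).restrict fun _ hf => c.T₂_mem_levelCocycles₂ M hf

@[simp] theorem coe_cocyclesMap (f : ↥(levelCocycles₂ rH (Rep.res rH M))) :
    (c.cocyclesMap M f : G × G → Rep.res rG M) = c.T₂ M f := rfl

/-- The transport on `H²` of level-constant cochains (one direction). -/
def H2Map : continuousH2 rH (Rep.res rH M) →ₗ[k] continuousH2 rG (Rep.res rG M) :=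
  Submodule.mapQ _ _ (c.cocyclesMap M) fun _ hf => c.T₂_mem_levelCoboundaries₂ M hf

@[simp] theorem H2Map_mk (f : ↥(levelCocycles₂ rH (Rep.res rH M))) :
    c.H2Map M (continuousH2π rH (Rep.res rH M) f) =
      continuousH2π rG (Rep.res rG M) (c.cocyclesMap M f) := rfl

theorem H2Map_symm_H2Map (x : continuousH2 rH (Rep.res rH M)) :
    c.symm.H2Map M (c.H2Map M x) = x := by
  obtain ⟨f, rfl⟩ := Submodule.mkQ_surjective _ x
  show c.symm.H2Map M (c.H2Map M (continuousH2π rH (Rep.res rH M) f)) = _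
  rw [H2Map_mk, H2Map_mk]
  congr 1
  apply Subtype.ext
  exact c.T₂_symm_T₂ M f

theorem H2Map_H2Map_symm (x : continuousH2 rG (Rep.res rG M)) :
    c.H2Map M (c.symm.H2Map M x) = x := by
  obtain ⟨f, rfl⟩ := Submodule.mkQ_surjective _ x
  show c.H2Map M (c.symm.H2Map M (continuousH2π rG (Rep.res rG M) f)) = _
  rw [H2Map_mk, H2Map_mk]
  congr 1
  apply Subtype.ext
  exact c.T₂_T₂_symm M f

/-- **Conjugation transport on `H²`**: a linear equivalence between the `H²` of level-constant
cochains of `H` and of `G`. -/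
def H2Equiv : continuousH2 rH (Rep.res rH M) ≃ₗ[k] continuousH2 rG (Rep.res rG M) :=
  LinearEquiv.ofLinearMap (c.H2Map M) (c.symm.H2Map M)
    (LinearMap.ext fun x => c.H2Map_H2Map_symm M x)
    (LinearMap.ext fun x => c.H2Map_symm_H2Map M x)

@[simp] theorem H2Equiv_apply (x : continuousH2 rH (Rep.res rH M)) :
    c.H2Equiv M x = c.H2Map M x := rfl

theorem H2Equiv_mk (f : ↥(levelCocycles₂ rH (Rep.res rH M))) :
    c.H2Equiv M (continuousH2π rH (Rep.res rH M) f) =
      continuousH2π rG (Rep.res rG M) (c.cocyclesMap M f) := rfl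

section Comm

variable {G' H' : Type} [Group G'] [Group H'] {rG' : G' →* GQ} {rH' : H' →* GQ}
  (c' : ConjData rG' rH') (i : G' →* G) (j : H' →* H)
  (hi : ∀ x, rG (i x) = rG' x) (hj : ∀ x, rH (j x) = rH' x)
  (hg : c'.g = c.g) (hij : ∀ x, j (c'.e x) = c.e (i x))
  (hφG : ∀ (x : G') (a : Rep.res rG M),
    (LinearMap.id : (Rep.res rG M) →ₗ[k] (Rep.res rG' M)) ((Rep.res rG M).ρ (i x) a) =
      (Rep.res rG' M).ρ x ((LinearMap.id : (Rep.res rG M) →ₗ[k] (Rep.res rG' M)) a))
  (hφH : ∀ (x : H') (a : Rep.res rH M),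
    (LinearMap.id : (Rep.res rH M) →ₗ[k] (Rep.res rH' M)) ((Rep.res rH M).ρ (j x) a) =
      (Rep.res rH' M).ρ x ((LinearMap.id : (Rep.res rH M) →ₗ[k] (Rep.res rH' M)) a))

include hg hij in
/-- Compatibility of the transports with a pair of compatible "restriction" homomorphisms
(cocycle level). -/
theorem cocyclesMap_comm (f : ↥(levelCocycles₂ rH (Rep.res rH M))) :
    c'.cocyclesMap M (levelCocycles₂Map j hj
        (LinearMap.id : (Rep.res rH M) →ₗ[k] (Rep.res rH' M)) hφH f) =
      levelCocycles₂Map i hi (LinearMap.id : (Rep.res rG M) →ₗ[k] (Rep.res rG' M)) hφG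
        (c.cocyclesMap M f) := by
  apply Subtype.ext
  funext ⟨a, b⟩
  show M.ρ c'.g⁻¹ ((f : H × H → Rep.res rH M) (j (c'.e a), j (c'.e b))) =
    M.ρ c.g⁻¹ ((f : H × H → Rep.res rH M) (c.e (i a), c.e (i b)))
  rw [hg, hij, hij]

include hg hij in
/-- Compatibility of the `H²`-transports with a pair of compatible "restriction"
homomorphisms. -/
theorem H2Equiv_comm (x : continuousH2 rH (Rep.res rH M)) :
    c'.H2Equiv M (continuousH2Map j hj
        (LinearMap.id : (Rep.res rH M) →ₗ[k] (Rep.res rH' M)) hφH x) =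
      continuousH2Map i hi (LinearMap.id : (Rep.res rG M) →ₗ[k] (Rep.res rG' M)) hφG
        (c.H2Equiv M x) := by
  obtain ⟨f, rfl⟩ := Submodule.mkQ_surjective _ x
  exact congrArg (continuousH2π rG' (Rep.res rG' M))
    (c.cocyclesMap_comm M c' i j hi hj hg hij hφG hφH f)

end Comm

end ConjData

end Conj

/-! ### Part 1: decomposition groups of places of number fields as open subgroups of the local
Galois group -/

section Decomp

open Fermat.Agent.S55.Glue

variable (q : ℕ) [Fact q.Prime]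

/-- The decomposition group `D'_A(K) = D_A ∩ Gal(ℚ̄/K)` of the place of `K` cut out by the
valuation subring `A` of `ℚ̄` (the absolute Galois group of the henselisation of `K` at `A`). -/
def decomp (A : ValuationSubring Qb) (K : IntermediateField ℚ Qb) : Subgroup GQ :=
  A.decompositionSubgroup ℚ ⊓ K.fixingSubgroup

theorem mem_decomp_iff {A : ValuationSubring Qb} {K : IntermediateField ℚ Qb} {σ : GQ} :
    σ ∈ decomp A K ↔ σ ∈ A.decompositionSubgroup ℚ ∧ σ ∈ K.fixingSubgroup := Iff.rfl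

theorem decomp_le_decompositionSubgroup (A : ValuationSubring Qb)
    (K : IntermediateField ℚ Qb) : decomp A K ≤ A.decompositionSubgroup ℚ := inf_le_left

theorem decomp_le_fixingSubgroup (A : ValuationSubring Qb) (K : IntermediateField ℚ Qb) :
    decomp A K ≤ K.fixingSubgroup := inf_le_right

/-- For `K = ℚ` the group `decomp A K` is the full decomposition group of `A`. -/
theorem decomp_bot (A : ValuationSubring Qb) : decomp A ⊥ = A.decompositionSubgroup ℚ := by
  apply le_antisymm (decomp_le_decompositionSubgroup A ⊥)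
  intro σ hσ
  have h2 : σ ∈ (⊥ : IntermediateField ℚ Qb).fixingSubgroup := by
    rw [IntermediateField.mem_fixingSubgroup_iff]
    intro x hx
    obtain ⟨r, rfl⟩ := IntermediateField.mem_bot.1 hx
    exact σ.commutes r
  exact ⟨hσ, h2⟩

theorem decomp_anti (A : ValuationSubring Qb) {K K' : IntermediateField ℚ Qb} (h : K ≤ K') :
    decomp A K' ≤ decomp A K :=
  inf_le_inf_left _ (IntermediateField.fixingSubgroup_antitone h)

/-- `s` fixes `g⁻¹(K)` pointwise iff `g s g⁻¹` fixes `K` pointwise. -/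
theorem mem_fixingSubgroup_map_inv_iff (K : IntermediateField ℚ Qb) (g s : GQ) :
    s ∈ (K.map ((g⁻¹ : GQ) : Qb →ₐ[ℚ] Qb)).fixingSubgroup ↔ g * s * g⁻¹ ∈ K.fixingSubgroup := by
  refine ⟨conj_mem_fixingSubgroup g s, fun h => ?_⟩
  rw [IntermediateField.mem_fixingSubgroup_iff] at h ⊢
  rintro y hy
  obtain ⟨x, hx, rfl⟩ := (IntermediateField.mem_map _).1 hy
  have h1 := h x hx
  have h2 : s ((g⁻¹ : GQ) x) = (g⁻¹ : GQ) ((g * s * g⁻¹) x) := by
    show s ((g⁻¹ : GQ) x) = (g⁻¹ * (g * s * g⁻¹)) x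
    rw [← mul_assoc, ← mul_assoc, inv_mul_cancel, one_mul]
    rfl
  show s ((g⁻¹ : GQ) x) = (g⁻¹ : GQ) x
  rw [h2, h1]

/-- The open subgroup of the local Galois group at `q` corresponding to the place `g • padicPlace q`
of `K`: the fixing subgroup of `ℚ_q(ι(g⁻¹ K))`. -/
def localSub (g : GQ) (K : IntermediateField ℚ Qb) : Subgroup (Gq q) :=
  (localLevelField q (K.map ((g⁻¹ : GQ) : Qb →ₐ[ℚ] Qb))).fixingSubgroup

theorem mem_localSub_iff (g : GQ) (K : IntermediateField ℚ Qb) (u : Gq q) :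
    u ∈ localSub q g K ↔ g * localGaloisToGlobal q u * g⁻¹ ∈ K.fixingSubgroup := by
  unfold localSub
  rw [mem_fixingSubgroup_localLevelField_iff, mem_fixingSubgroup_map_inv_iff]

theorem isOpenSub_localSub (g : GQ) (K : IntermediateField ℚ Qb) [FiniteDimensional ℚ K] :
    IsOpenSub q (localSub q g K) :=
  ⟨_, finiteDimensional_localLevelField q _, rfl⟩

theorem localSub_anti (g : GQ) {K K' : IntermediateField ℚ Qb} (h : K ≤ K') :
    localSub q g K' ≤ localSub q g K := by
  intro u hu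
  rw [mem_localSub_iff] at hu ⊢
  exact IntermediateField.fixingSubgroup_antitone h hu

/-- The distinguished place of `ℚ̄` above `q` lies over `q`. -/
theorem liesOverPrime_padicPlace : (padicPlace q).LiesOverPrime q := by
  unfold ValuationSubring.LiesOverPrime
  rw [PlacesAbove.mem_nonunits_iff_inv]
  right
  rw [mem_padicPlace_iff, ← NNReal.coe_le_coe, coe_nnnorm, map_inv₀, norm_inv,
    LocalRange.norm_padicEmbedding_natCast_self, inv_inv, NNReal.coe_one, not_le]
  exact_mod_cast (Fact.out : q.Prime).one_lt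

theorem conj_mem_decomp (g : GQ) (K : IntermediateField ℚ Qb) (u : ↥(localSub q g K)) :
    g * localGaloisToGlobal q (u : Gq q) * g⁻¹ ∈ decomp (g • padicPlace q) K := by
  refine ⟨?_, (mem_localSub_iff q g K u).1 u.2⟩
  have h : g⁻¹ * (g * localGaloisToGlobal q (u : Gq q) * g⁻¹) * g
      = localGaloisToGlobal q (u : Gq q) := by group
  refine (PlacesAbove.mem_decompositionSubgroup_smul_iff _ g _).2 ?_
  rw [h]
  exact localGaloisToGlobal_mem_decompositionSubgroup q _

/-- The homomorphism `u ↦ g · loc(u) · g⁻¹` from the open subgroup `localSub q g K` of the local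
Galois group to the decomposition group of the place `g • padicPlace q` of `K`. -/
def localHom (g : GQ) (K : IntermediateField ℚ Qb) :
    ↥(localSub q g K) →* ↥(decomp (g • padicPlace q) K) where
  toFun u := ⟨g * localGaloisToGlobal q (u : Gq q) * g⁻¹, conj_mem_decomp q g K u⟩
  map_one' := by
    apply Subtype.ext
    show g * localGaloisToGlobal q ((1 : ↥(localSub q g K)) : Gq q) * g⁻¹ = 1
    rw [Subgroup.coe_one, map_one, mul_one, mul_inv_cancel]
  map_mul' u v := by
    apply Subtype.ext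
    show g * localGaloisToGlobal q ((u * v : ↥(localSub q g K)) : Gq q) * g⁻¹ =
      (g * localGaloisToGlobal q (u : Gq q) * g⁻¹) * (g * localGaloisToGlobal q (v : Gq q) * g⁻¹)
    rw [Subgroup.coe_mul, map_mul]
    group

theorem localHom_bijective (g : GQ) (K : IntermediateField ℚ Qb) :
    Function.Bijective (localHom q g K) := by
  constructor
  · intro u v huv
    have h : g * localGaloisToGlobal q (u : Gq q) * g⁻¹ = g * localGaloisToGlobal q (v : Gq q) * g⁻¹ :=
      congrArg Subtype.val huv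
    have h2 : localGaloisToGlobal q (u : Gq q) = localGaloisToGlobal q (v : Gq q) := by
      have := congrArg (fun x => g⁻¹ * x * g) h
      simpa [mul_assoc] using this
    exact Subtype.ext (localGaloisToGlobal_injective q h2)
  · rintro ⟨d, hd⟩
    have h1 : g⁻¹ * d * g ∈ (padicPlace q).decompositionSubgroup ℚ :=
      (PlacesAbove.mem_decompositionSubgroup_smul_iff _ g d).1 hd.1
    rw [← LocalRange.range_localGaloisToGlobal_eq_decompositionSubgroup] at h1
    obtain ⟨u, hu⟩ := h1
    have h2 : g * localGaloisToGlobal q u * g⁻¹ = d := by rw [hu]; group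
    refine ⟨⟨u, (mem_localSub_iff q g K u).2 (by rw [h2]; exact hd.2)⟩, Subtype.ext h2⟩

/-- **The adapter isomorphism** `localSub q g K ≃* decomp (g • padicPlace q) K`,
`u ↦ g · loc(u) · g⁻¹`. -/
def localEquiv (g : GQ) (K : IntermediateField ℚ Qb) :
    ↥(localSub q g K) ≃* ↥(decomp (g • padicPlace q) K) :=
  MulEquiv.ofBijective (localHom q g K) (localHom_bijective q g K)

@[simp] theorem coe_localEquiv (g : GQ) (K : IntermediateField ℚ Qb) (u : ↥(localSub q g K)) :
    ((localEquiv q g K u : ↥(decomp (g • padicPlace q) K)) : GQ)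
      = g * localGaloisToGlobal q (u : Gq q) * g⁻¹ := rfl

/-- The conjugation datum of the adapter isomorphism. -/
def conjData (g : GQ) (K : IntermediateField ℚ Qb) :
    ConjData (lvl q (localSub q g K)) (decomp (g • padicPlace q) K).subtype where
  e := localEquiv q g K
  g := g
  conj _ := rfl

@[simp] theorem conjData_e (g : GQ) (K : IntermediateField ℚ Qb) :
    (conjData q g K).e = localEquiv q g K := rfl

@[simp] theorem conjData_g (g : GQ) (K : IntermediateField ℚ Qb) : (conjData q g K).g = g := rfl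

/-- The adapter isomorphisms are compatible with the inclusions. -/
theorem inclusion_localEquiv (g : GQ) {K K' : IntermediateField ℚ Qb} (h : K ≤ K')
    (x : ↥(localSub q g K')) :
    Subgroup.inclusion (decomp_anti _ h) (localEquiv q g K' x) =
      localEquiv q g K (Subgroup.inclusion (localSub_anti q g h) x) := by
  apply Subtype.ext
  rw [Subgroup.coe_inclusion, coe_localEquiv, coe_localEquiv, Subgroup.coe_inclusion]

/-- Every valuation subring of `ℚ̄` over `q` is a translate of the distinguished one. -/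
theorem exists_smul_padicPlace_eq {A : ValuationSubring Qb} (hA : A.LiesOverPrime q) :
    ∃ g : GQ, g • padicPlace q = A :=
  PlacesAbove.exists_smul_eq (Fact.out : q.Prime) (liesOverPrime_padicPlace q) hA

end Decomp

/-! ### Part 2: the vocabulary on the `G_ℚ`-side -/

section Vocab

variable {k : Type} [CommRing k]

/-- `H²` of level-constant cochains of a subgroup `D ≤ G_ℚ` (level structure: the inclusion) with
coefficients in the restriction of a `G_ℚ`-module. -/
abbrev H2sub (M : Rep k GQ) (D : Subgroup GQ) : Type :=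
  continuousH2 D.subtype (Rep.res D.subtype M)

/-- Restriction `H²(D, M) → H²(D', M)` for `D' ≤ D ≤ G_ℚ`. -/
def resSub (M : Rep k GQ) {D' D : Subgroup GQ} (h : D' ≤ D) : H2sub M D →ₗ[k] H2sub M D' :=
  continuousH2Map (rH := D.subtype) (rG := D'.subtype) (Subgroup.inclusion h) (fun _ => rfl)
    (LinearMap.id : (Rep.res D.subtype M) →ₗ[k] (Rep.res D'.subtype M)) (fun _ _ => rfl)

theorem subtype_inclusion {D' D : Subgroup GQ} (h : D' ≤ D) (x : ↥D') :
    D.subtype (Subgroup.inclusion h x) = D'.subtype x := rfl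

theorem lvl_inclusion {q : ℕ} [Fact q.Prime] {U' U : Subgroup (Gq q)} (h : U' ≤ U) (x : ↥U') :
    lvl q U (Subgroup.inclusion h x) = lvl q U' x := rfl

theorem resSub_hφ (M : Rep k GQ) {D' D : Subgroup GQ} (h : D' ≤ D) (x : ↥D')
    (a : Rep.res D.subtype M) :
    (LinearMap.id : (Rep.res D.subtype M) →ₗ[k] (Rep.res D'.subtype M))
        ((Rep.res D.subtype M).ρ (Subgroup.inclusion h x) a) =
      (Rep.res D'.subtype M).ρ x
        ((LinearMap.id : (Rep.res D.subtype M) →ₗ[k] (Rep.res D'.subtype M)) a) := rfl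

theorem resLoc_hφ {q : ℕ} [Fact q.Prime] (M : Rep k GQ) {U' U : Subgroup (Gq q)} (h : U' ≤ U)
    (x : ↥U') (a : Rep.res (lvl q U) M) :
    (LinearMap.id : (Rep.res (lvl q U) M) →ₗ[k] (Rep.res (lvl q U') M))
        ((Rep.res (lvl q U) M).ρ (Subgroup.inclusion h x) a) =
      (Rep.res (lvl q U') M).ρ x
        ((LinearMap.id : (Rep.res (lvl q U) M) →ₗ[k] (Rep.res (lvl q U') M)) a) := rfl

/-- `resSub` in terms of the Prelude's `continuousH2Map`, with explicit compatibility proofs. -/
theorem resSub_eq (M : Rep k GQ) {D' D : Subgroup GQ} (h : D' ≤ D) (x : H2sub M D) :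
    resSub M h x = continuousH2Map (rH := D.subtype) (rG := D'.subtype) (Subgroup.inclusion h)
      (subtype_inclusion h) (LinearMap.id : (Rep.res D.subtype M) →ₗ[k] (Rep.res D'.subtype M))
      (resSub_hφ M h) x := rfl

/-- `resLoc` in terms of the Prelude's `continuousH2Map`, with explicit compatibility proofs. -/
theorem resLoc_eq {q : ℕ} [Fact q.Prime] (M : Rep k GQ) {U' U : Subgroup (Gq q)} (h : U' ≤ U)
    (x : H2loc (Rep.res (localGaloisToGlobal q) M) U) :
    resLoc (Rep.res (localGaloisToGlobal q) M) h x =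
      continuousH2Map (rH := lvl q U) (rG := lvl q U') (Subgroup.inclusion h)
        (lvl_inclusion h) (LinearMap.id : (Rep.res (lvl q U) M) →ₗ[k] (Rep.res (lvl q U') M))
        (resLoc_hφ M h) x := rfl

/-- The cup product cochain `(s, t) ↦ χ s • (s • c t)` on a subgroup of `G_ℚ`. -/
def cup11Q (M : Rep k GQ) {D : Subgroup GQ} (χ : ↥D → k) (c : ↥D → M) :
    ↥D × ↥D → (Rep.res D.subtype M) :=
  fun st => χ st.1 • M.ρ (st.1 : GQ) (c st.2)

/-- `cup11Q M χ c` is a `2`-cocycle for an additive `χ` and a `1`-cocycle `c`. -/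
theorem cup11Q_mem_cocycles₂ (M : Rep k GQ) {D : Subgroup GQ}
    (χ : ↥D → k) (hχ : ∀ s t, χ (s * t) = χ s + χ t)
    (c : ↥D → M) (hc : c ∈ cocycles₁ (Rep.res D.subtype M)) :
    cup11Q M χ c ∈ cocycles₂ (Rep.res D.subtype M) := by
  rw [mem_cocycles₂_iff]
  intro g h j
  have hc' := (mem_cocycles₁_iff (A := Rep.res D.subtype M) c).1 hc h j
  have hρ : ∀ (s : ↥D) (x : M), (Rep.res D.subtype M).ρ s x = M.ρ (s : GQ) x := fun _ _ => rfl
  rw [hρ] at hc'
  simp only [cup11Q, hρ]
  rw [hχ, hc', map_smul, map_add, Subgroup.coe_mul, map_mul, Module.End.mul_apply, add_smul,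
    smul_add]
  abel

variable (p : ℕ) [Fact p.Prime]

/-- `μ_p = 𝔽_p(1)` as a representation of `G_ℚ` (Prelude shape). -/
abbrev muQ : Rep (ZMod p) GQ := ofChar (k := ZMod p) (cycloChar p)

theorem muQ_ρ_apply (g : GQ) (x : muQ p) :
    (muQ p).ρ g x = ((cycloChar p g : (ZMod p)ˣ) : ZMod p) • x := rfl

/-- `cup11Q μ_p χ c` is level-constant when `χ` and `c` are. -/
theorem cup11Q_isLevelConstant₂ {D : Subgroup GQ}
    (χ : ↥D → ZMod p) (hχl : IsLevelConstant₁ D.subtype χ)
    (c : ↥D → muQ p) (hcl : IsLevelConstant₁ D.subtype c) :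
    IsLevelConstant₂ D.subtype (cup11Q (muQ p) χ c) := by
  obtain ⟨F₁, hF₁, h₁⟩ := hχl
  obtain ⟨F₂, hF₂, h₂⟩ := hcl
  have := hF₁; have := hF₂
  have := Cup.finiteDimensional_muField p
  refine ⟨F₁ ⊔ F₂ ⊔ Cup.muField p, inferInstance, fun g g' s s' hs hs' => ?_⟩
  have hs₁ : D.subtype s ∈ F₁.fixingSubgroup :=
    IntermediateField.fixingSubgroup_antitone (le_sup_left.trans le_sup_left) hs
  have hs₂' : D.subtype s' ∈ F₂.fixingSubgroup :=
    IntermediateField.fixingSubgroup_antitone (le_sup_right.trans le_sup_left) hs'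
  have hs₃ : (s : GQ) ∈ (Cup.muField p).fixingSubgroup :=
    IntermediateField.fixingSubgroup_antitone le_sup_right hs
  simp only [cup11Q]
  rw [h₁ g s hs₁, h₂ g' s' hs₂', Subgroup.coe_mul, map_mul, Module.End.mul_apply,
    muQ_ρ_apply _ (s : GQ), Cup.cycloChar_eq_one_of_mem_fixingSubgroup p hs₃, Units.val_one,
    one_smul]

/-- The cup product of a level-constant character and a level-constant `1`-cocycle with values in
`μ_p` is a level-constant `2`-cocycle (any subgroup of `G_ℚ`). -/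
theorem cup11Q_mem_levelCocycles₂ {D : Subgroup GQ}
    (χ : ↥D → ZMod p) (hχ : ∀ s t, χ (s * t) = χ s + χ t)
    (hχl : IsLevelConstant₁ D.subtype χ)
    (c : ↥D → muQ p) (hc : c ∈ cocycles₁ (Rep.res D.subtype (muQ p)))
    (hcl : IsLevelConstant₁ D.subtype c) :
    cup11Q (muQ p) χ c ∈ levelCocycles₂ D.subtype (Rep.res D.subtype (muQ p)) :=
  (mem_levelCocycles₂_iff _ _ _).2
    ⟨cup11Q_mem_cocycles₂ (muQ p) χ hχ c hc, cup11Q_isLevelConstant₂ p χ hχl c hcl⟩

end Vocab

/-! ### Part 3: compatibilities of the adapter isomorphisms -/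

section Transport

open Fermat.Agent.S55.Glue

variable (q : ℕ) [Fact q.Prime] (p : ℕ) [Fact p.Prime]

/-- The transport of the cup product cochain along the adapter isomorphism. -/
theorem T₂_cup11Q {k : Type} [CommRing k] (M : Rep k GQ) (g : GQ) (K : IntermediateField ℚ Qb)
    (χ : ↥(decomp (g • padicPlace q) K) → k) (c : ↥(decomp (g • padicPlace q) K) → M) :
    (conjData q g K).T₂ M (cup11Q M χ c) =
      cup11 (Rep.res (localGaloisToGlobal q) M) (χ ∘ localEquiv q g K)
        ((conjData q g K).T₁ M c) := by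
  funext ⟨x, y⟩
  show M.ρ g⁻¹ (χ (localEquiv q g K x) • M.ρ (g * localGaloisToGlobal q (x : Gq q) * g⁻¹)
      (c (localEquiv q g K y))) =
    χ (localEquiv q g K x) • M.ρ (localGaloisToGlobal q (x : Gq q))
      (M.ρ g⁻¹ (c (localEquiv q g K y)))
  rw [map_smul, ← Module.End.mul_apply, ← Module.End.mul_apply, ← map_mul, ← map_mul]
  congr 3
  group

/-- The adapter isomorphisms are compatible with the restriction maps. -/
theorem H2Equiv_resSub {k : Type} [CommRing k] (M : Rep k GQ) (g : GQ)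
    {K K' : IntermediateField ℚ Qb} (h : K ≤ K')
    (x : H2sub M (decomp (g • padicPlace q) K)) :
    (conjData q g K').H2Equiv M (resSub M (decomp_anti _ h) x) =
      resLoc (Rep.res (localGaloisToGlobal q) M) (localSub_anti q g h)
        ((conjData q g K).H2Equiv M x) :=
  (congrArg ((conjData q g K').H2Equiv M) (resSub_eq M (decomp_anti _ h) x)).trans
    (((conjData q g K).H2Equiv_comm M (conjData q g K')
      (Subgroup.inclusion (localSub_anti q g h)) (Subgroup.inclusion (decomp_anti _ h))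
      (lvl_inclusion (localSub_anti q g h)) (subtype_inclusion (decomp_anti _ h)) rfl
      (inclusion_localEquiv q g h) (resLoc_hφ M (localSub_anti q g h))
      (resSub_hφ M (decomp_anti _ h)) x).trans
    (resLoc_eq M (localSub_anti q g h) ((conjData q g K).H2Equiv M x)).symm)

/-- The index of the local open subgroups equals the index of the decomposition groups. -/
theorem relIndex_localSub (g : GQ) {K K' : IntermediateField ℚ Qb} :
    (localSub q g K').relIndex (localSub q g K) =
      (decomp (g • padicPlace q) K').relIndex (decomp (g • padicPlace q) K) := by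
  unfold Subgroup.relIndex
  rw [← Subgroup.index_comap_of_surjective
    ((decomp (g • padicPlace q) K').subgroupOf (decomp (g • padicPlace q) K))
    (f := (localEquiv q g K).toMonoidHom) (localEquiv q g K).surjective]
  congr 1
  ext u
  rw [Subgroup.mem_subgroupOf, Subgroup.mem_comap, Subgroup.mem_subgroupOf, mem_localSub_iff,
    mem_decomp_iff]
  show _ ↔ g * localGaloisToGlobal q (u : Gq q) * g⁻¹ ∈ _ ∧
    g * localGaloisToGlobal q (u : Gq q) * g⁻¹ ∈ _
  exact ⟨fun h => ⟨(conj_mem_decomp q g K u).1, h⟩, fun h => h.2⟩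

/-- `μ_p ⊂ K_A`: the cyclotomic character is trivial on `D`. -/
def ContainsMuSub (D : Subgroup GQ) : Prop := ∀ d ∈ D, cycloChar p d = 1

/-- `μ_p ⊂ K` implies `μ_p ⊂ K_A` for every place `A`. -/
theorem containsMuSub_decomp (A : ValuationSubring Qb) {K : IntermediateField ℚ Qb}
    (hK : ∀ s ∈ K.fixingSubgroup, cycloChar p s = 1) : ContainsMuSub p (decomp A K) :=
  fun d hd => hK d hd.2

theorem containsMuSub_decomp_of_muField_le (A : ValuationSubring Qb)
    {K : IntermediateField ℚ Qb} (hK : Cup.muField p ≤ K) : ContainsMuSub p (decomp A K) :=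
  containsMuSub_decomp p A fun _ hs =>
    Cup.cycloChar_eq_one_of_mem_fixingSubgroup p (IntermediateField.fixingSubgroup_antitone hK hs)

theorem containsMu_localSub {g : GQ} {K : IntermediateField ℚ Qb}
    (hμ : ContainsMuSub p (decomp (g • padicPlace q) K)) :
    ∀ u ∈ localSub q g K, cycloChar p (localGaloisToGlobal q u) = 1 := by
  intro u hu
  have h := hμ _ (conj_mem_decomp q g K ⟨u, hu⟩)
  rw [map_mul, map_mul, map_inv, mul_comm, inv_mul_cancel_left] at h
  exact h

end Transport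

end Fermat.Agent.CFT.LocalBr.Adapter
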