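import Fermat.Agent.CFT.LocalBr.AdapterMain

/-!
# Local Brauer package, language adapter (LOC-AD), part 3: raw cochain form

The class-level statement (D2') of `AdapterMain.lean` (`resSub_mu_eq_zero`) unfolded to the raw
cochain shape used as the local hypothesis `hloc` of the Hasse principle `HPK.hp_K`:

a level-constant 2-cocycle `z` of `G_ℚ` with values in `μ_p` is, on the decomposition group
`D' = A.decompositionSubgroup ℚ ⊓ K.fixingSubgroup` of a place of a number field `K` whose local
degree is divisible by `p`, the coboundary of a level-constant 1-cochain of `D'`.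

* `exists_primitive_of_resSub_eq_zero` : generic unfolding (`resSub M h = 0`, any module, any pair
  of subgroups of `G_ℚ`), for a level cocycle of the big subgroup;
* `exists_primitive_of_resSub_eq_zero_global` : the same for a level cocycle of `G_ℚ`;
* `exists_primitive_of_dvd_of_le` : (D2') for `K ≤ K'`, cocycle given on `decomp A K`;
* `exists_primitive_of_dvd` : (D2') for a cocycle of `G_ℚ`, literal `hloc` shape of `HPK.hp_K`.
-/

set_option autoImplicit false

open CategoryTheory groupCohomology ExtCitation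
open scoped Pointwise

noncomputable section

namespace Fermat.Agent.CFT.LocalBr.Adapter

local notation "Qb" => AlgebraicClosure ℚ
local notation "GQ" => (AlgebraicClosure ℚ ≃ₐ[ℚ] AlgebraicClosure ℚ)

section Generic

variable {k : Type} [CommRing k]

/-- If the restriction map `H²(D, M) → H²(D', M)` vanishes, every level-constant 2-cocycle of `D`
is on `D'` the coboundary of a level-constant 1-cochain of `D'`. -/
theorem exists_primitive_of_resSub_eq_zero (M : Rep k GQ) {D' D : Subgroup GQ} (h : D' ≤ D)
    (hres : resSub M h = 0) (z : ↥D × ↥D → M)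
    (hz : z ∈ levelCocycles₂ D.subtype (Rep.res D.subtype M)) :
    ∃ t : ↥D' → M, IsLevelConstant₁ D'.subtype t ∧
      ∀ s s' : ↥D', z (Subgroup.inclusion h s, Subgroup.inclusion h s') =
        M.ρ (s : GQ) (t s') - t (s * s') + t s := by
  have h0 : resSub M h (continuousH2π D.subtype (Rep.res D.subtype M) ⟨z, hz⟩) = 0 := by
    rw [hres, LinearMap.zero_apply]
  rw [resSub_eq, continuousH2Map_continuousH2π, continuousH2π_eq_zero_iff,
    mem_levelCoboundaries₂_iff] at h0
  obtain ⟨t, ht, hd⟩ := h0
  refine ⟨t, ht, fun s s' => ?_⟩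
  have h1 := congrFun hd (s, s')
  rw [d₁₂_hom_apply] at h1
  exact h1.symm

/-- If the restriction map `H²(D, M) → H²(D', M)` vanishes, every level-constant 2-cocycle of
`G_ℚ` is on `D'` the coboundary of a level-constant 1-cochain of `D'`. -/
theorem exists_primitive_of_resSub_eq_zero_global (M : Rep k GQ) {D' D : Subgroup GQ} (h : D' ≤ D)
    (hres : resSub M h = 0) (z : GQ × GQ → M)
    (hz : z ∈ levelCocycles₂ (MonoidHom.id GQ) M) :
    ∃ t : ↥D' → M, IsLevelConstant₁ D'.subtype t ∧
      ∀ s s' : ↥D', z ((s : GQ), (s' : GQ)) = M.ρ (s : GQ) (t s') - t (s * s') + t s := by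
  have hzD : cochainsPullPush₂ D.subtype
      (LinearMap.id : M →ₗ[k] (Rep.res D.subtype M)) z ∈
        levelCocycles₂ D.subtype (Rep.res D.subtype M) :=
    cochainsPullPush₂_mem_levelCocycles₂ (rH := MonoidHom.id GQ) (rG := D.subtype)
      (A := M) (B := Rep.res D.subtype M) D.subtype
      (fun _ => rfl) (LinearMap.id : M →ₗ[k] (Rep.res D.subtype M)) (fun _ _ => rfl) hz
  obtain ⟨t, ht, h1⟩ := exists_primitive_of_resSub_eq_zero M h hres _ hzD
  exact ⟨t, ht, fun s s' => h1 s s'⟩

end Generic

variable (q : ℕ) [Fact q.Prime] (p : ℕ) [Fact p.Prime]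

/-- **(D2'), raw cochain form, two fields.** `K ≤ K'` number fields, `A` over `q`, the local
degree of `K'/K` at `A` divisible by `p`: a level-constant 2-cocycle of `decomp A K` with values
in `μ_p` is on `decomp A K'` the coboundary of a level-constant 1-cochain. -/
theorem exists_primitive_of_dvd_of_le {A : ValuationSubring Qb} (hA : A.LiesOverPrime q)
    {K K' : IntermediateField ℚ Qb} [FiniteDimensional ℚ K] [FiniteDimensional ℚ K'] (h : K ≤ K')
    (hp : p ∣ (decomp A K').relIndex (decomp A K))
    (z : ↥(decomp A K) × ↥(decomp A K) → muQ p)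
    (hz : z ∈ levelCocycles₂ (decomp A K).subtype (Rep.res (decomp A K).subtype (muQ p))) :
    ∃ t : ↥(decomp A K') → ZMod p, IsLevelConstant₁ (decomp A K').subtype t ∧
      ∀ s s' : ↥(decomp A K'),
        z (Subgroup.inclusion (decomp_anti A h) s, Subgroup.inclusion (decomp_anti A h) s') =
          ((cycloChar p (s : GQ) : (ZMod p)ˣ) : ZMod p) * t s' - t (s * s') + t s :=
  exists_primitive_of_resSub_eq_zero (muQ p) (decomp_anti A h)
    (resSub_mu_eq_zero q p hA h hp) z hz

/-- **(D2'), raw cochain form** = the literal local hypothesis `hloc` of `HPK.hp_K` at the place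
`A`: if `p` divides the local degree of the number field `K` at the place `A` over `q`
(`p ∣ [D_A : D_A ⊓ G_K]`), then every level-constant 2-cocycle `z` of `G_ℚ` with values in `μ_p`
is on `D_A ⊓ G_K` the coboundary of a level-constant 1-cochain. -/
theorem exists_primitive_of_dvd {A : ValuationSubring Qb} (hA : A.LiesOverPrime q)
    (K : IntermediateField ℚ Qb) [FiniteDimensional ℚ K]
    (hp : p ∣ (decomp A K).relIndex (decomp A ⊥))
    (z : GQ × GQ → muQ p) (hz : z ∈ levelCocycles₂ (MonoidHom.id GQ) (muQ p)) :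
    ∃ t : ↥(A.decompositionSubgroup ℚ ⊓ K.fixingSubgroup) → ZMod p,
      IsLevelConstant₁ (Subgroup.subtype (A.decompositionSubgroup ℚ ⊓ K.fixingSubgroup)) t ∧
      ∀ s s' : ↥(A.decompositionSubgroup ℚ ⊓ K.fixingSubgroup),
        z ((s : GQ), (s' : GQ)) =
          ((cycloChar p (s : GQ) : (ZMod p)ˣ) : ZMod p) * t s' - t (s * s') + t s :=
  exists_primitive_of_resSub_eq_zero_global (muQ p) (decomp_anti A (bot_le : ⊥ ≤ K))
    (resSub_mu_eq_zero q p hA (bot_le : (⊥ : IntermediateField ℚ Qb) ≤ K) hp) z hz

/-- The index hypothesis of `exists_primitive_of_dvd` in terms of the full decomposition group: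
`(decomp A K).relIndex (decomp A ⊥)` is the index of `D_A ⊓ G_K` in `D_A`. -/
theorem relIndex_decomp_bot (A : ValuationSubring Qb) (K : IntermediateField ℚ Qb) :
    (decomp A K).relIndex (decomp A ⊥) =
      (A.decompositionSubgroup ℚ ⊓ K.fixingSubgroup).relIndex (A.decompositionSubgroup ℚ) := by
  rw [decomp_bot]
  rfl

/-- Variant of `exists_primitive_of_dvd` with the index hypothesis stated on the full
decomposition group. -/
theorem exists_primitive_of_dvd' {A : ValuationSubring Qb} (hA : A.LiesOverPrime q)
    (K : IntermediateField ℚ Qb) [FiniteDimensional ℚ K]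
    (hp : p ∣ (A.decompositionSubgroup ℚ ⊓ K.fixingSubgroup).relIndex
      (A.decompositionSubgroup ℚ))
    (z : GQ × GQ → muQ p) (hz : z ∈ levelCocycles₂ (MonoidHom.id GQ) (muQ p)) :
    ∃ t : ↥(A.decompositionSubgroup ℚ ⊓ K.fixingSubgroup) → ZMod p,
      IsLevelConstant₁ (Subgroup.subtype (A.decompositionSubgroup ℚ ⊓ K.fixingSubgroup)) t ∧
      ∀ s s' : ↥(A.decompositionSubgroup ℚ ⊓ K.fixingSubgroup),
        z ((s : GQ), (s' : GQ)) =
          ((cycloChar p (s : GQ) : (ZMod p)ˣ) : ZMod p) * t s' - t (s * s') + t s :=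
  exists_primitive_of_dvd q p hA K ((relIndex_decomp_bot A K).symm ▸ hp) z hz

end Fermat.Agent.CFT.LocalBr.Adapter
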