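import Fermat.Agent.CFT.LocalBr.Defs

/-!
# Local Brauer package (LOC-E1): the cup product cochain is a level-constant `2`-cocycle

`cup11 A χ c : (s, t) ↦ χ s • (s • c t)` for an additive `χ : U → k` and a `1`-cocycle
`c : U → A` is a `2`-cocycle (any coefficient module `A`).  For `A = μ_p` it is level-constant as
soon as `χ` and `c` are: the level is the compositum of the levels of `χ`, of `c` and of `ℚ(μ_p)`.

Main statement: `Cup.cup11_mem_levelCocycles₂` (the statement of `LocalBr/Main.lean`).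
-/

set_option autoImplicit false

open CategoryTheory groupCohomology ExtCitation

namespace Fermat.Agent.CFT.LocalBr.Cup

local notation "Qb" => AlgebraicClosure ℚ

section Level

variable (p : ℕ) [Fact p.Prime]

/-- The field `ℚ(μ_p)` inside `ℚ̄`. -/
noncomputable def muField : IntermediateField ℚ Qb :=
  IntermediateField.adjoin ℚ {x : Qb | x ^ p = 1}

theorem finiteDimensional_muField : FiniteDimensional ℚ (muField p) := by
  have hp : 0 < p := (Fact.out : p.Prime).pos
  have hfin : ({x : Qb | x ^ p = 1} : Set Qb).Finite := by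
    have h1 : {x : Qb | x ^ p = 1} ⊆ ((Polynomial.nthRootsFinset p (1 : Qb) : Finset Qb) : Set Qb) := by
      intro x hx
      rw [Finset.mem_coe, Polynomial.mem_nthRootsFinset hp]
      exact hx
    exact (Finset.finite_toSet _).subset h1
  have : Finite ({x : Qb | x ^ p = 1} : Set Qb) := hfin
  exact IntermediateField.finiteDimensional_adjoin
    (fun x _ => ((AlgebraicClosure.isAlgebraic ℚ).isAlgebraic x).isIntegral)

/-- The mod `p` cyclotomic character is trivial on `Gal(ℚ̄/ℚ(μ_p))`. -/
theorem cycloChar_eq_one_of_mem_fixingSubgroup {s : Qb ≃ₐ[ℚ] Qb}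
    (hs : s ∈ (muField p).fixingSubgroup) : cycloChar p s = 1 := by
  have : NeZero p := ⟨(Fact.out : p.Prime).ne_zero⟩
  have hs' : ∀ x : Qb, x ^ p = 1 → s x = x := fun x hx =>
    (IntermediateField.mem_fixingSubgroup_iff _ _).1 hs x (IntermediateField.subset_adjoin _ _ hx)
  have h1 : (1 : ZMod p) = modularCyclotomicCharacter Qb (card_rootsOfUnity_eq_self p)
      (s : Qb ≃+* Qb) := by
    refine modularCyclotomicCharacter.unique Qb (card_rootsOfUnity_eq_self p) _ (fun t ht => ?_)
    rw [ZMod.val_one, pow_one]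
    have h2 : ((t : Qbˣ) : Qb) ^ p = 1 := by
      have := (mem_rootsOfUnity p t).1 ht
      rw [← Units.val_pow_eq_pow_val, this, Units.val_one]
    exact hs' _ h2
  apply Units.ext
  rw [Units.val_one]
  exact h1.symm

end Level

variable {q : ℕ} [Fact q.Prime]

/-- `cup11 A χ c` is a `2`-cocycle for an additive `χ` and a `1`-cocycle `c` (any coefficients). -/
theorem cup11_mem_cocycles₂ {k : Type} [CommRing k] (A : Rep k (Gq q)) {U : Subgroup (Gq q)}
    (χ : ↥U → k) (hχ : ∀ s t, χ (s * t) = χ s + χ t)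
    (c : ↥U → A) (hc : c ∈ cocycles₁ (Rep.res U.subtype A)) :
    cup11 A χ c ∈ cocycles₂ (Rep.res U.subtype A) := by
  rw [mem_cocycles₂_iff]
  intro g h j
  have hc' := (mem_cocycles₁_iff (A := Rep.res U.subtype A) c).1 hc h j
  have hρ : ∀ (s : ↥U) (x : A), (Rep.res U.subtype A).ρ s x = A.ρ (s : Gq q) x := fun _ _ => rfl
  rw [hρ] at hc'
  simp only [cup11, hρ]
  rw [hχ, hc', map_smul, map_add, Subgroup.coe_mul, map_mul, Module.End.mul_apply, add_smul,
    smul_add]
  abel

variable (p : ℕ) [Fact p.Prime]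

/-- The action on `μ_p` is through the cyclotomic character. -/
theorem muLoc_ρ_apply (g : Gq q) (x : muLoc q p) :
    (muLoc q p).ρ g x = ((cycloChar p (localGaloisToGlobal q g) : (ZMod p)ˣ) : ZMod p) • x := rfl

/-- Elements of the local Galois group fixing `ℚ(μ_p)` act trivially on `μ_p`. -/
theorem muLoc_ρ_eq_of_mem {g : Gq q} (hg : localGaloisToGlobal q g ∈ (muField p).fixingSubgroup)
    (x : muLoc q p) : (muLoc q p).ρ g x = x := by
  rw [muLoc_ρ_apply, cycloChar_eq_one_of_mem_fixingSubgroup p hg, Units.val_one, one_smul]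

/-- `cup11 μ_p χ c` is level-constant when `χ` and `c` are. -/
theorem cup11_isLevelConstant₂ {U : Subgroup (Gq q)}
    (χ : ↥U → ZMod p) (hχl : IsLevelConstant₁ (lvl q U) χ)
    (c : ↥U → muLoc q p) (hcl : IsLevelConstant₁ (lvl q U) c) :
    IsLevelConstant₂ (lvl q U) (cup11 (muLoc q p) χ c) := by
  obtain ⟨F₁, hF₁, h₁⟩ := hχl
  obtain ⟨F₂, hF₂, h₂⟩ := hcl
  have := hF₁; have := hF₂
  have := finiteDimensional_muField p
  refine ⟨F₁ ⊔ F₂ ⊔ muField p, inferInstance, fun g g' s s' hs hs' => ?_⟩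
  have hs₁ : lvl q U s ∈ F₁.fixingSubgroup :=
    IntermediateField.fixingSubgroup_antitone (le_sup_left.trans le_sup_left) hs
  have hs₂' : lvl q U s' ∈ F₂.fixingSubgroup :=
    IntermediateField.fixingSubgroup_antitone (le_sup_right.trans le_sup_left) hs'
  have hs₃ : localGaloisToGlobal q (s : Gq q) ∈ (muField p).fixingSubgroup :=
    IntermediateField.fixingSubgroup_antitone le_sup_right hs
  simp only [cup11]
  rw [h₁ g s hs₁, h₂ g' s' hs₂', Subgroup.coe_mul, map_mul, Module.End.mul_apply,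
    muLoc_ρ_eq_of_mem p hs₃]

/-- **(LOC-E1)** The cup product of a level-constant character and a level-constant `1`-cocycle
is a level-constant `2`-cocycle. -/
theorem cup11_mem_levelCocycles₂ {U : Subgroup (Gq q)}
    (χ : ↥U → ZMod p) (hχ : ∀ s t, χ (s * t) = χ s + χ t)
    (hχl : IsLevelConstant₁ (lvl q U) χ)
    (c : ↥U → muLoc q p) (hc : c ∈ cocycles₁ (Rep.res U.subtype (muLoc q p)))
    (hcl : IsLevelConstant₁ (lvl q U) c) :
    cup11 (muLoc q p) χ c ∈ levelCocycles₂ (lvl q U) (Rep.res U.subtype (muLoc q p)) :=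
  (mem_levelCocycles₂_iff _ _ _).2
    ⟨cup11_mem_cocycles₂ (muLoc q p) χ hχ c hc, cup11_isLevelConstant₂ p χ hχl c hcl⟩

end Fermat.Agent.CFT.LocalBr.Cup
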