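import Fermat.Agent.CFT.LocalBr.MuEmb
import Fermat.Agent.CFT.LocalBr.Cup
import Fermat.Agent.CFT.Cyclic.Galois
import Fermat.Agent.CFT.Local.NormedLocal
import Fermat.Agent.CFT.Local.CyclicNormIndex
import Fermat.Agent.S55.Glue.LocalLevel

/-!
# LOC-E: nondegeneracy of the local Hilbert pairing (`μ_p ⊂ E`)

`U = Fix E ≤ Gal(ℚ̄_q/ℚ_q)` open, `μ_p ⊂ E`.  The cup product
`H¹(U, 𝔽_p) × H¹(U, μ_p) → H²(U, μ_p)` (level-constant cochains) is nondegenerate on both sides.

* `exists_not_mem_range_norm` : a cyclic extension `L/E` of degree `> 1` of finite extensions of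
  `ℚ_q` has a non-norm (from the cyclic local norm index).
* `exists_cocycle_not_coboundary` : for `χ ≠ 0` there is a Kummer cocycle `c` with `χ ∪ c` not a
  level-coboundary (norm criterion for the Kummer cup product).
* `hilbert_left`, `hilbert_right` : the statements of `LocalBr/Main.lean`; the right one follows
  from the left one by antisymmetry of the cup product of two characters.
-/

set_option autoImplicit false
set_option linter.style.haveILetI false
set_option linter.unusedSectionVars false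

open CategoryTheory groupCohomology ExtCitation
open scoped NNReal NormedField Valued
open IsLocalRing

namespace Fermat.Agent.CFT.LocalBr.Hilbert

open Fermat.Agent.CFT.LocalBr Fermat.Agent.CFT.Cyclic Fermat.Agent.S55.Glue

section Norm

variable (q : ℕ) [Fact q.Prime]

/-- Automorphisms of an intermediate field of `ℚ̄_q` are isometries. -/
theorem norm_algEquiv_intermediate (E : IntermediateField ℚ_[q] (PadicAlgCl q))
    (L : IntermediateField E (PadicAlgCl q)) (τ : L ≃ₐ[E] L) (x : L) : ‖τ x‖ = ‖x‖ := by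
  have h1 : ∀ y : L, ‖y‖ = spectralNorm ℚ_[q] (PadicAlgCl q) (y : PadicAlgCl q) := fun y => rfl
  haveI : IsScalarTower ℚ_[q] L (PadicAlgCl q) := IsScalarTower.of_algebraMap_eq (fun x => rfl)
  have h2 : ∀ y : L, minpoly ℚ_[q] (y : PadicAlgCl q) = minpoly ℚ_[q] y := fun y =>
    (minpoly.algebraMap_eq (algebraMap L (PadicAlgCl q)).injective y)
  rw [h1, h1, spectralNorm, spectralNorm, h2, h2]
  exact congrArg _ (minpoly.algEquiv_eq (τ.restrictScalars ℚ_[q]) x)

/-- **Norm non-surjectivity.** A cyclic extension `L/E` of degree `> 1` of finite extensions of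
`ℚ_q` (inside `ℚ̄_q`) has an element of `E` which is not a norm from `L`. -/
theorem exists_not_mem_range_norm (E : IntermediateField ℚ_[q] (PadicAlgCl q))
    [FiniteDimensional ℚ_[q] E]
    (L : IntermediateField E (PadicAlgCl q)) [FiniteDimensional E L] [IsGalois E L]
    [IsCyclic (L ≃ₐ[E] L)] (h1 : 1 < Module.finrank E L) :
    ∃ b : E, b ∉ Set.range (Algebra.norm E : L → E) := by
  classical
  have hq1 : (1 : ℝ) < q := by exact_mod_cast (Fact.out : q.Prime).one_lt
  have hnq : ‖((q : ℕ) : L)‖ = (q : ℝ)⁻¹ := by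
    have h : ‖((q : ℕ) : L)‖ = ‖((q : ℕ) : PadicAlgCl q)‖ := rfl
    rw [h, ← map_natCast (algebraMap ℚ_[q] (PadicAlgCl q)) q, norm_algebraMap']
    exact Padic.norm_p
  letI : NontriviallyNormedField L :=
    { (inferInstance : NormedField L) with
      non_trivial := ⟨((q : ℕ) : L)⁻¹, by
        rw [norm_inv, hnq, inv_inv]; exact hq1⟩ }
  haveI : FiniteDimensional ℚ_[q] L := Module.Finite.trans (R := ℚ_[q]) E L
  haveI : ProperSpace L := FiniteDimensional.proper ℚ_[q] L
  let O : ValuationSubring L := (Valued.v : Valuation L ℝ≥0).valuationSubring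
  haveI : IsDiscreteValuationRing O := inferInstanceAs (IsDiscreteValuationRing 𝒪[L])
  haveI : IsAdicComplete (maximalIdeal O) O := inferInstanceAs (IsAdicComplete 𝓂[L] 𝒪[L])
  haveI : Finite (ResidueField O) := inferInstanceAs (Finite 𝓀[L])
  have hmem : ∀ x : L, x ∈ O ↔ ‖x‖ ≤ 1 := by
    intro x
    change x ∈ 𝒪[L] ↔ _
    rw [Valued.integer.mem_iff]
  have hO : ∀ τ : L ≃ₐ[E] L, ∀ x ∈ O, τ x ∈ O := by
    intro τ x hx
    rw [hmem] at hx ⊢
    rwa [norm_algEquiv_intermediate q E L τ x]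
  have hidx := Fermat.Agent.CFT.Local.CycNorm.norm_index_eq_finrank (K := E) (L := L) O hO
  have hne : (Units.map (Algebra.norm E : L →* E)).range ≠ ⊤ := by
    intro htop
    rw [htop, Subgroup.index_top] at hidx
    omega
  obtain ⟨u, hu⟩ : ∃ u : (E)ˣ, u ∉ (Units.map (Algebra.norm E : L →* E)).range := by
    by_contra hcon
    push Not at hcon
    exact hne (Subgroup.eq_top_iff' _ |>.2 hcon)
  refine ⟨(u : E), ?_⟩
  rintro ⟨x, hx⟩
  have hx0 : x ≠ 0 := by
    rintro rfl
    rw [Algebra.norm_zero] at hx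
    exact u.ne_zero hx.symm
  exact hu ⟨Units.mk0 x hx0, Units.ext hx⟩

end Norm

section Galois

variable (q : ℕ) [Fact q.Prime]

/-- `ℚ̄_q` is Galois over every intermediate field. -/
theorem isGalois_over (E : IntermediateField ℚ_[q] (PadicAlgCl q)) : IsGalois E (PadicAlgCl q) := by
  haveI : Algebra.IsAlgebraic E (PadicAlgCl q) :=
    Algebra.IsAlgebraic.tower_top (K := ℚ_[q]) (L := E)
  haveI : IsAlgClosure E (PadicAlgCl q) := ⟨inferInstance, inferInstance⟩
  exact IsAlgClosure.isGalois E (PadicAlgCl q)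

/-- The kernel field of an additive character of `Gal(ℚ̄_q/E)` which is right-invariant under
`Fix F'` for a finite extension `F'/E`: it is finite Galois over `E`. -/
theorem exists_kernel_field (E : IntermediateField ℚ_[q] (PadicAlgCl q)) {n : ℕ}
    (χ' : (PadicAlgCl q ≃ₐ[E] PadicAlgCl q) → ZMod n) (hχ' : ∀ σ τ, χ' (σ * τ) = χ' σ + χ' τ)
    (F' : IntermediateField E (PadicAlgCl q)) [FiniteDimensional E F']
    (hF' : ∀ g t, t ∈ F'.fixingSubgroup → χ' (g * t) = χ' g) :
    ∃ L : IntermediateField E (PadicAlgCl q), FiniteDimensional E L ∧ IsGalois E L ∧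
      ∀ g, χ' g = 0 ↔ g ∈ L.fixingSubgroup := by
  haveI := isGalois_over q E
  have h1 : χ' 1 = 0 := by
    have := hχ' 1 1
    rw [mul_one] at this
    exact left_eq_add.1 this
  let H : Subgroup (PadicAlgCl q ≃ₐ[E] PadicAlgCl q) :=
    { carrier := {g | χ' g = 0}
      mul_mem' := fun {a b} ha hb => by
        show χ' (a * b) = 0
        rw [hχ', show χ' a = 0 from ha, show χ' b = 0 from hb, add_zero]
      one_mem' := h1
      inv_mem' := fun {a} ha => by
        show χ' a⁻¹ = 0
        have := hχ' a a⁻¹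
        rw [mul_inv_cancel, h1, show χ' a = 0 from ha, zero_add] at this
        exact this.symm }
  have hle : F'.fixingSubgroup ≤ H := fun t ht => by
    have := hF' 1 t ht
    rw [one_mul, h1] at this
    exact this
  have hopen : IsOpen (H : Set (PadicAlgCl q ≃ₐ[E] PadicAlgCl q)) :=
    Subgroup.isOpen_mono hle (IntermediateField.fixingSubgroup_isOpen F')
  have hclosed : IsClosed (H : Set (PadicAlgCl q ≃ₐ[E] PadicAlgCl q)) :=
    Subgroup.isClosed_of_isOpen H hopen
  have hfix : (IntermediateField.fixedField H).fixingSubgroup = H :=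
    InfiniteGalois.fixingSubgroup_fixedField ⟨H, hclosed⟩
  have hnormal : H.Normal := ⟨fun g hg x => by
    show χ' (x * g * x⁻¹) = 0
    rw [hχ', hχ', show χ' g = 0 from hg, add_zero, ← hχ', mul_inv_cancel, h1]⟩
  refine ⟨IntermediateField.fixedField H, ?_, ?_, ?_⟩
  · rw [← InfiniteGalois.isOpen_iff_finite, hfix]
    exact hopen
  · rw [← InfiniteGalois.normal_iff_isGalois, hfix]
    exact hnormal
  · intro g
    rw [hfix]
    exact Iff.rfl

/-- A level-constant function on `U = Fix E` is right-invariant under `Fix F'` for a finite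
extension `F'/E` (as a function on `Gal(ℚ̄_q/E)`). -/
theorem exists_level_field (E : IntermediateField ℚ_[q] (PadicAlgCl q))
    [FiniteDimensional ℚ_[q] E] {X : Type*}
    (f : ↥E.fixingSubgroup → X) (hf : IsLevelConstant₁ (lvl q E.fixingSubgroup) f) :
    ∃ F' : IntermediateField E (PadicAlgCl q), FiniteDimensional E F' ∧
      ∀ g t : PadicAlgCl q ≃ₐ[E] PadicAlgCl q, t ∈ F'.fixingSubgroup →
        f ((IntermediateField.fixingSubgroupEquiv E).symm (g * t)) =
          f ((IntermediateField.fixingSubgroupEquiv E).symm g) := by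
  obtain ⟨F, hF, h⟩ := hf
  haveI := hF
  haveI := finiteDimensional_localLevelField q F
  have hle : E ≤ E ⊔ localLevelField q F := le_sup_left
  haveI : FiniteDimensional ℚ_[q] ↥(E ⊔ localLevelField q F) :=
    IntermediateField.finiteDimensional_sup E (localLevelField q F)
  haveI : FiniteDimensional ℚ_[q] (IntermediateField.extendScalars hle) :=
    inferInstanceAs (FiniteDimensional ℚ_[q] ↥(E ⊔ localLevelField q F))
  refine ⟨IntermediateField.extendScalars hle, FiniteDimensional.right ℚ_[q] E _,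
    fun g t ht => ?_⟩
  rw [map_mul]
  apply h
  show localGaloisToGlobal q
    (((IntermediateField.fixingSubgroupEquiv E).symm t : ↥E.fixingSubgroup) : Gq q) ∈
      F.fixingSubgroup
  rw [← mem_fixingSubgroup_localLevelField_iff, IntermediateField.mem_fixingSubgroup_iff]
  intro x hx
  exact (IntermediateField.mem_fixingSubgroup_iff _ _).1 ht x
    ((le_sup_right : localLevelField q F ≤ E ⊔ localLevelField q F) hx)

end Galois

section Main

variable {q : ℕ} [Fact q.Prime] (p : ℕ) [Fact p.Prime]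

/-- **Constructive left nondegeneracy.** For a nonzero level-constant character `χ : U → 𝔽_p`
(`U = Fix E` open, `μ_p ⊂ E`) there is a level-constant (Kummer) cocycle `c : U → μ_p` such that
the cup product `χ ∪ c` is not a level-coboundary. -/
theorem exists_cocycle_not_coboundary {U : Subgroup (Gq q)} (hU : IsOpenSub q U)
    (hμ : ∀ u ∈ U, cycloChar p (localGaloisToGlobal q u) = 1)
    (χ : ↥U → ZMod p) (hχ : ∀ s t, χ (s * t) = χ s + χ t)
    (hχl : IsLevelConstant₁ (lvl q U) χ) (hne : χ ≠ 0) :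
    ∃ c : ↥U → muLoc q p, c ∈ cocycles₁ (Rep.res U.subtype (muLoc q p)) ∧
      IsLevelConstant₁ (lvl q U) c ∧
      cup11 (muLoc q p) χ c ∉ levelCoboundaries₂ (lvl q U) (Rep.res U.subtype (muLoc q p)) := by
  classical
  obtain ⟨E, hEfin, rfl⟩ := hU
  haveI := hEfin
  have hp : p.Prime := Fact.out
  haveI : NeZero p := ⟨hp.ne_zero⟩
  haveI : Fact (1 < p) := ⟨hp.one_lt⟩
  haveI := isGalois_over q E
  set e := IntermediateField.fixingSubgroupEquiv E with he
  -- the character on `Gal(ℚ̄_q/E)`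
  set χ' : (PadicAlgCl q ≃ₐ[E] PadicAlgCl q) → ZMod p := fun σ => χ (e.symm σ) with hχ'def
  have hχ' : ∀ σ τ, χ' (σ * τ) = χ' σ + χ' τ := fun σ τ => by
    simp only [hχ'def, map_mul, hχ]
  -- an element with `χ' s = 1`
  obtain ⟨s, hs⟩ : ∃ s, χ' s = 1 := by
    obtain ⟨u, hu⟩ : ∃ u, χ u ≠ 0 := by
      by_contra hcon
      push Not at hcon
      exact hne (funext hcon)
    refine ⟨e (u ^ ((χ u)⁻¹).val), ?_⟩
    simp only [hχ'def, MulEquiv.symm_apply_apply]
    rw [map_pow_eq hχ, ZMod.natCast_zmod_val, inv_mul_cancel₀ hu]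
  -- level of `χ` and the kernel field
  obtain ⟨F₁, hF₁, hF₁χ⟩ := exists_level_field q E χ hχl
  haveI := hF₁
  obtain ⟨L, hLfin, hLgal, hker⟩ := exists_kernel_field q E χ' hχ' F₁ hF₁χ
  haveI := hLfin
  haveI := hLgal
  -- `L/E` is cyclic of degree `> 1`
  have hgen : ∀ τ : L ≃ₐ[E] L, τ ∈ Subgroup.zpowers (AlgEquiv.restrictNormalHom L s) := by
    intro τ
    obtain ⟨k, -, rfl⟩ := restrict_pow_surj L hχ' hker hs τ
    exact Subgroup.npow_mem_zpowers _ k
  haveI : IsCyclic (L ≃ₐ[E] L) := ⟨⟨AlgEquiv.restrictNormalHom L s, hgen⟩⟩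
  have hdeg : 1 < Module.finrank E L := by
    rw [← IsGalois.card_aut_eq_finrank E L]
    have hne1 : AlgEquiv.restrictNormalHom L s ≠ 1 := by
      intro h1
      have := restrict_pow_inj L hχ' hker hs (k := 1) (j := 0) hp.one_lt hp.pos
        (by rw [pow_one, pow_zero, h1])
      exact one_ne_zero this
    haveI : Nontrivial (L ≃ₐ[E] L) := ⟨⟨_, _, hne1⟩⟩
    exact Finite.one_lt_card
  obtain ⟨b, hb⟩ := exists_not_mem_range_norm q E L hdeg
  have hb0 : b ≠ 0 := by
    rintro rfl
    exact hb ⟨0, Algebra.norm_zero⟩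
  -- a `p`-th root of `b`
  obtain ⟨β₀, hβ₀⟩ := IsAlgClosed.exists_pow_nat_eq (algebraMap E (PadicAlgCl q) b) hp.pos
  have hβ₀0 : β₀ ≠ 0 := by
    rintro rfl
    rw [zero_pow hp.ne_zero] at hβ₀
    exact hb0 ((map_eq_zero (algebraMap E (PadicAlgCl q))).1 hβ₀.symm)
  set β : (PadicAlgCl q)ˣ := Units.mk0 β₀ hβ₀0 with hβdef
  have hβ : (β : PadicAlgCl q) ^ p = algebraMap E (PadicAlgCl q) b := hβ₀
  -- `μ_p` is fixed by `Gal(ℚ̄_q/E)`
  have hfixζ : ∀ σ : PadicAlgCl q ≃ₐ[E] PadicAlgCl q, σ • zetaUnit q p = zetaUnit q p := by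
    intro σ
    have h1 := smul_zetaUnit q p ((e.symm σ : ↥E.fixingSubgroup) : Gq q)
    rw [hμ _ (e.symm σ).2, Units.val_one, ZMod.val_one, pow_one] at h1
    rw [Units.ext_iff] at h1 ⊢
    exact h1
  have hfixμ : ∀ (σ : PadicAlgCl q ≃ₐ[E] PadicAlgCl q) (a : ZMod p),
      σ • (Additive.toMul (muEmb q p a)) = Additive.toMul (muEmb q p a) := by
    intro σ a
    rw [muEmb_apply]
    show σ • (zetaUnit q p ^ a.val) = zetaUnit q p ^ a.val
    rw [smul_pow', hfixζ]
  -- the Kummer character `κ`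
  have hβfix : ∀ σ : PadicAlgCl q ≃ₐ[E] PadicAlgCl q, σ • β ^ p = β ^ p := by
    intro σ
    rw [Units.ext_iff]
    simp only [AlgEquiv.smul_units_def, Units.coe_map, MonoidHom.coe_coe, Units.val_pow_eq_pow_val]
    rw [hβ, AlgEquiv.commutes]
  have hroot : ∀ σ : PadicAlgCl q ≃ₐ[E] PadicAlgCl q,
      ∃ a : ZMod p, muEmb q p a = Additive.ofMul (σ • β / β) := by
    intro σ
    have h1 : (Additive.ofMul (σ • β / β) : Additive (PadicAlgCl q)ˣ) ∈
        Set.range (muEmb q p) := by
      rw [mem_range_muEmb_iff, ← ofMul_pow, div_pow, ← smul_pow', hβfix, div_self']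
      rfl
    exact h1
  choose κ hκ using hroot
  have hκfix : ∀ σ τ : PadicAlgCl q ≃ₐ[E] PadicAlgCl q, σ • (τ • β / β) = τ • β / β := by
    intro σ τ
    have := hfixμ σ (κ τ)
    rw [hκ] at this
    exact this
  have hκadd : ∀ σ τ, κ (σ * τ) = κ σ + κ τ := by
    intro σ τ
    apply muEmb_injective q p
    rw [map_add, hκ, hκ, hκ]
    have h2 : (σ * τ) • β / β = σ • (τ • β / β) * (σ • β / β) := by
      rw [smul_div', mul_smul, div_mul_div_cancel]
    rw [h2, ofMul_mul, hκfix, add_comm]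
  -- the cocycle `c = κ ∘ e`
  set c : ↥E.fixingSubgroup → muLoc q p := fun u => κ (e u) with hcdef
  have hρ' : ∀ (u : ↥E.fixingSubgroup) (x : muLoc q p), (muLoc q p).ρ (u : Gq q) x = x := by
    intro u x
    rw [Cup.muLoc_ρ_apply, hμ _ u.2, Units.val_one, one_smul]
  have hρ : ∀ (u : ↥E.fixingSubgroup) (x : muLoc q p),
      (Rep.res E.fixingSubgroup.subtype (muLoc q p)).ρ u x = x := fun u x => hρ' u x
  have hc : c ∈ cocycles₁ (Rep.res E.fixingSubgroup.subtype (muLoc q p)) := by
    rw [mem_cocycles₁_iff]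
    intro g h
    rw [hρ]
    show κ (e (g * h)) = κ (e h) + κ (e g)
    rw [map_mul, hκadd, add_comm]
  have hcl : IsLevelConstant₁ (lvl q E.fixingSubgroup) c := by
    haveI : FiniteDimensional ℚ_[q] (IntermediateField.adjoin ℚ_[q] {(β : PadicAlgCl q)}) :=
      IntermediateField.adjoin.finiteDimensional (Algebra.IsIntegral.isIntegral _)
    obtain ⟨F, hF, hle⟩ :=
      exists_le_localLevelField q (IntermediateField.adjoin ℚ_[q] {(β : PadicAlgCl q)})
    refine ⟨F, hF, fun g t ht => ?_⟩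
    show κ (e (g * t)) = κ (e g)
    rw [map_mul, hκadd]
    have ht' : (t : Gq q) ∈ (localLevelField q F).fixingSubgroup :=
      (mem_fixingSubgroup_localLevelField_iff q F _).2 ht
    have ht'' : (t : Gq q) (β : PadicAlgCl q) = β :=
      (IntermediateField.mem_fixingSubgroup_iff _ _).1 ht' _
        (hle (IntermediateField.mem_adjoin_simple_self _ _))
    have h0 : κ (e t) = 0 := by
      apply muEmb_injective q p
      rw [hκ, map_zero]
      have : e t • β = β := by
        rw [Units.ext_iff]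
        exact ht''
      rw [this, div_self']
      rfl
    rw [h0, add_zero]
  refine ⟨c, hc, hcl, fun hcob => ?_⟩
  -- the cup product is a level-coboundary: contradiction with the norm criterion
  obtain ⟨m, hml, hm⟩ := (mem_levelCoboundaries₂_iff _ _ _).1 hcob
  obtain ⟨F₂, hF₂, hF₂m⟩ := exists_level_field q E m hml
  apply hb
  refine (kummerCup_coboundary_iff_norm L hχ' hker hs b β hβ).1
    ⟨fun σ => Additive.toMul (muEmb q p (m (e.symm σ))), ?_, ⟨F₂, hF₂, ?_⟩, ?_⟩
  · intro σ
    apply Additive.ofMul.injective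
    rw [ofMul_pow, ofMul_toMul, ← map_nsmul, ofMul_one]
    have : p • (m (e.symm σ) : ZMod p) = 0 := by
      rw [nsmul_eq_mul, CharP.cast_eq_zero, zero_mul]
    rw [this, map_zero]
  · intro g t ht
    show Additive.toMul (muEmb q p (m (e.symm (g * t)))) =
      Additive.toMul (muEmb q p (m (e.symm g)))
    rw [hF₂m g t ht]
  · intro σ τ
    have hm' := congrFun hm (e.symm σ, e.symm τ)
    rw [d₁₂_hom_apply] at hm'
    simp only [hρ] at hm'
    have hcup : cup11 (muLoc q p) χ c (e.symm σ, e.symm τ) = χ' σ * κ τ := by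
      show χ (e.symm σ) • (muLoc q p).ρ ((e.symm σ : ↥E.fixingSubgroup) : Gq q) (c (e.symm τ)) = _
      rw [hρ']
      show χ (e.symm σ) * κ (e (e.symm τ)) = _
      rw [MulEquiv.apply_symm_apply]
    rw [hcup] at hm'
    rw [dOne_apply, kummerCup_apply, hκfix]
    apply Additive.ofMul.injective
    rw [ofMul_mul, ofMul_div, ofMul_pow, hfixμ, ofMul_toMul, ofMul_toMul, ofMul_toMul, ← hκ τ,
      ← map_sub, ← map_add, ← map_nsmul, map_mul, hm', nsmul_eq_mul, ZMod.natCast_zmod_val]

/-- **(E, left)** Hilbert symbol, left nondegeneracy (the statement of `LocalBr/Main.lean`,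
with `ContainsMu p U` unfolded). -/
theorem hilbert_left {U : Subgroup (Gq q)} (hU : IsOpenSub q U)
    (hμ : ∀ u ∈ U, cycloChar p (localGaloisToGlobal q u) = 1)
    (χ : ↥U → ZMod p) (hχ : ∀ s t, χ (s * t) = χ s + χ t)
    (hχl : IsLevelConstant₁ (lvl q U) χ)
    (h : ∀ c : ↥U → muLoc q p, c ∈ cocycles₁ (Rep.res U.subtype (muLoc q p)) →
      IsLevelConstant₁ (lvl q U) c →
      cup11 (muLoc q p) χ c ∈ levelCoboundaries₂ (lvl q U) (Rep.res U.subtype (muLoc q p))) :
    χ = 0 := by
  by_contra hne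
  obtain ⟨c, hc, hcl, hnot⟩ := exists_cocycle_not_coboundary p hU hμ χ hχ hχl hne
  exact hnot (h c hc hcl)

/-- **(E, right)** Hilbert symbol, right nondegeneracy (the statement of `LocalBr/Main.lean`,
with `ContainsMu p U` unfolded).  It follows from the left statement: with `μ_p ⊂ E` both
arguments are characters `U → 𝔽_p` and `χ ∪ c + c ∪ χ = - d(χ · c)`. -/
theorem hilbert_right {U : Subgroup (Gq q)} (hU : IsOpenSub q U)
    (hμ : ∀ u ∈ U, cycloChar p (localGaloisToGlobal q u) = 1)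
    (c : ↥U → muLoc q p) (hc : c ∈ cocycles₁ (Rep.res U.subtype (muLoc q p)))
    (hcl : IsLevelConstant₁ (lvl q U) c)
    (h : ∀ χ : ↥U → ZMod p, (∀ s t, χ (s * t) = χ s + χ t) →
      IsLevelConstant₁ (lvl q U) χ →
      cup11 (muLoc q p) χ c ∈ levelCoboundaries₂ (lvl q U) (Rep.res U.subtype (muLoc q p))) :
    c = 0 := by
  by_contra hne
  have hρ' : ∀ (u : ↥U) (x : muLoc q p), (muLoc q p).ρ (u : Gq q) x = x := by
    intro u x
    rw [Cup.muLoc_ρ_apply, hμ _ u.2, Units.val_one, one_smul]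
  have hρ : ∀ (u : ↥U) (x : muLoc q p), (Rep.res U.subtype (muLoc q p)).ρ u x = x :=
    fun u x => hρ' u x
  have hadd : ∀ (f : ↥U → muLoc q p), f ∈ cocycles₁ (Rep.res U.subtype (muLoc q p)) →
      ∀ s t, f (s * t) = f s + f t := by
    intro f hf s t
    have := (mem_cocycles₁_iff (A := Rep.res U.subtype (muLoc q p)) f).1 hf s t
    rw [hρ] at this
    rw [this, add_comm]
  have hcadd := hadd c hc
  obtain ⟨c', hc', hcl', hnot⟩ :=
    exists_cocycle_not_coboundary p hU hμ (c : ↥U → ZMod p) hcadd hcl hne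
  have hc'add := hadd c' hc'
  have h1 := h (c' : ↥U → ZMod p) hc'add hcl'
  apply hnot
  -- the product cochain
  have hw : IsLevelConstant₁ (lvl q U)
      (fun u => ((c u : ZMod p) * (c' u : ZMod p) : muLoc q p)) := by
    obtain ⟨F₁, hF₁, h₁⟩ := hcl
    obtain ⟨F₂, hF₂, h₂⟩ := hcl'
    haveI := hF₁
    haveI := hF₂
    refine ⟨F₁ ⊔ F₂, inferInstance, fun g s hs => ?_⟩
    show (c (g * s) : ZMod p) * (c' (g * s) : ZMod p) = (c g : ZMod p) * (c' g : ZMod p)
    rw [h₁ g s (IntermediateField.fixingSubgroup_antitone le_sup_left hs),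
      h₂ g s (IntermediateField.fixingSubgroup_antitone le_sup_right hs)]
  have key : cup11 (muLoc q p) (c : ↥U → ZMod p) c' =
      - cup11 (muLoc q p) (c' : ↥U → ZMod p) c -
        (d₁₂ (Rep.res U.subtype (muLoc q p))).hom
          (fun u => ((c u : ZMod p) * (c' u : ZMod p) : muLoc q p)) := by
    funext ⟨s, t⟩
    rw [Pi.sub_apply, Pi.neg_apply, d₁₂_hom_apply]
    simp only [hρ]
    show (c s : ZMod p) • (muLoc q p).ρ (s : Gq q) (c' t) =
      -((c' s : ZMod p) • (muLoc q p).ρ (s : Gq q) (c t)) -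
        ((c t : ZMod p) * (c' t : ZMod p) - (c (s * t) : ZMod p) * (c' (s * t) : ZMod p) +
          (c s : ZMod p) * (c' s : ZMod p))
    rw [hρ', hρ', hcadd, hc'add]
    show (c s : ZMod p) * (c' t : ZMod p) =
      -((c' s : ZMod p) * (c t : ZMod p)) -
        ((c t : ZMod p) * (c' t : ZMod p) -
          ((c s : ZMod p) + (c t : ZMod p)) * ((c' s : ZMod p) + (c' t : ZMod p)) +
          (c s : ZMod p) * (c' s : ZMod p))
    ring
  rw [key]
  exact Submodule.sub_mem _ (Submodule.neg_mem _ h1)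
    ((mem_levelCoboundaries₂_iff _ _ _).2 ⟨_, hw, rfl⟩)

end Main

end Fermat.Agent.CFT.LocalBr.Hilbert

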