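import Fermat.Agent.CFT.LocalBr.LayerDict
import Fermat.Agent.S55.GrpCoh.GalUnits

/-!
# LOC-C2, corollaries in the `IsGalUnits` vocabulary

* `isGalUnits_layer` : for open subgroups `V ≤ U` of `Gq q` with `V` normal in `U`, the finite
  layer `(U ⧸ V, (ℚ̄_qˣ)^V)` is a Galois-units pair `(Gal(L/E), Lˣ)` with `E`, `L` finite
  extensions of `ℚ_q` inside `ℚ̄_q` (for any class `𝒦` of fields containing these).
* `isZero_H1_layer`  : Hilbert 90 on the layers (the hypothesis `h90` of
  `LCLocal.finrank_H2loc_of_layers`).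
* `natCard_layer_group` : `|U ⧸ V| = [U : V]`, and it is the degree `[L : E]`.
-/

set_option autoImplicit false

open CategoryTheory

namespace Fermat.Agent.CFT.LocalBr.LayerDict

open Fermat.Agent.CFT.LocalBr Fermat.Agent.S55.GrpCoh

variable {q : ℕ} [Fact q.Prime]

/-- The layer `(U ⧸ V, (ℚ̄_qˣ)^V)` is a Galois-units pair over a finite extension of `ℚ_q`. -/
theorem isGalUnits_layer (𝒦 : ∀ (K : Type) [Field K], Prop)
    (h𝒦 : ∀ E : IntermediateField ℚ_[q] (PadicAlgCl q), FiniteDimensional ℚ_[q] E → 𝒦 E)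
    {U V : Subgroup (Gq q)} (hU : IsOpenSub q U) (hV : IsOpenSub q V) (hVU : V ≤ U)
    [(V.subgroupOf U).Normal] :
    IsGalUnits 𝒦 (↥U ⧸ V.subgroupOf U) (layer U V) := by
  obtain ⟨E, L, hEL, hE, hL, hfd, hgal, -, -, -, e, -, hiso⟩ :=
    exists_layer_iso_of_isOpenSub hU hV hVU
  exact ⟨E, relField hEL, inferInstance, inferInstance, inferInstance, hfd, hgal, h𝒦 E hE, e,
    hiso⟩

/-- Hilbert 90 on the finite layers of the local Galois group. -/
theorem isZero_H1_layer {V W : Subgroup (Gq q)} (hV : IsOpenSub q V) (hW : IsOpenSub q W)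
    (hWV : W ≤ V) [(W.subgroupOf V).Normal] :
    Limits.IsZero (groupCohomology (layer V W) 1) :=
  isZero_H1_of_isGalUnits
    (isGalUnits_layer (fun _ _ => True) (fun _ _ => trivial) hV hW hWV)

/-- The order of the layer group is the relative index. -/
theorem natCard_layer_group (U V : Subgroup (Gq q)) :
    Nat.card (↥U ⧸ V.subgroupOf U) = V.relIndex U := rfl

/-- The hypothesis `h90` of `LCLocal.finrank_H2loc_of_layers`, `LCLocal.h90On_of_layers`. -/
theorem h90_layers : ∀ V W : Subgroup (Gq q), IsOpenSub q V → IsOpenSub q W → W ≤ V →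
    ∀ [(W.subgroupOf V).Normal], Limits.IsZero (groupCohomology (layer V W) 1) :=
  fun _ _ hV hW hWV => isZero_H1_layer hV hW hWV

/-- `isGalUnits_layer` for an arbitrary name `N` of the normal subgroup `V.subgroupOf U`. -/
theorem isGalUnits_of_eq (𝒦 : ∀ (K : Type) [Field K], Prop)
    (h𝒦 : ∀ E : IntermediateField ℚ_[q] (PadicAlgCl q), FiniteDimensional ℚ_[q] E → 𝒦 E)
    {U V : Subgroup (Gq q)} (hU : IsOpenSub q U) (hV : IsOpenSub q V) (hVU : V ≤ U)
    (N : Subgroup ↥U) [N.Normal] (hN : N = V.subgroupOf U) :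
    IsGalUnits 𝒦 (↥U ⧸ N) ((Rep.res U.subtype (unitsRep q)).quotientToInvariants N) := by
  subst hN
  exact isGalUnits_layer 𝒦 h𝒦 hU hV hVU

/-- The Galois-units pair of a Prelude level: `N = {s ∈ U | lvl q U s ∈ Fix F}` for a finite
normal `F/ℚ` (e.g. `ResRule.levelSub U F`, `LC.lev (lvl q U) F`). -/
theorem isGalUnits_of_level (𝒦 : ∀ (K : Type) [Field K], Prop)
    (h𝒦 : ∀ E : IntermediateField ℚ_[q] (PadicAlgCl q), FiniteDimensional ℚ_[q] E → 𝒦 E)
    {U : Subgroup (Gq q)} (hU : IsOpenSub q U) (F : IntermediateField ℚ (AlgebraicClosure ℚ))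
    [FiniteDimensional ℚ F] (N : Subgroup ↥U) [N.Normal]
    (hN : ∀ s : ↥U, s ∈ N ↔ lvl q U s ∈ F.fixingSubgroup) :
    IsGalUnits 𝒦 (↥U ⧸ N) ((Rep.res U.subtype (unitsRep q)).quotientToInvariants N) := by
  obtain ⟨E, hE, rfl⟩ := hU
  have hfd : FiniteDimensional ℚ_[q] (levelField q E F) := finiteDimensional_levelField E F
  refine isGalUnits_of_eq 𝒦 h𝒦 ⟨E, hE, rfl⟩ ⟨levelField q E F, hfd, rfl⟩
    (IntermediateField.fixingSubgroup_antitone (le_levelField E F)) N ?_
  rw [subgroupOf_fixingSubgroup_levelField]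
  ext s
  rw [hN, Subgroup.mem_comap]

/-- The order of the quotient by a Prelude level is the degree `[E · ℚ_q(ι F) : E]`. -/
theorem natCard_quotient_level (E : IntermediateField ℚ_[q] (PadicAlgCl q))
    (F : IntermediateField ℚ (AlgebraicClosure ℚ)) (N : Subgroup ↥E.fixingSubgroup)
    (hN : ∀ s : ↥E.fixingSubgroup, s ∈ N ↔ lvl q E.fixingSubgroup s ∈ F.fixingSubgroup) :
    Nat.card (↥E.fixingSubgroup ⧸ N) = Module.finrank E (relField (le_levelField E F)) := by
  have h : N = F.fixingSubgroup.comap (lvl q E.fixingSubgroup) := by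
    ext s
    rw [hN, Subgroup.mem_comap]
  rw [h, ← index_comap_lvl E F]
  rfl

end Fermat.Agent.CFT.LocalBr.LayerDict
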