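import Fermat.Agent.CFT.LocalBr.KummerLoc
import Fermat.Agent.CFT.LocalBr.LayerDictGalUnits
import Fermat.Agent.CFT.Local.UnramPadic
import Fermat.Agent.CFT.Local.PadicH2Le

/-!
# LOC-C: consumers of the local Brauer theorem on the finite layers

`BrauerHyp q` is the statement of the local Brauer theorem for Galois-units pairs over finite
extensions of `ℚ_q` (`Finite`, `card = |G|`, cyclic).  From it:

* `layer_brauer`        : `H²(layer U V)` is finite cyclic of order `[U : V]`;
* `exists_ord`          : a layer with a class of order `p` (the unramified layer of degree `p`);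
* `finrank_H2mu_of_brauer` : **(C)** `dim H²(U, μ_p) = 1`;
* `layer_cyclic_of_brauer`, `exists_layer_dvd_of_brauer` : the two finite-level statements of
  `LocalBr/Main.lean`;
* `ptorsion_of_eq`, `ptorsion_of_level` : every `p`-torsion class of `H²` of a layer is a
  `(|G| / p)`-th multiple (the input of (D2)).
-/

set_option autoImplicit false

open CategoryTheory groupCohomology

namespace Fermat.Agent.CFT.LocalBr.LayerBrauer

open Fermat.Agent.CFT.LocalBr Fermat.Agent.S55.GrpCoh Fermat.Agent.CFT.Local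
open Fermat.Agent.CFT.Local.UnramPadic

/-- The local Brauer theorem for Galois-units pairs over finite extensions of `ℚ_q`. -/
def BrauerHyp (q : ℕ) [Fact q.Prime] : Prop :=
  ∀ (G : Type) [Group G] (A : Rep.{0} ℤ G),
    IsGalUnits (fun K _ => CycNorm.IsPadicField q K) G A →
      Finite (groupCohomology A 2) ∧ Nat.card (groupCohomology A 2) = Nat.card G ∧
        IsAddCyclic (groupCohomology A 2)

/-- In a finite cyclic group of order `n`, every element killed by a prime `p` is an
`(n / p)`-th multiple. -/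
theorem exists_eq_card_div_nsmul {X : Type*} [AddCommGroup X] [IsAddCyclic X] [Finite X]
    {p : ℕ} (hp : p.Prime) (x : X) (hx : p • x = 0) : ∃ y : X, x = (Nat.card X / p) • y := by
  obtain ⟨g, hg⟩ := IsAddCyclic.exists_generator (α := X)
  have hord : addOrderOf g = Nat.card X := addOrderOf_eq_card_of_forall_mem_zmultiples hg
  obtain ⟨k, rfl⟩ := AddSubgroup.mem_zmultiples_iff.1 (hg x)
  have h1 : ((p : ℤ) * k) • g = 0 := by
    rw [mul_smul]
    exact_mod_cast hx
  have h2 : (Nat.card X : ℤ) ∣ (p : ℤ) * k := by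
    rw [← hord]
    exact (addOrderOf_dvd_iff_zsmul_eq_zero).2 h1
  by_cases hpn : p ∣ Nat.card X
  · obtain ⟨c, hc⟩ := hpn
    have hcz : (c : ℤ) ∣ k := by
      rw [hc] at h2
      push_cast at h2
      exact Int.dvd_of_mul_dvd_mul_left (by exact_mod_cast hp.ne_zero) h2
    obtain ⟨j, rfl⟩ := hcz
    refine ⟨j • g, ?_⟩
    rw [hc, Nat.mul_div_cancel_left c hp.pos, mul_smul]
    exact_mod_cast rfl
  · have hcop : IsCoprime (Nat.card X : ℤ) (p : ℤ) := by
      rw [Int.isCoprime_iff_gcd_eq_one, Int.gcd_natCast_natCast]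
      exact (Nat.Coprime.symm ((Nat.Prime.coprime_iff_not_dvd hp).2 hpn))
    have h3 : (Nat.card X : ℤ) ∣ k := hcop.dvd_of_dvd_mul_left h2
    have h4 : k • g = 0 := by
      rw [← hord] at h3
      exact (addOrderOf_dvd_iff_zsmul_eq_zero).1 h3
    exact ⟨0, by rw [h4, smul_zero]⟩

variable {q : ℕ} [Fact q.Prime]

/-- `H²` of every finite layer is finite cyclic of order the relative index. -/
theorem layer_brauer (hB : BrauerHyp q) {U V : Subgroup (Gq q)} (hU : IsOpenSub q U)
    (hV : IsOpenSub q V) (hVU : V ≤ U) [(V.subgroupOf U).Normal] :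
    Finite (groupCohomology (layer U V) 2) ∧
      Nat.card (groupCohomology (layer U V) 2) = V.relIndex U ∧
      IsAddCyclic (groupCohomology (layer U V) 2) :=
  hB _ _ (LayerDict.isGalUnits_layer (fun K _ => CycNorm.IsPadicField q K)
    (fun E _ => CycNorm.isPadicField_intermediate q E) hU hV hVU)

/-- The hypothesis `hcyc` of `KummerLoc.finrank_H2mu_of_layers`. -/
theorem hcyc_of_brauer (hB : BrauerHyp q) {U : Subgroup (Gq q)} (hU : IsOpenSub q U) :
    ∀ V : Subgroup (Gq q), IsOpenSub q V → V ≤ U → ∀ [(V.subgroupOf U).Normal],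
      IsAddCyclic (groupCohomology (layer U V) 2) :=
  fun _ hV hVU _ => (layer_brauer hB hU hV hVU).2.2

/-- The hypothesis `hord` of `KummerLoc.finrank_H2mu_of_layers`: the unramified layer of
degree `p` carries a class of order `p`. -/
theorem exists_ord (hB : BrauerHyp q) (p : ℕ) [Fact p.Prime] {U : Subgroup (Gq q)}
    (hU : IsOpenSub q U) :
    ∃ V : Subgroup (Gq q), IsOpenSub q V ∧ V ≤ U ∧ ∃ _ : (V.subgroupOf U).Normal,
      ∃ x : groupCohomology (layer U V) 2, x ≠ 0 ∧ p • x = 0 := by
  have hp : p.Prime := Fact.out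
  obtain ⟨E, hE, rfl⟩ := hU
  have hV : IsOpenSub q (unram E p).fixingSubgroup := ⟨unram E p, inferInstance, rfl⟩
  have hVU := fixingSubgroup_unram_le E p
  have hn := normal_fixingSubgroup_unram E hp.pos
  refine ⟨(unram E p).fixingSubgroup, hV, hVU, hn, ?_⟩
  obtain ⟨hfin, hcard, -⟩ := layer_brauer hB ⟨E, hE, rfl⟩ hV hVU
  rw [relIndex_fixingSubgroup_unram E hp.pos] at hcard
  have hnt : Nontrivial (groupCohomology (layer E.fixingSubgroup (unram E p).fixingSubgroup) 2) :=
    Finite.one_lt_card_iff_nontrivial.1 (by rw [hcard]; exact hp.one_lt)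
  obtain ⟨x, hx⟩ := exists_ne (0 : groupCohomology
    (layer E.fixingSubgroup (unram E p).fixingSubgroup) 2)
  refine ⟨x, hx, ?_⟩
  have h0 : Nat.card (groupCohomology
      (layer E.fixingSubgroup (unram E p).fixingSubgroup) 2) • x = 0 := card_nsmul_eq_zero'
  rwa [hcard] at h0

/-- **(C)** from the local Brauer theorem on Galois-units pairs. -/
theorem finrank_H2mu_of_brauer (hB : BrauerHyp q) (p : ℕ) [Fact p.Prime] {U : Subgroup (Gq q)}
    (hU : IsOpenSub q U) : Module.finrank (ZMod p) (H2loc (muLoc q p) U) = 1 :=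
  KummerLoc.finrank_H2mu_of_layers p hU (hcyc_of_brauer hB hU) (exists_ord hB p hU)

/-- `IsOpenSub` is stable under intersection with the fixing subgroup of a finite extension. -/
theorem isOpenSub_fixingSubgroup_inf {U : Subgroup (Gq q)} (hU : IsOpenSub q U)
    (L : IntermediateField ℚ_[q] (PadicAlgCl q)) [FiniteDimensional ℚ_[q] L] :
    IsOpenSub q (L.fixingSubgroup ⊓ U) := by
  obtain ⟨E, hE, rfl⟩ := hU
  exact ⟨L ⊔ E, IntermediateField.finiteDimensional_sup L E,
    (IntermediateField.fixingSubgroup_sup).symm⟩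

/-- The layer cut out by an arbitrary finite extension `L/ℚ_q` (`Fix L` need not be inside
`U`): finite cyclic of order the relative index. -/
theorem layer_brauer_inf (hB : BrauerHyp q) {U : Subgroup (Gq q)} (hU : IsOpenSub q U)
    (L : IntermediateField ℚ_[q] (PadicAlgCl q)) [FiniteDimensional ℚ_[q] L]
    [(L.fixingSubgroup.subgroupOf U).Normal] :
    Finite (H2 (layer U L.fixingSubgroup)) ∧
      Nat.card (H2 (layer U L.fixingSubgroup)) = L.fixingSubgroup.relIndex U ∧
      IsAddCyclic (H2 (layer U L.fixingSubgroup)) :=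
  hB _ _ (LayerDict.isGalUnits_of_eq (fun K _ => CycNorm.IsPadicField q K)
    (fun E _ => CycNorm.isPadicField_intermediate q E) hU (isOpenSub_fixingSubgroup_inf hU L)
    inf_le_right (L.fixingSubgroup.subgroupOf U) (Subgroup.inf_subgroupOf_right _ _).symm)

/-- The statement `layer_cyclic` (C3a) of `LocalBr/Main.lean`. -/
theorem layer_cyclic_of_brauer (hB : BrauerHyp q) {U : Subgroup (Gq q)} (hU : IsOpenSub q U)
    (L : IntermediateField ℚ_[q] (PadicAlgCl q)) [FiniteDimensional ℚ_[q] L]
    [(L.fixingSubgroup.subgroupOf U).Normal] :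
    IsAddCyclic (H2 (layer U L.fixingSubgroup)) ∧ Finite (H2 (layer U L.fixingSubgroup)) :=
  ⟨(layer_brauer_inf hB hU L).2.2, (layer_brauer_inf hB hU L).1⟩

/-- The statement `exists_layer_dvd` (C3b) of `LocalBr/Main.lean`. -/
theorem exists_layer_dvd_of_brauer (hB : BrauerHyp q) (p : ℕ) [Fact p.Prime]
    {U : Subgroup (Gq q)} (hU : IsOpenSub q U) :
    ∃ (L : IntermediateField ℚ_[q] (PadicAlgCl q)) (_ : FiniteDimensional ℚ_[q] L)
      (_ : Normal ℚ_[q] L) (_ : (L.fixingSubgroup.subgroupOf U).Normal),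
      p ∣ Nat.card (H2 (layer U L.fixingSubgroup)) := by
  have hp : p.Prime := Fact.out
  obtain ⟨E, hE, rfl⟩ := hU
  -- the normal closure of the unramified extension of degree `p`
  let L : IntermediateField ℚ_[q] (PadicAlgCl q) :=
    IntermediateField.normalClosure ℚ_[q] (unram E p) (PadicAlgCl q)
  have hLfd : FiniteDimensional ℚ_[q] L := inferInstance
  have hLn : Normal ℚ_[q] L := inferInstance
  have hle : unram E p ≤ L := IntermediateField.le_normalClosure _
  have hLN : L.fixingSubgroup.Normal := inferInstance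
  have hn : (L.fixingSubgroup.subgroupOf E.fixingSubgroup).Normal := inferInstance
  refine ⟨L, hLfd, hLn, hn, ?_⟩
  rw [(layer_brauer_inf hB ⟨E, hE, rfl⟩ L).2.1]
  have h1 : (unram E p).fixingSubgroup.relIndex E.fixingSubgroup ∣
      L.fixingSubgroup.relIndex E.fixingSubgroup :=
    Subgroup.relIndex_dvd_of_le_left _ (IntermediateField.fixingSubgroup_antitone hle)
  rwa [relIndex_fixingSubgroup_unram E hp.pos] at h1

/-- (D2) input: every `p`-torsion class of `H²` of a layer is a `(|U ⧸ N| / p)`-th multiple;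
`N` any name of `V.subgroupOf U`. -/
theorem ptorsion_of_eq (hB : BrauerHyp q) (p : ℕ) [Fact p.Prime] {U V : Subgroup (Gq q)}
    (hU : IsOpenSub q U) (hV : IsOpenSub q V) (hVU : V ≤ U) (N : Subgroup ↥U) [N.Normal]
    (hN : N = V.subgroupOf U)
    (x : groupCohomology ((Rep.res U.subtype (unitsRep q)).quotientToInvariants N) 2)
    (hx : p • x = 0) : ∃ y, x = (Nat.card (↥U ⧸ N) / p) • y := by
  obtain ⟨hfin, hcard, hcyc⟩ := hB _ _ (LayerDict.isGalUnits_of_eq
    (fun K _ => CycNorm.IsPadicField q K) (fun E _ => CycNorm.isPadicField_intermediate q E)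
    hU hV hVU N hN)
  rw [← hcard]
  exact exists_eq_card_div_nsmul Fact.out x hx

/-- (D2) input at a Prelude level `N = {s ∈ U | lvl q U s ∈ Fix F}`, `F/ℚ` finite. -/
theorem ptorsion_of_level (hB : BrauerHyp q) (p : ℕ) [Fact p.Prime] {U : Subgroup (Gq q)}
    (hU : IsOpenSub q U) (F : IntermediateField ℚ (AlgebraicClosure ℚ))
    [FiniteDimensional ℚ F] (N : Subgroup ↥U) [N.Normal]
    (hN : ∀ s : ↥U, s ∈ N ↔ lvl q U s ∈ F.fixingSubgroup)
    (x : groupCohomology ((Rep.res U.subtype (unitsRep q)).quotientToInvariants N) 2)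
    (hx : p • x = 0) : ∃ y, x = (Nat.card (↥U ⧸ N) / p) • y := by
  obtain ⟨hfin, hcard, hcyc⟩ := hB _ _ (LayerDict.isGalUnits_of_level
    (fun K _ => CycNorm.IsPadicField q K) (fun E _ => CycNorm.isPadicField_intermediate q E)
    hU F N hN)
  rw [← hcard]
  exact exists_eq_card_div_nsmul Fact.out x hx

end Fermat.Agent.CFT.LocalBr.LayerBrauer
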