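import Fermat.Agent.S55.GrpCoh.Transfer

/-!
# LOC-D, abstract core: finite-level descent of `2`-cocycles and the two restriction rules

Pure group cohomology (Mathlib + `GrpCoh.Transfer`), no arithmetic.  `G` is any group, `N ⊴ G` a
normal subgroup ("level"), `A : Rep k G`.

* `RightInv₁ N c`, `RightInv₂ N f` : the cochain is right-`N`-invariant in every variable
  (this is what "level-constant of level `N`" means).
* `desc₂` : a right-`N`-invariant `2`-cocycle `f` descends to a `2`-cocycle of `G ⧸ N` with values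
  in `A^N` (`Rep.quotientToInvariants`); its values are automatically `N`-invariant.
* `exists_cochain_of_restrict` (**D1 core**): if `N ≤ H`, `[G : H]` is invertible in `k`, and
  `f|_H = d c` with `c` right-`N`-invariant, then `f = d b` with `b` right-`N`-invariant.
* `exists_cochain_restrict_of_torsion` (**D2 core**): if `G ⧸ N` is finite, `p ∣ [G : H]`,
  `p • f = 0` and the `p`-torsion of `H²(G ⧸ N, A^N)` consists of `(|G ⧸ N| / p)`-multiples
  (e.g. the group is cyclic of order `|G ⧸ N|`), then `f|_H = d c` with `c` right-`N`-invariant.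
-/

set_option autoImplicit false

open CategoryTheory groupCohomology

namespace Fermat.Agent.CFT.LocalBr.ResCore

variable {k G : Type} [CommRing k] [Group G]

/-- `c : G → X` is right-`N`-invariant. -/
def RightInv₁ (N : Subgroup G) {X : Type*} (c : G → X) : Prop :=
  ∀ g s, s ∈ N → c (g * s) = c g

/-- `f : G × G → X` is right-`N`-invariant in both variables. -/
def RightInv₂ (N : Subgroup G) {X : Type*} (f : G × G → X) : Prop :=
  ∀ g g' s s', s ∈ N → s' ∈ N → f (g * s, g' * s') = f (g, g')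

variable (N : Subgroup G) [N.Normal]

theorem RightInv₂.left_mul {X : Type*} {f : G × G → X} (hN : RightInv₂ N f) (n g g' : G)
    (hn : n ∈ N) : f (n * g, g') = f (g, g') := by
  have h1 : g⁻¹ * n * g ∈ N := by
    have := Subgroup.Normal.conj_mem (inferInstance : N.Normal) n hn g⁻¹
    simpa using this
  have h2 := hN g g' (g⁻¹ * n * g) 1 h1 N.one_mem
  rw [mul_one] at h2
  rw [← h2]
  congr 2
  group

/-- The values of a right-`N`-invariant `2`-cocycle are `N`-invariant. -/
theorem RightInv₂.rho_apply (A : Rep.{0} k G) {f : G × G → A} (hf : f ∈ cocycles₂ A)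
    (hN : RightInv₂ N f) (g g' n : G) (hn : n ∈ N) : A.ρ n (f (g, g')) = f (g, g') := by
  have hc := (mem_cocycles₂_iff f).1 hf n g g'
  have h1 : f (n * g, g') = f (g, g') := hN.left_mul N n g g' hn
  have h2 : ∀ x, f (n, x) = f (1, 1) := by
    intro x
    have h := hN 1 x n 1 hn N.one_mem
    rw [one_mul, mul_one] at h
    rw [h]
    exact cocycles₂_map_one_fst ⟨f, hf⟩ x
  rw [h1, h2, h2] at hc
  exact (add_right_cancel hc).symm

/-- Descent of a right-`N`-invariant `2`-cocycle to `G ⧸ N`, with values in `A^N`. -/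
noncomputable def desc₂ (A : Rep.{0} k G) (f : G × G → A) (hf : f ∈ cocycles₂ A)
    (hN : RightInv₂ N f) : (G ⧸ N) × (G ⧸ N) → A.quotientToInvariants N :=
  fun x => ⟨f (x.1.out, x.2.out), fun n => hN.rho_apply N A hf _ _ n.1 n.2⟩

theorem desc₂_mk (A : Rep.{0} k G) (f : G × G → A) (hf : f ∈ cocycles₂ A) (hN : RightInv₂ N f)
    (g g' : G) :
    ((desc₂ N A f hf hN ((g : G ⧸ N), (g' : G ⧸ N))) : A) = f (g, g') := by
  obtain ⟨s, hs⟩ := QuotientGroup.mk_out_eq_mul N g
  obtain ⟨s', hs'⟩ := QuotientGroup.mk_out_eq_mul N g'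
  change f (((g : G ⧸ N)).out, ((g' : G ⧸ N)).out) = f (g, g')
  rw [hs, hs']
  exact hN g g' s s' s.2 s'.2

theorem desc₂_mem_cocycles₂ (A : Rep.{0} k G) (f : G × G → A) (hf : f ∈ cocycles₂ A)
    (hN : RightInv₂ N f) : desc₂ N A f hf hN ∈ cocycles₂ (A.quotientToInvariants N) := by
  rw [mem_cocycles₂_iff]
  intro x y z
  induction x using QuotientGroup.induction_on with | _ g => ?_
  induction y using QuotientGroup.induction_on with | _ h => ?_
  induction z using QuotientGroup.induction_on with | _ j => ?_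
  apply Subtype.ext
  have hc := (mem_cocycles₂_iff f).1 hf g h j
  have e1 : ((desc₂ N A f hf hN ((g : G ⧸ N) * (h : G ⧸ N), (j : G ⧸ N))) : A) = f (g * h, j) :=
    desc₂_mk N A f hf hN (g * h) j
  have e2 : ((desc₂ N A f hf hN ((g : G ⧸ N), (h : G ⧸ N) * (j : G ⧸ N))) : A) = f (g, h * j) :=
    desc₂_mk N A f hf hN g (h * j)
  have e3 := desc₂_mk N A f hf hN g h
  have e4 := desc₂_mk N A f hf hN h j
  change ((desc₂ N A f hf hN ((g : G ⧸ N) * (h : G ⧸ N), (j : G ⧸ N))) : A) +
      ((desc₂ N A f hf hN ((g : G ⧸ N), (h : G ⧸ N))) : A) =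
    A.ρ g ((desc₂ N A f hf hN ((h : G ⧸ N), (j : G ⧸ N))) : A) +
      ((desc₂ N A f hf hN ((g : G ⧸ N), (h : G ⧸ N) * (j : G ⧸ N))) : A)
  rw [e1, e2, e3, e4]
  exact hc

/-- The descended cocycle as an element of `Z²(G ⧸ N, A^N)`. -/
noncomputable def descCocycle (A : Rep.{0} k G) (f : G × G → A) (hf : f ∈ cocycles₂ A)
    (hN : RightInv₂ N f) : cocycles₂ (A.quotientToInvariants N) :=
  ⟨desc₂ N A f hf hN, desc₂_mem_cocycles₂ N A f hf hN⟩

/-- A cochain of `G ⧸ N` with values in `A^N` inflates to a right-`N`-invariant cochain of `G`. -/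
theorem exists_cochain_of_desc_coboundary (A : Rep.{0} k G) (f : G × G → A) (hf : f ∈ cocycles₂ A)
    (hN : RightInv₂ N f)
    (h : ⇑(descCocycle N A f hf hN) ∈ coboundaries₂ (A.quotientToInvariants N)) :
    ∃ b : G → A, RightInv₁ N b ∧ ∀ g g', A.ρ g (b g') - b (g * g') + b g = f (g, g') := by
  obtain ⟨b', hb'⟩ := h
  refine ⟨fun g => ((b' (g : G ⧸ N)) : A), ?_, ?_⟩
  · intro g s hs
    have : ((g * s : G) : G ⧸ N) = (g : G ⧸ N) := by
      rw [QuotientGroup.mk_mul, (QuotientGroup.eq_one_iff s).2 hs, mul_one]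
    simp only [this]
  · intro g g'
    have h1 := congrFun hb' ((g : G ⧸ N), (g' : G ⧸ N))
    have h2 := congrArg (Subtype.val) h1
    rw [d₁₂_hom_apply] at h2
    have h3 : ((descCocycle N A f hf hN ((g : G ⧸ N), (g' : G ⧸ N))) : A) = f (g, g') :=
      desc₂_mk N A f hf hN g g'
    rw [← h3]
    exact h2

/-- The image of `H` in `G ⧸ N`. -/
abbrev imageSubgroup (H : Subgroup G) : Subgroup (G ⧸ N) := H.map (QuotientGroup.mk' N)

theorem index_imageSubgroup (H : Subgroup G) (hNH : N ≤ H) :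
    (imageSubgroup N H).index = H.index :=
  Subgroup.index_map_eq H (QuotientGroup.mk'_surjective N)
    (by rw [QuotientGroup.ker_mk']; exact hNH)

/-- If `c` is a right-`N`-invariant primitive of `f` on `H ⊇ N`, its values are `N`-invariant. -/
theorem rho_apply_of_primitive (A : Rep.{0} k G) (H : Subgroup G) (hNH : N ≤ H)
    (f : G × G → A) (hf : f ∈ cocycles₂ A) (hN : RightInv₂ N f)
    (c : H → A) (hcN : ∀ (h s : H), (s : G) ∈ N → c (h * s) = c h)
    (hc : ∀ h h' : H, A.ρ (h : G) (c h') - c (h * h') + c h = f ((h : G), (h' : G)))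
    (h : H) (n : G) (hn : n ∈ N) : A.ρ n (c h) = c h := by
  have h1 := hc ⟨n, hNH hn⟩ h
  have h11 := hc 1 1
  simp only [Subgroup.coe_one, map_one, Module.End.one_apply, mul_one, sub_self, zero_add]
    at h11
  have h2 : c (⟨n, hNH hn⟩ * h) = c h := by
    have hmem : ((h⁻¹ * ⟨n, hNH hn⟩ * h : H) : G) ∈ N := by
      have := Subgroup.Normal.conj_mem (inferInstance : N.Normal) n hn (h : G)⁻¹
      simpa [mul_assoc] using this
    have := hcN h (h⁻¹ * ⟨n, hNH hn⟩ * h) hmem
    rw [← this]
    congr 1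
    group
  have h3 : c ⟨n, hNH hn⟩ = c 1 := by
    have := hcN 1 ⟨n, hNH hn⟩ hn
    rwa [one_mul] at this
  have h4 : f (n, (h : G)) = f (1, 1) := by
    have h := hN 1 (h : G) n 1 hn N.one_mem
    rw [one_mul, mul_one] at h
    rw [h]
    exact cocycles₂_map_one_fst ⟨f, hf⟩ _
  simp only [] at h1
  rw [h2, h3, h4, h11] at h1
  have : A.ρ n (c h) - c h = 0 := by
    have := congrArg (fun t => t - f (1, 1)) h1
    simpa using this
  exact sub_eq_zero.1 this

open Fermat.Agent.S55.GrpCoh in
/-- If `f|_H = d c` with `c` right-`N`-invariant, the class of the descended cocycle restricts to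
zero on the image of `H` in `G ⧸ N`. -/
theorem rest_descCocycle_eq_zero (A : Rep.{0} k G) (H : Subgroup G) (hNH : N ≤ H)
    (f : G × G → A) (hf : f ∈ cocycles₂ A) (hN : RightInv₂ N f)
    (c : H → A) (hcN : ∀ (h s : H), (s : G) ∈ N → c (h * s) = c h)
    (hc : ∀ h h' : H, A.ρ (h : G) (c h') - c (h * h') + c h = f ((h : G), (h' : G))) :
    rest (A.quotientToInvariants N) (imageSubgroup N H) 2
      (H2π (A.quotientToInvariants N) (descCocycle N A f hf hN)) = 0 := by
  have e := H2π_comp_map_apply (imageSubgroup N H).subtype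
    (𝟙 (Rep.res (imageSubgroup N H).subtype (A.quotientToInvariants N)))
    (descCocycle N A f hf hN)
  refine e.trans ?_
  rw [H2π_eq_zero_iff]
  -- lifts
  have hex : ∀ y : imageSubgroup N H, ∃ h : H, ((h : G) : G ⧸ N) = y.1 := by
    rintro ⟨y, hy⟩
    obtain ⟨h, hh, rfl⟩ := Subgroup.mem_map.1 hy
    exact ⟨⟨h, hh⟩, rfl⟩
  choose lift hlift using hex
  have key : ∀ (y : imageSubgroup N H) (h : H), ((h : G) : G ⧸ N) = y.1 → c h = c (lift y) := by
    intro y h hy
    have hmem : (((lift y)⁻¹ * h : H) : G) ∈ N := by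
      have h1 : (((lift y : G))⁻¹ * (h : G) : G) ∈ N := by
        rw [← QuotientGroup.eq]
        rw [hlift y, hy]
      simpa using h1
    have := hcN (lift y) ((lift y)⁻¹ * h) hmem
    rw [← this]
    congr 1
    group
  let cbar : imageSubgroup N H → A.quotientToInvariants N := fun y =>
    ⟨c (lift y), fun n => rho_apply_of_primitive N A H hNH f hf hN c hcN hc (lift y) n.1 n.2⟩
  refine ⟨cbar, ?_⟩
  funext ⟨y₁, y₂⟩
  apply Subtype.ext
  have hmul : c (lift y₁ * lift y₂) = c (lift (y₁ * y₂)) := by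
    apply key
    rw [Subgroup.coe_mul, QuotientGroup.mk_mul, hlift y₁, hlift y₂]
    rfl
  have hd := desc₂_mk N A f hf hN (lift y₁ : G) (lift y₂ : G)
  rw [hlift y₁, hlift y₂] at hd
  have hρ : ∀ v : A.quotientToInvariants N,
      (((A.quotientToInvariants N).ρ (y₁ : G ⧸ N) v : A.quotientToInvariants N) : A)
        = A.ρ (lift y₁ : G) (v : A) := by
    intro v
    rw [← hlift y₁]
    rfl
  change (((A.quotientToInvariants N).ρ (y₁ : G ⧸ N) (cbar y₂) - cbar (y₁ * y₂) + cbar y₁ :
      A.quotientToInvariants N) : A) = ((desc₂ N A f hf hN ((y₁ : G ⧸ N), (y₂ : G ⧸ N))) : A)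
  rw [hd, ← hc (lift y₁) (lift y₂), hmul]
  change (((A.quotientToInvariants N).ρ (y₁ : G ⧸ N) (cbar y₂) : A.quotientToInvariants N) : A)
    - c (lift (y₁ * y₂)) + c (lift y₁) = _
  rw [hρ]

open Fermat.Agent.S55.GrpCoh in
/-- Conversely: if the class of the descended cocycle restricts to zero on the image of `H`, then
`f|_H = d c` with `c` right-`N`-invariant. -/
theorem exists_primitive_of_rest_eq_zero (A : Rep.{0} k G) (H : Subgroup G)
    (f : G × G → A) (hf : f ∈ cocycles₂ A) (hN : RightInv₂ N f)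
    (h0 : rest (A.quotientToInvariants N) (imageSubgroup N H) 2
      (H2π (A.quotientToInvariants N) (descCocycle N A f hf hN)) = 0) :
    ∃ c : H → A, (∀ (h s : H), (s : G) ∈ N → c (h * s) = c h) ∧
      ∀ h h' : H, A.ρ (h : G) (c h') - c (h * h') + c h = f ((h : G), (h' : G)) := by
  have e := H2π_comp_map_apply (imageSubgroup N H).subtype
    (𝟙 (Rep.res (imageSubgroup N H).subtype (A.quotientToInvariants N)))
    (descCocycle N A f hf hN)
  have h1 := e.symm.trans h0
  rw [H2π_eq_zero_iff] at h1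
  obtain ⟨cbar, hcbar⟩ := h1
  let ι : H → imageSubgroup N H := fun h => ⟨((h : G) : G ⧸ N), Subgroup.mem_map.2 ⟨h, h.2, rfl⟩⟩
  have hι_mul : ∀ h h' : H, ι (h * h') = ι h * ι h' := fun h h' => rfl
  refine ⟨fun h => ((cbar (ι h) : A.quotientToInvariants N) : A), ?_, ?_⟩
  · intro h s hs
    have : ι (h * s) = ι h := by
      apply Subtype.ext
      change (((h : G) * (s : G) : G) : G ⧸ N) = ((h : G) : G ⧸ N)
      rw [QuotientGroup.mk_mul, (QuotientGroup.eq_one_iff (s : G)).2 hs, mul_one]
    simp only [this]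
  · intro h h'
    have h2 := congrFun hcbar (ι h, ι h')
    have h3 := congrArg (Subtype.val) h2
    have h4 := desc₂_mk N A f hf hN (h : G) (h' : G)
    rw [← h4]
    change A.ρ (h : G) ((cbar (ι h') : A.quotientToInvariants N) : A)
      - ((cbar (ι (h * h')) : A.quotientToInvariants N) : A)
      + ((cbar (ι h) : A.quotientToInvariants N) : A) = _
    rw [hι_mul]
    exact h3

open Fermat.Agent.S55.GrpCoh in
/-- **D1 core.** `N ⊴ G`, `N ≤ H ≤ G` with `[G : H]` finite and invertible in `k`.  A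
right-`N`-invariant `2`-cocycle `f` of `G` whose restriction to `H` is the coboundary of a
right-`N`-invariant cochain is itself the coboundary of a right-`N`-invariant cochain. -/
theorem exists_cochain_of_restrict (A : Rep.{0} k G) (H : Subgroup G) [H.FiniteIndex] (hNH : N ≤ H)
    (hidx : IsUnit (H.index : k))
    (f : G × G → A) (hf : f ∈ cocycles₂ A) (hN : RightInv₂ N f)
    (c : H → A) (hcN : ∀ (h s : H), (s : G) ∈ N → c (h * s) = c h)
    (hc : ∀ h h' : H, A.ρ (h : G) (c h') - c (h * h') + c h = f ((h : G), (h' : G))) :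
    ∃ b : G → A, RightInv₁ N b ∧ ∀ g g', A.ρ g (b g') - b (g * g') + b g = f (g, g') := by
  apply exists_cochain_of_desc_coboundary N A f hf hN
  rw [← H2π_eq_zero_iff]
  have hx := rest_descCocycle_eq_zero N A H hNH f hf hN c hcN hc
  have : (imageSubgroup N H).FiniteIndex :=
    ⟨by rw [index_imageSubgroup N H hNH]; exact Subgroup.FiniteIndex.index_ne_zero⟩
  have h0 := index_smul_eq_zero_of_rest (A.quotientToInvariants N) (imageSubgroup N H) 2 _ hx
  rw [index_imageSubgroup N H hNH] at h0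
  obtain ⟨u, hu⟩ := hidx
  have h1 := congrArg (fun t => ((u⁻¹ : kˣ) : k) • t) h0
  simp only [smul_zero, smul_smul, ← hu, Units.inv_mul, one_smul] at h1
  exact h1

open Fermat.Agent.S55.GrpCoh in
/-- **D2 core.** `N ⊴ G` of finite index, `N ≤ H ≤ G`, `p ∣ [G : H]`.  If every `p`-torsion class
of `H²(G ⧸ N, A^N)` is a `(|G ⧸ N| / p)`-multiple, then every right-`N`-invariant `2`-cocycle `f`
of `G` with `p • f = 0` restricts on `H` to the coboundary of a right-`N`-invariant cochain. -/
theorem exists_cochain_restrict_of_torsion (A : Rep.{0} k G) [Finite (G ⧸ N)] (H : Subgroup G)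
    (hNH : N ≤ H) (p : ℕ) (hpH : p ∣ H.index)
    (hcyc : ∀ x : groupCohomology (A.quotientToInvariants N) 2, p • x = 0 →
      ∃ y : groupCohomology (A.quotientToInvariants N) 2, x = (Nat.card (G ⧸ N) / p) • y)
    (f : G × G → A) (hf : f ∈ cocycles₂ A) (hN : RightInv₂ N f) (hpf : ∀ x, p • f x = 0) :
    ∃ c : H → A, (∀ (h s : H), (s : G) ∈ N → c (h * s) = c h) ∧
      ∀ h h' : H, A.ρ (h : G) (c h') - c (h * h') + c h = f ((h : G), (h' : G)) := by
  apply exists_primitive_of_rest_eq_zero N A H f hf hN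
  -- the class is `p`-torsion
  have hz : p • descCocycle N A f hf hN = 0 := by
    apply Subtype.ext
    funext ⟨x, y⟩
    induction x using QuotientGroup.induction_on with | _ g => ?_
    induction y using QuotientGroup.induction_on with | _ g' => ?_
    apply Subtype.ext
    change p • ((desc₂ N A f hf hN ((g : G ⧸ N), (g' : G ⧸ N))) : A) = 0
    rw [desc₂_mk]
    exact hpf _
  have hx : p • (H2π (A.quotientToInvariants N) (descCocycle N A f hf hN)) = 0 := by
    rw [← map_nsmul, hz, map_zero]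
  obtain ⟨y, hy⟩ := hcyc _ hx
  rw [hy, map_nsmul]
  -- `|H̄|` kills `H²(H̄, -)`
  have hcard := card_smul_eq_zero (Rep.res (imageSubgroup N H).subtype (A.quotientToInvariants N))
    2 (by norm_num) (rest (A.quotientToInvariants N) (imageSubgroup N H) 2 y)
  rw [Nat.cast_smul_eq_nsmul] at hcard
  have hn : Nat.card (G ⧸ N) / p = (H.index / p) * Nat.card (imageSubgroup N H) := by
    have h1 : Nat.card (G ⧸ N) = Nat.card (imageSubgroup N H) * H.index := by
      rw [← index_imageSubgroup N H hNH, Subgroup.card_mul_index]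
    rw [h1, mul_comm, Nat.mul_div_right_comm hpH]
  rw [hn, mul_smul, hcard, smul_zero]

open Fermat.Agent.S55.GrpCoh in
/-- **General restriction rule at finite level.** `N ⊴ G` of finite index, `N ≤ H ≤ G`,
`m ∣ [G : H]`.  If every `m`-torsion class of `H²(G ⧸ N, A^N)` is a `(|G ⧸ N| / m)`-multiple
(e.g. the group is cyclic of order `|G ⧸ N|`), then every `m`-torsion class of `H²(G ⧸ N, A^N)`
restricts to zero on the image of `H`. -/
theorem rest_eq_zero_of_torsion (A : Rep.{0} k G) [Finite (G ⧸ N)] (H : Subgroup G)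
    (hNH : N ≤ H) (m : ℕ) (hmH : m ∣ H.index)
    (hcyc : ∀ x : groupCohomology (A.quotientToInvariants N) 2, m • x = 0 →
      ∃ y : groupCohomology (A.quotientToInvariants N) 2, x = (Nat.card (G ⧸ N) / m) • y)
    (x : groupCohomology (A.quotientToInvariants N) 2) (hx : m • x = 0) :
    rest (A.quotientToInvariants N) (imageSubgroup N H) 2 x = 0 := by
  obtain ⟨y, hy⟩ := hcyc _ hx
  rw [hy, map_nsmul]
  have hcard := card_smul_eq_zero (Rep.res (imageSubgroup N H).subtype (A.quotientToInvariants N))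
    2 (by norm_num) (rest (A.quotientToInvariants N) (imageSubgroup N H) 2 y)
  rw [Nat.cast_smul_eq_nsmul] at hcard
  have hn : Nat.card (G ⧸ N) / m = (H.index / m) * Nat.card (imageSubgroup N H) := by
    have h1 : Nat.card (G ⧸ N) = Nat.card (imageSubgroup N H) * H.index := by
      rw [← index_imageSubgroup N H hNH, Subgroup.card_mul_index]
    rw [h1, mul_comm, Nat.mul_div_right_comm hmH]
  rw [hn, mul_smul, hcard, smul_zero]

/-- In a cyclic group of order `n`, the `m`-torsion elements are `(n / m)`-multiples, for every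
`m ∣ n`. -/
theorem exists_nsmul_of_isAddCyclic {B : Type*} [AddCommGroup B] [IsAddCyclic B] {n m : ℕ}
    (hn : Nat.card B = n) (hmn : m ∣ n) (hm0 : m ≠ 0) (x : B) (hx : m • x = 0) :
    ∃ y : B, x = (n / m) • y := by
  obtain ⟨g, hg⟩ := IsAddCyclic.exists_generator (α := B)
  have hord : addOrderOf g = n := by
    rw [← hn]
    exact addOrderOf_eq_card_of_forall_mem_zmultiples hg
  obtain ⟨k, rfl⟩ := AddSubgroup.mem_zmultiples_iff.1 (hg x)
  obtain ⟨d, rfl⟩ := hmn
  rw [Nat.mul_div_cancel_left d (Nat.pos_of_ne_zero hm0)]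
  have h1 : ((m * d : ℕ) : ℤ) ∣ (m : ℤ) * k := by
    rw [← hord]
    apply (addOrderOf_dvd_iff_zsmul_eq_zero).2
    rw [mul_zsmul, natCast_zsmul]
    exact hx
  have h2 : (d : ℤ) ∣ k := by
    rw [Nat.cast_mul] at h1
    exact (mul_dvd_mul_iff_left (Nat.cast_ne_zero.2 hm0)).1 h1
  obtain ⟨j, rfl⟩ := h2
  exact ⟨j • g, by rw [mul_zsmul, natCast_zsmul]⟩

/-- `p`-torsion version for a prime `p` not necessarily dividing the order. -/
theorem exists_nsmul_of_isAddCyclic_prime {B : Type*} [AddCommGroup B] [IsAddCyclic B] {n p : ℕ}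
    (hn : Nat.card B = n) (hp : p.Prime) (x : B) (hx : p • x = 0) :
    ∃ y : B, x = (n / p) • y := by
  by_cases hpn : p ∣ n
  · exact exists_nsmul_of_isAddCyclic hn hpn hp.ne_zero x hx
  · refine ⟨0, ?_⟩
    rw [smul_zero]
    have h1 : n • x = 0 := by
      rw [← hn]
      exact card_nsmul_eq_zero'
    have hcop : Nat.Coprime p n := (Nat.Prime.coprime_iff_not_dvd hp).2 hpn
    obtain ⟨a, b, hab⟩ : ∃ a b : ℤ, a * p + b * n = 1 := by
      have := Nat.Coprime.isCoprime hcop
      obtain ⟨a, b, h⟩ := this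
      exact ⟨a, b, h⟩
    have h2 : (1 : ℤ) • x = 0 := by
      rw [← hab, add_zsmul, mul_zsmul, mul_zsmul, natCast_zsmul, natCast_zsmul, hx, h1,
        smul_zero, smul_zero, add_zero]
    simpa using h2

end Fermat.Agent.CFT.LocalBr.ResCore
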