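import Fermat.Agent.CFT.LocalBr.Defs
import Fermat.Agent.CFT.LocalBr.ResCore
import Fermat.Agent.S55.Glue.LocalLevel

/-!
# LOC-D: restriction rules on `H²(U, μ_p)` for open subgroups of the local Galois group

* `levelSub U F` : for `F/ℚ` finite normal, the normal finite-index subgroup
  `{s ∈ U | lvl q U s ∈ Fix F}` of `U`; level-constant cochains of `U` are exactly the cochains
  that are right-invariant under some `levelSub U F`.
* `resLoc_mu_injective'` (**D1**): restriction to an open subgroup of index prime to `p` is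
  injective on `H²(-, μ_p)` (finite-level descent + `GrpCoh.index_smul_eq_zero_of_rest`).
-/

set_option autoImplicit false

open CategoryTheory groupCohomology ExtCitation

namespace Fermat.Agent.CFT.LocalBr.ResRule

open Fermat.Agent.CFT.LocalBr Fermat.Agent.CFT.LocalBr.ResCore Fermat.Agent.S55.Glue

local notation "Qb" => AlgebraicClosure ℚ

local instance isAlgebraicQbar_rr : Algebra.IsAlgebraic ℚ (AlgebraicClosure ℚ) :=
  AlgebraicClosure.isAlgebraic ℚ
local instance isAlgClosureQbar_rr : IsAlgClosure ℚ (AlgebraicClosure ℚ) :=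
  ⟨inferInstance, inferInstance⟩
local instance normalQbar_rr : Normal ℚ (AlgebraicClosure ℚ) :=
  IsAlgClosure.normal ℚ (AlgebraicClosure ℚ)

variable {q : ℕ} [Fact q.Prime]

/-- The level subgroup of `U` attached to a normal `F/ℚ`: `{s ∈ U | lvl q U s ∈ Fix F}`. -/
noncomputable def levelSub (U : Subgroup (Gq q)) (F : IntermediateField ℚ Qb) [Normal ℚ F] :
    Subgroup ↥U :=
  ((AlgEquiv.restrictNormalHom (F := ℚ) (K₁ := Qb) F).comp (lvl q U)).ker

theorem mem_levelSub_iff (U : Subgroup (Gq q)) (F : IntermediateField ℚ Qb) [Normal ℚ F]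
    (s : ↥U) : s ∈ levelSub U F ↔ lvl q U s ∈ F.fixingSubgroup := by
  rw [levelSub, MonoidHom.mem_ker, MonoidHom.comp_apply, ← MonoidHom.mem_ker]
  exact SetLike.ext_iff.1 (@IntermediateField.restrictNormalHom_ker ℚ Qb _ _ _ F ‹Normal ℚ F›) _

instance levelSub_normal (U : Subgroup (Gq q)) (F : IntermediateField ℚ Qb) [Normal ℚ F] :
    (levelSub U F).Normal :=
  MonoidHom.normal_ker _

instance levelSub_finite_quotient (U : Subgroup (Gq q)) (F : IntermediateField ℚ Qb) [Normal ℚ F]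
    [FiniteDimensional ℚ F] : Finite (↥U ⧸ levelSub U F) := by
  have : Finite (F ≃ₐ[ℚ] F) := inferInstance
  have : (levelSub U F).FiniteIndex := Subgroup.finiteIndex_ker _
  infer_instance

theorem levelSub_antitone (U : Subgroup (Gq q)) {F F' : IntermediateField ℚ Qb} [Normal ℚ F]
    [Normal ℚ F'] (h : F ≤ F') : levelSub U F' ≤ levelSub U F := by
  intro s hs
  rw [mem_levelSub_iff] at hs ⊢
  exact IntermediateField.fixingSubgroup_antitone h hs

/-- A level subgroup is contained in a given open subgroup, for a suitable level. -/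
theorem levelSub_le_of_le_localLevelField {U U' : Subgroup (Gq q)}
    {E' : IntermediateField ℚ_[q] (PadicAlgCl q)} (hU' : U' = E'.fixingSubgroup)
    (F : IntermediateField ℚ Qb) [Normal ℚ F] (hE' : E' ≤ localLevelField q F) :
    levelSub U F ≤ U'.subgroupOf U := by
  intro s hs
  rw [mem_levelSub_iff] at hs
  rw [Subgroup.mem_subgroupOf, hU']
  exact IntermediateField.fixingSubgroup_antitone hE'
    ((mem_fixingSubgroup_localLevelField_iff q F (s : Gq q)).2 hs)

theorem rightInv₂_of_le {U : Subgroup (Gq q)} {X : Type*} {f : ↥U × ↥U → X}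
    {F₁ : IntermediateField ℚ Qb}
    (h : ∀ g g' s s' : ↥U, lvl q U s ∈ F₁.fixingSubgroup → lvl q U s' ∈ F₁.fixingSubgroup →
      f (g * s, g' * s') = f (g, g'))
    (F : IntermediateField ℚ Qb) [Normal ℚ F] (hF : F₁ ≤ F) : RightInv₂ (levelSub U F) f := by
  intro g g' s s' hs hs'
  rw [mem_levelSub_iff] at hs hs'
  exact h g g' s s' (IntermediateField.fixingSubgroup_antitone hF hs)
    (IntermediateField.fixingSubgroup_antitone hF hs')

theorem isLevelConstant₁_of_rightInv₁ {U : Subgroup (Gq q)} {X : Type*} {b : ↥U → X}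
    (F : IntermediateField ℚ Qb) [Normal ℚ F] [FiniteDimensional ℚ F]
    (hb : RightInv₁ (levelSub U F) b) : IsLevelConstant₁ (lvl q U) b :=
  ⟨F, inferInstance, fun g s hs => hb g s ((mem_levelSub_iff U F s).2 hs)⟩

/-- A common finite normal level above three given finite levels. -/
theorem exists_normal_level (F₁ F₂ F₃ : IntermediateField ℚ Qb) [FiniteDimensional ℚ F₁]
    [FiniteDimensional ℚ F₂] [FiniteDimensional ℚ F₃] :
    ∃ F : IntermediateField ℚ Qb, FiniteDimensional ℚ F ∧ Normal ℚ F ∧ F₁ ≤ F ∧ F₂ ≤ F ∧ F₃ ≤ F := by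
  have hfin : FiniteDimensional ℚ (F₁ ⊔ F₂ ⊔ F₃ : IntermediateField ℚ Qb) := inferInstance
  refine ⟨IntermediateField.normalClosure ℚ (F₁ ⊔ F₂ ⊔ F₃ : IntermediateField ℚ Qb) Qb,
    inferInstance, normalClosure.normal ℚ _ Qb, ?_, ?_, ?_⟩
  · exact (le_sup_left.trans le_sup_left).trans (IntermediateField.le_normalClosure _)
  · exact (le_sup_right.trans le_sup_left).trans (IntermediateField.le_normalClosure _)
  · exact le_sup_right.trans (IntermediateField.le_normalClosure _)

variable (p : ℕ) [Fact p.Prime]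

/-- **(D1)** Restriction to an open subgroup of index prime to `p` is injective on
`H²(-, μ_p)`. -/
theorem resLoc_mu_injective' {U' U : Subgroup (Gq q)} (hU' : IsOpenSub q U') (h : U' ≤ U)
    (hp : ¬ p ∣ U'.relIndex U) :
    Function.Injective (resLoc (muLoc q p) h) := by
  rw [injective_iff_map_eq_zero]
  intro x hx
  obtain ⟨f, rfl⟩ := Submodule.Quotient.mk_surjective _ x
  have hx' := (continuousH2π_eq_zero_iff (lvl q U') (Rep.res U'.subtype (muLoc q p)) _).1 hx
  obtain ⟨c', hc'l, hc'⟩ := (mem_levelCoboundaries₂_iff _ _ _).1 hx'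
  obtain ⟨F₁, hF₁, hf₁⟩ := f.2.2
  obtain ⟨F₂, hF₂, hc₂⟩ := hc'l
  obtain ⟨E', hE'fin, hE'⟩ := hU'
  obtain ⟨F₃, hF₃, hF₃n, hE'F₃⟩ := exists_normal_le_localLevelField q E'
  obtain ⟨F, hF, hFn, hF₁F, hF₂F, hF₃F⟩ := exists_normal_level F₁ F₂ F₃
  -- the data for the core lemma
  have hNH : levelSub U F ≤ U'.subgroupOf U :=
    (levelSub_antitone U hF₃F).trans (levelSub_le_of_le_localLevelField hE' F₃ hE'F₃)
  have hN : RightInv₂ (levelSub U F) (f : ↥U × ↥U → (Rep.res U.subtype (muLoc q p))) :=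
    rightInv₂_of_le hf₁ F hF₁F
  have hfin : (U'.subgroupOf U).FiniteIndex :=
    ⟨fun h0 => hp (by rw [Subgroup.relIndex, h0]; exact dvd_zero p)⟩
  have hidx : IsUnit (((U'.subgroupOf U).index : ℕ) : ZMod p) :=
    (ZMod.isUnit_iff_coprime _ p).2
      (Nat.Coprime.symm ((Nat.Prime.coprime_iff_not_dvd Fact.out).2 hp))
  let c : ↥(U'.subgroupOf U) → (Rep.res U.subtype (muLoc q p)) := fun x => c' ⟨x.1.1, x.2⟩
  have hcN : ∀ (h₁ s : ↥(U'.subgroupOf U)), (s : ↥U) ∈ levelSub U F → c (h₁ * s) = c h₁ := by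
    intro h₁ s hs
    rw [mem_levelSub_iff] at hs
    exact hc₂ ⟨h₁.1.1, h₁.2⟩ ⟨s.1.1, s.2⟩ (IntermediateField.fixingSubgroup_antitone hF₂F hs)
  have hc : ∀ h₁ h₂ : ↥(U'.subgroupOf U),
      (Rep.res U.subtype (muLoc q p)).ρ (h₁ : ↥U) (c h₂) - c (h₁ * h₂) + c h₁
        = (f : ↥U × ↥U → (Rep.res U.subtype (muLoc q p))) ((h₁ : ↥U), (h₂ : ↥U)) := by
    intro h₁ h₂
    have := congrFun hc' (⟨h₁.1.1, h₁.2⟩, ⟨h₂.1.1, h₂.2⟩)
    rw [d₁₂_hom_apply] at this
    exact this
  obtain ⟨b, hb, hb'⟩ := exists_cochain_of_restrict (levelSub U F) (Rep.res U.subtype (muLoc q p))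
    (U'.subgroupOf U) hNH hidx f f.2.1 hN c hcN hc
  refine (continuousH2π_eq_zero_iff _ _ _).2 ((mem_levelCoboundaries₂_iff _ _ _).2
    ⟨b, isLevelConstant₁_of_rightInv₁ F hb, ?_⟩)
  funext ⟨g, g'⟩
  rw [d₁₂_hom_apply]
  exact hb' g g'

end Fermat.Agent.CFT.LocalBr.ResRule
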