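/-
LOC-C4 (local instantiation of the LC bridge): the level-constant cohomology of an open
subgroup `U` of the local Galois group `Gq q` versus its finite layers `layer U V`.

* `openBasis U hU` : the open normal subgroups of `U` (`V.subgroupOf U`, `V` open, `V ≤ U`)
  form a `LevelBasis`, cofinal with the levels of `lvl q U` (`openBasis_equiv`);
* `smooth_unitsRep` : `ℚ̄_q^×` is smooth;
* `h90_of_layers`, `h90On_of_layers` : Hilbert 90 on level-constant cochains from
  `H¹(layer V W) = 0`;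
* `finrank_H2loc_of_layers` : `dim H²(U, T) = 1` for a Kummer datum `T → ℚ̄_q^×` from the
  finite-layer inputs (Hilbert 90, cyclicity of `H²(layer U V)`, one class of order `p`).
-/
import Fermat.Agent.CFT.LC.ContH2
import Fermat.Agent.CFT.LocalBr.Defs
import Fermat.Agent.S55.Glue.LocalLevel

set_option autoImplicit false

open CategoryTheory groupCohomology ExtCitation

namespace Fermat.Agent.CFT.LocalBr.LCLocal

open Fermat.Agent.CFT.LocalBr Fermat.Agent.CFT.LC Fermat.Agent.S55.Glue

variable {q : ℕ} [Fact q.Prime]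

local notation "Qb" => AlgebraicClosure ℚ

/-- The intersection of two open subgroups is open. -/
lemma isOpenSub_inf {V W : Subgroup (Gq q)} (hV : IsOpenSub q V) (hW : IsOpenSub q W) :
    IsOpenSub q (V ⊓ W) := by
  obtain ⟨E, hE, rfl⟩ := hV
  obtain ⟨E', hE', rfl⟩ := hW
  exact ⟨E ⊔ E', inferInstance, IntermediateField.fixingSubgroup_sup.symm⟩

/-- The preimage of `Fix F`, `F/ℚ` finite, is open. -/
lemma isOpenSub_comap (F : IntermediateField ℚ Qb) [FiniteDimensional ℚ F] :
    IsOpenSub q (F.fixingSubgroup.comap (localGaloisToGlobal q)) :=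
  ⟨localLevelField q F, finiteDimensional_localLevelField q F, comap_fixingSubgroup_eq q F⟩

/-- Every open subgroup contains the preimage of `Fix F` for some finite normal `F/ℚ`. -/
lemma exists_comap_le_of_isOpenSub {V : Subgroup (Gq q)} (hV : IsOpenSub q V) :
    ∃ F : IntermediateField ℚ Qb, FiniteDimensional ℚ F ∧ Normal ℚ F ∧
      F.fixingSubgroup.comap (localGaloisToGlobal q) ≤ V := by
  obtain ⟨E, hE, rfl⟩ := hV
  obtain ⟨F, hF, hFn, hle⟩ := exists_normal_le_localLevelField q E
  refine ⟨F, hF, hFn, ?_⟩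
  rw [comap_fixingSubgroup_eq]
  exact IntermediateField.fixingSubgroup_antitone hle

lemma lev_lvl_eq (U : Subgroup (Gq q)) (F : IntermediateField ℚ Qb) :
    lev (lvl q U) F = (F.fixingSubgroup.comap (localGaloisToGlobal q)).subgroupOf U := rfl

/-- The open normal subgroups of an open subgroup `U`. -/
noncomputable def openBasis (U : Subgroup (Gq q)) (hU : IsOpenSub q U) : LevelBasis ↥U where
  mem N := ∃ V : Subgroup (Gq q), IsOpenSub q V ∧ V ≤ U ∧ (V.subgroupOf U).Normal ∧
    N = V.subgroupOf U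
  normal := by
    rintro _ ⟨V, _, _, h, rfl⟩
    exact h
  finiteIndex := by
    rintro _ ⟨V, hV, _, _, rfl⟩
    obtain ⟨F, hF, hFn, hle⟩ := exists_comap_le_of_isOpenSub hV
    have := lev_finiteIndex (lvl q U) F
    refine Subgroup.finiteIndex_of_le (H := lev (lvl q U) F) ?_
    rw [lev_lvl_eq]
    exact fun x hx => hle hx
  directed := by
    rintro _ _ ⟨V, hV, hVU, hVn, rfl⟩ ⟨W, hW, hWU, hWn, rfl⟩
    refine ⟨(V ⊓ W).subgroupOf U, ⟨V ⊓ W, isOpenSub_inf hV hW, inf_le_left.trans hVU, ?_, rfl⟩, ?_⟩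
    · have h1 : (V ⊓ W).subgroupOf U = V.subgroupOf U ⊓ W.subgroupOf U := by
        ext x
        simp [Subgroup.mem_subgroupOf]
      rw [h1]
      exact Subgroup.normal_inf_normal _ _
    · intro x hx
      exact ⟨hx.1, hx.2⟩
  nonempty := ⟨U.subgroupOf U, U, hU, le_rfl, by rw [Subgroup.subgroupOf_self]; infer_instance,
    rfl⟩

/-- The level `lev (lvl q U) F` is an open normal subgroup of `U`. -/
lemma mem_openBasis_lev {U : Subgroup (Gq q)} (hU : IsOpenSub q U) (F : IntermediateField ℚ Qb)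
    [FiniteDimensional ℚ F] [Normal ℚ F] : (openBasis U hU).mem (lev (lvl q U) F) := by
  refine ⟨F.fixingSubgroup.comap (localGaloisToGlobal q) ⊓ U, isOpenSub_inf (isOpenSub_comap F) hU,
    inf_le_right, ?_, ?_⟩
  · rw [Subgroup.inf_subgroupOf_right, ← lev_lvl_eq]
    exact lev_normal (lvl q U) F
  · rw [Subgroup.inf_subgroupOf_right, ← lev_lvl_eq]

/-- Below every open subgroup there is a member of `openBasis U`. -/
lemma exists_mem_openBasis_le {U : Subgroup (Gq q)} (hU : IsOpenSub q U) {V₀ : Subgroup (Gq q)}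
    (hV₀ : IsOpenSub q V₀) : ∃ N, (openBasis U hU).mem N ∧ N ≤ V₀.subgroupOf U := by
  obtain ⟨F, hF, hFn, hle⟩ := exists_comap_le_of_isOpenSub hV₀
  exact ⟨lev (lvl q U) F, mem_openBasis_lev hU F, fun x hx => hle hx⟩

/-- `openBasis U` is cofinal with the levels of `lvl q U`. -/
theorem openBasis_equiv {U : Subgroup (Gq q)} (hU : IsOpenSub q U) :
    (openBasis U hU).Equiv (basisOf (lvl q U)) := by
  constructor
  · rintro _ ⟨V, hV, _, _, rfl⟩
    obtain ⟨F, hF, hFn, hle⟩ := exists_comap_le_of_isOpenSub hV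
    exact ⟨lev (lvl q U) F, mem_basisOf_lev (lvl q U) F, fun x hx => hle hx⟩
  · rintro _ ⟨F, hF, hFn, rfl⟩
    exact ⟨lev (lvl q U) F, mem_openBasis_lev hU F, le_rfl⟩

/-- Level-constancy for `lvl q U` is level-constancy for `openBasis U`. -/
theorem const₁_openBasis_iff {U : Subgroup (Gq q)} (hU : IsOpenSub q U) {X : Type*}
    (f : ↥U → X) : (openBasis U hU).Const₁ f ↔ IsLevelConstant₁ (lvl q U) f :=
  ((openBasis_equiv hU).const₁_iff f).trans (const₁_basisOf_iff (lvl q U) f)

theorem const₂_openBasis_iff {U : Subgroup (Gq q)} (hU : IsOpenSub q U) {X : Type*}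
    (f : ↥U × ↥U → X) : (openBasis U hU).Const₂ f ↔ IsLevelConstant₂ (lvl q U) f :=
  ((openBasis_equiv hU).const₂_iff f).trans (const₂_basisOf_iff (lvl q U) f)

/-- Every element of `ℚ̄_q^×` is fixed by an open normal subgroup of `U`. -/
theorem smooth_unitsRep {U : Subgroup (Gq q)} (hU : IsOpenSub q U) :
    (openBasis U hU).Smooth (Rep.res U.subtype (unitsRep q)) := by
  intro a
  obtain ⟨b, hb⟩ := exists_mem_adjoin_padicEmbedding q
    ((Additive.toMul (a : Additive (PadicAlgCl q)ˣ) : (PadicAlgCl q)ˣ) : PadicAlgCl q)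
  obtain ⟨E, hE⟩ : ∃ E : IntermediateField ℚ_[q] (PadicAlgCl q),
      E = IntermediateField.adjoin ℚ_[q] {padicEmbedding q b} := ⟨_, rfl⟩
  have hfin : FiniteDimensional ℚ_[q] E := by
    rw [hE]
    exact IntermediateField.adjoin.finiteDimensional (Algebra.IsIntegral.isIntegral _)
  obtain ⟨N, hN, hle⟩ := exists_mem_openBasis_le hU (V₀ := E.fixingSubgroup) ⟨E, hfin, rfl⟩
  refine ⟨N, hN, fun s hs => ?_⟩
  have h1 : (s : Gq q) ∈ E.fixingSubgroup := hle hs
  rw [IntermediateField.mem_fixingSubgroup_iff] at h1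
  have h2 := h1 _ (hE ▸ hb)
  show Additive.ofMul (Units.map ((s : Gq q) : PadicAlgCl q →* PadicAlgCl q)
    (Additive.toMul a)) = a
  apply Additive.toMul.injective
  apply Units.ext
  exact h2

section Layers

variable {U : Subgroup (Gq q)}

/-- Hilbert 90 on level-constant cochains of an open subgroup, from `H¹ = 0` on its layers. -/
theorem h90_of_layers (hU : IsOpenSub q U)
    (h90 : ∀ W : Subgroup (Gq q), IsOpenSub q W → W ≤ U → ∀ [(W.subgroupOf U).Normal],
      Limits.IsZero (groupCohomology (layer U W) 1)) :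
    H90 (openBasis U hU) (Rep.res U.subtype (unitsRep q)) := by
  refine H90.of_levels _ (smooth_unitsRep hU) ?_
  rintro _ ⟨W, hW, hWU, hWn, rfl⟩ y hy hcoc
  obtain ⟨a, -, ha⟩ := exists_of_isLevel₁_of_isZero (h90 W hW hWU) hy hcoc
  exact ⟨a, ha⟩

/-- Hilbert 90 on level-constant cochains of the open subgroups of `U`. -/
theorem h90On_of_layers (hU : IsOpenSub q U)
    (h90 : ∀ V W : Subgroup (Gq q), IsOpenSub q V → IsOpenSub q W → W ≤ V →
      ∀ [(W.subgroupOf V).Normal], Limits.IsZero (groupCohomology (layer V W) 1))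
    (N : Subgroup ↥U) (hN : (openBasis U hU).mem N) :
    H90On (openBasis U hU) (Rep.res U.subtype (unitsRep q)) N := by
  obtain ⟨V, hV, hVU, hVn, rfl⟩ := hN
  refine H90On.of_along_equiv (Subgroup.subgroupOfEquivOfLe hVU).symm ?_
  intro y hy hcoc
  have hV90 := h90_of_layers hV (fun W hW hWV => h90 V W hV hW hWV)
  obtain ⟨_, ⟨W, hW, hWU, hWn, rfl⟩, hc⟩ := hy
  refine hV90 y ?_ (fun s t => hcoc s t)
  obtain ⟨M, hM, hle⟩ := exists_mem_openBasis_le hV hW
  exact ⟨M, hM, fun t s hs => hc t s (hle hs)⟩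

end Layers

section Main

variable (p : ℕ) [Fact p.Prime] {U : Subgroup (Gq q)}

/-- **LOC-C from the finite layers.**  Let `T` be a representation of `Gq q` over `𝔽_p` with a
Kummer datum `i : T → ℚ̄_q^×` (e.g. `T = muLoc q p`).  If `H¹` vanishes on all layers
(Hilbert 90), `H²(layer U V)` is cyclic for every open normal `V ≤ U`, and some layer of `U`
carries a class of exact order `p`, then `H²(U, T)` (level-constant cochains) is
one-dimensional. -/
theorem finrank_H2loc_of_layers (hU : IsOpenSub q U) (T : Rep (ZMod p) (Gq q))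
    (i : T →+ unitsRep q) (hK : IsKummer i p)
    (h90 : ∀ V W : Subgroup (Gq q), IsOpenSub q V → IsOpenSub q W → W ≤ V →
      ∀ [(W.subgroupOf V).Normal], Limits.IsZero (groupCohomology (layer V W) 1))
    (hcyc : ∀ V : Subgroup (Gq q), IsOpenSub q V → V ≤ U → ∀ [(V.subgroupOf U).Normal],
      IsAddCyclic (groupCohomology (layer U V) 2))
    (hord : ∃ V : Subgroup (Gq q), IsOpenSub q V ∧ V ≤ U ∧ ∃ _ : (V.subgroupOf U).Normal,
      ∃ x : groupCohomology (layer U V) 2, x ≠ 0 ∧ p • x = 0) :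
    Module.finrank (ZMod p) (H2loc T U) = 1 := by
  have hp : p.Prime := Fact.out
  have hK' : IsKummer (T := Rep.res U.subtype T) (A := Rep.res U.subtype (unitsRep q)) i p :=
    ⟨hK.inj, fun g t => hK.equivariant (g : Gq q) t, hK.range, hK.div⟩
  refine finrank_continuousH2_eq_one (lvl q U) (Rep.res U.subtype T)
    (Rep.res U.subtype (unitsRep q)) (openBasis U hU) (openBasis_equiv hU) i hK'
    (smooth_unitsRep hU) (h90_of_layers hU (fun W hW hWU => h90 U W hU hW hWU))
    (h90On_of_layers hU h90) ?_ ?_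
  · rintro _ ⟨V, hV, hVU, hVn, rfl⟩
    exact pTorsionCyclicAt_of_isAddCyclic hp (hcyc V hV hVU)
  · obtain ⟨V, hV, hVU, hVn, x, hx0, hpx⟩ := hord
    exact ⟨V.subgroupOf U, ⟨V, hV, hVU, hVn, rfl⟩, exists_level_cocycle_of_class x hx0 hpx⟩

end Main

end Fermat.Agent.CFT.LocalBr.LCLocal
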