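/-
LOC: Hilbert 90 and the Kummer comparison for open subgroups of the local Galois group, in the
Prelude's level-constant cochain language (unconditional).

* `h90_local`, `h90On_local` : Hilbert 90 for level-constant 1-cocycles `U → ℚ̄_q^×` (from
  helper177's `Cyclic.exists_smul_div_eq_of_levelConstant`);
* `isKummer_muEmb` : `muEmb q p` is a Kummer datum `μ_p → ℚ̄_q^×`;
* `kummer_injective_loc`, `kummer_surjective_loc` : `H²(U, μ_p) → H²(U, ℚ̄_q^×)` is injective
  with image the `p`-torsion (cochain form);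
* `isCobAt_of_mem_levelCoboundaries₂` : inflation from a layer of `U` is injective;
* `finrank_H2mu_of_layers` : `dim H²(U, μ_p) = 1` from the cyclicity of `H²` of the layers.
-/
import Fermat.Agent.CFT.LocalBr.LCLocal
import Fermat.Agent.CFT.LocalBr.MuEmb
import Fermat.Agent.CFT.Cyclic.Galois

set_option autoImplicit false

open CategoryTheory groupCohomology ExtCitation

namespace Fermat.Agent.CFT.LocalBr.KummerLoc

open Fermat.Agent.CFT.LocalBr Fermat.Agent.CFT.LocalBr.LCLocal Fermat.Agent.CFT.LC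

variable {q : ℕ} [Fact q.Prime]

/-- Hilbert 90 for level-constant 1-cocycles of any subgroup of the local Galois group. -/
theorem h90_core (H : Subgroup (Gq q)) (y : ↥H → unitsRep q)
    (hcoc : ∀ s t : ↥H, y (s * t) = (unitsRep q).ρ (s : Gq q) (y t) + y s)
    (E : IntermediateField ℚ_[q] (PadicAlgCl q)) [FiniteDimensional ℚ_[q] E]
    (hE : ∀ t s : ↥H, (s : Gq q) ∈ E.fixingSubgroup → y (t * s) = y t) :
    ∃ a : unitsRep q, ∀ s : ↥H, y s = (unitsRep q).ρ (s : Gq q) a - a := by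
  classical
  obtain ⟨x, hx⟩ := Cyclic.exists_smul_div_eq_of_levelConstant H
    (fun g => if hg : g ∈ H then Additive.toMul (y ⟨g, hg⟩ : Additive (PadicAlgCl q)ˣ) else 1)
    (fun g hg h hh => by
      simp only [dif_pos hg, dif_pos hh, dif_pos (H.mul_mem hg hh)]
      have h1 := hcoc ⟨g, hg⟩ ⟨h, hh⟩
      exact congrArg Additive.toMul h1)
    E
    (fun g hg s hs hsE => by
      simp only [dif_pos hg, dif_pos (H.mul_mem hg hs)]
      exact congrArg Additive.toMul (hE ⟨g, hg⟩ ⟨s, hs⟩ hsE))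
  refine ⟨Additive.ofMul x, fun s => ?_⟩
  have h1 := hx s s.2
  simp only [dif_pos s.2] at h1
  have h2 : (y s : Additive (PadicAlgCl q)ˣ) = Additive.ofMul ((s : Gq q) • x / x) := by
    rw [h1]; rfl
  exact h2

variable {U : Subgroup (Gq q)}

/-- **Hilbert 90** for level-constant 1-cocycles `U → ℚ̄_q^×`. -/
theorem h90_local (hU : IsOpenSub q U) :
    H90 (openBasis U hU) (Rep.res U.subtype (unitsRep q)) := by
  rintro y ⟨_, ⟨V, ⟨E, hE, rfl⟩, hVU, hVn, rfl⟩, hc⟩ hcoc
  exact h90_core U y hcoc E (fun t s hs => hc t s hs)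

/-- **Hilbert 90** for level-constant 1-cocycles of the open subgroups of `U`. -/
theorem h90On_local (hU : IsOpenSub q U) (N : Subgroup ↥U) (hN : (openBasis U hU).mem N) :
    H90On (openBasis U hU) (Rep.res U.subtype (unitsRep q)) N := by
  obtain ⟨V, hV, hVU, hVn, rfl⟩ := hN
  rintro y ⟨_, ⟨W, ⟨E, hE, rfl⟩, hWU, hWn, rfl⟩, hc⟩ hcoc
  obtain ⟨a, ha⟩ := h90_core V (fun v => y ⟨⟨v, hVU v.2⟩, v.2⟩)
    (fun s t => hcoc ⟨⟨s, hVU s.2⟩, s.2⟩ ⟨⟨t, hVU t.2⟩, t.2⟩) E
    (fun t s hs => hc ⟨⟨t, hVU t.2⟩, t.2⟩ ⟨⟨s, hVU s.2⟩, s.2⟩ hs)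
  exact ⟨a, fun s => ha ⟨s.1.1, s.2⟩⟩

variable (p : ℕ) [Fact p.Prime]

/-- `muEmb` as an additive map between the underlying modules of `muLoc` and `unitsRep`. -/
noncomputable def muHom : (muLoc q p) →+ (unitsRep q) := muEmb q p

@[simp] lemma muHom_apply (a : muLoc q p) : muHom (q := q) p a = muEmb q p a := rfl

/-- `muEmb` is a Kummer datum. -/
theorem isKummer_muHom : IsKummer (T := muLoc q p) (A := unitsRep q) (muHom p) p := by
  have hp : p.Prime := Fact.out
  refine ⟨muEmb_injective q p, fun g t => (muEmb_equivariant q p g t).symm, fun a => ?_, fun a => ?_⟩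
  · exact ((mem_range_muEmb_iff q p a).symm.trans Set.mem_range)
  · exact exists_nsmul_eq_units q hp.ne_zero a

/-- The Kummer datum restricted to a subgroup. -/
theorem isKummer_muHom_res (U : Subgroup (Gq q)) :
    IsKummer (T := Rep.res U.subtype (muLoc q p)) (A := Rep.res U.subtype (unitsRep q))
      (muHom p) p := by
  have hK := isKummer_muHom (q := q) p
  exact ⟨hK.inj, fun g t => hK.equivariant (g : Gq q) t, hK.range, hK.div⟩

/-- **Kummer injectivity** (Prelude form): a `μ_p`-valued 2-cochain of `U` which becomes a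
level-constant coboundary in `ℚ̄_q^×` is a level-constant coboundary in `μ_p`. -/
theorem kummer_injective_loc (hU : IsOpenSub q U) (t : ↥U × ↥U → muLoc q p)
    (h : (fun x => muHom p (t x)) ∈
      levelCoboundaries₂ (lvl q U) (Rep.res U.subtype (unitsRep q))) :
    t ∈ levelCoboundaries₂ (lvl q U) (Rep.res U.subtype (muLoc q p)) := by
  rw [mem_levelCoboundaries₂_iff_isCob, ← (openBasis_equiv hU).isCob_iff] at h ⊢
  obtain ⟨x, hx, hd⟩ := h
  obtain ⟨y, hy, hdy⟩ := kummer_injective (openBasis U hU) (smooth_unitsRep hU)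
    (isKummer_muHom_res p U) (h90_local hU) (c := t) hx hd
  exact ⟨y, hy, hdy⟩

/-- **Kummer surjectivity onto the `p`-torsion** (Prelude form). -/
theorem kummer_surjective_loc (hU : IsOpenSub q U) (f : ↥U × ↥U → unitsRep q)
    (hf : f ∈ levelCocycles₂ (lvl q U) (Rep.res U.subtype (unitsRep q)))
    (hpf : p • f ∈ levelCoboundaries₂ (lvl q U) (Rep.res U.subtype (unitsRep q))) :
    ∃ t : ↥U × ↥U → muLoc q p, t ∈ levelCocycles₂ (lvl q U) (Rep.res U.subtype (muLoc q p)) ∧
      ((fun x => muHom p (t x)) - f) ∈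
        levelCoboundaries₂ (lvl q U) (Rep.res U.subtype (unitsRep q)) := by
  rw [mem_levelCocycles₂_iff_isCoc₂, ← (openBasis_equiv hU).const₂_iff] at hf
  rw [mem_levelCoboundaries₂_iff_isCob, ← (openBasis_equiv hU).isCob_iff] at hpf
  obtain ⟨x, hx, hd⟩ := hpf
  obtain ⟨c, hc, hcc, z, hz, hdz⟩ := kummer_surjective (openBasis U hU) (smooth_unitsRep hU)
    (isKummer_muHom_res p U) hf.2 hf.1 hx hd
  refine ⟨c, ?_, ?_⟩
  · rw [mem_levelCocycles₂_iff_isCoc₂, ← (openBasis_equiv hU).const₂_iff]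
    exact ⟨hcc, hc⟩
  · rw [mem_levelCoboundaries₂_iff_isCob, ← (openBasis_equiv hU).isCob_iff]
    exact ⟨z, hz, hdz⟩

/-- **Inflation is injective**: a 2-cochain of level `V` (an open normal subgroup of `U`) which
is a level-constant coboundary of `U` with values in `ℚ̄_q^×` is a coboundary at level `V`. -/
theorem isCobAt_of_mem_levelCoboundaries₂ (hU : IsOpenSub q U) {V : Subgroup (Gq q)}
    (hV : IsOpenSub q V) (hVU : V ≤ U) [hVn : (V.subgroupOf U).Normal]
    {f : ↥U × ↥U → unitsRep q}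
    (hf : IsLevel₂ (Rep.res U.subtype (unitsRep q)) (V.subgroupOf U) f)
    (h : f ∈ levelCoboundaries₂ (lvl q U) (Rep.res U.subtype (unitsRep q))) :
    IsCobAt (Rep.res U.subtype (unitsRep q)) (V.subgroupOf U) f := by
  rw [mem_levelCoboundaries₂_iff_isCob, ← (openBasis_equiv hU).isCob_iff] at h
  obtain ⟨x, hx, hd⟩ := h
  exact exists_isLevel₁_of_dOne_eq (openBasis U hU) ⟨V, hV, hVU, hVn, rfl⟩
    (h90On_local hU _ ⟨V, hV, hVU, hVn, rfl⟩) hf hx hd

/-- **LOC-C from the finite layers** (Hilbert 90 and the Kummer datum built in): if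
`H²(layer U V)` is cyclic for every open normal `V ≤ U` and some layer of `U` carries a class
of exact order `p`, then `H²(U, μ_p)` is one-dimensional. -/
theorem finrank_H2mu_of_layers (hU : IsOpenSub q U)
    (hcyc : ∀ V : Subgroup (Gq q), IsOpenSub q V → V ≤ U → ∀ [(V.subgroupOf U).Normal],
      IsAddCyclic (groupCohomology (layer U V) 2))
    (hord : ∃ V : Subgroup (Gq q), IsOpenSub q V ∧ V ≤ U ∧ ∃ _ : (V.subgroupOf U).Normal,
      ∃ x : groupCohomology (layer U V) 2, x ≠ 0 ∧ p • x = 0) :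
    Module.finrank (ZMod p) (H2loc (muLoc q p) U) = 1 := by
  have hp : p.Prime := Fact.out
  refine finrank_continuousH2_eq_one (lvl q U) (Rep.res U.subtype (muLoc q p))
    (Rep.res U.subtype (unitsRep q)) (openBasis U hU) (openBasis_equiv hU) (muHom p)
    (isKummer_muHom_res p U) (smooth_unitsRep hU) (h90_local hU) (h90On_local hU) ?_ ?_
  · rintro _ ⟨V, hV, hVU, hVn, rfl⟩
    exact pTorsionCyclicAt_of_isAddCyclic hp (hcyc V hV hVU)
  · obtain ⟨V, hV, hVU, hVn, x, hx0, hpx⟩ := hord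
    exact ⟨V.subgroupOf U, ⟨V, hV, hVU, hVn, rfl⟩, exists_level_cocycle_of_class x hx0 hpx⟩

end Fermat.Agent.CFT.LocalBr.KummerLoc
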