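import Fermat.Agent.CFT.LocalBr.MuEmb
import Fermat.Agent.CFT.LocalBr.ResRule
import Fermat.Agent.CFT.LocalBr.KummerLoc

/-!
# LOC-D2: restriction to an open subgroup of index divisible by `p` kills `H²(-, μ_p)`

Assembly from the abstract core `ResCore.exists_cochain_restrict_of_torsion` and two interfaces:
`LayerTorsion` (LOC-C3: finite layers have cyclic `H²`) and `KummerInj` (LC4: Kummer injectivity).
-/

set_option autoImplicit false

open CategoryTheory groupCohomology ExtCitation

namespace Fermat.Agent.CFT.LocalBr.ResRule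

open Fermat.Agent.CFT.LocalBr Fermat.Agent.CFT.LocalBr.ResCore Fermat.Agent.S55.Glue

local notation "Qb" => AlgebraicClosure ℚ

variable {q : ℕ} [Fact q.Prime] (p : ℕ) [Fact p.Prime]

/-- **Interface (Kummer injectivity, LC4)** at an open subgroup `U'`: a level-constant
`μ_p`-valued `2`-cocycle whose image in `ℚ̄_q^×` is a level-constant coboundary is itself a
level-constant coboundary. -/
def KummerInj (q p : ℕ) [Fact q.Prime] [Fact p.Prime] (U' : Subgroup (Gq q)) : Prop :=
  ∀ t : ↥U' × ↥U' → (Rep.res U'.subtype (muLoc q p)),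
    t ∈ levelCocycles₂ (lvl q U') (Rep.res U'.subtype (muLoc q p)) →
    (fun x => muEmb q p (t x) : ↥U' × ↥U' → (Rep.res U'.subtype (unitsRep q)))
      ∈ levelCoboundaries₂ (lvl q U') (Rep.res U'.subtype (unitsRep q)) →
    t ∈ levelCoboundaries₂ (lvl q U') (Rep.res U'.subtype (muLoc q p))

/-- **Interface (LOC-C3)** at an open subgroup `U`: in every finite layer `(U ⧸ V, (ℚ̄_q^×)^V)` the
`p`-torsion of `H²` consists of `([U : V] / p)`-multiples (true because `H²` is cyclic of order
`[U : V]`). -/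
def LayerTorsion (q p : ℕ) [Fact q.Prime] (U : Subgroup (Gq q)) : Prop :=
  ∀ (V : Subgroup (Gq q)) [(V.subgroupOf U).Normal], IsOpenSub q V → V ≤ U →
    ∀ x : groupCohomology (layer U V) 2, p • x = 0 →
      ∃ y : groupCohomology (layer U V) 2, x = (Nat.card (↥U ⧸ V.subgroupOf U) / p) • y

/-- The open subgroup of `Gq q` cut out inside `U = Fix E` by a global level `F`. -/
theorem subgroupOf_fixingSubgroup_sup_eq_levelSub {U : Subgroup (Gq q)}
    {E : IntermediateField ℚ_[q] (PadicAlgCl q)} (hE : U = E.fixingSubgroup)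
    (F : IntermediateField ℚ Qb) [Normal ℚ F] :
    ((E ⊔ localLevelField q F).fixingSubgroup).subgroupOf U = levelSub U F := by
  ext s
  rw [Subgroup.mem_subgroupOf, mem_levelSub_iff, IntermediateField.fixingSubgroup_sup,
    Subgroup.mem_inf, mem_fixingSubgroup_localLevelField_iff]
  constructor
  · exact fun hs => hs.2
  · exact fun hs => ⟨hE ▸ s.2, hs⟩

/-- **(D2)**, modulo the two interfaces `LayerTorsion` (LOC-C3) and `KummerInj` (LC4):
restriction to an open subgroup of index divisible by `p` is zero on `H²(-, μ_p)`. -/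
theorem resLoc_mu_eq_zero_of {U' U : Subgroup (Gq q)} (hU' : IsOpenSub q U')
    (hU : IsOpenSub q U) (h : U' ≤ U) (hp : p ∣ U'.relIndex U)
    (hC3 : LayerTorsion q p U) (hK : KummerInj q p U') :
    resLoc (muLoc q p) h = 0 := by
  apply LinearMap.ext
  intro x
  obtain ⟨f, rfl⟩ := Submodule.Quotient.mk_surjective _ x
  rw [LinearMap.zero_apply]
  suffices key : (fun x => muEmb q p (f.1 (Subgroup.inclusion h x.1, Subgroup.inclusion h x.2)) :
      ↥U' × ↥U' → (Rep.res U'.subtype (unitsRep q)))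
      ∈ levelCoboundaries₂ (lvl q U') (Rep.res U'.subtype (unitsRep q)) by
    have ht : (fun x : ↥U' × ↥U' => f.1 (Subgroup.inclusion h x.1, Subgroup.inclusion h x.2))
        ∈ levelCocycles₂ (lvl q U') (Rep.res U'.subtype (muLoc q p)) :=
      cochainsPullPush₂_mem_levelCocycles₂ (rH := lvl q U) (rG := lvl q U')
        (A := Rep.res U.subtype (muLoc q p)) (B := Rep.res U'.subtype (muLoc q p))
        (Subgroup.inclusion h) (fun _ => rfl) LinearMap.id (fun _ _ => rfl) f.2
    have h1 := hK _ ht key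
    exact (continuousH2π_eq_zero_iff (lvl q U') (Rep.res U'.subtype (muLoc q p)) ⟨_, ht⟩).2 h1
  obtain ⟨F₁, hF₁, hf₁⟩ := f.2.2
  obtain ⟨E', hE'fin, hE'⟩ := hU'
  obtain ⟨E, hEfin, hE⟩ := hU
  obtain ⟨F₃, hF₃, hF₃n, hE'F₃⟩ := exists_normal_le_localLevelField q E'
  obtain ⟨F, hF, hFn, hF₁F, -, hF₃F⟩ := exists_normal_level F₁ F₁ F₃
  -- the level subgroup as an open subgroup of `Gq q`
  have hLfin : FiniteDimensional ℚ_[q] (localLevelField q F) :=
    finiteDimensional_localLevelField q F
  have hVN := subgroupOf_fixingSubgroup_sup_eq_levelSub hE F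
  have hVopen : IsOpenSub q (E ⊔ localLevelField q F).fixingSubgroup :=
    ⟨E ⊔ localLevelField q F, inferInstance, rfl⟩
  have hVU : (E ⊔ localLevelField q F).fixingSubgroup ≤ U := by
    rw [hE]
    exact IntermediateField.fixingSubgroup_antitone le_sup_left
  have hnorm : (((E ⊔ localLevelField q F).fixingSubgroup).subgroupOf U).Normal := by
    rw [hVN]; infer_instance
  have hfinq : Finite (↥U ⧸ ((E ⊔ localLevelField q F).fixingSubgroup).subgroupOf U) := by
    rw [hVN]; infer_instance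
  have hNH : ((E ⊔ localLevelField q F).fixingSubgroup).subgroupOf U ≤ U'.subgroupOf U := by
    rw [hVN]
    exact (levelSub_antitone U hF₃F).trans (levelSub_le_of_le_localLevelField hE' F₃ hE'F₃)
  -- the `ℚ̄_q^×`-valued cocycle
  let g : ↥U × ↥U → (Rep.res U.subtype (unitsRep q)) := fun x => muEmb q p (f.1 x)
  have hg : g ∈ cocycles₂ (Rep.res U.subtype (unitsRep q)) := by
    rw [mem_cocycles₂_iff]
    intro a b c
    have hf := (mem_cocycles₂_iff (f : ↥U × ↥U → (Rep.res U.subtype (muLoc q p)))).1 f.2.1 a b c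
    have he : (Rep.res U.subtype (unitsRep q)).ρ a (g (b, c))
        = muEmb q p ((muLoc q p).ρ (a : Gq q) (f.1 (b, c))) :=
      muEmb_equivariant q p (a : Gq q) (f.1 (b, c))
    rw [he]
    change muEmb q p (f.1 (a * b, c)) + muEmb q p (f.1 (a, b)) =
      muEmb q p ((muLoc q p).ρ (a : Gq q) (f.1 (b, c))) + muEmb q p (f.1 (a, b * c))
    rw [← map_add, ← map_add]
    exact congrArg (muEmb q p) hf
  have hgN : RightInv₂ (((E ⊔ localLevelField q F).fixingSubgroup).subgroupOf U) g := by
    rw [hVN]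
    intro a b s s' hs hs'
    exact congrArg (muEmb q p) (rightInv₂_of_le hf₁ F hF₁F a b s s' hs hs')
  have hpg : ∀ x, p • g x = 0 := by
    intro x
    change p • muEmb q p (f.1 x) = 0
    rw [← map_nsmul]
    have : p • (f.1 x : ZMod p) = 0 := by
      rw [nsmul_eq_mul, ZMod.natCast_self, zero_mul]
    rw [this, map_zero]
  obtain ⟨c, hcN, hc⟩ := exists_cochain_restrict_of_torsion
    (((E ⊔ localLevelField q F).fixingSubgroup).subgroupOf U) (Rep.res U.subtype (unitsRep q))
    (U'.subgroupOf U) hNH p hp (hC3 _ hVopen hVU) g hg hgN hpg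
  refine (mem_levelCoboundaries₂_iff _ _ _).2
    ⟨fun u' => c ⟨⟨u'.1, h u'.2⟩, u'.2⟩, ⟨F, hF, ?_⟩, ?_⟩
  · intro a s hs
    refine hcN ⟨⟨a.1, h a.2⟩, a.2⟩ ⟨⟨s.1, h s.2⟩, s.2⟩ ?_
    rw [hVN, mem_levelSub_iff]
    exact hs
  · funext ⟨a, b⟩
    rw [d₁₂_hom_apply]
    exact hc ⟨⟨a.1, h a.2⟩, a.2⟩ ⟨⟨b.1, h b.2⟩, b.2⟩

/-- `LayerTorsion` from the structure of the finite layers: `H²(U ⧸ V, (ℚ̄_q^×)^V)` is cyclic of
order `[U : V]` (local class field theory, LOC-C3). -/
theorem layerTorsion_of_cyclic {U : Subgroup (Gq q)}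
    (hcyc : ∀ (V : Subgroup (Gq q)) [(V.subgroupOf U).Normal], IsOpenSub q V → V ≤ U →
      IsAddCyclic (groupCohomology (layer U V) 2) ∧
        Nat.card (groupCohomology (layer U V) 2) = V.relIndex U) :
    LayerTorsion q p U := by
  intro V _ hV hVU x hx
  obtain ⟨h1, h2⟩ := hcyc V hV hVU
  have hcard : Nat.card (↥U ⧸ V.subgroupOf U) = V.relIndex U := rfl
  rw [hcard]
  exact exists_nsmul_of_isAddCyclic_prime h2 Fact.out x hx

/-- Kummer injectivity holds at every open subgroup (helper275 / helper65's `KummerLoc`). -/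
theorem kummerInj {U' : Subgroup (Gq q)} (hU' : IsOpenSub q U') : KummerInj q p U' :=
  fun t _ h => KummerLoc.kummer_injective_loc p hU' t h

/-- **(D2)** from the structure of the finite layers of `U` (cyclic of order `[U : V]`):
restriction to an open subgroup of index divisible by `p` is zero on `H²(-, μ_p)`. -/
theorem resLoc_mu_eq_zero_of_layers {U' U : Subgroup (Gq q)} (hU' : IsOpenSub q U')
    (hU : IsOpenSub q U) (h : U' ≤ U) (hp : p ∣ U'.relIndex U)
    (hcyc : ∀ (V : Subgroup (Gq q)) [(V.subgroupOf U).Normal], IsOpenSub q V → V ≤ U →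
      IsAddCyclic (groupCohomology (layer U V) 2) ∧
        Nat.card (groupCohomology (layer U V) 2) = V.relIndex U) :
    resLoc (muLoc q p) h = 0 :=
  resLoc_mu_eq_zero_of p hU' hU h hp (layerTorsion_of_cyclic p hcyc) (kummerInj p hU')

end Fermat.Agent.CFT.LocalBr.ResRule
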