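import Fermat.Agent.CFT.LocalBr.AssembleC
import Fermat.Agent.CFT.LocalBr.Cup
import Fermat.Agent.CFT.LocalBr.Hilbert
import Fermat.Agent.CFT.LocalBr.ResRule
import Fermat.Agent.CFT.LocalBr.ResRuleD2
import Fermat.Agent.CFT.LocalBr.LayerBrauer
import Fermat.Agent.CFT.Local.BrauerLocalFin

/-!
# Local Brauer package (LOC): consumer-facing statements (interface skeleton)

`U ≤ Gq q` open (`U = Fix E`, `E/ℚ_q` finite).  All statements are in the Prelude's
level-constant cochain language.

* (C)  `finrank_H2mu`            : `dim_{𝔽_p} H²(U, μ_p) = 1`.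
* (D)  `resLoc_mu_injective`, `resLoc_mu_eq_zero` : restriction to `U' ≤ U` on `H²(-, μ_p)` is
       injective if `p ∤ [U : U']` and zero if `p ∣ [U : U']`.
* (E)  `cup11_mem_levelCocycles₂`, `hilbert_left`, `hilbert_right` : for `μ_p ⊂ E` the cup product
       `H¹(U, 𝔽_p) × H¹(U, μ_p) → H²(U, μ_p)` is nondegenerate on both sides.
-/

set_option autoImplicit false

open CategoryTheory groupCohomology ExtCitation

namespace Fermat.Agent.CFT.LocalBr

variable {q : ℕ} [Fact q.Prime] (p : ℕ) [Fact p.Prime]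

/-- **(LOC-C3)** The local Brauer theorem for Galois-units pairs over finite extensions of
`ℚ_q`: `H²(Gal(L/E), Lˣ)` is finite cyclic of order `[L : E]` (helper215's
`brauer_isGalUnits`, `CFT/Local/BrauerLocalFin.lean`). -/
theorem brauerHyp : LayerBrauer.BrauerHyp q := fun _ _ _ hA =>
  have h := Fermat.Agent.CFT.Local.BrauerLocal.brauer_isGalUnits q hA
  ⟨h.1, h.2.1, h.2.2.1⟩

/-- **(C3a)** (LOC-C3, finite level) For `U = Fix E` open and `L/ℚ_q` finite normal, Mathlib's
`H²` of the layer `(U ⧸ Fix L ∩ U, (ℚ̄_q^×)^{Fix L ∩ U}) = (Gal(LE/E), (LE)^×)` is finite cyclic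
(of order `[LE : E]`). -/
theorem layer_cyclic {U : Subgroup (Gq q)} (hU : IsOpenSub q U)
    (L : IntermediateField ℚ_[q] (PadicAlgCl q)) [FiniteDimensional ℚ_[q] L] [Normal ℚ_[q] L]
    [(L.fixingSubgroup.subgroupOf U).Normal] :
    IsAddCyclic (H2 (layer U L.fixingSubgroup)) ∧ Finite (H2 (layer U L.fixingSubgroup)) :=
  LayerBrauer.layer_cyclic_of_brauer brauerHyp hU L

/-- **(C3b)** (LOC-C3, finite level) There is a finite normal `L/ℚ_q` such that `p` divides the
order of `H²` of the layer (e.g. `L ⊇` the unramified extension of degree `p` of `E`). -/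
theorem exists_layer_dvd {U : Subgroup (Gq q)} (hU : IsOpenSub q U) :
    ∃ (L : IntermediateField ℚ_[q] (PadicAlgCl q)) (_ : FiniteDimensional ℚ_[q] L)
      (_ : Normal ℚ_[q] L) (_ : (L.fixingSubgroup.subgroupOf U).Normal),
      p ∣ Nat.card (H2 (layer U L.fixingSubgroup)) :=
  LayerBrauer.exists_layer_dvd_of_brauer brauerHyp p hU

/-- **(C3)** `H²` of every finite layer `(U ⧸ V, (ℚ̄_q^×)^V)` is finite cyclic of order
`[U : V]`. -/
theorem layer_brauer {U V : Subgroup (Gq q)} (hU : IsOpenSub q U) (hV : IsOpenSub q V)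
    (hVU : V ≤ U) [(V.subgroupOf U).Normal] :
    Finite (groupCohomology (layer U V) 2) ∧
      Nat.card (groupCohomology (layer U V) 2) = V.relIndex U ∧
      IsAddCyclic (groupCohomology (layer U V) 2) :=
  LayerBrauer.layer_brauer brauerHyp hU hV hVU

/-- **(C)** `H²(U, μ_p)` is one-dimensional over `𝔽_p` for every open subgroup `U` of the local
Galois group (any primes `p`, `q`, also `p = q` and `p = 2`). -/
theorem finrank_H2mu {U : Subgroup (Gq q)} (hU : IsOpenSub q U) :
    Module.finrank (ZMod p) (H2loc (muLoc q p) U) = 1 :=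
  finrank_H2mu_of p (fun L _ _ _ => layer_cyclic hU L) (exists_layer_dvd p hU)

/-- **(D1)** Restriction to an open subgroup of index prime to `p` is injective on
`H²(-, μ_p)`. -/
theorem resLoc_mu_injective {U' U : Subgroup (Gq q)} (hU' : IsOpenSub q U') (hU : IsOpenSub q U)
    (h : U' ≤ U) (hp : ¬ p ∣ U'.relIndex U) :
    Function.Injective (resLoc (muLoc q p) h) :=
  ResRule.resLoc_mu_injective' p hU' h hp

/-- **(D2)** Restriction to an open subgroup of index divisible by `p` is zero on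
`H²(-, μ_p)` (the invariant is multiplied by the degree). -/
theorem resLoc_mu_eq_zero {U' U : Subgroup (Gq q)} (hU' : IsOpenSub q U') (hU : IsOpenSub q U)
    (h : U' ≤ U) (hp : p ∣ U'.relIndex U) :
    resLoc (muLoc q p) h = 0 :=
  ResRule.resLoc_mu_eq_zero_of_layers p hU' hU h hp
    (fun _ _ hV hVU => ⟨(layer_brauer hU hV hVU).2.2, (layer_brauer hU hV hVU).2.1⟩)

/-- `μ_p ⊂ E`: the cyclotomic character is trivial on `U`. -/
def ContainsMu (U : Subgroup (Gq q)) : Prop :=
  ∀ u ∈ U, cycloChar p (localGaloisToGlobal q u) = 1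

/-- The cup product of a level-constant character and a level-constant `1`-cocycle is a
level-constant `2`-cocycle. -/
theorem cup11_mem_levelCocycles₂ {U : Subgroup (Gq q)}
    (χ : ↥U → ZMod p) (hχ : ∀ s t, χ (s * t) = χ s + χ t)
    (hχl : IsLevelConstant₁ (lvl q U) χ)
    (c : ↥U → muLoc q p) (hc : c ∈ cocycles₁ (Rep.res U.subtype (muLoc q p)))
    (hcl : IsLevelConstant₁ (lvl q U) c) :
    cup11 (muLoc q p) χ c ∈ levelCocycles₂ (lvl q U) (Rep.res U.subtype (muLoc q p)) :=
  Cup.cup11_mem_levelCocycles₂ p χ hχ hχl c hc hcl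

/-- **(E, left)** Hilbert symbol, left nondegeneracy: a character `χ : U → 𝔽_p` whose cup product
with every class of `H¹(U, μ_p)` vanishes is zero (`μ_p ⊂ E`). -/
theorem hilbert_left {U : Subgroup (Gq q)} (hU : IsOpenSub q U) (hμ : ContainsMu p U)
    (χ : ↥U → ZMod p) (hχ : ∀ s t, χ (s * t) = χ s + χ t)
    (hχl : IsLevelConstant₁ (lvl q U) χ)
    (h : ∀ c : ↥U → muLoc q p, c ∈ cocycles₁ (Rep.res U.subtype (muLoc q p)) →
      IsLevelConstant₁ (lvl q U) c →
      cup11 (muLoc q p) χ c ∈ levelCoboundaries₂ (lvl q U) (Rep.res U.subtype (muLoc q p))) :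
    χ = 0 :=
  Hilbert.hilbert_left p hU hμ χ hχ hχl h

/-- **(E, right)** Hilbert symbol, right nondegeneracy: a level-constant `1`-cocycle
`c : U → μ_p` whose cup product with every character vanishes is zero (`μ_p ⊂ E`). -/
theorem hilbert_right {U : Subgroup (Gq q)} (hU : IsOpenSub q U) (hμ : ContainsMu p U)
    (c : ↥U → muLoc q p) (hc : c ∈ cocycles₁ (Rep.res U.subtype (muLoc q p)))
    (hcl : IsLevelConstant₁ (lvl q U) c)
    (h : ∀ χ : ↥U → ZMod p, (∀ s t, χ (s * t) = χ s + χ t) →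
      IsLevelConstant₁ (lvl q U) χ →
      cup11 (muLoc q p) χ c ∈ levelCoboundaries₂ (lvl q U) (Rep.res U.subtype (muLoc q p))) :
    c = 0 :=
  Hilbert.hilbert_right p hU hμ c hc hcl h

end Fermat.Agent.CFT.LocalBr
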