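import Fermat.Agent.CFT.LocalBr.Adapter
import Fermat.Agent.CFT.LocalBr.Main

/-!
# Local Brauer package, language adapter (LOC-AD), part 2: the LOC statements on `G_ℚ`

The consumer-facing LOC statements of `LocalBr/Main.lean`, transported verbatim to the subgroups
`decomp A K = A.decompositionSubgroup ℚ ⊓ K.fixingSubgroup` of `G_ℚ` (`A` a valuation subring of
`ℚ̄` over the prime `q`, `K/ℚ` finite), with cochains on `↥(decomp A K)`, level-constant w.r.t.
the inclusion into `G_ℚ`, and coefficients `muQ p = ofChar (cycloChar p)` restricted to the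
subgroup.

* (C')  `finrank_H2mu_decomp`
* (D')  `resSub_mu_injective`, `resSub_mu_eq_zero`
* (E')  `hilbert_left_decomp`, `hilbert_right_decomp`
  (`cup11Q_mem_levelCocycles₂` is in `Adapter.lean`, for every subgroup of `G_ℚ`).

Every proof is the corresponding statement of `Main.lean` for the open subgroup
`localSub q g K ≤ Gq q` pulled through `conjData q g K` (where `A = g • padicPlace q`).
-/

set_option autoImplicit false

open CategoryTheory groupCohomology ExtCitation
open scoped Pointwise

noncomputable section

namespace Fermat.Agent.CFT.LocalBr.Adapter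

local notation "Qb" => AlgebraicClosure ℚ
local notation "GQ" => (AlgebraicClosure ℚ ≃ₐ[ℚ] AlgebraicClosure ℚ)

variable (q : ℕ) [Fact q.Prime] (p : ℕ) [Fact p.Prime]

/-- **(C')** `H²(D', μ_p)` is one-dimensional for the decomposition group `D' = decomp A K` of a
place of a number field `K` above `q`. -/
theorem finrank_H2mu_decomp {A : ValuationSubring Qb} (hA : A.LiesOverPrime q)
    (K : IntermediateField ℚ Qb) [FiniteDimensional ℚ K] :
    Module.finrank (ZMod p) (H2sub (muQ p) (decomp A K)) = 1 := by
  obtain ⟨g, rfl⟩ := exists_smul_padicPlace_eq q hA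
  rw [((conjData q g K).H2Equiv (muQ p)).finrank_eq]
  exact finrank_H2mu p (isOpenSub_localSub q g K)

/-- **(D1')** Restriction to the decomposition group of a place of a finite extension of local
degree prime to `p` is injective on `H²(-, μ_p)`. -/
theorem resSub_mu_injective {A : ValuationSubring Qb} (hA : A.LiesOverPrime q)
    {K K' : IntermediateField ℚ Qb} [FiniteDimensional ℚ K] [FiniteDimensional ℚ K'] (h : K ≤ K')
    (hp : ¬ p ∣ (decomp A K').relIndex (decomp A K)) :
    Function.Injective (resSub (muQ p) (decomp_anti A h)) := by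
  obtain ⟨g, rfl⟩ := exists_smul_padicPlace_eq q hA
  have hp' : ¬ p ∣ (localSub q g K').relIndex (localSub q g K) :=
    fun hdvd => hp ((relIndex_localSub q g (K := K) (K' := K')) ▸ hdvd)
  have h1 := resLoc_mu_injective p (isOpenSub_localSub q g K') (isOpenSub_localSub q g K)
    (localSub_anti q g h) hp'
  intro x y hxy
  apply ((conjData q g K).H2Equiv (muQ p)).injective
  apply h1
  exact ((H2Equiv_resSub q (muQ p) g h x).symm.trans
    (congrArg ((conjData q g K').H2Equiv (muQ p)) hxy)).trans (H2Equiv_resSub q (muQ p) g h y)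

/-- **(D2')** Restriction to the decomposition group of a place of a finite extension of local
degree divisible by `p` is zero on `H²(-, μ_p)`. -/
theorem resSub_mu_eq_zero {A : ValuationSubring Qb} (hA : A.LiesOverPrime q)
    {K K' : IntermediateField ℚ Qb} [FiniteDimensional ℚ K] [FiniteDimensional ℚ K'] (h : K ≤ K')
    (hp : p ∣ (decomp A K').relIndex (decomp A K)) :
    resSub (muQ p) (decomp_anti A h) = 0 := by
  obtain ⟨g, rfl⟩ := exists_smul_padicPlace_eq q hA
  have hp' : p ∣ (localSub q g K').relIndex (localSub q g K) :=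
    (relIndex_localSub q g (K := K) (K' := K')).symm ▸ hp
  have h1 := resLoc_mu_eq_zero p (isOpenSub_localSub q g K') (isOpenSub_localSub q g K)
    (localSub_anti q g h) hp'
  apply LinearMap.ext
  intro x
  apply ((conjData q g K').H2Equiv (muQ p)).injective
  refine (H2Equiv_resSub q (muQ p) g h x).trans ?_
  rw [h1, LinearMap.zero_apply, LinearMap.zero_apply, map_zero]

/-- **(E', left)** Hilbert symbol on `D' = decomp A K`, left nondegeneracy: a level-constant
character `χ : D' → 𝔽_p` whose cup product with every class of `H¹(D', μ_p)` vanishes is zero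
(`μ_p ⊂ K_A`). -/
theorem hilbert_left_decomp {A : ValuationSubring Qb} (hA : A.LiesOverPrime q)
    (K : IntermediateField ℚ Qb) [FiniteDimensional ℚ K]
    (hμ : ContainsMuSub p (decomp A K))
    (χ : ↥(decomp A K) → ZMod p) (hχ : ∀ s t, χ (s * t) = χ s + χ t)
    (hχl : IsLevelConstant₁ (decomp A K).subtype χ)
    (h : ∀ c : ↥(decomp A K) → muQ p, c ∈ cocycles₁ (Rep.res (decomp A K).subtype (muQ p)) →
      IsLevelConstant₁ (decomp A K).subtype c →
      cup11Q (muQ p) χ c ∈
        levelCoboundaries₂ (decomp A K).subtype (Rep.res (decomp A K).subtype (muQ p))) :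
    χ = 0 := by
  obtain ⟨g, rfl⟩ := exists_smul_padicPlace_eq q hA
  have h0 : χ ∘ localEquiv q g K = 0 := by
    refine hilbert_left p (isOpenSub_localSub q g K) (containsMu_localSub q p hμ)
      (χ ∘ localEquiv q g K) (fun s t => by simp only [Function.comp_apply, map_mul, hχ])
      (isLevelConstant₁_comp_of_conj (conjData q g K).e.toMonoidHom (conjData q g K).g
        (conjData q g K).conj hχl) ?_
    intro c' hc' hcl'
    have h2 := h ((conjData q g K).symm.T₁ (muQ p) c')
      ((conjData q g K).symm.T₁_mem_cocycles₁ (muQ p) hc')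
      ((conjData q g K).symm.T₁_isLevelConstant (muQ p) hcl')
    have h3 := (conjData q g K).T₂_mem_levelCoboundaries₂ (muQ p) h2
    rw [T₂_cup11Q, (conjData q g K).T₁_T₁_symm (muQ p) c'] at h3
    exact h3
  funext d
  have h4 := congrFun h0 ((localEquiv q g K).symm d)
  rw [Function.comp_apply, MulEquiv.apply_symm_apply] at h4
  exact h4

/-- **(E', right)** Hilbert symbol on `D' = decomp A K`, right nondegeneracy: a level-constant
`1`-cocycle `c : D' → μ_p` whose cup product with every level-constant character vanishes is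
zero (`μ_p ⊂ K_A`). -/
theorem hilbert_right_decomp {A : ValuationSubring Qb} (hA : A.LiesOverPrime q)
    (K : IntermediateField ℚ Qb) [FiniteDimensional ℚ K]
    (hμ : ContainsMuSub p (decomp A K))
    (c : ↥(decomp A K) → muQ p) (hc : c ∈ cocycles₁ (Rep.res (decomp A K).subtype (muQ p)))
    (hcl : IsLevelConstant₁ (decomp A K).subtype c)
    (h : ∀ χ : ↥(decomp A K) → ZMod p, (∀ s t, χ (s * t) = χ s + χ t) →
      IsLevelConstant₁ (decomp A K).subtype χ →
      cup11Q (muQ p) χ c ∈
        levelCoboundaries₂ (decomp A K).subtype (Rep.res (decomp A K).subtype (muQ p))) :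
    c = 0 := by
  obtain ⟨g, rfl⟩ := exists_smul_padicPlace_eq q hA
  have h0 : (conjData q g K).T₁ (muQ p) c = 0 := by
    refine hilbert_right p (isOpenSub_localSub q g K) (containsMu_localSub q p hμ)
      ((conjData q g K).T₁ (muQ p) c) ((conjData q g K).T₁_mem_cocycles₁ (muQ p) hc)
      ((conjData q g K).T₁_isLevelConstant (muQ p) hcl) ?_
    intro χ' hχ' hχl'
    have h2 := h (χ' ∘ (localEquiv q g K).symm)
      (fun s t => by simp only [Function.comp_apply, map_mul, hχ'])
      (isLevelConstant₁_comp_of_conj (conjData q g K).symm.e.toMonoidHom (conjData q g K).symm.g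
        (conjData q g K).symm.conj hχl')
    have h3 := (conjData q g K).T₂_mem_levelCoboundaries₂ (muQ p) h2
    rw [T₂_cup11Q] at h3
    have e1 : (χ' ∘ (localEquiv q g K).symm) ∘ (localEquiv q g K) = χ' := by
      funext u
      simp only [Function.comp_apply, MulEquiv.symm_apply_apply]
    rw [e1] at h3
    exact h3
  have h5 := congrArg ((conjData q g K).symm.T₁ (muQ p)) h0
  rw [(conjData q g K).T₁_symm_T₁, map_zero] at h5
  exact h5

end Fermat.Agent.CFT.LocalBr.Adapter
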