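import Fermat.Agent.CFT.LC.Cyclic

/-!
# Explicit level-`N` cochains versus Mathlib's `H²(G ⧸ N, A^N)`

Generic bridge (pure group cohomology).  For a normal subgroup `N` of `G` and `A : Rep k G`:

* `inflCochain₁ / inflCochain₂` : a cochain of `G ⧸ N` with values in `A.quotientToInvariants N`
  gives a cochain of `G` with values in `A` of level `N` (`LC.IsLevel₁ / LC.IsLevel₂`), and every
  cochain of level `N` arises in this way (`exists_eq_inflCochain₁ / ₂`);
* `isCoc₂_inflCochain₂_iff`, `isCobAt_inflCochain₂_iff` : cocycles / coboundaries correspond to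
  Mathlib's `cocycles₂ / coboundaries₂` of `A.quotientToInvariants N`;
* `pTorsionCyclicAt_of_isAddCyclic` : if `H²(G ⧸ N, A^N)` (Mathlib) is finite cyclic then
  `LC.PTorsionCyclicAt A N p` holds for every prime `p`;
* `exists_not_isCobAt_of_dvd_card` : if moreover `p ∣ |H²(G ⧸ N, A^N)|` there is a level-`N`
  cocycle `f₀`, not a level-`N` coboundary, with `p • f₀` a level-`N` coboundary.
-/

set_option autoImplicit false

universe u

open CategoryTheory groupCohomology

namespace Fermat.Agent.CFT.LocalBr.LevelBridge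

open Fermat.Agent.CFT.LC

variable {k G : Type u} [CommRing k] [Group G] (A : Rep.{u} k G) (N : Subgroup G) [N.Normal]

/-- Inflation of a 1-cochain of `G ⧸ N` with values in `A^N`. -/
def inflCochain₁ (x : G ⧸ N → A.quotientToInvariants N) : G → A :=
  fun g => (x (g : G ⧸ N)).1

/-- Inflation of a 2-cochain of `G ⧸ N` with values in `A^N`. -/
def inflCochain₂ (f : (G ⧸ N) × (G ⧸ N) → A.quotientToInvariants N) : G × G → A :=
  fun gh => (f ((gh.1 : G ⧸ N), (gh.2 : G ⧸ N))).1

variable {A N}

lemma inflCochain₁_apply (x : G ⧸ N → A.quotientToInvariants N) (g : G) :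
    inflCochain₁ A N x g = (x (g : G ⧸ N)).1 := rfl

lemma inflCochain₂_apply (f : (G ⧸ N) × (G ⧸ N) → A.quotientToInvariants N) (g h : G) :
    inflCochain₂ A N f (g, h) = (f ((g : G ⧸ N), (h : G ⧸ N))).1 := rfl

lemma mk_mul_of_mem (g : G) {s : G} (hs : s ∈ N) : ((g * s : G) : G ⧸ N) = (g : G ⧸ N) := by
  rw [QuotientGroup.mk_mul, (QuotientGroup.eq_one_iff s).2 hs, mul_one]

lemma invariant_val (a : A.quotientToInvariants N) {s : G} (hs : s ∈ N) : A.ρ s a.1 = a.1 :=
  a.2 ⟨s, hs⟩

lemma isLevel₁_inflCochain₁ (x : G ⧸ N → A.quotientToInvariants N) :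
    IsLevel₁ A N (inflCochain₁ A N x) :=
  ⟨fun g s hs => by rw [inflCochain₁_apply, inflCochain₁_apply, mk_mul_of_mem g hs],
    fun g s hs => invariant_val _ hs⟩

lemma isLevel₂_inflCochain₂ (f : (G ⧸ N) × (G ⧸ N) → A.quotientToInvariants N) :
    IsLevel₂ A N (inflCochain₂ A N f) :=
  ⟨fun g g' s s' hs hs' => by
      rw [inflCochain₂_apply, inflCochain₂_apply, mk_mul_of_mem g hs, mk_mul_of_mem g' hs'],
    fun g g' s hs => invariant_val _ hs⟩

lemma inflCochain₁_injective :
    Function.Injective (inflCochain₁ A N) := by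
  intro x y h
  funext g
  induction g using QuotientGroup.induction_on with | H g =>
  exact Subtype.ext (congrFun h g)

lemma inflCochain₂_injective :
    Function.Injective (inflCochain₂ A N) := by
  intro x y h
  funext ⟨g, g'⟩
  induction g using QuotientGroup.induction_on with | H g =>
  induction g' using QuotientGroup.induction_on with | H g' =>
  exact Subtype.ext (congrFun h (g, g'))

/-- Every 1-cochain of level `N` is an inflation. -/
theorem exists_eq_inflCochain₁ {x : G → A} (hx : IsLevel₁ A N x) :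
    ∃ y : G ⧸ N → A.quotientToInvariants N, inflCochain₁ A N y = x := by
  have hwd : ∀ a b : G, QuotientGroup.leftRel N a b → x a = x b := by
    intro a b hab
    rw [QuotientGroup.leftRel_apply] at hab
    have := hx.1 a (a⁻¹ * b) hab
    rw [mul_inv_cancel_left] at this
    exact this.symm
  refine ⟨fun g => Quotient.liftOn' g (fun a => (⟨x a, fun s => hx.2 a s.1 s.2⟩ :
      A.quotientToInvariants N)) (fun a b hab => Subtype.ext (hwd a b hab)), ?_⟩
  funext g
  rfl

/-- Every 2-cochain of level `N` is an inflation. -/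
theorem exists_eq_inflCochain₂ {f : G × G → A} (hf : IsLevel₂ A N f) :
    ∃ y : (G ⧸ N) × (G ⧸ N) → A.quotientToInvariants N, inflCochain₂ A N y = f := by
  have hwd : ∀ a b a' b' : G, QuotientGroup.leftRel N a b → QuotientGroup.leftRel N a' b' →
      f (a, a') = f (b, b') := by
    intro a b a' b' hab hab'
    rw [QuotientGroup.leftRel_apply] at hab hab'
    have := hf.1 a a' (a⁻¹ * b) (a'⁻¹ * b') hab hab'
    rw [mul_inv_cancel_left, mul_inv_cancel_left] at this
    exact this.symm
  refine ⟨fun gh => Quotient.liftOn₂' gh.1 gh.2 (fun a a' => (⟨f (a, a'),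
      fun s => hf.2 a a' s.1 s.2⟩ : A.quotientToInvariants N))
      (fun a a' b b' hab hab' => Subtype.ext (hwd a b a' b' hab hab')), ?_⟩
  funext ⟨g, g'⟩
  rfl

lemma quot_ρ_val (g : G) (a : A.quotientToInvariants N) :
    ((A.quotientToInvariants N).ρ (g : G ⧸ N) a).1 = A.ρ g a.1 := rfl

/-- The differential commutes with inflation. -/
lemma dOne_inflCochain₁ (x : G ⧸ N → A.quotientToInvariants N) :
    dOne A (inflCochain₁ A N x) = inflCochain₂ A N (dOne (A.quotientToInvariants N) x) := by
  funext ⟨g, h⟩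
  simp only [dOne_apply, inflCochain₁_apply, inflCochain₂_apply, QuotientGroup.mk_mul]
  rfl

/-- Cocycles correspond. -/
theorem isCoc₂_inflCochain₂_iff (f : (G ⧸ N) × (G ⧸ N) → A.quotientToInvariants N) :
    IsCoc₂ A (inflCochain₂ A N f) ↔ f ∈ cocycles₂ (A.quotientToInvariants N) := by
  rw [mem_cocycles₂_iff]
  constructor
  · intro h g₁ g₂ g₃
    induction g₁ using QuotientGroup.induction_on with | H g₁ =>
    induction g₂ using QuotientGroup.induction_on with | H g₂ =>
    induction g₃ using QuotientGroup.induction_on with | H g₃ =>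
    apply Subtype.ext
    have := h g₁ g₂ g₃
    simp only [inflCochain₂_apply, QuotientGroup.mk_mul] at this
    exact this
  · intro h g₁ g₂ g₃
    have := congrArg Subtype.val (h (g₁ : G ⧸ N) (g₂ : G ⧸ N) (g₃ : G ⧸ N))
    simp only [inflCochain₂_apply, QuotientGroup.mk_mul]
    exact this

/-- Coboundaries correspond. -/
theorem isCobAt_inflCochain₂_iff (f : (G ⧸ N) × (G ⧸ N) → A.quotientToInvariants N) :
    IsCobAt A N (inflCochain₂ A N f) ↔ f ∈ coboundaries₂ (A.quotientToInvariants N) := by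
  constructor
  · rintro ⟨x, hx, hd⟩
    obtain ⟨y, rfl⟩ := exists_eq_inflCochain₁ hx
    rw [dOne_inflCochain₁] at hd
    have := inflCochain₂_injective hd
    rw [← this, ← d₁₂_hom_eq_dOne]
    exact ⟨y, rfl⟩
  · rintro ⟨y, rfl⟩
    refine ⟨inflCochain₁ A N y, isLevel₁_inflCochain₁ y, ?_⟩
    rw [dOne_inflCochain₁, d₁₂_hom_eq_dOne]

lemma inflCochain₂_sub (f f' : (G ⧸ N) × (G ⧸ N) → A.quotientToInvariants N) :
    inflCochain₂ A N (f - f') = inflCochain₂ A N f - inflCochain₂ A N f' := by
  funext ⟨g, h⟩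
  rfl

lemma inflCochain₂_nsmul (m : ℕ) (f : (G ⧸ N) × (G ⧸ N) → A.quotientToInvariants N) :
    inflCochain₂ A N (m • f) = m • inflCochain₂ A N f := by
  funext ⟨g, h⟩
  simp only [inflCochain₂_apply, Pi.smul_apply]
  rfl

/-- In a finite cyclic additive group, two elements killed by a prime `p`, the first one nonzero,
are proportional. -/
theorem exists_nsmul_eq_of_isAddCyclic {H : Type*} [AddCommGroup H] [IsAddCyclic H] [Finite H]
    {p : ℕ} (hp : p.Prime) {x x' : H} (hx : p • x = 0) (hx0 : x ≠ 0) (hx' : p • x' = 0) :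
    ∃ m : ℕ, x' = m • x := by
  classical
  have := Fintype.ofFinite H
  have : Fact p.Prime := ⟨hp⟩
  -- the `p`-torsion has at most `p` elements
  have hcard : (Finset.univ.filter fun a : H => p • a = 0).card ≤ p :=
    IsAddCyclic.card_nsmul_eq_zero_le hp.pos
  -- the multiples of `x` are `p` distinct elements of it
  have hord : addOrderOf x = p := addOrderOf_eq_prime hx hx0
  have hinj : Set.InjOn (fun i : ℕ => i • x) (Finset.range p) := by
    intro i hi j hj hij
    have hi' : i < addOrderOf x := by rw [hord]; exact Finset.mem_range.1 hi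
    have hj' : j < addOrderOf x := by rw [hord]; exact Finset.mem_range.1 hj
    exact nsmul_injOn_Iio_addOrderOf hi' hj' hij
  have himg : (Finset.range p).image (fun i : ℕ => i • x) ⊆
      Finset.univ.filter fun a : H => p • a = 0 := by
    intro a ha
    obtain ⟨i, -, rfl⟩ := Finset.mem_image.1 ha
    rw [Finset.mem_filter]
    refine ⟨Finset.mem_univ _, ?_⟩
    rw [smul_comm, hx, smul_zero]
  have hcard' : ((Finset.range p).image (fun i : ℕ => i • x)).card = p := by
    rw [Finset.card_image_of_injOn hinj, Finset.card_range]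
  have heq : (Finset.range p).image (fun i : ℕ => i • x) =
      Finset.univ.filter fun a : H => p • a = 0 :=
    Finset.eq_of_subset_of_card_le himg (by rw [hcard']; exact hcard)
  have hmem : x' ∈ Finset.univ.filter fun a : H => p • a = 0 := by
    rw [Finset.mem_filter]
    exact ⟨Finset.mem_univ _, hx'⟩
  rw [← heq] at hmem
  obtain ⟨m, -, hm⟩ := Finset.mem_image.1 hmem
  exact ⟨m, hm.symm⟩

/-- **Finite-level cyclicity in explicit form.**  If Mathlib's `H²(G ⧸ N, A^N)` is finite cyclic,
the `p`-torsion of `H²` at level `N` is cyclic in the explicit cochain sense of `LC`. -/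
theorem pTorsionCyclicAt_of_isAddCyclic
    [IsAddCyclic (H2 (A.quotientToInvariants N))] [Finite (H2 (A.quotientToInvariants N))]
    {p : ℕ} (hp : p.Prime) : PTorsionCyclicAt A N p := by
  intro f f' hf hfc hf' hfc' hpf hpf' hfn
  obtain ⟨y, rfl⟩ := exists_eq_inflCochain₂ hf
  obtain ⟨y', rfl⟩ := exists_eq_inflCochain₂ hf'
  have hy : y ∈ cocycles₂ (A.quotientToInvariants N) := (isCoc₂_inflCochain₂_iff y).1 hfc
  have hy' : y' ∈ cocycles₂ (A.quotientToInvariants N) := (isCoc₂_inflCochain₂_iff y').1 hfc'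
  rw [← inflCochain₂_nsmul, isCobAt_inflCochain₂_iff] at hpf hpf'
  rw [isCobAt_inflCochain₂_iff] at hfn
  set X : H2 (A.quotientToInvariants N) := H2π _ ⟨y, hy⟩ with hX
  set X' : H2 (A.quotientToInvariants N) := H2π _ ⟨y', hy'⟩ with hX'
  have h1 : p • X = 0 := by
    rw [hX, ← map_nsmul, H2π_eq_zero_iff]
    exact hpf
  have h1' : p • X' = 0 := by
    rw [hX', ← map_nsmul, H2π_eq_zero_iff]
    exact hpf'
  have h0 : X ≠ 0 := by
    rw [hX, Ne, H2π_eq_zero_iff]
    exact hfn
  obtain ⟨m, hm⟩ := exists_nsmul_eq_of_isAddCyclic hp h1 h0 h1'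
  refine ⟨m, ?_⟩
  rw [← inflCochain₂_nsmul, ← inflCochain₂_sub, isCobAt_inflCochain₂_iff]
  have h2 : H2π (A.quotientToInvariants N) (⟨y', hy'⟩ - m • ⟨y, hy⟩) = 0 := by
    rw [map_sub, map_nsmul, ← hX, ← hX', hm, sub_self]
  exact (H2π_eq_zero_iff _).1 h2

/-- **A nontrivial `p`-torsion class at level `N`** when `p` divides the order of the finite
group `H²(G ⧸ N, A^N)`. -/
theorem exists_not_isCobAt_of_dvd_card [Finite (H2 (A.quotientToInvariants N))]
    {p : ℕ} (hp : p.Prime) (hdvd : p ∣ Nat.card (H2 (A.quotientToInvariants N))) :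
    ∃ f₀ : G × G → A, IsLevel₂ A N f₀ ∧ IsCoc₂ A f₀ ∧ IsCobAt A N (p • f₀) ∧ ¬ IsCobAt A N f₀ := by
  classical
  have := Fintype.ofFinite (H2 (A.quotientToInvariants N))
  have : Fact p.Prime := ⟨hp⟩
  rw [Nat.card_eq_fintype_card] at hdvd
  obtain ⟨X, hX⟩ := exists_prime_addOrderOf_dvd_card p hdvd
  induction X using H2_induction_on with | h y =>
  refine ⟨inflCochain₂ A N y, isLevel₂_inflCochain₂ _, (isCoc₂_inflCochain₂_iff _).2 y.2, ?_, ?_⟩
  · rw [← inflCochain₂_nsmul, isCobAt_inflCochain₂_iff]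
    have h1 : H2π (A.quotientToInvariants N) (p • y) = 0 := by
      rw [map_nsmul, ← hX]
      exact addOrderOf_nsmul_eq_zero _
    exact (H2π_eq_zero_iff _).1 h1
  · rw [isCobAt_inflCochain₂_iff]
    intro h
    have h1 : H2π (A.quotientToInvariants N) y = 0 := (H2π_eq_zero_iff _).2 h
    rw [h1, addOrderOf_zero] at hX
    exact hp.one_lt.ne hX

end Fermat.Agent.CFT.LocalBr.LevelBridge
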