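import Fermat.Agent.CFT.LocalBr.Levels
import Fermat.Agent.CFT.LocalBr.LevelBridge

/-!
# LOC-C: `dim H²(U, μ_p) = 1` from the finite-level Brauer groups

`finrank_H2mu_of` : if for every finite normal `L/ℚ_q` the Mathlib group `H²(layer q U (Fix L))`
(`= H²(Gal(LE/E), (LE)^×)` for `U = Fix E`) is finite cyclic, and for one such `L` its order is
divisible by `p`, then `H2loc (muLoc q p) U` is one-dimensional over `𝔽_p`.

Proof: `LC.exists_generator` (helper275) with the level basis of `Levels.lean`, the Kummer datum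
`muEmb`, Hilbert 90 (helper177) and the bridge `LevelBridge`.
-/

set_option autoImplicit false

open CategoryTheory groupCohomology ExtCitation

namespace Fermat.Agent.CFT.LocalBr

open Fermat.Agent.CFT.LC

variable {q : ℕ} [Fact q.Prime] (p : ℕ) [Fact p.Prime]

/-- The level-`Fix L` subgroup of `U` is normal. -/
theorem normal_subgroupOf_fixingSubgroup (U : Subgroup (Gq q))
    (L : IntermediateField ℚ_[q] (PadicAlgCl q)) [FiniteDimensional ℚ_[q] L] [Normal ℚ_[q] L] :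
    (L.fixingSubgroup.subgroupOf U).Normal :=
  (levelBasis U).normal _ ⟨L, inferInstance, inferInstance, rfl⟩

/-- **(C) from finite levels.** -/
theorem finrank_H2mu_of {U : Subgroup (Gq q)}
    (hcyc : ∀ (L : IntermediateField ℚ_[q] (PadicAlgCl q)) [FiniteDimensional ℚ_[q] L]
      [Normal ℚ_[q] L] [(L.fixingSubgroup.subgroupOf U).Normal],
      IsAddCyclic (H2 (layer U L.fixingSubgroup)) ∧ Finite (H2 (layer U L.fixingSubgroup)))
    (hdiv : ∃ (L : IntermediateField ℚ_[q] (PadicAlgCl q)) (_ : FiniteDimensional ℚ_[q] L)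
      (_ : Normal ℚ_[q] L) (_ : (L.fixingSubgroup.subgroupOf U).Normal),
      p ∣ Nat.card (H2 (layer U L.fixingSubgroup))) :
    Module.finrank (ZMod p) (H2loc (muLoc q p) U) = 1 := by
  have hp : p.Prime := Fact.out
  set 𝒩 := levelBasis U with h𝒩
  have hc : ∀ N, 𝒩.mem N → PTorsionCyclicAt (Rep.res U.subtype (unitsRep q)) N p := by
    rintro N ⟨L, hL, hn, rfl⟩
    haveI := hL
    haveI := hn
    haveI := normal_subgroupOf_fixingSubgroup U L
    obtain ⟨h1, h2⟩ := hcyc L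
    haveI := h1
    haveI := h2
    exact LevelBridge.pTorsionCyclicAt_of_isAddCyclic hp
  obtain ⟨L₁, hL₁, hn₁, hN₁, hdvd⟩ := hdiv
  haveI := hL₁
  haveI := hn₁
  haveI := (hcyc L₁).2
  obtain ⟨f₀, hl, hc0, hp0, hn0⟩ := LevelBridge.exists_not_isCobAt_of_dvd_card
    (A := Rep.res U.subtype (unitsRep q)) (N := L₁.fixingSubgroup.subgroupOf U) hp hdvd
  obtain ⟨c₀, hc₀, hc₀c, -, hc₀n, hgen⟩ := exists_generator 𝒩 (smooth_units U)
    (isKummer_muEmb p U) (h90_units U) (fun N _ => h90On_units U N) hc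
    (N₁ := L₁.fixingSubgroup.subgroupOf U) ⟨L₁, hL₁, hn₁, rfl⟩ hl hc0 hp0 hn0
  -- translation to the Prelude's quotient
  have hmem : ∀ c : ↥U × ↥U → (Rep.res U.subtype (muLoc q p)), 𝒩.Const₂ c →
      IsCoc₂ (Rep.res U.subtype (muLoc q p)) c →
      c ∈ levelCocycles₂ (lvl q U) (Rep.res U.subtype (muLoc q p)) := fun c h1 h2 =>
    (mem_levelCocycles₂_iff _ _ c).2 ⟨(mem_cocycles₂_iff c).2 h2, (const₂_iff U c).1 h1⟩
  have hcob : ∀ c : ↥U × ↥U → (Rep.res U.subtype (muLoc q p)),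
      c ∈ levelCoboundaries₂ (lvl q U) (Rep.res U.subtype (muLoc q p)) ↔
        𝒩.IsCob (Rep.res U.subtype (muLoc q p)) c := by
    intro c
    rw [mem_levelCoboundaries₂_iff]
    constructor
    · rintro ⟨x, hx, hd⟩
      exact ⟨x, (const₁_iff U x).2 hx, by rw [← d₁₂_hom_eq_dOne]; exact hd⟩
    · rintro ⟨x, hx, hd⟩
      exact ⟨x, (const₁_iff U x).1 hx, by rw [d₁₂_hom_eq_dOne]; exact hd⟩
  rw [finrank_eq_one_iff']
  refine ⟨continuousH2π (lvl q U) _ ⟨c₀, hmem c₀ hc₀ hc₀c⟩, ?_, ?_⟩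
  · rw [Ne, continuousH2π_eq_zero_iff, hcob]
    exact hc₀n
  · intro w
    obtain ⟨⟨c, hcmem⟩, rfl⟩ := Submodule.mkQ_surjective _ w
    have hc1 := (mem_levelCocycles₂_iff _ _ c).1 hcmem
    obtain ⟨m, hm⟩ := hgen c ((const₂_iff U c).2 hc1.2) ((mem_cocycles₂_iff c).1 hc1.1)
    refine ⟨(m : ZMod p), ?_⟩
    rw [Nat.cast_smul_eq_nsmul, ← map_nsmul, eq_comm, ← sub_eq_zero, ← map_sub]
    rw [continuousH2π_eq_zero_iff, hcob]
    exact hm

end Fermat.Agent.CFT.LocalBr
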