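/-
CFT / LocalBr — corestriction does not vanish on the level-constant `H²` of the `p`-torsion
module of a Kummer datum (abstract form, explicit cochains).

Setting: a group `G` with a level basis `𝒩`, a subgroup `U` containing a member of `𝒩`, a Kummer
datum `i : T → A` for `G` (`T = A[p]`, `A` `p`-divisible and smooth).  The only finite-level input
is ONE 2-cocycle `u` of `G` of level `V ≤ U` (`V ∈ 𝒩`, `p ∣ [U : V]`) whose class has exact order
`[G : V]` ("`V.index ∣ m` whenever `m • u` is a level-constant coboundary").  The corestriction is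
any family of maps on cochains with the usual formal properties (`cor ∘ d = d ∘ cor`,
`cor ∘ res = index + d (..)`, compatibility with `i`, level-constancy).

Conclusion (`exists_cocycle_cor_not_isCob`): there is a level-constant `T`-valued 2-cocycle `c`
of `U` whose corestriction is not a level-constant coboundary of `G`.
-/
import Fermat.Agent.CFT.LC.Cyclic

set_option autoImplicit false

universe u v w v' w'

namespace Fermat.Agent.CFT.LC

open groupCohomology

section Sub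

variable {G : Type u} [Group G]

/-- The level basis induced on a subgroup `U` which contains a member of the basis: the
subgroups `V.subgroupOf U` for the members `V ≤ U`. -/
def LevelBasis.sub (𝒩 : LevelBasis G) (U : Subgroup G) (hU : ∃ V, 𝒩.mem V ∧ V ≤ U) :
    LevelBasis ↥U where
  mem N' := ∃ V, 𝒩.mem V ∧ V ≤ U ∧ N' = V.subgroupOf U
  normal := by
    rintro _ ⟨V, hV, -, rfl⟩
    exact (𝒩.normal V hV).subgroupOf U
  finiteIndex := by
    rintro _ ⟨V, hV, -, rfl⟩
    have := 𝒩.finiteIndex V hV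
    infer_instance
  directed := by
    rintro _ _ ⟨V, hV, hVU, rfl⟩ ⟨V', hV', hVU', rfl⟩
    obtain ⟨V'', hV'', hle⟩ := 𝒩.directed V V' hV hV'
    refine ⟨V''.subgroupOf U, ⟨V'', hV'', fun s hs => hVU (hle hs).1, rfl⟩, ?_⟩
    intro s hs
    exact ⟨Subgroup.mem_subgroupOf.2 (hle (Subgroup.mem_subgroupOf.1 hs)).1,
      Subgroup.mem_subgroupOf.2 (hle (Subgroup.mem_subgroupOf.1 hs)).2⟩
  nonempty := by
    obtain ⟨V, hV, hVU⟩ := hU
    exact ⟨V.subgroupOf U, V, hV, hVU, rfl⟩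

variable {𝒩 : LevelBasis G} {U : Subgroup G} {hU : ∃ V, 𝒩.mem V ∧ V ≤ U}

lemma LevelBasis.sub_mem {V : Subgroup G} (hV : 𝒩.mem V) (hVU : V ≤ U) :
    (𝒩.sub U hU).mem (V.subgroupOf U) :=
  ⟨V, hV, hVU, rfl⟩

lemma LevelBasis.sub_const₁_iff {X : Type*} (f : U → X) :
    (𝒩.sub U hU).Const₁ f ↔
      ∃ W, 𝒩.mem W ∧ W ≤ U ∧ ∀ g s : U, (s : G) ∈ W → f (g * s) = f g := by
  constructor
  · rintro ⟨_, ⟨W, hW, hWU, rfl⟩, h⟩
    exact ⟨W, hW, hWU, fun g s hs => h g s (Subgroup.mem_subgroupOf.2 hs)⟩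
  · rintro ⟨W, hW, hWU, h⟩
    exact ⟨W.subgroupOf U, ⟨W, hW, hWU, rfl⟩, fun g s hs => h g s (Subgroup.mem_subgroupOf.1 hs)⟩

lemma LevelBasis.sub_const₂_iff {X : Type*} (f : U × U → X) :
    (𝒩.sub U hU).Const₂ f ↔
      ∃ W, 𝒩.mem W ∧ W ≤ U ∧
        ∀ g g' s s' : U, (s : G) ∈ W → (s' : G) ∈ W → f (g * s, g' * s') = f (g, g') := by
  constructor
  · rintro ⟨_, ⟨W, hW, hWU, rfl⟩, h⟩
    exact ⟨W, hW, hWU, fun g g' s s' hs hs' =>
      h g g' s s' (Subgroup.mem_subgroupOf.2 hs) (Subgroup.mem_subgroupOf.2 hs')⟩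
  · rintro ⟨W, hW, hWU, h⟩
    exact ⟨W.subgroupOf U, ⟨W, hW, hWU, rfl⟩, fun g g' s s' hs hs' =>
      h g g' s s' (Subgroup.mem_subgroupOf.1 hs) (Subgroup.mem_subgroupOf.1 hs')⟩

lemma LevelBasis.sub_smooth {k : Type v} [CommRing k] {A : Rep.{w} k G} (hA : 𝒩.Smooth A) :
    (𝒩.sub U hU).Smooth (Rep.res U.subtype A) := by
  intro a
  obtain ⟨N, hN, ha⟩ := hA a
  obtain ⟨V, hV, hVU⟩ := hU
  obtain ⟨W, hW, hle⟩ := 𝒩.directed N V hN hV
  refine ⟨W.subgroupOf U, ⟨W, hW, fun s hs => hVU (hle hs).2, rfl⟩, fun s hs => ?_⟩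
  exact ha (s : G) (hle (Subgroup.mem_subgroupOf.1 hs)).1

end Sub

section Average

variable {H : Type u} [Group H] {k : Type v} [CommRing k] (A : Rep.{w} k H)

/-- **Averaging.**  If a 2-cocycle `f` of `H` is right-invariant under the normal subgroup `N` of
finite index, then `[H : N] • f` is the coboundary of the right-`N`-invariant cochain
`g ↦ ∑_{j ∈ H/N} f (g, j)`. -/
theorem exists_dOne_eq_index_smul (N : Subgroup H) [N.Normal] [N.FiniteIndex] {f : H × H → A}
    (hf : ∀ g g' s s', s ∈ N → s' ∈ N → f (g * s, g' * s') = f (g, g'))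
    (hcoc : IsCoc₂ A f) :
    ∃ σ : H → A, (∀ g s, s ∈ N → σ (g * s) = σ g) ∧ dOne A σ = N.index • f := by
  classical
  have : Finite (H ⧸ N) := Subgroup.finite_quotient_of_finiteIndex
  let _ : Fintype (H ⧸ N) := Fintype.ofFinite _
  refine ⟨fun g => ∑ j : H ⧸ N, f (g, j.out), ?_, ?_⟩
  · intro g s hs
    refine Finset.sum_congr rfl fun j _ => ?_
    have h1 := hf g j.out s 1 hs N.one_mem
    rwa [mul_one] at h1
  · funext ⟨g, h⟩
    have hkey : ∀ j : H ⧸ N, f (g, ((h : H ⧸ N) * j).out) = f (g, h * j.out) := by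
      intro j
      obtain ⟨s, hs⟩ := QuotientGroup.mk_out_eq_mul N (h * j.out)
      have e : ((h * j.out : H) : H ⧸ N) = (h : H ⧸ N) * j := by
        rw [QuotientGroup.mk_mul, QuotientGroup.out_eq']
      rw [← e, hs]
      have h1 := hf g (h * j.out) 1 s N.one_mem s.2
      rwa [mul_one] at h1
    have hsum : ∑ j : H ⧸ N, f (g, h * j.out) = ∑ j : H ⧸ N, f (g, j.out) := by
      rw [← Fintype.sum_equiv (Equiv.mulLeft (h : H ⧸ N)) (fun j => f (g, h * j.out))
        (fun j => f (g, j.out)) (fun j => (hkey j).symm)]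
    have hcard : (Finset.univ : Finset (H ⧸ N)).card = N.index := by
      rw [Finset.card_univ, ← Nat.card_eq_fintype_card, Subgroup.index_eq_card]
    have h2 : ∑ j : H ⧸ N, (f (g * h, j.out) + f (g, h)) =
        ∑ j : H ⧸ N, (A.ρ g (f (h, j.out)) + f (g, h * j.out)) :=
      Finset.sum_congr rfl fun j _ => hcoc g h j.out
    rw [Finset.sum_add_distrib, Finset.sum_add_distrib, Finset.sum_const, hcard, hsum,
      ← map_sum] at h2
    show A.ρ g (∑ j : H ⧸ N, f (h, j.out)) - ∑ j : H ⧸ N, f (g * h, j.out)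
      + ∑ j : H ⧸ N, f (g, j.out) = N.index • f (g, h)
    have h3 : N.index • f (g, h) = A.ρ g (∑ j : H ⧸ N, f (h, j.out))
        + ∑ j : H ⧸ N, f (g, j.out) - ∑ j : H ⧸ N, f (g * h, j.out) := by
      rw [← h2]
      abel
    rw [h3]
    abel

end Average

section Main

variable {G : Type u} [Group G] {k : Type v} [CommRing k] {k' : Type v'} [CommRing k']
variable {T : Rep.{w} k G} {A : Rep.{w'} k' G} {i : T →+ A} {p : ℕ}

/-- A Kummer datum restricts to subgroups. -/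
lemma IsKummer.res (hK : IsKummer i p) (U : Subgroup G) :
    IsKummer (T := Rep.res U.subtype T) (A := Rep.res U.subtype A) i p :=
  ⟨hK.inj, fun g t => hK.equivariant (g : G) t, hK.range, hK.div⟩

lemma isCoc₂_nsmul {f : G × G → A} (hf : IsCoc₂ A f) (e : ℕ) : IsCoc₂ A (e • f) := by
  intro g h j
  simp only [Pi.smul_apply, map_nsmul, ← smul_add, hf g h j]

/-- **Corestriction does not vanish** (abstract form).  See the header of this file. -/
theorem exists_cocycle_cor_not_isCob (𝒩 : LevelBasis G) (hA : 𝒩.Smooth A) (hK : IsKummer i p)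
    (hp : 1 < p) (U : Subgroup G) {V : Subgroup G} (hV : 𝒩.mem V) (hVU : V ≤ U)
    (hpV : p ∣ V.relIndex U) {u : G × G → A} (hu : IsLevel₂ A V u) (huc : IsCoc₂ A u)
    (hord : ∀ m : ℕ, 𝒩.IsCob A (m • u) → V.index ∣ m)
    (corA₁ : (U → A) → G → A) (corA₂ : (U × U → A) → G × G → A)
    (corT₂ : (U × U → T) → G × G → T)
    (h_add : ∀ f f' : U × U → A, corA₂ (f + f') = corA₂ f + corA₂ f')
    (h_d : ∀ z : U → A, corA₂ (dOne (Rep.res U.subtype A) z) = dOne A (corA₁ z))
    (h_lvl : ∀ z : U → A, (𝒩.sub U ⟨V, hV, hVU⟩).Const₁ z → 𝒩.Const₁ (corA₁ z))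
    (h_res : ∀ f : G × G → A, IsCoc₂ A f → 𝒩.Const₂ f →
      ∃ w : G → A, 𝒩.Const₁ w ∧
        corA₂ (fun q : U × U => f ((q.1 : G), (q.2 : G))) = U.index • f + dOne A w)
    (h_i : ∀ c : U × U → T, corA₂ (fun q => i (c q)) = fun q => i (corT₂ c q)) :
    ∃ c : U × U → T, (𝒩.sub U ⟨V, hV, hVU⟩).Const₂ c ∧ IsCoc₂ (Rep.res U.subtype T) c ∧
      ¬ 𝒩.IsCob T (corT₂ c) := by
  classical
  have hVn := 𝒩.normal V hV
  have hVf := 𝒩.finiteIndex V hV
  obtain ⟨e, he⟩ := hpV
  have hidx : V.relIndex U * U.index = V.index := Subgroup.relIndex_mul_index hVU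
  have hVidx : V.index ≠ 0 := Subgroup.FiniteIndex.index_ne_zero
  have hn : U.index ≠ 0 := by
    intro h0
    rw [h0, mul_zero] at hidx
    exact hVidx hidx.symm
  have he0 : e ≠ 0 := by
    rintro rfl
    rw [mul_zero] at he
    rw [he, zero_mul] at hidx
    exact hVidx hidx.symm
  -- the class `y = (h/p) • u` and its restriction to `U`
  have hycoc : IsCoc₂ A (e • u) := isCoc₂_nsmul huc e
  have hyconst : 𝒩.Const₂ (e • u) :=
    ⟨V, hV, fun g g' s s' hs hs' => by
      simp only [Pi.smul_apply, hu.1 g g' s s' hs hs']⟩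
  have hVUn : (V.subgroupOf U).Normal := hVn.subgroupOf U
  have hVUf : (V.subgroupOf U).FiniteIndex := inferInstance
  -- averaging on `U`
  obtain ⟨σ, hσ, hdσ⟩ := exists_dOne_eq_index_smul (Rep.res U.subtype A) (V.subgroupOf U)
    (f := fun q : U × U => u ((q.1 : G), (q.2 : G)))
    (fun g g' s s' hs hs' => hu.1 (g : G) (g' : G) (s : G) (s' : G)
      (Subgroup.mem_subgroupOf.1 hs) (Subgroup.mem_subgroupOf.1 hs'))
    (fun g h j => huc (g : G) (h : G) (j : G))
  have hpx : dOne (Rep.res U.subtype A) σ =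
      p • (fun q : U × U => (e • u) ((q.1 : G), (q.2 : G))) := by
    rw [hdσ]
    funext q
    show (V.subgroupOf U).index • u ((q.1 : G), (q.2 : G)) = p • (e • u ((q.1 : G), (q.2 : G)))
    rw [smul_smul, ← he]
    rfl
  -- Kummer surjectivity on `U`
  obtain ⟨c, hc, hcc, z, hz, hdz⟩ := kummer_surjective (𝒩.sub U ⟨V, hV, hVU⟩)
    (LevelBasis.sub_smooth hA) (hK.res U)
    (f := fun q : U × U => (e • u) ((q.1 : G), (q.2 : G)))
    ⟨V.subgroupOf U, LevelBasis.sub_mem hV hVU, fun g g' s s' hs hs' => by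
      show (e • u) (((g * s : U) : G), ((g' * s' : U) : G)) = (e • u) ((g : G), (g' : G))
      simp only [Pi.smul_apply, Subgroup.coe_mul,
        hu.1 (g : G) (g' : G) (s : G) (s' : G) (Subgroup.mem_subgroupOf.1 hs)
          (Subgroup.mem_subgroupOf.1 hs')]⟩
    (fun g h j => hycoc (g : G) (h : G) (j : G))
    (x := σ) ⟨V.subgroupOf U, LevelBasis.sub_mem hV hVU, hσ⟩ hpx
  refine ⟨c, hc, hcc, ?_⟩
  rintro ⟨w, hw, hdw⟩
  obtain ⟨w₁, hw₁, hres⟩ := h_res (e • u) hycoc hyconst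
  have h1 : corA₂ (fun q => i (c q)) = dOne A (fun g => i (w g)) := by
    rw [h_i, ← hdw]
    funext ⟨g, h⟩
    exact hK.dOne_comp w g h
  have h2 : (fun q => i (c q)) =
      (fun q : U × U => (e • u) ((q.1 : G), (q.2 : G))) + dOne (Rep.res U.subtype A) z := by
    rw [hdz]
    abel
  have h3 : corA₂ (fun q => i (c q)) = U.index • (e • u) + dOne A w₁ + dOne A (corA₁ z) := by
    rw [h2, h_add, h_d, hres]
  have h4 : 𝒩.IsCob A ((U.index * e) • u) := by
    refine ⟨(fun g => i (w g)) - w₁ - corA₁ z,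
      ((hw.comp i).map₂ hw₁ (fun a b => a - b)).map₂ (h_lvl z hz) (fun a b => a - b), ?_⟩
    rw [dOne_sub, dOne_sub, ← h1, h3, mul_smul]
    abel
  have h5 := hord _ h4
  rw [← hidx, he] at h5
  have h6 : p * e * U.index ≤ U.index * e :=
    Nat.le_of_dvd (Nat.mul_pos (Nat.pos_of_ne_zero hn) (Nat.pos_of_ne_zero he0)) h5
  have h7 : 1 * (U.index * e) < p * (U.index * e) :=
    Nat.mul_lt_mul_of_pos_right hp (Nat.mul_pos (Nat.pos_of_ne_zero hn) (Nat.pos_of_ne_zero he0))
  have h8 : p * e * U.index = p * (U.index * e) := by ring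
  omega

end Main

end Fermat.Agent.CFT.LC
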