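/-
LOC-F: corestriction does not vanish on the local line.

For an open subgroup `V` of the local Galois group `Gq q = Gal(ℚ̄_q/ℚ_q)` there is a
level-constant `μ_p`-valued 2-cocycle `c` of `V` whose corestriction to `Gq q` (helper135's
`Shapiro.cores₂`) is not a level-constant coboundary.  This is the local instance of the abstract
theorem `LC.exists_cocycle_cor_not_isCob` (`CoresGen.lean`); the only arithmetic input is the
local Brauer theorem on finite layers (`LayerBrauer.BrauerHyp q`), used for the layer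
`(Gq q ⧸ W, (ℚ̄_q^×)^W)` of one small open normal subgroup `W ≤ V` with `p ∣ [V : W]`.
-/
import Fermat.Agent.CFT.LocalBr.CoresGen
import Fermat.Agent.CFT.LocalBr.LayerBrauer
import Fermat.Agent.S55.Shapiro.NormNat

set_option autoImplicit false

open CategoryTheory groupCohomology ExtCitation

namespace Fermat.Agent.CFT.LocalBr.CoresLoc

open Fermat.Agent.CFT.LocalBr Fermat.Agent.CFT.LocalBr.LCLocal Fermat.Agent.CFT.LC
open Fermat.Agent.S55.Glue Fermat.Agent.CFT.Local.UnramPadic

variable {q : ℕ} [Fact q.Prime]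

local notation "Qb" => AlgebraicClosure ℚ

/-- The level basis of the full local Galois group: the preimages of `Fix F`, `F/ℚ` finite
normal. -/
noncomputable abbrev topBasis (q : ℕ) [Fact q.Prime] : LevelBasis (Gq q) :=
  basisOf (localGaloisToGlobal q)

/-- The full local Galois group is open. -/
theorem isOpenSub_top : IsOpenSub q (⊤ : Subgroup (Gq q)) :=
  ⟨⊥, inferInstance, (IntermediateField.fixingSubgroup_bot).symm⟩

/-- Open subgroups of the local Galois group have finite index. -/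
theorem finiteIndex_of_isOpenSub {V : Subgroup (Gq q)} (hV : IsOpenSub q V) : V.FiniteIndex := by
  obtain ⟨F, hF, hFn, hle⟩ := exists_comap_le_of_isOpenSub hV
  have := lev_finiteIndex (localGaloisToGlobal q) F
  exact Subgroup.finiteIndex_of_le (H := lev (localGaloisToGlobal q) F) hle

/-- `ℚ̄_q^×` is a smooth module of the full local Galois group. -/
theorem smooth_top : (topBasis q).Smooth (unitsRep q) := by
  rw [smooth_basisOf_iff]
  intro a
  obtain ⟨_, ⟨V, hV, -, -, rfl⟩, ha⟩ := smooth_unitsRep (isOpenSub_top (q := q)) a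
  obtain ⟨F, hF, -, hle⟩ := exists_comap_le_of_isOpenSub hV
  exact ⟨F, hF, fun s hs => ha ⟨s, Subgroup.mem_top s⟩ (Subgroup.mem_subgroupOf.2 (hle hs))⟩


/-- **The generator.**  For a finite normal `F/ℚ`, the layer `(Gq q ⧸ W, (ℚ̄_q^×)^W)` of
`W = loc⁻¹(Fix F)` carries a 2-cocycle of exact order `[Gq q : W]`: a cocycle `u` of level `W`
such that `m • u` is a level-constant coboundary only if `[Gq q : W] ∣ m`. -/
theorem exists_cocycle_exact_order (hB : LayerBrauer.BrauerHyp q) (F : IntermediateField ℚ Qb)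
    [FiniteDimensional ℚ F] [Normal ℚ F] :
    ∃ u : Gq q × Gq q → unitsRep q,
      IsLevel₂ (unitsRep q) (lev (localGaloisToGlobal q) F) u ∧ IsCoc₂ (unitsRep q) u ∧
      ∀ m : ℕ, (topBasis q).IsCob (unitsRep q) (m • u) →
        (lev (localGaloisToGlobal q) F).index ∣ m := by
  classical
  have hTop : IsOpenSub q (⊤ : Subgroup (Gq q)) := isOpenSub_top
  have hWo : IsOpenSub q (lev (localGaloisToGlobal q) F) := isOpenSub_comap F
  have hWn : (lev (localGaloisToGlobal q) F).Normal := lev_normal (localGaloisToGlobal q) F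
  have hWn' : ((lev (localGaloisToGlobal q) F).subgroupOf ⊤).Normal := hWn.subgroupOf ⊤
  obtain ⟨hfin, hcard, hcyc⟩ := LayerBrauer.layer_brauer hB hTop hWo le_top
  rw [Subgroup.relIndex_top_right] at hcard
  -- a generator of the cyclic group and a cocycle representing it
  obtain ⟨g₀, hg₀⟩ := IsAddCyclic.exists_generator
    (α := groupCohomology (layer ⊤ (lev (localGaloisToGlobal q) F)) 2)
  have hord₀ : addOrderOf g₀ = (lev (localGaloisToGlobal q) F).index := by
    rw [← hcard]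
    exact addOrderOf_eq_card_of_forall_mem_zmultiples hg₀
  have hsurj : ∀ x : groupCohomology (layer ⊤ (lev (localGaloisToGlobal q) F)) 2,
      ∃ φ : cocycles₂ (layer ⊤ (lev (localGaloisToGlobal q) F)),
        H2π (layer ⊤ (lev (localGaloisToGlobal q) F)) φ = x := by
    intro x
    induction x using H2_induction_on with | h φ =>
    exact ⟨φ, rfl⟩
  obtain ⟨φ, hφ⟩ := hsurj g₀
  -- the inflated cocycle on `⊤`
  set u' : ↥(⊤ : Subgroup (Gq q)) × ↥(⊤ : Subgroup (Gq q)) →
      (Rep.res (⊤ : Subgroup (Gq q)).subtype (unitsRep q)) :=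
    inflFun₂ (Rep.res (⊤ : Subgroup (Gq q)).subtype (unitsRep q))
      ((lev (localGaloisToGlobal q) F).subgroupOf ⊤) φ with hu'
  have hu'l : IsLevel₂ (Rep.res (⊤ : Subgroup (Gq q)).subtype (unitsRep q))
      ((lev (localGaloisToGlobal q) F).subgroupOf ⊤) u' := isLevel₂_inflFun₂ _
  have hu'c : IsCoc₂ (Rep.res (⊤ : Subgroup (Gq q)).subtype (unitsRep q)) u' :=
    (isCoc₂_inflFun₂_iff _).2 φ.2
  have hord' : ∀ m : ℕ, IsCobAt (Rep.res (⊤ : Subgroup (Gq q)).subtype (unitsRep q))
      ((lev (localGaloisToGlobal q) F).subgroupOf ⊤) (m • u') →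
      (lev (localGaloisToGlobal q) F).index ∣ m := by
    intro m h
    rw [hu', ← inflFun₂_nsmul, isCobAt_inflFun₂_iff] at h
    have h0 : m • g₀ = 0 := by
      rw [← hφ, ← map_nsmul]
      exact (H2π_eq_zero_iff _).2 h
    rw [← hord₀]
    exact addOrderOf_dvd_of_nsmul_eq_zero h0
  -- transport to the full group
  refine ⟨fun x => u' (⟨x.1, Subgroup.mem_top _⟩, ⟨x.2, Subgroup.mem_top _⟩), ⟨?_, ?_⟩, ?_, ?_⟩
  · intro g g' s s' hs hs'
    exact hu'l.1 ⟨g, Subgroup.mem_top _⟩ ⟨g', Subgroup.mem_top _⟩ ⟨s, Subgroup.mem_top _⟩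
      ⟨s', Subgroup.mem_top _⟩ (Subgroup.mem_subgroupOf.2 hs) (Subgroup.mem_subgroupOf.2 hs')
  · intro g g' s hs
    exact hu'l.2 ⟨g, Subgroup.mem_top _⟩ ⟨g', Subgroup.mem_top _⟩ ⟨s, Subgroup.mem_top _⟩
      (Subgroup.mem_subgroupOf.2 hs)
  · intro g h j
    exact hu'c ⟨g, Subgroup.mem_top _⟩ ⟨h, Subgroup.mem_top _⟩ ⟨j, Subgroup.mem_top _⟩
  · rintro m ⟨x, hx, hd⟩
    apply hord' m
    have hlvl : IsLevel₂ (Rep.res (⊤ : Subgroup (Gq q)).subtype (unitsRep q))
        ((lev (localGaloisToGlobal q) F).subgroupOf ⊤) (m • u') := by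
      rw [hu', ← inflFun₂_nsmul]
      exact isLevel₂_inflFun₂ _
    refine KummerLoc.isCobAt_of_mem_levelCoboundaries₂ hTop hWo le_top hlvl ?_
    rw [mem_levelCoboundaries₂_iff]
    obtain ⟨_, ⟨F', hF', -, rfl⟩, hc⟩ := hx
    refine ⟨fun a => x (a : Gq q), ⟨F', hF', fun a s hs => hc (a : Gq q) (s : Gq q) hs⟩, ?_⟩
    rw [d₁₂_hom_eq_dOne]
    funext ⟨a, b⟩
    exact congrFun hd ((a : Gq q), (b : Gq q))


open Fermat.Agent.S55.Shapiro in
/-- **LOC-F: corestriction does not vanish on the local line** (cochain form, Prelude level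
cochains, helper135's `cores₂`).  For every open subgroup `V` of the local Galois group there is
a level-constant `μ_p`-valued 2-cocycle of `V` whose corestriction to `Gq q` is not a
level-constant coboundary. -/
theorem exists_cores₂_not_mem (hB : LayerBrauer.BrauerHyp q) (p : ℕ) [Fact p.Prime]
    {V : Subgroup (Gq q)} (hV : IsOpenSub q V) [V.FiniteIndex] (R : Retr V) :
    ∃ c : ↥V × ↥V → muLoc q p,
      c ∈ levelCocycles₂ (lvl q V) (Rep.res V.subtype (muLoc q p)) ∧
      cores₂ (muLoc q p) R c ∉ levelCoboundaries₂ (localGaloisToGlobal q) (muLoc q p) := by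
  have hp : p.Prime := Fact.out
  obtain ⟨E, hE, rfl⟩ := hV
  -- a small normal level `W ≤ Fix E` with `p ∣ [Fix E : W]`
  have hV₁ : IsOpenSub q (unram E p).fixingSubgroup := ⟨unram E p, inferInstance, rfl⟩
  obtain ⟨F, hF, hFn, hle⟩ := exists_comap_le_of_isOpenSub hV₁
  have hWV₁ : lev (localGaloisToGlobal q) F ≤ (unram E p).fixingSubgroup := hle
  have hWV : lev (localGaloisToGlobal q) F ≤ E.fixingSubgroup :=
    hle.trans (fixingSubgroup_unram_le E p)
  have hWmem : (topBasis q).mem (lev (localGaloisToGlobal q) F) := mem_basisOf_lev _ F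
  have hpV : p ∣ (lev (localGaloisToGlobal q) F).relIndex E.fixingSubgroup := by
    have h1 := Subgroup.relIndex_mul_relIndex (lev (localGaloisToGlobal q) F)
      (unram E p).fixingSubgroup E.fixingSubgroup hWV₁ (fixingSubgroup_unram_le E p)
    rw [relIndex_fixingSubgroup_unram E hp.pos] at h1
    exact ⟨_, by rw [← h1, mul_comm]⟩
  obtain ⟨u, hu, huc, hord⟩ := exists_cocycle_exact_order hB F
  have hK := KummerLoc.isKummer_muHom (q := q) p
  obtain ⟨c, hc, hcc, hncob⟩ := exists_cocycle_cor_not_isCob (topBasis q) smooth_top hK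
    hp.one_lt E.fixingSubgroup hWmem hWV hpV hu huc hord
    (fun z => cores₁ (unitsRep q) R z) (fun f => cores₂ (unitsRep q) R f)
    (fun c => cores₂ (muLoc q p) R c)
    (fun f f' => map_add (cores₂ (unitsRep q) R) f f')
    (fun z => by
      have h1 := cores₂_d₁₂ (unitsRep q) R z
      rw [d₁₂_hom_eq_dOne, d₁₂_hom_eq_dOne] at h1
      exact h1)
    (fun z hz => by
      obtain ⟨W', hW', hW'V, h⟩ := (LevelBasis.sub_const₁_iff z).1 hz
      have := (topBasis q).normal W' hW'
      exact ⟨W', hW', rinv₁_cores₁ (unitsRep q) R hW'V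
        (fun g s hs => h g s (Subgroup.mem_subgroupOf.1 hs))⟩)
    (fun f hf hfc => by
      obtain ⟨N₁, hN₁, h₁⟩ := hfc
      obtain ⟨N₂, hN₂, hle₂⟩ := (topBasis q).directed N₁ _ hN₁ hWmem
      have := (topBasis q).normal N₂ hN₂
      obtain ⟨w, hw, h⟩ := exists_rinv_cores₂_rest₂_nsmul (unitsRep q) R (N := N₂)
        (fun s hs => hWV (hle₂ hs).2) ((mem_cocycles₂_iff f).2 hf)
        (fun g g' s s' hs hs' => h₁ g g' s s' (hle₂ hs).1 (hle₂ hs').1)
      refine ⟨w, ⟨N₂, hN₂, hw⟩, ?_⟩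
      rw [← d₁₂_hom_eq_dOne]
      exact h)
    (fun c => cores₂_comp' (KummerLoc.muHom p) hK.equivariant R c)
  refine ⟨c, ?_, ?_⟩
  · rw [mem_levelCocycles₂_iff_isCoc₂]
    refine ⟨hcc, ?_⟩
    obtain ⟨_, ⟨F', hF', hFn', rfl⟩, -, h⟩ := (LevelBasis.sub_const₂_iff c).1 hc
    exact ⟨lev (lvl q E.fixingSubgroup) F', ⟨F', hF', hFn', rfl⟩,
      fun g g' s s' hs hs' => h g g' s s' hs hs'⟩
  · rw [mem_levelCoboundaries₂_iff_isCob]
    exact hncob

end Fermat.Agent.CFT.LocalBr.CoresLoc
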