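import Fermat.Agent.CFT.LocalBr.Fin
import Fermat.Agent.S55.Abs.Level

/-!
# LOC-FIN in the vocabulary of the abstract layer (`S55/Abs/Level`)

`finiteDimensional_Z1_trivial`: for `U` open in the local Galois group with `μ_p ⊂ E`, and any
level family `𝒲` on `↥U` whose level `1`-cochains are level-constant in the Prelude's sense
(w.r.t. `lvl q U`), the space `Z1 𝒲 𝔽_p` of level `1`-cocycles with trivial coefficients is
finite, hence finite-dimensional.  This is the shape `(hfin)` consumed by the base case of the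
local devissage.
-/

set_option autoImplicit false

open CategoryTheory groupCohomology ExtCitation

namespace Fermat.Agent.CFT.LocalBr.Fin

open Fermat.Agent.S55.Abs

variable {q : ℕ} [Fact q.Prime] (p : ℕ) [Fact p.Prime]

/-- Level `1`-cocycles of a trivial module are homomorphisms. -/
theorem map_mul_of_mem_Z1_trivial {G : Type} [Group G] {k : Type} [Field k] (𝒲 : LevelFamily G)
    {c : G → k} (hc : c ∈ Z1 𝒲 (Rep.trivial k G k)) (s t : G) : c (s * t) = c s + c t := by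
  have h := (mem_cocycles₁_iff (A := Rep.trivial k G k) c).1 hc.2 s t
  rw [h, add_comm]
  rfl

/-- **LOC-FIN, set form for `Z1`.** -/
theorem finite_Z1_trivial {U : Subgroup (Gq q)} (hU : IsOpenSub q U)
    (hμ : ∀ u ∈ U, cycloChar p (localGaloisToGlobal q u) = 1) (𝒲 : LevelFamily ↥U)
    (h𝒲 : ∀ f : ↥U → ZMod p, IsLev₁ 𝒲 f → IsLevelConstant₁ (lvl q U) f) :
    Finite ↥(Z1 𝒲 (Rep.trivial (ZMod p) ↥U (ZMod p))) := by
  have hfin := finite_hom p hU hμ
  have hsub : ((Z1 𝒲 (Rep.trivial (ZMod p) ↥U (ZMod p)) :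
      Submodule (ZMod p) (↥U → ZMod p)) : Set (↥U → ZMod p)) ⊆
      {c : ↥U → ZMod p | (∀ s t, c (s * t) = c s + c t) ∧ IsLevelConstant₁ (lvl q U) c} :=
    fun c hc => ⟨map_mul_of_mem_Z1_trivial 𝒲 hc, h𝒲 c hc.1⟩
  exact (hfin.subset hsub).to_subtype

/-- **LOC-FIN, `Abs` form.** `Z1 𝒲 𝔽_p` is finite-dimensional. -/
theorem finiteDimensional_Z1_trivial {U : Subgroup (Gq q)} (hU : IsOpenSub q U)
    (hμ : ∀ u ∈ U, cycloChar p (localGaloisToGlobal q u) = 1) (𝒲 : LevelFamily ↥U)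
    (h𝒲 : ∀ f : ↥U → ZMod p, IsLev₁ 𝒲 f → IsLevelConstant₁ (lvl q U) f) :
    FiniteDimensional (ZMod p) ↥(Z1 𝒲 (Rep.trivial (ZMod p) ↥U (ZMod p))) := by
  have := finite_Z1_trivial p hU hμ 𝒲 h𝒲
  exact Module.Finite.of_finite

/-- The same for `H1 𝒲 𝔽_p`. -/
theorem finiteDimensional_H1_trivial {U : Subgroup (Gq q)} (hU : IsOpenSub q U)
    (hμ : ∀ u ∈ U, cycloChar p (localGaloisToGlobal q u) = 1) (𝒲 : LevelFamily ↥U)
    (h𝒲 : ∀ f : ↥U → ZMod p, IsLev₁ 𝒲 f → IsLevelConstant₁ (lvl q U) f) :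
    FiniteDimensional (ZMod p) (H1 𝒲 (Rep.trivial (ZMod p) ↥U (ZMod p))) := by
  have := finiteDimensional_Z1_trivial p hU hμ 𝒲 h𝒲
  infer_instance

end Fermat.Agent.CFT.LocalBr.Fin
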