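import Fermat.Agent.CFT.LocalBr.Hilbert
import Fermat.Agent.CFT.LocalBr.FinAbs
import Fermat.Agent.S55.Shapiro.AbsLevel
import Fermat.Agent.S55.Abs.Bridge
import Fermat.Agent.S55.Abs.Cup

/-!
# LOC in the vocabulary of the abstract layer: adapters for the local duality base case

`U ≤ Gq q` with `μ_p` in the fixed field of `U` (`hμ`).  On `↥U` we use the trivial module
`T = 𝔽_p` and ANY level family `𝒲` whose members are the subgroups `N.subgroupOf U`, `N` a member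
of the local level family of `Gq q` (hypothesis `h𝒲`, proved by `rfl` for
`Shapiro.subLevel (localLevel (localGaloisToGlobal q)) U` and for
`Base.LocalTop.subLevel (localLevel (localGaloisToGlobal q)) U`).

* `isLev₁_iff`, `isLev₂_iff` : level cochains for `𝒲` are the Prelude's level-constant
  cochains for `lvl q U`.
* `mem_Z1_iff`, `mem_Z2_iff`, `mem_B2_iff` : the dictionary between `Abs.Z1/Z2/B2 𝒲 T` and
  the Prelude's cocycles / level coboundaries with values in `Rep.res U.subtype (muLoc q p)`.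
* `h2Equiv` : `Abs.H2 𝒲 T ≃ₗ H2loc (muLoc q p) U`;  `finrank_H2_abs`, `line_H2_abs` (hline).
* `hilbert_right_abs`, `hilbert_left_abs` (hhilb, cup product form) and `hilbert_right_mul`,
  `hilbert_left_mul` (pointwise product form) : the Hilbert pairing in `Abs` form.
* `finite_Z1` : (hfin), a wrapper of `Fin.finiteDimensional_Z1_trivial`.
-/

set_option autoImplicit false

open CategoryTheory groupCohomology ExtCitation

namespace Fermat.Agent.CFT.LocalBr.TDAdapt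

open Fermat.Agent.S55.Abs Fermat.Agent.S55.Shapiro Fermat.Agent.CFT.LocalBr

variable {q : ℕ} [Fact q.Prime] (p : ℕ) [Fact p.Prime]

/-- The level family on `↥U` induced from the local level family of `Gq q`
(`Shapiro.subLevel`). -/
noncomputable abbrev lev (U : Subgroup (Gq q)) : LevelFamily ↥U :=
  subLevel (localLevel (localGaloisToGlobal q)) U

/-- The members of the induced level family: the subgroups `N.subgroupOf U`, `N` a member of the
local level family of `Gq q`. -/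
def IsSub {U : Subgroup (Gq q)} (𝒲 : LevelFamily ↥U) : Prop :=
  𝒲.sets = {N' | ∃ N ∈ (localLevel (localGaloisToGlobal q)).sets, N' = N.subgroupOf U}

theorem isSub_lev (U : Subgroup (Gq q)) : IsSub (lev U) := rfl

/-- The trivial module `𝔽_p` of `↥U`. -/
noncomputable abbrev triv (U : Subgroup (Gq q)) : Rep.{0} (ZMod p) ↥U :=
  Rep.trivial (ZMod p) ↥U (ZMod p)

/-- `μ_p` restricted to `↥U`. -/
noncomputable abbrev muU (U : Subgroup (Gq q)) : Rep.{0} (ZMod p) ↥U :=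
  Rep.res U.subtype (muLoc q p)

section Lev

variable {U : Subgroup (Gq q)} {𝒲 : LevelFamily ↥U} (h𝒲 : IsSub 𝒲)

include h𝒲

theorem isLev₁_iff {X : Type*} (f : ↥U → X) :
    IsLev₁ 𝒲 f ↔ IsLevelConstant₁ (lvl q U) f := by
  unfold IsLev₁
  rw [h𝒲]
  constructor
  · rintro ⟨_, ⟨_, ⟨F, hF, rfl⟩, rfl⟩, h⟩
    exact ⟨F, hF, fun g s hs => h g s hs⟩
  · rintro ⟨F, hF, h⟩
    exact ⟨_, ⟨_, ⟨F, hF, rfl⟩, rfl⟩, fun g s hs => h g s hs⟩

theorem isLev₂_iff {X : Type*} (f : ↥U × ↥U → X) :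
    IsLev₂ 𝒲 f ↔ IsLevelConstant₂ (lvl q U) f := by
  unfold IsLev₂
  rw [h𝒲]
  constructor
  · rintro ⟨_, ⟨_, ⟨F, hF, rfl⟩, rfl⟩, h⟩
    exact ⟨F, hF, fun g g' s s' hs hs' => h g g' s s' hs hs'⟩
  · rintro ⟨F, hF, h⟩
    exact ⟨_, ⟨_, ⟨F, hF, rfl⟩, rfl⟩, fun g g' s s' hs hs' => h g g' s s' hs hs'⟩

end Lev

variable {p} {U : Subgroup (Gq q)} {𝒲 : LevelFamily ↥U} (h𝒲 : IsSub 𝒲)
  (hμ : ∀ u ∈ U, cycloChar p (localGaloisToGlobal q u) = 1)

section Mu

include hμ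

/-- `U` acts trivially on `μ_p`. -/
theorem muU_ρ_apply (u : ↥U) (x : ZMod p) : (muU p U).ρ u x = x := by
  show (muLoc q p).ρ (u : Gq q) x = x
  rw [Cup.muLoc_ρ_apply, hμ _ u.2, Units.val_one, one_smul]

theorem mem_cocycles₁_iff_triv (c : ↥U → ZMod p) :
    c ∈ cocycles₁ (muU p U) ↔ c ∈ cocycles₁ (triv p U) := by
  rw [mem_cocycles₁_iff, mem_cocycles₁_iff]
  refine forall₂_congr fun g h => ?_
  rw [muU_ρ_apply hμ]
  rfl

theorem mem_cocycles₂_iff_triv (c : ↥U × ↥U → ZMod p) :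
    c ∈ cocycles₂ (muU p U) ↔ c ∈ cocycles₂ (triv p U) := by
  rw [mem_cocycles₂_iff, mem_cocycles₂_iff]
  refine forall₃_congr fun g h j => ?_
  rw [muU_ρ_apply hμ]
  rfl

theorem d₁₂_eq_triv (x : ↥U → ZMod p) :
    (d₁₂ (muU p U)).hom x = (d₁₂ (triv p U)).hom x := by
  funext g
  rw [d₁₂_hom_apply, d₁₂_hom_apply, muU_ρ_apply hμ]
  rfl

end Mu

/-- A level `1`-cocycle of the trivial module is additive. -/
theorem map_mul_of_mem_Z1 {c : ↥U → ZMod p} (hc : c ∈ Z1 𝒲 (triv p U)) (s t : ↥U) :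
    c (s * t) = c s + c t := by
  have h := (mem_cocycles₁_iff (A := triv p U) c).1 hc.2 s t
  rw [h, add_comm]
  rfl

include h𝒲

/-- An additive level-constant function is a level `1`-cocycle of the trivial module. -/
theorem mem_Z1_of_map_mul {χ : ↥U → ZMod p} (hχ : ∀ s t, χ (s * t) = χ s + χ t)
    (hχl : IsLevelConstant₁ (lvl q U) χ) : χ ∈ Z1 𝒲 (triv p U) := by
  refine ⟨(isLev₁_iff h𝒲 χ).2 hχl, (mem_cocycles₁_iff (A := triv p U) χ).2 fun s t => ?_⟩
  rw [hχ, add_comm]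
  rfl

include hμ

/-- Level `1`-cocycles of the trivial module = level-constant cocycles of `μ_p`. -/
theorem mem_Z1_iff (c : ↥U → ZMod p) :
    c ∈ Z1 𝒲 (triv p U) ↔ c ∈ cocycles₁ (muU p U) ∧ IsLevelConstant₁ (lvl q U) c := by
  rw [mem_cocycles₁_iff_triv hμ, ← isLev₁_iff h𝒲]
  exact ⟨fun h => ⟨h.2, h.1⟩, fun h => ⟨h.2, h.1⟩⟩

/-- Level `2`-cocycles of the trivial module = the Prelude's level cocycles of `μ_p`. -/
theorem mem_Z2_iff (c : ↥U × ↥U → ZMod p) :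
    c ∈ Z2 𝒲 (triv p U) ↔ c ∈ levelCocycles₂ (lvl q U) (muU p U) := by
  rw [mem_levelCocycles₂_iff, mem_cocycles₂_iff_triv hμ, ← isLev₂_iff h𝒲]
  exact ⟨fun h => ⟨h.2, h.1⟩, fun h => ⟨h.2, h.1⟩⟩

/-- Level `2`-coboundaries of the trivial module = the Prelude's level coboundaries of `μ_p`. -/
theorem mem_B2_iff (c : ↥U × ↥U → ZMod p) :
    c ∈ B2 𝒲 (triv p U) ↔ c ∈ levelCoboundaries₂ (lvl q U) (muU p U) := by
  rw [mem_levelCoboundaries₂_iff]
  constructor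
  · rintro ⟨x, hx, rfl⟩
    exact ⟨x, (isLev₁_iff h𝒲 x).1 hx, d₁₂_eq_triv hμ x⟩
  · rintro ⟨x, hx, rfl⟩
    exact ⟨x, (isLev₁_iff h𝒲 x).2 hx, (d₁₂_eq_triv hμ x).symm⟩

omit h𝒲 in
/-- The pointwise product `(s, t) ↦ χ s * c t` is the cup product cochain of `LocalBr/Defs`. -/
theorem mul_eq_cup11 (χ c : ↥U → ZMod p) :
    (fun st : ↥U × ↥U => χ st.1 * c st.2) =
      Fermat.Agent.CFT.LocalBr.cup11 (muLoc q p) χ c := by
  funext st
  have h1 : (muLoc q p).ρ (st.1 : Gq q) (c st.2) = c st.2 := muU_ρ_apply hμ st.1 (c st.2)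
  show χ st.1 * c st.2 = χ st.1 • (muLoc q p).ρ (st.1 : Gq q) (c st.2)
  rw [h1]
  rfl

omit h𝒲 hμ in
/-- The cup product of the abstract layer for the multiplication pairing is the pointwise
product. -/
theorem cup11_eq_mul (β : EqPairing (triv p U) (triv p U) (triv p U))
    (hβ : ∀ a b : ZMod p, β.toFun a b = a * b) (χ c : ↥U → ZMod p) :
    Fermat.Agent.S55.Abs.cup11 β χ c = fun st : ↥U × ↥U => χ st.1 * c st.2 := by
  funext st
  show β.toFun (χ st.1) ((triv p U).ρ st.1 (c st.2)) = χ st.1 * c st.2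
  rw [hβ]
  rfl

/-- **Hilbert symbol, right nondegeneracy, pointwise product form**: a level `1`-cocycle `η`
such that `ξ ⊗ η` is a level `2`-coboundary for every level `1`-cocycle `ξ` is zero. -/
theorem hilbert_right_mul (hU : IsOpenSub q U) :
    ∀ η ∈ Z1 𝒲 (triv p U),
      (∀ ξ ∈ Z1 𝒲 (triv p U), (fun st : ↥U × ↥U => ξ st.1 * η st.2) ∈ B2 𝒲 (triv p U)) →
        η = 0 := by
  intro η hη h
  have hη' := (mem_Z1_iff h𝒲 hμ η).1 hη
  refine Hilbert.hilbert_right p hU hμ η hη'.1 hη'.2 fun χ hχ hχl => ?_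
  have h1 := h χ (mem_Z1_of_map_mul h𝒲 hχ hχl)
  rw [mul_eq_cup11 hμ] at h1
  exact (mem_B2_iff h𝒲 hμ _).1 h1

/-- **Hilbert symbol, left nondegeneracy, pointwise product form**: a level `1`-cocycle `ξ`
such that `ξ ⊗ η` is a level `2`-coboundary for every level `1`-cocycle `η` is zero. -/
theorem hilbert_left_mul (hU : IsOpenSub q U) :
    ∀ ξ ∈ Z1 𝒲 (triv p U),
      (∀ η ∈ Z1 𝒲 (triv p U), (fun st : ↥U × ↥U => ξ st.1 * η st.2) ∈ B2 𝒲 (triv p U)) →
        ξ = 0 := by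
  intro ξ hξ h
  have hξ' := (mem_Z1_iff h𝒲 hμ ξ).1 hξ
  refine Hilbert.hilbert_left p hU hμ ξ (map_mul_of_mem_Z1 hξ) hξ'.2 fun c hc hcl => ?_
  have h1 := h c ((mem_Z1_iff h𝒲 hμ c).2 ⟨hc, hcl⟩)
  rw [mul_eq_cup11 hμ] at h1
  exact (mem_B2_iff h𝒲 hμ _).1 h1

/-- **(hhilb)** Hilbert symbol, right nondegeneracy, cup product form: for a nonzero level
`1`-cocycle `c` (second argument) there is a level `1`-cocycle `a` with `a ∪ c` not a level
`2`-coboundary. -/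
theorem hilbert_right_abs (hU : IsOpenSub q U)
    (β : EqPairing (triv p U) (triv p U) (triv p U))
    (hβ : ∀ a b : ZMod p, β.toFun a b = a * b) :
    ∀ c ∈ Z1 𝒲 (triv p U), c ≠ 0 →
      ∃ a ∈ Z1 𝒲 (triv p U), Fermat.Agent.S55.Abs.cup11 β a c ∉ B2 𝒲 (triv p U) := by
  intro c hc hne
  by_contra hcon
  refine hne (hilbert_right_mul h𝒲 hμ hU c hc fun ξ hξ => ?_)
  rw [← cup11_eq_mul β hβ]
  exact by_contra fun h => hcon ⟨ξ, hξ, h⟩

/-- Hilbert symbol, left nondegeneracy, cup product form: for a nonzero level `1`-cocycle `a`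
(first argument) there is a level `1`-cocycle `c` with `a ∪ c` not a level `2`-coboundary. -/
theorem hilbert_left_abs (hU : IsOpenSub q U)
    (β : EqPairing (triv p U) (triv p U) (triv p U))
    (hβ : ∀ a b : ZMod p, β.toFun a b = a * b) :
    ∀ a ∈ Z1 𝒲 (triv p U), a ≠ 0 →
      ∃ c ∈ Z1 𝒲 (triv p U), Fermat.Agent.S55.Abs.cup11 β a c ∉ B2 𝒲 (triv p U) := by
  intro a ha hne
  by_contra hcon
  refine hne (hilbert_left_mul h𝒲 hμ hU a ha fun η hη => ?_)
  rw [← cup11_eq_mul β hβ]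
  exact by_contra fun h => hcon ⟨η, hη, h⟩

/-- **(hfin)** The level `1`-cocycles of the trivial module form a finite-dimensional space
(wrapper of `Fin.finiteDimensional_Z1_trivial`). -/
theorem finite_Z1 (hU : IsOpenSub q U) : Module.Finite (ZMod p) ↥(Z1 𝒲 (triv p U)) :=
  Fin.finiteDimensional_Z1_trivial p hU hμ 𝒲 fun f hf => (isLev₁_iff h𝒲 f).1 hf

/-- The identity on cochains, as a linear equivalence between the level `2`-cocycles of the
trivial module and the Prelude's level cocycles of `μ_p`. -/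
def z2Equiv : ↥(Z2 𝒲 (triv p U)) ≃ₗ[ZMod p] ↥(levelCocycles₂ (lvl q U) (muU p U)) where
  toFun z := ⟨z.1, (mem_Z2_iff h𝒲 hμ z.1).1 z.2⟩
  invFun w := ⟨w.1, (mem_Z2_iff h𝒲 hμ w.1).2 w.2⟩
  map_add' _ _ := rfl
  map_smul' _ _ := rfl
  left_inv _ := rfl
  right_inv _ := rfl

/-- `Abs.H2 𝒲 𝔽_p ≃ H²(U, μ_p)` (Prelude's level-constant `H²`), the identity on cochains. -/
noncomputable def h2Equiv : H2 𝒲 (triv p U) ≃ₗ[ZMod p] H2loc (muLoc q p) U :=
  Submodule.Quotient.equiv _ _ (z2Equiv h𝒲 hμ) (by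
    ext w
    constructor
    · rintro ⟨z, hz, rfl⟩
      exact (mem_B2_iff h𝒲 hμ z.1).1 hz
    · intro hw
      exact ⟨(z2Equiv h𝒲 hμ).symm w, (mem_B2_iff h𝒲 hμ w.1).2 hw,
        (z2Equiv h𝒲 hμ).apply_symm_apply w⟩)

theorem h2Equiv_mk (z : ↥(Z2 𝒲 (triv p U))) :
    h2Equiv h𝒲 hμ (Submodule.Quotient.mk z) = Submodule.Quotient.mk (z2Equiv h𝒲 hμ z) := rfl

/-- **(C) in `Abs` form.** -/
theorem finrank_H2_abs (h1 : Module.finrank (ZMod p) (H2loc (muLoc q p) U) = 1) :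
    Module.finrank (ZMod p) (H2 𝒲 (triv p U)) = 1 := by
  rw [(h2Equiv h𝒲 hμ).finrank_eq, h1]

/-- **(hline)** `H²(U, 𝔽_p)` is a line: every class is a multiple of any nonzero class. -/
theorem line_H2_abs (h1 : Module.finrank (ZMod p) (H2loc (muLoc q p) U) = 1) :
    ∀ z z' : H2 𝒲 (triv p U), z ≠ 0 → ∃ c : ZMod p, z' = c • z := by
  intro z z' hz
  obtain ⟨c, hc⟩ := (finrank_eq_one_iff_of_nonzero' z hz).1 (finrank_H2_abs h𝒲 hμ h1) z'
  exact ⟨c, hc.symm⟩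

end Fermat.Agent.CFT.LocalBr.TDAdapt
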