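/-
LOC-F in the vocabulary of the abstract layer (`Abs`) and of `Base/LocalTopCore`.

* generic: `normLin_eq_nrm`, `cmap₂_normHom_ind₂` — helper290's coefficient norm
  `normHom r χ V : coind_V^G k ⟶ μ` applied to an induced cochain is helper135's corestriction
  `cores₂` of that cochain (`χ ∘ r = 1` on `V`);
* `exists_cmap₂_normHom_not_mem`, `exists_H2map_normHom_ne_zero`, `hne_of_injective` :
  for every open subgroup `V` of the local Galois group containing `μ_p`, the map
  `N_* : H²(Gq, coind_V 𝔽_p) → H²(Gq, μ_p)` induced by the coefficient norm is not zero.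
-/
import Fermat.Agent.CFT.LocalBr.CoresLoc
import Fermat.Agent.CFT.LocalBr.Main
import Fermat.Agent.CFT.LocalBr.TDAdapt
import Fermat.Agent.S55.Base.LocalTopCore

set_option autoImplicit false

open CategoryTheory groupCohomology ExtCitation

namespace Fermat.Agent.CFT.LocalBr.CoresLocAbs

open Fermat.Agent.S55.Abs Fermat.Agent.S55.Shapiro Fermat.Agent.S55.Glue
open Fermat.Agent.S55.Base.LocalTop Fermat.Agent.CFT.LocalBr

/-! ### Generic comparison: coefficient norm of an induced cochain = corestriction -/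

section Generic

variable {k G : Type} [Field k] [Group G] {Γ : Type} [Group Γ] (r : G →* Γ) (χ : Γ →* kˣ)
  (V : Subgroup G) (hfi : V.FiniteIndex) (hψ : ∀ v ∈ V, (χ.comp r) v = 1)

/-- helper290's coefficient norm on `coind_V^G k` is helper135's norm on
`coind_V^G (Res_V μ)`, for functions with the same values. -/
theorem normLin_eq_nrm (f : (Mc k V : Rep.{0} k G))
    (f' : Rep.coind V.subtype (Rep.res V.subtype (Rep.res r (muRep χ))))
    (h : ∀ x : G, f'.1 x = f.1 x) :
    normLin r χ V hfi hψ f = @nrm k _ G _ V (Rep.res r (muRep χ)) hfi f' := by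
  have := hfi
  let _ : Fintype (G ⧸ V) := Subgroup.fintypeQuotientOfFiniteIndex
  show CoindDual.pair (χ.comp r) hψ f (oneC V) = nrm V (Rep.res r (muRep χ)) f'
  rw [CoindDual.pair_apply, nrm_apply]
  refine (finsum_eq_sum_of_fintype _).symm.trans ?_
  rw [← finsum_comp_equiv (QuotientGroup.quotientRightRelEquivQuotientLeftRel V)]
  refine finsum_congr fun x => ?_
  induction x using Quotient.inductionOn with | h g =>
  show CoindDual.pairTerm (χ.comp r) hψ f (oneC V) (QuotientGroup.mk g⁻¹) =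
    (Rep.res r (muRep χ)).ρ g⁻¹ (f'.1 g)
  rw [CoindDual.pairTerm_mk, inv_inv, h g, oneC_apply, mul_one]
  rfl

/-- The coefficient norm of the induced cochain is the corestriction. -/
theorem cmap₂_normHom_ind₂ (R : Retr V) (c : ↥V × ↥V → k) :
    cmap₂ (normHom r χ V hfi hψ) (ind₂ (Rep.trivial k ↥V k) R c) =
      @cores₂ k _ G _ V (Rep.res r (muRep χ)) hfi R c := by
  have := hfi
  funext x
  show normLin r χ V hfi hψ (ind₂ (Rep.trivial k ↥V k) R c x) =
    nrm V (Rep.res r (muRep χ)) (ind₂ (Rep.res V.subtype (Rep.res r (muRep χ))) R c x)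
  refine normLin_eq_nrm r χ V hfi hψ _ _ fun y => ?_
  show ((χ (r ((R.r y : ↥V) : G)) : kˣ) : k) * c (R.uu y x.1, R.uu (y * x.1) x.2) =
    c (R.uu y x.1, R.uu (y * x.1) x.2)
  have h1 : χ (r ((R.r y : ↥V) : G)) = 1 := hψ _ (R.r y).2
  rw [h1, Units.val_one, one_mul]

end Generic

/-! ### The local instance -/

section Local

variable {q : ℕ} [Fact q.Prime] (p : ℕ) [Fact p.Prime]

/-- An open subgroup contains a member of the local level family. -/
theorem exists_localLevel_le {V : Subgroup (Gq q)} (hV : IsOpenSub q V) :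
    ∃ W ∈ (localLevel (localGaloisToGlobal q)).sets, W ≤ V := by
  obtain ⟨F, hF, -, hle⟩ := LCLocal.exists_comap_le_of_isOpenSub hV
  exact ⟨_, ⟨F, hF, rfl⟩, hle⟩

/-- **LOC-F, `Abs` cochain form**: for an open subgroup `V` of the local Galois group containing
`μ_p` there is a level 2-cocycle `z` of `Gq q` with values in `coind_V 𝔽_p` whose image under
the coefficient norm `coind_V 𝔽_p → μ_p` is not a level coboundary. -/
theorem exists_cmap₂_normHom_not_mem {V : Subgroup (Gq q)} (hV : IsOpenSub q V)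
    (hfi : V.FiniteIndex)
    (hψ : ∀ v ∈ V, ((cycloChar p).comp (localGaloisToGlobal q)) v = 1) :
    ∃ z ∈ Z2 (localLevel (localGaloisToGlobal q)) (Mc (ZMod p) V),
      cmap₂ (normHom (localGaloisToGlobal q) (cycloChar p) V hfi hψ) z ∉
        B2 (localLevel (localGaloisToGlobal q))
          (Rep.res (localGaloisToGlobal q) (muRep (cycloChar p))) := by
  have := hfi
  obtain ⟨R⟩ := Retr.nonempty V
  obtain ⟨c, hc, hnc⟩ := CoresLoc.exists_cores₂_not_mem (brauerHyp (q := q)) p hV R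
  have hcZ : c ∈ Z2 (Fermat.Agent.S55.Shapiro.subLevel (localLevel (localGaloisToGlobal q)) V)
      (Rep.trivial (ZMod p) ↥V (ZMod p)) :=
    (TDAdapt.mem_Z2_iff (TDAdapt.isSub_lev V) (fun v hv => hψ v hv) c).2 hc
  refine ⟨ind₂ (Rep.trivial (ZMod p) ↥V (ZMod p)) R c,
    Fermat.Agent.S55.Shapiro.ind₂_mem_Z2 R (exists_localLevel_le hV) hcZ, ?_⟩
  rw [cmap₂_normHom_ind₂]
  rintro ⟨x, hx, hd⟩
  exact hnc ((mem_levelCoboundaries₂_iff _ _ _).2
    ⟨x, (isLevelConstant₁_iff (localGaloisToGlobal q) x).2 hx, hd⟩)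

/-- **LOC-F, class form**: `N_* : H²(Gq, coind_V 𝔽_p) → H²(Gq, μ_p)` is not zero. -/
theorem exists_H2map_normHom_ne_zero {V : Subgroup (Gq q)} (hV : IsOpenSub q V)
    (hfi : V.FiniteIndex)
    (hψ : ∀ v ∈ V, ((cycloChar p).comp (localGaloisToGlobal q)) v = 1) :
    ∃ x₀ : H2 (localLevel (localGaloisToGlobal q)) (Mc (ZMod p) V),
      H2map (localLevel (localGaloisToGlobal q))
        (normHom (localGaloisToGlobal q) (cycloChar p) V hfi hψ) x₀ ≠ 0 := by
  obtain ⟨z, hz, hnz⟩ := exists_cmap₂_normHom_not_mem p hV hfi hψ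
  refine ⟨Submodule.Quotient.mk ⟨z, hz⟩, fun h0 => hnz ?_⟩
  rw [H2map_mk, Submodule.Quotient.mk_eq_zero] at h0
  exact h0

/-- **LOC-F, `hne` form** (the hypothesis `hne` of `LocalTop.goodSub_of_loc`): for a functional
`lam` on `H²(Gq, μ_p)` which is injective on classes, `lam ∘ N_*` is not zero on
`H²(Gq, coind_V 𝔽_p)`. -/
theorem hne_of_injective
    (lam : H2 (localLevel (localGaloisToGlobal q))
      (Rep.res (localGaloisToGlobal q) (muRep (cycloChar p))) →ₗ[ZMod p] ZMod p)
    (hlam : ∀ x, lam x = 0 → x = 0) {V : Subgroup (Gq q)} (hV : IsOpenSub q V) :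
    ∀ (hfi : V.FiniteIndex)
      (hψ : ∀ v ∈ V, ((cycloChar p).comp (localGaloisToGlobal q)) v = 1),
      ∃ x₀ : H2 (localLevel (localGaloisToGlobal q)) (Mc (ZMod p) V),
        lam (H2map (localLevel (localGaloisToGlobal q))
          (normHom (localGaloisToGlobal q) (cycloChar p) V hfi hψ) x₀) ≠ 0 := by
  intro hfi hψ
  obtain ⟨x₀, hx₀⟩ := exists_H2map_normHom_ne_zero p hV hfi hψ
  exact ⟨x₀, fun h => hx₀ (hlam _ h)⟩

end Local

/-! ### The same statements for `primeLocalGaloisGroup q`, `q : Nat.Primes` -/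

section Primes

variable (p : ℕ) [Fact p.Prime] (q : Nat.Primes)

/-- `exists_H2map_normHom_ne_zero` for `primeLocalGaloisGroup q` / `primeLocalToGlobal q`. -/
theorem exists_H2map_normHom_ne_zero_prime {V : Subgroup (primeLocalGaloisGroup q)}
    (hV : @IsOpenSub (q : ℕ) ⟨q.2⟩ V) (hfi : V.FiniteIndex)
    (hψ : ∀ v ∈ V, ((cycloChar p).comp (primeLocalToGlobal q)) v = 1) :
    ∃ x₀ : H2 (localLevel (primeLocalToGlobal q)) (Mc (ZMod p) V),
      H2map (localLevel (primeLocalToGlobal q))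
        (normHom (primeLocalToGlobal q) (cycloChar p) V hfi hψ) x₀ ≠ 0 :=
  haveI : Fact ((q : ℕ)).Prime := ⟨q.2⟩
  exists_H2map_normHom_ne_zero (q := (q : ℕ)) p hV hfi hψ

/-- `hne_of_injective` for `primeLocalGaloisGroup q` / `primeLocalToGlobal q`. -/
theorem hne_of_injective_prime
    (lam : H2 (localLevel (primeLocalToGlobal q))
      (Rep.res (primeLocalToGlobal q) (muRep (cycloChar p))) →ₗ[ZMod p] ZMod p)
    (hlam : ∀ x, lam x = 0 → x = 0) {V : Subgroup (primeLocalGaloisGroup q)}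
    (hV : @IsOpenSub (q : ℕ) ⟨q.2⟩ V) :
    ∀ (hfi : V.FiniteIndex)
      (hψ : ∀ v ∈ V, ((cycloChar p).comp (primeLocalToGlobal q)) v = 1),
      ∃ x₀ : H2 (localLevel (primeLocalToGlobal q)) (Mc (ZMod p) V),
        lam (H2map (localLevel (primeLocalToGlobal q))
          (normHom (primeLocalToGlobal q) (cycloChar p) V hfi hψ) x₀) ≠ 0 := by
  intro hfi hψ
  obtain ⟨x₀, hx₀⟩ := exists_H2map_normHom_ne_zero_prime p q hV hfi hψ
  exact ⟨x₀, fun h => hx₀ (hlam _ h)⟩

end Primes

end Fermat.Agent.CFT.LocalBr.CoresLocAbs
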