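import Fermat.Agent.CFT.LocalBr.MuEmb
import Fermat.Agent.CFT.Cyclic.Galois
import Fermat.Agent.S55.Glue.LocalLevel
import Fermat.Agent.CFT.Local.WildIndex
import Fermat.Agent.CFT.Local.PadicExt

/-!
# Local Brauer package (LOC-FIN): finiteness of `H¹(U, 𝔽_p)`

For an open subgroup `U = Fix E` of the local Galois group `Gq q` (`E/ℚ_q` finite) with
`μ_p ⊂ E`, the set of level-constant homomorphisms `U → 𝔽_p` is finite.

Proof (Kummer theory).  For such a `c`, the map `s ↦ ζ ^ c s` is a level-constant `1`-cocycle of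
`U` with values in `ℚ̄_q^×`, hence a coboundary (Hilbert 90, `Cyclic.Galois`): `s β / β = ζ ^ c s`
for some `β`.  Then `β ^ p` is fixed by `U`, so it lies in `E^×`, and `c ↦ [β ^ p]` is an
injection into `E^× / (E^×)^p`, which is finite (`Local.WildIndex` at `𝒪[E]`).

Main statements
* `index_range_pow_ne_zero`, `finite_units_quotient_pow` : `E^×/(E^×)^p` is finite;
* `mem_of_forall_fixingSubgroup` : Galois descent for `ℚ̄_q / E`;
* `exists_kummer` : the Kummer generator `β` of a level-constant homomorphism;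
* `finite_hom` : the finiteness statement (LOC-FIN).
-/

set_option autoImplicit false

open CategoryTheory groupCohomology ExtCitation
open scoped NNReal NormedField Valued

namespace Fermat.Agent.CFT.LocalBr.Fin

open IsLocalRing Fermat.Agent.CFT.Local Fermat.Agent.CFT.Local.NormedLocal
  Fermat.Agent.CFT.Local.PadicExt Fermat.Agent.S55.Glue

variable {q : ℕ} [Fact q.Prime] (p : ℕ) [Fact p.Prime]

/-- The `p`-th powers have finite index in `E^×` for a finite extension `E` of `ℚ_q`. -/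
theorem index_range_pow_ne_zero (E : IntermediateField ℚ_[q] (PadicAlgCl q))
    [FiniteDimensional ℚ_[q] E] : (powMonoidHom p : Eˣ →* Eˣ).range.index ≠ 0 := by
  have hp : p.Prime := Fact.out
  have hp0 : ((p : ℕ) : 𝒪[E]) ≠ 0 := by
    intro h
    have h2 := congrArg (fun x : 𝒪[E] => (x : E)) h
    simp at h2
    exact hp.ne_zero h2
  obtain ⟨ϖ, hϖ⟩ := IsDiscreteValuationRing.exists_irreducible 𝒪[E]
  obtain ⟨e, υ, hυ⟩ := IsDiscreteValuationRing.eq_unit_mul_pow_irreducible hp0 hϖ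
  have hpe : ((p : ℕ) : 𝒪[E]) = ϖ ^ e * (υ : 𝒪[E]) := by rw [hυ, mul_comm]
  rw [index_range_pow_prime_fractionField (O := 𝒪[E]) E hϖ hp hpe]
  have h1 : Nat.card (rootsOfUnity p 𝒪[E]) ≠ 0 := by
    have : NeZero p := ⟨hp.ne_zero⟩
    exact Nat.card_pos.ne'
  have h2 : Nat.card (ResidueField 𝒪[E]) ≠ 0 := Nat.card_pos.ne'
  exact mul_ne_zero hp.ne_zero (mul_ne_zero h1 (pow_ne_zero _ h2))

/-- `E^× / (E^×)^p` is finite for a finite extension `E` of `ℚ_q`. -/
theorem finite_units_quotient_pow (E : IntermediateField ℚ_[q] (PadicAlgCl q))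
    [FiniteDimensional ℚ_[q] E] : Finite (Eˣ ⧸ (powMonoidHom p : Eˣ →* Eˣ).range) := by
  have : (powMonoidHom p : Eˣ →* Eˣ).range.FiniteIndex := ⟨index_range_pow_ne_zero p E⟩
  exact Subgroup.finite_quotient_of_finiteIndex

/-- Galois descent: an element of `ℚ̄_q` fixed by `Fix E` lies in `E`. -/
theorem mem_of_forall_fixingSubgroup (E : IntermediateField ℚ_[q] (PadicAlgCl q))
    (x : PadicAlgCl q) (h : ∀ g ∈ E.fixingSubgroup, g x = x) : x ∈ E := by
  rw [← InfiniteGalois.fixedField_fixingSubgroup E, IntermediateField.mem_fixedField_iff]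
  exact h

/-- `ζ ^ a` for `a : 𝔽_p`, as a unit of `ℚ̄_q`. -/
noncomputable def zp (q : ℕ) [Fact q.Prime] (a : ZMod p) : (PadicAlgCl q)ˣ :=
  Additive.toMul (muEmb q p a)

theorem zp_add (a b : ZMod p) : zp p q (a + b) = zp p q a * zp p q b := by
  simp [zp, map_add]

theorem zp_injective : Function.Injective (zp p q) := fun _ _ h =>
  muEmb_injective q p (Additive.toMul.injective h)

theorem zp_pow (a : ZMod p) : zp p q a ^ p = 1 := by
  have h : p • muEmb q p a = 0 := (mem_range_muEmb_iff q p _).1 ⟨a, rfl⟩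
  have h2 := congrArg Additive.toMul h
  simpa [zp] using h2

theorem exists_zp_of_pow_eq_one (w : (PadicAlgCl q)ˣ) (hw : w ^ p = 1) : ∃ a, zp p q a = w := by
  have h : p • Additive.ofMul w = 0 := by
    rw [← ofMul_pow, hw]
    rfl
  obtain ⟨a, ha⟩ := (mem_range_muEmb_iff q p _).2 h
  exact ⟨a, by simp [zp, ha]⟩

theorem smul_zp {τ : Gq q} (hτ : cycloChar p (localGaloisToGlobal q τ) = 1) (a : ZMod p) :
    τ • zp p q a = zp p q a := by
  have h := muEmb_equivariant q p τ a
  have hact : (muLoc q p).ρ τ a = a := by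
    have h1 : (muLoc q p).ρ τ a = (cycloChar p (localGaloisToGlobal q τ) : ZMod p) * a := rfl
    rw [h1, hτ]
    simp
  rw [hact] at h
  exact congrArg Additive.toMul h

/-- **Kummer generator** of a level-constant homomorphism `c : Fix E → 𝔽_p` (`μ_p ⊂ E`):
there is `β ∈ ℚ̄_q^×` with `s β = β ζ^{c s}` for all `s ∈ Fix E`, and `β ^ p ∈ E^×`. -/
theorem exists_kummer (E : IntermediateField ℚ_[q] (PadicAlgCl q))
    (hμ : ∀ u ∈ E.fixingSubgroup, cycloChar p (localGaloisToGlobal q u) = 1)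
    (c : ↥E.fixingSubgroup → ZMod p) (hc : ∀ s t, c (s * t) = c s + c t)
    (hcl : IsLevelConstant₁ (lvl q E.fixingSubgroup) c) :
    ∃ (e : Eˣ) (β : (PadicAlgCl q)ˣ), (((e : E) : PadicAlgCl q) = (β : PadicAlgCl q) ^ p) ∧
      ∀ g : ↥E.fixingSubgroup, (g : Gq q) • β = β * zp p q (c g) := by
  classical
  obtain ⟨F₀, hF₀, hlev⟩ := hcl
  have := hF₀
  have := finiteDimensional_localLevelField q F₀
  set f : Gq q → (PadicAlgCl q)ˣ := fun g =>
    if h : g ∈ E.fixingSubgroup then zp p q (c ⟨g, h⟩) else 1 with hf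
  have hf1 : ∀ g (h : g ∈ E.fixingSubgroup), f g = zp p q (c ⟨g, h⟩) := fun g h => by
    rw [hf]; exact dif_pos h
  obtain ⟨β, hβ⟩ := Cyclic.exists_smul_div_eq_of_levelConstant E.fixingSubgroup f
    (fun g hg h hh => by
      rw [hf1 _ (mul_mem hg hh), hf1 g hg, hf1 h hh, smul_zp p (hμ g hg)]
      have : (⟨g * h, mul_mem hg hh⟩ : ↥E.fixingSubgroup) = ⟨g, hg⟩ * ⟨h, hh⟩ := rfl
      rw [this, hc, zp_add, mul_comm])
    (localLevelField q F₀)
    (fun g hg s hs hsF => by
      rw [hf1 _ (mul_mem hg hs), hf1 g hg]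
      have : (⟨g * s, mul_mem hg hs⟩ : ↥E.fixingSubgroup) = ⟨g, hg⟩ * ⟨s, hs⟩ := rfl
      rw [this, hlev ⟨g, hg⟩ ⟨s, hs⟩ ((mem_fixingSubgroup_localLevelField_iff q F₀ s).1 hsF)])
  have hβ' : ∀ g : ↥E.fixingSubgroup, (g : Gq q) • β = β * zp p q (c g) := fun g => by
    have h := hβ g g.2
    rw [hf1 g g.2, div_eq_iff_eq_mul] at h
    rw [h, mul_comm]
  have hfix : ∀ g ∈ E.fixingSubgroup, g ((β : PadicAlgCl q) ^ p) = (β : PadicAlgCl q) ^ p := by
    intro g hg
    have h := congrArg (fun u : (PadicAlgCl q)ˣ => ((u ^ p : (PadicAlgCl q)ˣ) : PadicAlgCl q))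
      (hβ' ⟨g, hg⟩)
    simp only [mul_pow, zp_pow, mul_one] at h
    rw [map_pow]
    simpa using h
  have hmem := mem_of_forall_fixingSubgroup E _ hfix
  have hne : (⟨(β : PadicAlgCl q) ^ p, hmem⟩ : E) ≠ 0 := by
    intro h0
    have := congrArg (fun x : E => (x : PadicAlgCl q)) h0
    simp at this
  exact ⟨Units.mk0 _ hne, β, rfl, hβ'⟩

/-- **LOC-FIN.** For `U` open in the local Galois group with `μ_p ⊂ E` (the cyclotomic character
is trivial on `U`), the set of level-constant homomorphisms `U → 𝔽_p` is finite. -/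
theorem finite_hom {U : Subgroup (Gq q)} (hU : IsOpenSub q U)
    (hμ : ∀ u ∈ U, cycloChar p (localGaloisToGlobal q u) = 1) :
    {c : ↥U → ZMod p | (∀ s t, c (s * t) = c s + c t) ∧ IsLevelConstant₁ (lvl q U) c}.Finite := by
  classical
  obtain ⟨E, hE, rfl⟩ := hU
  have := hE
  have hQ := finite_units_quotient_pow p E
  rw [← Set.finite_coe_iff]
  set S := {c : ↥E.fixingSubgroup → ZMod p | (∀ s t, c (s * t) = c s + c t) ∧
    IsLevelConstant₁ (lvl q E.fixingSubgroup) c} with hS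
  have key : ∀ c : S, ∃ (e : Eˣ) (β : (PadicAlgCl q)ˣ),
      (((e : E) : PadicAlgCl q) = (β : PadicAlgCl q) ^ p) ∧
      ∀ g : ↥E.fixingSubgroup, (g : Gq q) • β = β * zp p q (c.1 g) := fun c =>
    exists_kummer p E hμ c.1 c.2.1 c.2.2
  choose ee ββ hee hββ using key
  let Φ : S → Eˣ ⧸ (powMonoidHom p : Eˣ →* Eˣ).range := fun c => QuotientGroup.mk (ee c)
  refine Finite.of_injective Φ ?_
  intro c c' hcc
  have h1 : (ee c)⁻¹ * ee c' ∈ (powMonoidHom p : Eˣ →* Eˣ).range := QuotientGroup.eq.1 hcc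
  obtain ⟨d, hd⟩ := h1
  have hd' : d ^ p = (ee c)⁻¹ * ee c' := hd
  -- `D` = `d` in `ℚ̄_q^×`
  let D : (PadicAlgCl q)ˣ := Units.map (algebraMap E (PadicAlgCl q)).toMonoidHom d
  have hD : ∀ g ∈ E.fixingSubgroup, g • D = D := by
    intro g hg
    ext
    have := (IntermediateField.mem_fixingSubgroup_iff E g).1 hg ((d : E) : PadicAlgCl q) (d : E).2
    simpa [D] using this
  have hDp : (D : PadicAlgCl q) ^ p * (ββ c : PadicAlgCl q) ^ p = (ββ c' : PadicAlgCl q) ^ p := by
    have h2 : ee c * d ^ p = ee c' := by rw [hd']; group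
    have h3 := congrArg (fun u : Eˣ => (((u : E)) : PadicAlgCl q)) h2
    simp only [Units.val_mul, Units.val_pow_eq_pow_val, MulMemClass.coe_mul,
      SubmonoidClass.coe_pow] at h3
    rw [hee c, hee c'] at h3
    rw [← h3, mul_comm]
    rfl
  -- `w = β_c D / β_{c'}` is a `p`-th root of unity
  set w : (PadicAlgCl q)ˣ := ββ c * D / ββ c' with hw
  have hwp : w ^ p = 1 := by
    rw [hw, div_pow, mul_pow, div_eq_one]
    ext
    simp only [Units.val_mul, Units.val_pow_eq_pow_val]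
    rw [← hDp, mul_comm]
  obtain ⟨a, ha⟩ := exists_zp_of_pow_eq_one p w hwp
  apply Subtype.ext
  funext g
  have hwg : (g : Gq q) • w = w := by rw [← ha]; exact smul_zp p (hμ g g.2) a
  have h4 : (g : Gq q) • w = w * (zp p q (c.1 g) / zp p q (c'.1 g)) := by
    rw [hw, smul_div', smul_mul', hββ c g, hββ c' g, hD g g.2]
    rw [div_mul_div_comm, mul_right_comm]
  rw [hwg] at h4
  have h5 : zp p q (c.1 g) / zp p q (c'.1 g) = 1 := by
    have := mul_left_cancel (a := w) (b := 1) (c := zp p q (c.1 g) / zp p q (c'.1 g))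
      (by rw [mul_one]; exact h4)
    exact this.symm
  exact zp_injective p (div_eq_one.1 h5)

end Fermat.Agent.CFT.LocalBr.Fin
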