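/-
PROGRAM CFT / local duality by local devissage: the BASE CASE at the local Galois group
`Gq q = Gal(ℚ̄_q/ℚ_q)` (tasks row 350, part (B)), and its consequence, the local package for
every finite discrete `𝔽_p[Gq q]`-module.

Level family `locLevel q = localLevel (localGaloisToGlobal q)`, character
`χ = cycloChar p ∘ localGaloisToGlobal q`, `inv` any NONZERO functional on `H²(Gq q, μ_p)`.

* `locPkg_base`  : `LocPkg` for `M0 U = coind_U 𝔽_p`, `U` open of index prime to `p` with
  `μ_p ⊂` the fixed field, given (C) at `U` (`finrank H²(U, μ_p) = 1`) as a hypothesis.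
* `h_base_Gq`    : the same in the literal shape of the hypothesis `h_base` of
  `Abs.locPkg_of_base`.
* `locPkg_Gq`    : `LocPkg` for EVERY finite discrete module, given (C) for all open `U`.
* `locPkg_primeLocal` : the same for the Prelude's `primeLocalGaloisGroup q` (`q : Nat.Primes`).

Inputs: `TDBaseAbs.locPkg_M0` (abstract base case), `TDAdapt` (Hilbert symbol and `H²` line in
`Abs` vocabulary), `Abs.locPkg_of_base` (Sylow devissage), `Devissage.isOpenSub_of_comap_le`.
-/
import Fermat.Agent.CFT.LocalBr.TDBaseAbs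
import Fermat.Agent.CFT.LocalBr.TDAdapt
import Fermat.Agent.S55.Abs.LocFinal
import Fermat.Agent.S55.Abs.DevissageLoc

set_option autoImplicit false

open CategoryTheory groupCohomology ExtCitation
open Fermat.Agent.S55.Abs Fermat.Agent.S55.Shapiro

namespace Fermat.Agent.CFT.LocalBr.TDBase

variable {q : ℕ} [Fact q.Prime] (p : ℕ) [Fact p.Prime]

/-- The mod `p` cyclotomic character of the local Galois group. -/
noncomputable abbrev chiLoc (q : ℕ) [Fact q.Prime] (p : ℕ) [Fact p.Prime] : Gq q →* (ZMod p)ˣ :=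
  (cycloChar p).comp (localGaloisToGlobal q)

/-- **Base case of the local devissage at `Gq q`**: the local package for `coind_U 𝔽_p`, `U` open
of index prime to `p` with `μ_p` in the fixed field of `U`. -/
theorem locPkg_base
    (hμ : IsDisc (localLevel (localGaloisToGlobal q)) (muRep (chiLoc q p)))
    (inv : H2 (localLevel (localGaloisToGlobal q)) (muRep (chiLoc q p)) →ₗ[ZMod p] ZMod p)
    (hinv : inv ≠ 0) (U : Subgroup (Gq q)) (hU : IsOpenSub q U)
    (hμU : ∀ u ∈ U, cycloChar p (localGaloisToGlobal q u) = 1) [U.FiniteIndex]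
    (hp : ¬ p ∣ U.index)
    (hlev : ∃ W ∈ (localLevel (localGaloisToGlobal q)).sets, W ≤ U)
    (h1 : Module.finrank (ZMod p) (H2loc (muLoc q p) U) = 1) :
    LocPkg (localLevel (localGaloisToGlobal q)) (chiLoc q p) hμ inv (M0 (ZMod p) U) :=
  locPkg_M0 U (localLevel (localGaloisToGlobal q)) (chiLoc q p) inv hμU hμ hlev
    (fun h0 => hp ((ZMod.natCast_eq_zero_iff _ _).mp h0)) hinv
    (TDAdapt.line_H2_abs (TDAdapt.isSub_lev U) hμU h1)
    (TDAdapt.hilbert_right_abs (TDAdapt.isSub_lev U) hμU hU (mulTriv U) (fun _ _ => rfl))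
    (TDAdapt.finite_Z1 (TDAdapt.isSub_lev U) hμU hU)

/-- The base case in the literal shape of the hypothesis `h_base` of `Abs.locPkg_of_base`. -/
theorem h_base_Gq
    (hμ : IsDisc (localLevel (localGaloisToGlobal q)) (muRep (chiLoc q p)))
    (inv : H2 (localLevel (localGaloisToGlobal q)) (muRep (chiLoc q p)) →ₗ[ZMod p] ZMod p)
    (hinv : inv ≠ 0)
    (hC : ∀ U : Subgroup (Gq q), IsOpenSub q U →
      Module.finrank (ZMod p) (H2loc (muLoc q p) U) = 1) :
    ∀ U : Subgroup (Gq q), U.FiniteIndex →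
      (∃ W ∈ (localLevel (localGaloisToGlobal q)).sets, W ≤ U) →
      (∀ u ∈ U, chiLoc q p u = 1) → ¬ p ∣ U.index →
      LocPkg (localLevel (localGaloisToGlobal q)) (chiLoc q p) hμ inv (M0 (ZMod p) U) := by
  intro U hfin hlev hχ hpU
  have hU : IsOpenSub q U := by
    obtain ⟨W, ⟨F, hF, rfl⟩, hle⟩ := hlev
    have := hF
    exact Devissage.isOpenSub_of_comap_le hle
  exact locPkg_base p hμ inv hinv U hU hχ hpU hlev (hC U hU)

/-- **Local duality package for every finite discrete `𝔽_p[Gq q]`-module**, from the base case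
and the Sylow devissage. -/
theorem locPkg_Gq
    (hμ : IsDisc (localLevel (localGaloisToGlobal q)) (muRep (chiLoc q p)))
    (inv : H2 (localLevel (localGaloisToGlobal q)) (muRep (chiLoc q p)) →ₗ[ZMod p] ZMod p)
    (hinv : inv ≠ 0)
    (hC : ∀ U : Subgroup (Gq q), IsOpenSub q U →
      Module.finrank (ZMod p) (H2loc (muLoc q p) U) = 1)
    (X : Rep.{0} (ZMod p) (Gq q)) [Module.Finite (ZMod p) X]
    (hX : IsDisc (localLevel (localGaloisToGlobal q)) X) :
    LocPkg (localLevel (localGaloisToGlobal q)) (chiLoc q p) hμ inv X :=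
  locPkg_of_base (localLevel (localGaloisToGlobal q)) (chiLoc q p) hμ inv
    (h_base_Gq p hμ inv hinv hC) X hX

/-- The same for the Prelude's `primeLocalGaloisGroup q`, `primeLocalToGlobal q`
(`q : Nat.Primes`), the local groups of the Poitou–Tate context `ctxS`. -/
theorem locPkg_primeLocal (q : Nat.Primes)
    (hμ : IsDisc (localLevel (primeLocalToGlobal q))
      (muRep ((cycloChar p).comp (primeLocalToGlobal q))))
    (inv : H2 (localLevel (primeLocalToGlobal q))
      (muRep ((cycloChar p).comp (primeLocalToGlobal q))) →ₗ[ZMod p] ZMod p)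
    (hinv : inv ≠ 0)
    (hC : ∀ U : Subgroup (primeLocalGaloisGroup q), @IsOpenSub (q : ℕ) ⟨q.2⟩ U →
      Module.finrank (ZMod p) (@H2loc (q : ℕ) ⟨q.2⟩ (ZMod p) _ (@muLoc (q : ℕ) ⟨q.2⟩ p _) U) = 1)
    (X : Rep.{0} (ZMod p) (primeLocalGaloisGroup q)) [Module.Finite (ZMod p) X]
    (hX : IsDisc (localLevel (primeLocalToGlobal q)) X) :
    LocPkg (localLevel (primeLocalToGlobal q)) ((cycloChar p).comp (primeLocalToGlobal q))
      hμ inv X :=
  haveI : Fact (q : ℕ).Prime := ⟨q.2⟩
  locPkg_Gq (q := (q : ℕ)) p hμ inv hinv hC X hX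

end Fermat.Agent.CFT.LocalBr.TDBase
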