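/-
PROGRAM CFT / LOC (helper65): LD-Q INSTANTIATED.  The base case of the local devissage at the
local Galois group of ANY prime `w` (`LDQ.BaseAt I w`, helper195) holds as soon as the local
invariant is NONZERO on classes.  No other hypothesis: the `H²` line (C) is `LocalBr.finrank_H2mu`
(`Main.lean`, fully proved), the Hilbert symbol and finiteness are inside helper297's
`TDBase.h_base_Gq`.

* `h_base_primeLocal p w inv hinv` : the hypothesis `h_base` of `Abs.locPkg_of_base` /
  `Abs.ld_res_of_base` at `H := primeLocalGaloisGroup w`, for any nonzero class functional `inv`.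
* `locPkg_primeLocal p w inv hinv X hX` : the local package for EVERY finite discrete
  `𝔽_p[G_w]`-module `X`.
* `baseAt I w hinv` : `LDQ.BaseAt I w` from `I.datum.invH w ≠ 0`.
* `baseAt_of_exists I w ⟨z, hz, hne⟩` : the same from one level 2-cocycle with `I.inv w z ≠ 0`.
-/
import Fermat.Agent.CFT.LocalBr.TDBase
import Fermat.Agent.CFT.LocalBr.Main
import Fermat.Agent.S55.Base.LDQ

set_option autoImplicit false

open CategoryTheory groupCohomology ExtCitation
open Fermat.Agent.S55.Abs Fermat.Agent.S55.Base Fermat.Agent.S55.Base.EvalQ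

namespace Fermat.Agent.CFT.LocalBr.LDQInst

variable (p : ℕ) [Fact p.Prime]

/-- **Base case of the local devissage at the local group of any prime `w`**, for any nonzero
class functional `inv` on `H²(G_w, μ_p)`: the literal hypothesis `h_base` of
`Abs.locPkg_of_base` / `Abs.ld_res_of_base`. -/
theorem h_base_primeLocal (w : Nat.Primes)
    (inv : H2 (localLevel (primeLocalToGlobal w))
      (muRep ((cycloChar p).comp (primeLocalToGlobal w))) →ₗ[ZMod p] ZMod p)
    (hinv : inv ≠ 0) :
    ∀ U : Subgroup (primeLocalGaloisGroup w), U.FiniteIndex →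
      (∃ W ∈ (localLevel (primeLocalToGlobal w)).sets, W ≤ U) →
      (∀ u ∈ U, ((cycloChar p).comp (primeLocalToGlobal w)) u = 1) → ¬ p ∣ U.index →
      LocPkg (localLevel (primeLocalToGlobal w)) ((cycloChar p).comp (primeLocalToGlobal w))
        (LDQ.disc_mu p w) inv (M0 (ZMod p) U) :=
  haveI : Fact (w : ℕ).Prime := ⟨w.2⟩
  TDBase.h_base_Gq (q := (w : ℕ)) p (LDQ.disc_mu p w) inv hinv
    (fun _ hU => finrank_H2mu p hU)

/-- **Local duality package for every finite discrete `𝔽_p[G_w]`-module**, `w` any prime, for any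
nonzero class functional `inv` on `H²(G_w, μ_p)`. -/
theorem locPkg_primeLocal (w : Nat.Primes)
    (inv : H2 (localLevel (primeLocalToGlobal w))
      (muRep ((cycloChar p).comp (primeLocalToGlobal w))) →ₗ[ZMod p] ZMod p)
    (hinv : inv ≠ 0)
    (X : Rep.{0} (ZMod p) (primeLocalGaloisGroup w)) [Module.Finite (ZMod p) X]
    (hX : IsDisc (localLevel (primeLocalToGlobal w)) X) :
    LocPkg (localLevel (primeLocalToGlobal w)) ((cycloChar p).comp (primeLocalToGlobal w))
      (LDQ.disc_mu p w) inv X :=
  locPkg_of_base (localLevel (primeLocalToGlobal w)) ((cycloChar p).comp (primeLocalToGlobal w))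
    (LDQ.disc_mu p w) inv (h_base_primeLocal p w inv hinv) X hX

variable {p} {S : Finset Nat.Primes}

/-- **`LDQ.BaseAt I w` from `inv_w ≠ 0` on classes.** -/
theorem baseAt (I : ArithInput p S) (w : Nat.Primes) (hinv : I.datum.invH w ≠ 0) :
    LDQ.BaseAt I w :=
  h_base_primeLocal p w (I.datum.invH w) hinv

/-- **`LDQ.BaseAt I w` from one level 2-cocycle with nonzero invariant.** -/
theorem baseAt_of_exists (I : ArithInput p S) (w : Nat.Primes)
    (h : ∃ z ∈ Z2 (localLevel (primeLocalToGlobal w))
      (Rep.res (primeLocalToGlobal w) (muRep (cycloChar p))), I.inv w z ≠ 0) :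
    LDQ.BaseAt I w := by
  obtain ⟨z, hz, hne⟩ := h
  refine baseAt I w (fun h0 => hne ?_)
  have h1 := I.datum.invH_mk w z hz
  rw [h0] at h1
  exact h1.symm

end Fermat.Agent.CFT.LocalBr.LDQInst
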