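/-
PROGRAM CFT / LOC (helper65): the local invariant is INJECTIVE on `H²(G_w, μ_p)` classes as soon
as it is nonzero — a corollary of the local devissage (`LDQInst.locPkg_primeLocal` at the module
`μ_p` itself), so the `H²`-line (C) at the TOP of the local group is not needed separately.

* `inv_injective_of_locPkg` : generic leveled group `(H, 𝒱)`, character `χ`, functional `inv` on
  `H²(H, μ)`: the local package of `μ = muRep χ` itself forces `inv` to be injective
  (`H²(μ) × H⁰(μ^*(χ)) → k` has trivial left kernel, and `x ∪ t = t(1) • x`).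
* `inv_injective_primeLocal p w inv hinv` : at the local Galois group of any prime `w`, a nonzero
  class functional on `H²(G_w, μ_p)` is injective.
* `finrank_H2_mu_primeLocal` : if a nonzero class functional exists, `H²(G_w, μ_p)` is a line
  (`Abs` vocabulary).
-/
import Fermat.Agent.CFT.LocalBr.LDQInst

set_option autoImplicit false

open CategoryTheory groupCohomology ExtCitation
open Fermat.Agent.S55.Abs Fermat.Agent.S55.Base

namespace Fermat.Agent.CFT.LocalBr.InvInj

section Generic

variable {k H : Type} [Field k] [Group H] (𝒱 : LevelFamily H) (χ : H →* kˣ)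
  (hμ : IsDisc 𝒱 (muRep χ)) (inv : H2 𝒱 (muRep χ) →ₗ[k] k)

/-- On `μ × μ^*(χ) → μ`, the cup product with an invariant `t` is multiplication by `t 1`. -/
theorem cup20_ev_mu (a : H × H → muRep χ) (t : (muRep χ).dualTwist χ)
    (ht : t ∈ ((muRep χ).dualTwist χ).ρ.invariants) :
    cup20 (evPairing χ (muRep χ)) a t = (t (1 : k)) • a := by
  funext x
  have h1 : ((muRep χ).dualTwist χ).ρ (x.1 * x.2) t = t := ht (x.1 * x.2)
  show (evPairing χ (muRep χ)).toFun (a x) (((muRep χ).dualTwist χ).ρ (x.1 * x.2) t)
    = (t (1 : k)) • a x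
  rw [h1]
  show t (a x) = (t (1 : k)) • a x
  have h2 : a x = (a x : k) • (1 : k) := by
    rw [smul_eq_mul, mul_one]
  conv_lhs => rw [h2]
  rw [map_smul, smul_eq_mul, smul_eq_mul, mul_comm]

/-- **The local package of `μ` itself forces the invariant to be injective.** -/
theorem inv_injective_of_locPkg (h : LocPkg 𝒱 χ hμ inv (muRep χ)) : Function.Injective inv := by
  rw [injective_iff_map_eq_zero]
  intro x hx
  refine h.locMono x (fun t => ?_)
  rw [LPL2_apply]
  induction x using Submodule.Quotient.induction_on with
  | H a =>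
    have key : cupH20 𝒱 (evPairing χ (muRep χ)) (isDisc_dualTwist 𝒱 χ hμ h.disc) hμ
        (Submodule.Quotient.mk a) t = (t.1 (1 : k)) • Submodule.Quotient.mk a := by
      rw [← Submodule.Quotient.mk_smul]
      show Submodule.Quotient.mk _ = Submodule.Quotient.mk _
      congr 1
      apply Subtype.ext
      exact cup20_ev_mu χ a.1 t.1 t.2
    rw [key, map_smul, hx, smul_zero]

end Generic

variable (p : ℕ) [Fact p.Prime]

/-- **A nonzero class functional on `H²(G_w, μ_p)` is injective** (`w` any prime). -/
theorem inv_injective_primeLocal (w : Nat.Primes)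
    (inv : H2 (localLevel (primeLocalToGlobal w))
      (muRep ((cycloChar p).comp (primeLocalToGlobal w))) →ₗ[ZMod p] ZMod p)
    (hinv : inv ≠ 0) : Function.Injective inv :=
  inv_injective_of_locPkg _ _ (LDQ.disc_mu p w) inv
    (LDQInst.locPkg_primeLocal p w inv hinv _ (LDQ.disc_mu p w))

/-- If a nonzero class functional exists, `H²(G_w, μ_p)` is a line. -/
theorem finrank_H2_mu_primeLocal (w : Nat.Primes)
    (inv : H2 (localLevel (primeLocalToGlobal w))
      (muRep ((cycloChar p).comp (primeLocalToGlobal w))) →ₗ[ZMod p] ZMod p)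
    (hinv : inv ≠ 0) :
    Module.finrank (ZMod p) (H2 (localLevel (primeLocalToGlobal w))
      (muRep ((cycloChar p).comp (primeLocalToGlobal w)))) = 1 := by
  have hinj := inv_injective_primeLocal p w inv hinv
  have hsurj : Function.Surjective inv := by
    obtain ⟨x, hx⟩ : ∃ x, inv x ≠ 0 := by
      by_contra hcon
      exact hinv (LinearMap.ext fun x => by
        by_contra h0
        exact hcon ⟨x, h0⟩)
    intro c
    refine ⟨(c * (inv x)⁻¹) • x, ?_⟩
    rw [map_smul, smul_eq_mul, mul_assoc, inv_mul_cancel₀ hx, mul_one]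
  have e := LinearEquiv.ofBijective inv ⟨hinj, hsurj⟩
  rw [e.finrank_eq, Module.finrank_self]

end Fermat.Agent.CFT.LocalBr.InvInj
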