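import Mathlib
import Fermat.Agent.CFT.LocalBr.Defs
import Fermat.Agent.S55.Glue.LocalLevel

/-!
# LOC-C2: the layer dictionary

For intermediate fields `E ≤ L` of a Galois extension `Ω/K` with `L/E` normal, `U = Fix E`,
`V = Fix L`:

* `normal_subgroupOf`  : `V.subgroupOf U` is normal in `U`;
* `layerEquiv`         : `U ⧸ V.subgroupOf U ≃* Gal(L/E)` (restriction of automorphisms);
* `layerIso`           : `(Ωˣ)^V`, as a `U ⧸ V`-module, is `Lˣ` as a `Gal(L/E)`-module;
* `relIndex_fixingSubgroup` : `[U : V] = [L : E]` (no normality needed).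

The local instance (`K = ℚ_q`, `Ω = ℚ̄_q`) is the finite layer `layer q U V` of `LocalBr/Defs`.
-/

set_option autoImplicit false

open CategoryTheory

namespace Fermat.Agent.CFT.LocalBr.LayerDict

section general

variable {K Ω : Type} [Field K] [Field Ω] [Algebra K Ω] [IsGalois K Ω]
variable {E L : IntermediateField K Ω} (hEL : E ≤ L)

/-- `L` as an intermediate field of `Ω/E`. -/
abbrev relField : IntermediateField E Ω := IntermediateField.extendScalars hEL

/-- Restriction of automorphisms `Fix E → Gal(L/E)` for `L/E` normal. -/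
noncomputable def resHom [Normal E (relField hEL)] :
    ↥E.fixingSubgroup →* ((relField hEL) ≃ₐ[E] (relField hEL)) :=
  (AlgEquiv.restrictNormalHom (relField hEL)).comp
    (IntermediateField.fixingSubgroupEquiv E).toMonoidHom

omit [IsGalois K Ω] in
theorem resHom_apply [Normal E (relField hEL)] (u : E.fixingSubgroup) (y : relField hEL) :
    ((resHom hEL u y : relField hEL) : Ω) = (u : Ω ≃ₐ[K] Ω) (y : Ω) := by
  change ((AlgEquiv.restrictNormalHom (relField hEL)
    (IntermediateField.fixingSubgroupEquiv E u) y : relField hEL) : Ω) = _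
  rw [AlgEquiv.restrictNormalHom_apply]
  rfl

theorem resHom_surjective [Normal E (relField hEL)] : Function.Surjective (resHom hEL) := by
  intro σ
  obtain ⟨τ, hτ⟩ := AlgEquiv.restrictNormalHom_surjective (F := E) (K₁ := relField hEL) Ω σ
  exact ⟨(IntermediateField.fixingSubgroupEquiv E).symm τ, by
    change AlgEquiv.restrictNormalHom (relField hEL)
      (IntermediateField.fixingSubgroupEquiv E ((IntermediateField.fixingSubgroupEquiv E).symm τ))
        = σ
    rw [MulEquiv.apply_symm_apply, hτ]⟩

omit [IsGalois K Ω] in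
theorem ker_resHom [Normal E (relField hEL)] :
    (resHom hEL).ker = L.fixingSubgroup.subgroupOf E.fixingSubgroup := by
  ext u
  rw [MonoidHom.mem_ker, Subgroup.mem_subgroupOf, IntermediateField.mem_fixingSubgroup_iff]
  constructor
  · intro h x hx
    have h1 := resHom_apply hEL u ⟨x, hx⟩
    rw [h] at h1
    exact h1.symm
  · intro h
    ext y
    rw [resHom_apply]
    exact h y y.2

omit [IsGalois K Ω] in
/-- `Fix L` is normal in `Fix E` when `L/E` is normal. -/
theorem normal_subgroupOf [Normal E (relField hEL)] :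
    (L.fixingSubgroup.subgroupOf E.fixingSubgroup).Normal := by
  rw [← ker_resHom hEL]
  exact MonoidHom.normal_ker _

/-- `Fix E ⧸ Fix L ≃* Gal(L/E)`, by restriction of automorphisms. -/
noncomputable def layerEquiv [Normal E (relField hEL)]
    [(L.fixingSubgroup.subgroupOf E.fixingSubgroup).Normal] :
    ↥E.fixingSubgroup ⧸ L.fixingSubgroup.subgroupOf E.fixingSubgroup ≃*
      ((relField hEL) ≃ₐ[E] (relField hEL)) :=
  QuotientGroup.liftEquiv _ (resHom_surjective hEL) (ker_resHom hEL).symm

theorem layerEquiv_mk [Normal E (relField hEL)]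
    [(L.fixingSubgroup.subgroupOf E.fixingSubgroup).Normal] (u : E.fixingSubgroup) :
    layerEquiv hEL (u : ↥E.fixingSubgroup ⧸ L.fixingSubgroup.subgroupOf E.fixingSubgroup) =
      resHom hEL u := rfl

theorem layerEquiv_mk_apply [Normal E (relField hEL)]
    [(L.fixingSubgroup.subgroupOf E.fixingSubgroup).Normal] (u : E.fixingSubgroup)
    (y : relField hEL) :
    ((layerEquiv hEL (u : ↥E.fixingSubgroup ⧸ L.fixingSubgroup.subgroupOf E.fixingSubgroup) y :
      relField hEL) : Ω) = (u : Ω ≃ₐ[K] Ω) (y : Ω) := by
  rw [layerEquiv_mk, resHom_apply]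

/-- `[Fix E : Fix L] = [L : E]` (no normality needed). -/
theorem index_subgroupOf_fixingSubgroup :
    (L.fixingSubgroup.subgroupOf E.fixingSubgroup).index = Module.finrank E (relField hEL) := by
  rw [IntermediateField.finrank_eq_fixingSubgroup_index Ω (relField hEL)]
  have h : L.fixingSubgroup.subgroupOf E.fixingSubgroup =
      (relField hEL).fixingSubgroup.comap (IntermediateField.fixingSubgroupEquiv E).toMonoidHom := by
    ext u
    rw [Subgroup.mem_subgroupOf, Subgroup.mem_comap, IntermediateField.mem_fixingSubgroup_iff,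
      IntermediateField.mem_fixingSubgroup_iff]
    rfl
  rw [h]
  exact Subgroup.index_comap_of_surjective _ (IntermediateField.fixingSubgroupEquiv E).surjective

/-- `[Fix E : Fix L] = [L : E]`, in `relIndex` form. -/
theorem relIndex_fixingSubgroup :
    L.fixingSubgroup.relIndex E.fixingSubgroup = Module.finrank E (relField hEL) :=
  index_subgroupOf_fixingSubgroup hEL

section iso

/-- The inclusion of the units of `L` into the `Fix L`-invariant units of `Ω`. -/
noncomputable def invHom :
    Additive (relField hEL)ˣ →+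
      (Representation.invariants
        ((Rep.res E.fixingSubgroup.subtype (Rep.ofAlgebraAutOnUnits K Ω)).ρ.comp
          (L.fixingSubgroup.subgroupOf E.fixingSubgroup).subtype)) where
  toFun y := ⟨Additive.ofMul
      (Units.map (algebraMap (relField hEL) Ω : (relField hEL) →* Ω) y.toMul), by
    intro n
    change Additive.ofMul (((n : E.fixingSubgroup) : Ω ≃ₐ[K] Ω) •
      (Units.map (algebraMap (relField hEL) Ω : (relField hEL) →* Ω) y.toMul)) = _
    congr 1
    ext
    exact (IntermediateField.mem_fixingSubgroup_iff _ _).1 (Subgroup.mem_subgroupOf.1 n.2) _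
      (y.toMul : relField hEL).2⟩
  map_zero' := by
    ext
    rfl
  map_add' y z := by
    apply Subtype.ext
    change Additive.ofMul (Units.map _ (y.toMul * z.toMul)) = _
    rw [map_mul]
    rfl

omit [IsGalois K Ω] in
theorem invHom_apply_coe (y : Additive (relField hEL)ˣ) :
    ((Additive.toMul (invHom hEL y).1 : Ωˣ) : Ω) = ((y.toMul : (relField hEL)ˣ) : relField hEL) :=
  rfl

theorem invHom_bijective : Function.Bijective (invHom hEL) := by
  constructor
  · intro y z h
    have h1 : Units.map (algebraMap (relField hEL) Ω : (relField hEL) →* Ω) y.toMul =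
        Units.map (algebraMap (relField hEL) Ω : (relField hEL) →* Ω) z.toMul :=
      congrArg (fun t => Additive.toMul t.1) h
    have h2 : ((y.toMul : relField hEL) : Ω) = ((z.toMul : relField hEL) : Ω) :=
      congrArg Units.val h1
    exact Additive.toMul.injective (Units.ext (Subtype.ext h2))
  · rintro ⟨x, hx⟩
    have hmem : ((Additive.toMul x : Ωˣ) : Ω) ∈ relField hEL := by
      rw [IntermediateField.mem_extendScalars, ← InfiniteGalois.fixedField_fixingSubgroup L,
        IntermediateField.mem_fixedField_iff]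
      intro v hv
      have hvE : v ∈ E.fixingSubgroup := IntermediateField.fixingSubgroup_antitone hEL hv
      have := congrArg (fun t => ((Additive.toMul t : Ωˣ) : Ω))
        (hx ⟨⟨v, hvE⟩, Subgroup.mem_subgroupOf.2 hv⟩)
      exact this
    have hne : (⟨_, hmem⟩ : relField hEL) ≠ 0 := by
      intro h0
      exact (Additive.toMul x : Ωˣ).ne_zero (congrArg Subtype.val h0)
    refine ⟨Additive.ofMul (Units.mk0 ⟨_, hmem⟩ hne), ?_⟩
    apply Subtype.ext
    change Additive.ofMul (Units.map _ (Units.mk0 _ hne)) = x
    apply Additive.toMul.injective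
    ext
    rfl

/-- The units of `L` are the `Fix L`-invariant units of `Ω`. -/
noncomputable def invEquiv :
    Additive (relField hEL)ˣ ≃ₗ[ℤ]
      (Representation.invariants
        ((Rep.res E.fixingSubgroup.subtype (Rep.ofAlgebraAutOnUnits K Ω)).ρ.comp
          (L.fixingSubgroup.subgroupOf E.fixingSubgroup).subtype)) :=
  (AddEquiv.ofBijective (invHom hEL) (invHom_bijective hEL)).toIntLinearEquiv

variable [Normal E (relField hEL)] [(L.fixingSubgroup.subgroupOf E.fixingSubgroup).Normal]

/-- `(Ωˣ)^(Fix L)`, as a `Fix E ⧸ Fix L`-module, is the module of units of `L/E`. -/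
noncomputable def layerIso :
    Rep.res (layerEquiv hEL).toMonoidHom (Rep.ofAlgebraAutOnUnits E (relField hEL)) ≅
      (Rep.res E.fixingSubgroup.subtype (Rep.ofAlgebraAutOnUnits K Ω)).quotientToInvariants
        (L.fixingSubgroup.subgroupOf E.fixingSubgroup) :=
  Rep.mkIso (Representation.Equiv.mk (invEquiv hEL) (fun g => by
    induction g using QuotientGroup.induction_on with
    | _ u =>
      ext y
      change Additive.ofMul (Units.map (algebraMap (relField hEL) Ω : (relField hEL) →* Ω)
          (Units.map (layerEquiv hEL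
              (u : ↥E.fixingSubgroup ⧸ L.fixingSubgroup.subgroupOf E.fixingSubgroup) :
              (relField hEL) →* (relField hEL))
            (Additive.toMul (α := (relField hEL)ˣ) y))) =
        Additive.ofMul (Units.map (((u : E.fixingSubgroup) : Ω ≃ₐ[K] Ω) : Ω →* Ω)
          (Units.map (algebraMap (relField hEL) Ω : (relField hEL) →* Ω)
            (Additive.toMul (α := (relField hEL)ˣ) y)))
      congr 1
      ext
      exact layerEquiv_mk_apply hEL u _))

end iso

omit [IsGalois K Ω] in
/-- `L/E` is finite when `L/K` is. -/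
theorem finiteDimensional_relField [FiniteDimensional K L] :
    FiniteDimensional E (relField hEL) := by
  have h1 : FiniteDimensional K (relField hEL) := ‹FiniteDimensional K L›
  exact FiniteDimensional.right K E (relField hEL)

/-- `L/E` is Galois when it is normal. -/
theorem isGalois_relField [Normal E (relField hEL)] : IsGalois E (relField hEL) :=
  { to_isSeparable := Algebra.isSeparable_tower_bot_of_isSeparable E (relField hEL) Ω }

include hEL in
/-- `[K : E] * [Fix E : Fix L] = [K : L]`. -/
theorem finrank_mul_relIndex :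
    Module.finrank K E * L.fixingSubgroup.relIndex E.fixingSubgroup = Module.finrank K L := by
  rw [relIndex_fixingSubgroup hEL]
  exact Module.finrank_mul_finrank K E (relField hEL)

/-- Conversely, `L/E` is normal when `Fix L` is normal in `Fix E`. -/
theorem normal_relField_of_normal
    (h : (L.fixingSubgroup.subgroupOf E.fixingSubgroup).Normal) : Normal E (relField hEL) := by
  have h1 : (relField hEL).fixingSubgroup =
      (L.fixingSubgroup.subgroupOf E.fixingSubgroup).comap
        (IntermediateField.fixingSubgroupEquiv E).symm.toMonoidHom := by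
    ext σ
    rw [Subgroup.mem_comap, Subgroup.mem_subgroupOf, IntermediateField.mem_fixingSubgroup_iff,
      IntermediateField.mem_fixingSubgroup_iff]
    rfl
  have h2 : (relField hEL).fixingSubgroup.Normal := by
    rw [h1]
    exact Subgroup.Normal.comap h _
  exact ((InfiniteGalois.normal_iff_isGalois (relField hEL)).1 h2).to_normal

omit hEL in
/-- `Fix L ≤ Fix E` implies `E ≤ L` (infinite Galois correspondence). -/
theorem le_of_fixingSubgroup_le {E L : IntermediateField K Ω}
    (h : L.fixingSubgroup ≤ E.fixingSubgroup) : E ≤ L := by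
  rw [← InfiniteGalois.fixedField_fixingSubgroup E, ← InfiniteGalois.fixedField_fixingSubgroup L]
  intro x hx
  rw [IntermediateField.mem_fixedField_iff] at hx ⊢
  exact fun σ hσ => hx σ (h hσ)

/-- The dictionary for an arbitrary name `N` of the subgroup `Fix L` of `Fix E`. -/
theorem exists_iso_of_eq [Normal E (relField hEL)] (N : Subgroup ↥E.fixingSubgroup) [N.Normal]
    (hN : N = L.fixingSubgroup.subgroupOf E.fixingSubgroup) :
    ∃ e : ↥E.fixingSubgroup ⧸ N ≃* ((relField hEL) ≃ₐ[E] (relField hEL)),
      (∀ (u : E.fixingSubgroup) (y : relField hEL),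
        ((e (u : ↥E.fixingSubgroup ⧸ N) y : relField hEL) : Ω) = (u : Ω ≃ₐ[K] Ω) (y : Ω)) ∧
      Nonempty ((Rep.res E.fixingSubgroup.subtype
          (Rep.ofAlgebraAutOnUnits K Ω)).quotientToInvariants N ≅
        Rep.res e.toMonoidHom (Rep.ofAlgebraAutOnUnits E (relField hEL))) := by
  subst hN
  exact ⟨layerEquiv hEL, layerEquiv_mk_apply hEL, ⟨(layerIso hEL).symm⟩⟩

end general

section padic

open Fermat.Agent.S55.Glue

variable (q : ℕ) [Fact q.Prime]

/-- The level field of `F/ℚ` over `E`: the compositum `E · ℚ_q(ι F)`. -/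
noncomputable def levelField (E : IntermediateField ℚ_[q] (PadicAlgCl q))
    (F : IntermediateField ℚ (AlgebraicClosure ℚ)) : IntermediateField ℚ_[q] (PadicAlgCl q) :=
  E ⊔ localLevelField q F

variable {q} (E : IntermediateField ℚ_[q] (PadicAlgCl q))
  (F : IntermediateField ℚ (AlgebraicClosure ℚ))

theorem le_levelField : E ≤ levelField q E F := le_sup_left

theorem levelField_mono {F F' : IntermediateField ℚ (AlgebraicClosure ℚ)} (h : F ≤ F') :
    levelField q E F ≤ levelField q E F' :=
  sup_le_sup_left (localLevelField_mono h) E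

theorem finiteDimensional_levelField [FiniteDimensional ℚ_[q] E] [FiniteDimensional ℚ F] :
    FiniteDimensional ℚ_[q] (levelField q E F) := by
  have := finiteDimensional_localLevelField q F
  exact IntermediateField.finiteDimensional_sup E (localLevelField q F)

/-- `Fix (E · ℚ_q(ι F)) = Fix E ∩ r⁻¹(Fix F)`. -/
theorem mem_fixingSubgroup_levelField_iff (τ : Gq q) :
    τ ∈ (levelField q E F).fixingSubgroup ↔
      τ ∈ E.fixingSubgroup ∧ localGaloisToGlobal q τ ∈ F.fixingSubgroup := by
  rw [levelField, IntermediateField.fixingSubgroup_sup, Subgroup.mem_inf,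
    mem_fixingSubgroup_localLevelField_iff]

/-- The Prelude level `r⁻¹(Fix F)` of `U = Fix E` is `Fix (E · ℚ_q(ι F))`. -/
theorem subgroupOf_fixingSubgroup_levelField :
    (levelField q E F).fixingSubgroup.subgroupOf E.fixingSubgroup =
      F.fixingSubgroup.comap (lvl q E.fixingSubgroup) := by
  ext u
  rw [Subgroup.mem_subgroupOf, Subgroup.mem_comap, mem_fixingSubgroup_levelField_iff]
  exact ⟨fun h => h.2, fun h => ⟨u.2, h⟩⟩

/-- The Prelude level of a normal `F/ℚ` is a normal subgroup of `Fix E`. -/
theorem normal_comap_lvl [Normal ℚ F] :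
    (F.fixingSubgroup.comap (lvl q E.fixingSubgroup)).Normal := by
  have h2 : @Normal ℚ F _ _ (IntermediateField.algebra' F) := by
    convert ‹Normal ℚ F›
    exact Subsingleton.elim _ _
  have h : F.fixingSubgroup.Normal := by
    rw [← IntermediateField.restrictNormalHom_ker F]
    exact MonoidHom.normal_ker _
  exact Subgroup.Normal.comap h _

theorem normal_subgroupOf_levelField [Normal ℚ F] :
    ((levelField q E F).fixingSubgroup.subgroupOf E.fixingSubgroup).Normal := by
  rw [subgroupOf_fixingSubgroup_levelField]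
  exact normal_comap_lvl E F

/-- `E · ℚ_q(ι F)` is normal over `E` when `F/ℚ` is normal. -/
theorem normal_levelField [Normal ℚ F] : Normal E (relField (le_levelField E F)) :=
  normal_relField_of_normal (le_levelField E F) (normal_subgroupOf_levelField E F)

/-- Smoothness: every element of `ℚ̄_q` is fixed by the Prelude level of some finite normal
`F/ℚ` (Krasner, via `Glue.LocalLevel`). -/
theorem exists_level_fixing (x : PadicAlgCl q) :
    ∃ F : IntermediateField ℚ (AlgebraicClosure ℚ), FiniteDimensional ℚ F ∧ Normal ℚ F ∧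
      ∀ τ : Gq q, localGaloisToGlobal q τ ∈ F.fixingSubgroup → τ x = x := by
  have hx : IsIntegral ℚ_[q] x := Algebra.IsIntegral.isIntegral x
  have hfd : FiniteDimensional ℚ_[q] (IntermediateField.adjoin ℚ_[q] {x}) :=
    IntermediateField.adjoin.finiteDimensional hx
  obtain ⟨F, hF, hFn, hle⟩ :=
    exists_normal_le_localLevelField q (IntermediateField.adjoin ℚ_[q] {x})
  refine ⟨F, hF, hFn, fun τ hτ => ?_⟩
  have h1 : τ ∈ (localLevelField q F).fixingSubgroup :=
    (mem_fixingSubgroup_localLevelField_iff q F τ).2 hτ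
  exact (IntermediateField.mem_fixingSubgroup_iff _ _).1 h1 x
    (hle (IntermediateField.mem_adjoin_simple_self ℚ_[q] x))

/-- **LOC-C2, layer form.** For `E ≤ L` with `L/E` normal, `U = Fix E`, `V = Fix L`: the finite
layer `(U ⧸ V, (ℚ̄_qˣ)^V)` is `(Gal(L/E), Lˣ)`. -/
theorem exists_layer_iso {E L : IntermediateField ℚ_[q] (PadicAlgCl q)} (hEL : E ≤ L)
    [Normal E (relField hEL)] [(L.fixingSubgroup.subgroupOf E.fixingSubgroup).Normal] :
    ∃ e : ↥E.fixingSubgroup ⧸ L.fixingSubgroup.subgroupOf E.fixingSubgroup ≃*
        ((relField hEL) ≃ₐ[E] (relField hEL)),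
      (∀ (u : E.fixingSubgroup) (y : relField hEL),
        ((e (u : ↥E.fixingSubgroup ⧸ L.fixingSubgroup.subgroupOf E.fixingSubgroup) y :
          relField hEL) : PadicAlgCl q) = (u : Gq q) (y : PadicAlgCl q)) ∧
      Nonempty (layer E.fixingSubgroup L.fixingSubgroup ≅
        Rep.res e.toMonoidHom (Rep.ofAlgebraAutOnUnits E (relField hEL))) :=
  ⟨layerEquiv hEL, layerEquiv_mk_apply hEL, ⟨(layerIso hEL).symm⟩⟩

/-- **LOC-C2, level form.** For a finite normal `F/ℚ`, the Prelude level `N = r⁻¹(Fix F)` of
`U = Fix E` gives the pair `(U ⧸ N, (ℚ̄_qˣ)^N) = (Gal(L/E), Lˣ)` with `L = E · ℚ_q(ι F)`. -/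
theorem exists_level_iso [Normal ℚ F] [Normal E (relField (le_levelField E F))]
    [(F.fixingSubgroup.comap (lvl q E.fixingSubgroup)).Normal] :
    ∃ e : ↥E.fixingSubgroup ⧸ F.fixingSubgroup.comap (lvl q E.fixingSubgroup) ≃*
        ((relField (le_levelField E F)) ≃ₐ[E] (relField (le_levelField E F))),
      (∀ (u : E.fixingSubgroup) (y : relField (le_levelField E F)),
        ((e (u : ↥E.fixingSubgroup ⧸ F.fixingSubgroup.comap (lvl q E.fixingSubgroup)) y :
          relField (le_levelField E F)) : PadicAlgCl q) = (u : Gq q) (y : PadicAlgCl q)) ∧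
      Nonempty ((Rep.res E.fixingSubgroup.subtype (unitsRep q)).quotientToInvariants
          (F.fixingSubgroup.comap (lvl q E.fixingSubgroup)) ≅
        Rep.res e.toMonoidHom (Rep.ofAlgebraAutOnUnits E (relField (le_levelField E F)))) :=
  exists_iso_of_eq (le_levelField E F) _ (subgroupOf_fixingSubgroup_levelField E F).symm

/-- **LOC-C2, open-subgroup form.** For open subgroups `V ≤ U` of `Gq q` with `V` normal in `U`
there are finite extensions `E ≤ L` of `ℚ_q` with `U = Fix E`, `V = Fix L`, `L/E` Galois, and the
finite layer `(U ⧸ V, (ℚ̄_qˣ)^V)` is `(Gal(L/E), Lˣ)`; moreover `[U : V] = [L : E]`. -/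
theorem exists_layer_iso_of_isOpenSub {U V : Subgroup (Gq q)} (hU : IsOpenSub q U)
    (hV : IsOpenSub q V) (hVU : V ≤ U) [(V.subgroupOf U).Normal] :
    ∃ (E L : IntermediateField ℚ_[q] (PadicAlgCl q)) (hEL : E ≤ L)
      (_ : FiniteDimensional ℚ_[q] E) (_ : FiniteDimensional ℚ_[q] L)
      (_ : FiniteDimensional E (relField hEL)) (_ : IsGalois E (relField hEL)),
      U = E.fixingSubgroup ∧ V = L.fixingSubgroup ∧
      (V.subgroupOf U).index = Module.finrank E (relField hEL) ∧
      ∃ e : ↥U ⧸ V.subgroupOf U ≃* ((relField hEL) ≃ₐ[E] (relField hEL)),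
        (∀ (u : U) (y : relField hEL),
          ((e (u : ↥U ⧸ V.subgroupOf U) y : relField hEL) : PadicAlgCl q) =
            (u : Gq q) (y : PadicAlgCl q)) ∧
        Nonempty (layer U V ≅ Rep.res e.toMonoidHom (Rep.ofAlgebraAutOnUnits E (relField hEL))) := by
  obtain ⟨E, hE, rfl⟩ := hU
  obtain ⟨L, hL, rfl⟩ := hV
  have hEL : E ≤ L := le_of_fixingSubgroup_le hVU
  have hn : Normal E (relField hEL) := normal_relField_of_normal hEL inferInstance
  obtain ⟨e, he, hiso⟩ := exists_layer_iso hEL
  exact ⟨E, L, hEL, hE, hL, finiteDimensional_relField hEL, isGalois_relField hEL, rfl, rfl,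
    index_subgroupOf_fixingSubgroup hEL, e, he, hiso⟩

/-- The index of the Prelude level of `F` in `U = Fix E` is `[E · ℚ_q(ι F) : E]`. -/
theorem index_comap_lvl :
    (F.fixingSubgroup.comap (lvl q E.fixingSubgroup)).index =
      Module.finrank E (relField (le_levelField E F)) := by
  rw [← subgroupOf_fixingSubgroup_levelField]
  exact index_subgroupOf_fixingSubgroup (le_levelField E F)

end padic

end Fermat.Agent.CFT.LocalBr.LayerDict
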