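import Fermat.Agent.CFT.LocalBr.MuEmb
import Fermat.Agent.CFT.LC.Cyclic
import Fermat.Agent.CFT.Cyclic.Galois
import Fermat.Agent.S55.Glue.LocalLevel

/-!
# LOC: the level basis of a subgroup of the local Galois group

`levelBasis U` is the `LC.LevelBasis` of `↥U` (`U ≤ Gq q`) whose members are the subgroups
`Fix(L) ∩ U`, `L/ℚ_q` finite normal.  We prove

* `const₁_iff`, `const₂_iff` : `LC`-level-constancy is the Prelude's
  `IsLevelConstant₁/₂ (lvl q U)`;
* `smooth_units`       : `ℚ̄_q^×` is smooth;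
* `isKummer_muEmb`     : `muEmb` is a Kummer datum `μ_p → ℚ̄_q^×` over `U`;
* `h90_units`, `h90On_units` : Hilbert 90 for level-constant cochains of `U` and of its levels.
-/

set_option autoImplicit false

open CategoryTheory groupCohomology ExtCitation

namespace Fermat.Agent.CFT.LocalBr

open Fermat.Agent.CFT.LC Fermat.Agent.S55.Glue

variable {q : ℕ} [Fact q.Prime]

/-- The fixing subgroup of a finite normal extension is normal of finite index. -/
theorem fixingSubgroup_normal_finiteIndex (L : IntermediateField ℚ_[q] (PadicAlgCl q))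
    [FiniteDimensional ℚ_[q] L] [Normal ℚ_[q] L] :
    L.fixingSubgroup.Normal ∧ L.fixingSubgroup.FiniteIndex := by
  rw [← L.restrictNormalHom_ker]
  exact ⟨MonoidHom.normal_ker _, Subgroup.finiteIndex_ker _⟩

/-- The open normal subgroups of `U`: `Fix(L) ∩ U` for `L/ℚ_q` finite normal. -/
def levelBasis (U : Subgroup (Gq q)) : LevelBasis ↥U where
  mem N := ∃ L : IntermediateField ℚ_[q] (PadicAlgCl q), FiniteDimensional ℚ_[q] L ∧
    Normal ℚ_[q] L ∧ N = L.fixingSubgroup.subgroupOf U
  normal := by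
    rintro N ⟨L, hL, hn, rfl⟩
    have := (fixingSubgroup_normal_finiteIndex L).1
    infer_instance
  finiteIndex := by
    rintro N ⟨L, hL, hn, rfl⟩
    have := (fixingSubgroup_normal_finiteIndex L).2
    infer_instance
  directed := by
    rintro N N' ⟨L, hL, hn, rfl⟩ ⟨L', hL', hn', rfl⟩
    refine ⟨(L ⊔ L').fixingSubgroup.subgroupOf U,
      ⟨L ⊔ L', IntermediateField.finiteDimensional_sup L L', inferInstance, rfl⟩, ?_⟩
    rw [IntermediateField.fixingSubgroup_sup]
    intro x hx
    exact ⟨hx.1, hx.2⟩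
  nonempty := ⟨_, ⊥, inferInstance, inferInstance, rfl⟩


theorem levelBasis_mem_iff (U : Subgroup (Gq q)) (N : Subgroup ↥U) :
    (levelBasis U).mem N ↔ ∃ L : IntermediateField ℚ_[q] (PadicAlgCl q),
      FiniteDimensional ℚ_[q] L ∧ Normal ℚ_[q] L ∧ N = L.fixingSubgroup.subgroupOf U := Iff.rfl

/-- Every finite extension of `ℚ_q` inside `ℚ̄_q` is contained in a finite normal one. -/
theorem exists_normal_ge (E : IntermediateField ℚ_[q] (PadicAlgCl q))
    [FiniteDimensional ℚ_[q] E] :
    ∃ L : IntermediateField ℚ_[q] (PadicAlgCl q), FiniteDimensional ℚ_[q] L ∧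
      Normal ℚ_[q] L ∧ E ≤ L :=
  ⟨IntermediateField.normalClosure ℚ_[q] E (PadicAlgCl q), inferInstance,
    normalClosure.normal ℚ_[q] E (PadicAlgCl q), IntermediateField.le_normalClosure E⟩

/-- `LC`-level-constancy is the Prelude's, degree 1. -/
theorem const₁_iff (U : Subgroup (Gq q)) {X : Type*} (f : ↥U → X) :
    (levelBasis U).Const₁ f ↔ IsLevelConstant₁ (lvl q U) f := by
  constructor
  · rintro ⟨N, ⟨L, hL, hn, rfl⟩, h⟩
    obtain ⟨F, hF, hLF⟩ := exists_le_localLevelField q L
    refine ⟨F, hF, fun g s hs => h g s ?_⟩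
    rw [Subgroup.mem_subgroupOf]
    exact IntermediateField.fixingSubgroup_antitone hLF
      ((mem_fixingSubgroup_localLevelField_iff q F (s : Gq q)).2 hs)
  · rintro ⟨F, hF, h⟩
    haveI := hF
    haveI := finiteDimensional_localLevelField q F
    obtain ⟨L, hL, hn, hle⟩ := exists_normal_ge (localLevelField q F)
    refine ⟨_, ⟨L, hL, hn, rfl⟩, fun g s hs => h g s ?_⟩
    rw [Subgroup.mem_subgroupOf] at hs
    exact (mem_fixingSubgroup_localLevelField_iff q F (s : Gq q)).1
      (IntermediateField.fixingSubgroup_antitone hle hs)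

/-- `LC`-level-constancy is the Prelude's, degree 2. -/
theorem const₂_iff (U : Subgroup (Gq q)) {X : Type*} (f : ↥U × ↥U → X) :
    (levelBasis U).Const₂ f ↔ IsLevelConstant₂ (lvl q U) f := by
  constructor
  · rintro ⟨N, ⟨L, hL, hn, rfl⟩, h⟩
    obtain ⟨F, hF, hLF⟩ := exists_le_localLevelField q L
    refine ⟨F, hF, fun g g' s s' hs hs' => h g g' s s' ?_ ?_⟩
    · rw [Subgroup.mem_subgroupOf]
      exact IntermediateField.fixingSubgroup_antitone hLF
        ((mem_fixingSubgroup_localLevelField_iff q F (s : Gq q)).2 hs)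
    · rw [Subgroup.mem_subgroupOf]
      exact IntermediateField.fixingSubgroup_antitone hLF
        ((mem_fixingSubgroup_localLevelField_iff q F (s' : Gq q)).2 hs')
  · rintro ⟨F, hF, h⟩
    haveI := hF
    haveI := finiteDimensional_localLevelField q F
    obtain ⟨L, hL, hn, hle⟩ := exists_normal_ge (localLevelField q F)
    refine ⟨_, ⟨L, hL, hn, rfl⟩, fun g g' s s' hs hs' => h g g' s s' ?_ ?_⟩
    · rw [Subgroup.mem_subgroupOf] at hs
      exact (mem_fixingSubgroup_localLevelField_iff q F (s : Gq q)).1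
        (IntermediateField.fixingSubgroup_antitone hle hs)
    · rw [Subgroup.mem_subgroupOf] at hs'
      exact (mem_fixingSubgroup_localLevelField_iff q F (s' : Gq q)).1
        (IntermediateField.fixingSubgroup_antitone hle hs')

/-- `ℚ̄_q^×` is a smooth module. -/
theorem smooth_units (U : Subgroup (Gq q)) :
    (levelBasis U).Smooth (Rep.res U.subtype (unitsRep q)) := by
  intro a
  let u : (PadicAlgCl q)ˣ := Additive.toMul (show Additive (PadicAlgCl q)ˣ from a)
  have hint : IsIntegral ℚ_[q] (u : PadicAlgCl q) := Algebra.IsIntegral.isIntegral _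
  haveI : FiniteDimensional ℚ_[q] (IntermediateField.adjoin ℚ_[q] {(u : PadicAlgCl q)}) :=
    IntermediateField.adjoin.finiteDimensional hint
  obtain ⟨L, hL, hn, hle⟩ := exists_normal_ge (IntermediateField.adjoin ℚ_[q]
      {(u : PadicAlgCl q)})
  refine ⟨_, ⟨L, hL, hn, rfl⟩, fun s hs => ?_⟩
  rw [Subgroup.mem_subgroupOf] at hs
  have h1 : (s : Gq q) (u : PadicAlgCl q) = (u : PadicAlgCl q) :=
    (IntermediateField.mem_fixingSubgroup_iff _ _).1 hs _
      (hle (IntermediateField.mem_adjoin_simple_self _ _))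
  change Additive.ofMul ((s : Gq q) • u) = Additive.ofMul u
  apply congrArg Additive.ofMul
  exact Units.ext h1

/-- Hilbert 90 for level-constant `1`-cocycles of an arbitrary subgroup `H ≤ Gq q` with values
in `ℚ̄_q^×` (helper177's `exists_smul_div_eq_of_levelConstant`, in additive clothing). -/
theorem h90_subgroup (H : Subgroup (Gq q)) (y : ↥H → Additive (PadicAlgCl q)ˣ)
    (L : IntermediateField ℚ_[q] (PadicAlgCl q)) [FiniteDimensional ℚ_[q] L]
    (hL : ∀ g s : ↥H, (s : Gq q) ∈ L.fixingSubgroup → y (g * s) = y g)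
    (hcoc : ∀ g h : ↥H, y (g * h) =
      Additive.ofMul ((g : Gq q) • Additive.toMul (y h)) + y g) :
    ∃ x : (PadicAlgCl q)ˣ, ∀ g : ↥H, y g = Additive.ofMul ((g : Gq q) • x / x) := by
  classical
  let f : Gq q → (PadicAlgCl q)ˣ := fun g => if h : g ∈ H then Additive.toMul (y ⟨g, h⟩) else 1
  have hfH : ∀ (g : Gq q) (hg : g ∈ H), f g = Additive.toMul (y ⟨g, hg⟩) := fun g hg => dif_pos hg
  have hf : ∀ g ∈ H, ∀ h ∈ H, f (g * h) = g • f h * f g := by
    intro g hg h hh
    rw [hfH _ (H.mul_mem hg hh), hfH g hg, hfH h hh]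
    have := hcoc ⟨g, hg⟩ ⟨h, hh⟩
    exact congrArg Additive.toMul this
  have hF : ∀ g ∈ H, ∀ s ∈ H, s ∈ L.fixingSubgroup → f (g * s) = f g := by
    intro g hg s hs hsL
    rw [hfH _ (H.mul_mem hg hs), hfH g hg]
    exact congrArg Additive.toMul (hL ⟨g, hg⟩ ⟨s, hs⟩ hsL)
  obtain ⟨x, hx⟩ := Fermat.Agent.CFT.Cyclic.exists_smul_div_eq_of_levelConstant H f hf L hF
  refine ⟨x, fun g => ?_⟩
  have := hx g g.2
  rw [hfH g g.2] at this
  rw [this]
  rfl

/-- Hilbert 90 for level-constant cochains of `U` with values in `ℚ̄_q^×`. -/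
theorem h90_units (U : Subgroup (Gq q)) :
    H90 (levelBasis U) (Rep.res U.subtype (unitsRep q)) := by
  rintro y ⟨N, ⟨L, hL, hn, rfl⟩, hN⟩ hcoc
  obtain ⟨x, hx⟩ := h90_subgroup U y L
    (fun g s hs => hN g s (by rw [Subgroup.mem_subgroupOf]; exact hs))
    (fun g h => hcoc g h)
  exact ⟨Additive.ofMul x, fun g => hx g⟩

/-- Hilbert 90 for level-constant cochains of the levels of `U`. -/
theorem h90On_units (U : Subgroup (Gq q)) (N : Subgroup ↥U) :
    H90On (levelBasis U) (Rep.res U.subtype (unitsRep q)) N := by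
  rintro y ⟨N', ⟨L, hL, hn, rfl⟩, hN'⟩ hcoc
  -- transport to the subgroup `N.map U.subtype` of `Gq q`
  have hmem : ∀ g : ↥(N.map U.subtype), ∃ n : ↥N, ((n : ↥U) : Gq q) = (g : Gq q) := by
    rintro ⟨g, u, hu, rfl⟩
    exact ⟨⟨u, hu⟩, rfl⟩
  let e : ↥(N.map U.subtype) → ↥N := fun g => (hmem g).choose
  have he : ∀ g : ↥(N.map U.subtype), ((e g : ↥U) : Gq q) = (g : Gq q) :=
    fun g => (hmem g).choose_spec
  have he_mul : ∀ g h : ↥(N.map U.subtype), e (g * h) = e g * e h := by
    intro g h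
    apply Subtype.ext
    apply Subtype.ext
    rw [he]
    simp only [Subgroup.coe_mul, he]
  obtain ⟨x, hx⟩ := h90_subgroup (N.map U.subtype) (fun g => y (e g)) L
    (fun g s hs => by
      rw [he_mul]
      exact hN' (e g) (e s) (by rw [Subgroup.mem_subgroupOf, he]; exact hs))
    (fun g h => by
      rw [he_mul, hcoc (e g) (e h)]
      have : ((e g : ↥U) : Gq q) = (g : Gq q) := he g
      rw [← this]
      rfl)
  refine ⟨Additive.ofMul x, fun s => ?_⟩
  have hs : ((s : ↥U) : Gq q) ∈ N.map U.subtype := ⟨(s : ↥U), s.2, rfl⟩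
  have h1 := hx ⟨_, hs⟩
  have h2 : e ⟨_, hs⟩ = s := by
    apply Subtype.ext
    apply Subtype.ext
    rw [he]
  rw [h2] at h1
  rw [h1]
  rfl

variable (p : ℕ) [Fact p.Prime]

/-- `muEmb` as a map between the carriers of the restricted representations. -/
noncomputable def muEmbU (U : Subgroup (Gq q)) :
    (Rep.res U.subtype (muLoc q p)) →+ (Rep.res U.subtype (unitsRep q)) :=
  muEmb q p

/-- `muEmb` is a Kummer datum over every subgroup `U`. -/
theorem isKummer_muEmb (U : Subgroup (Gq q)) : IsKummer (muEmbU p U) p where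
  inj := muEmb_injective q p
  equivariant g t := (muEmb_equivariant q p (g : Gq q) t).symm
  range a := (mem_range_muEmb_iff q p a).symm
  div a := exists_nsmul_eq_units q (Fact.out : p.Prime).ne_zero a

end Fermat.Agent.CFT.LocalBr
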