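import Fermat.Agent.CFT.LocalBr.ResRuleD2
import Fermat.Agent.CFT.LocalBr.LayerBrauer

/-!
# LOC-D2 from the local Brauer hypothesis

`resLoc_mu_eq_zero'` : restriction to an open subgroup of index divisible by `p` is zero on
`H²(-, μ_p)`, with the local Brauer theorem as the explicit hypothesis `LayerBrauer.BrauerHyp q`
(this is the form wired in `LocalBr/Main.lean`).
-/

set_option autoImplicit false

open CategoryTheory groupCohomology ExtCitation

namespace Fermat.Agent.CFT.LocalBr.ResRule

open Fermat.Agent.CFT.LocalBr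

variable {q : ℕ} [Fact q.Prime] (p : ℕ) [Fact p.Prime]

/-- **(D2)** Restriction to an open subgroup of index divisible by `p` is zero on `H²(-, μ_p)`,
given the local Brauer theorem on Galois-units pairs. -/
theorem resLoc_mu_eq_zero' (hB : LayerBrauer.BrauerHyp q) {U' U : Subgroup (Gq q)}
    (hU' : IsOpenSub q U') (hU : IsOpenSub q U) (h : U' ≤ U) (hp : p ∣ U'.relIndex U) :
    resLoc (muLoc q p) h = 0 :=
  resLoc_mu_eq_zero_of_layers p hU' hU h hp fun _ _ hV hVU =>
    ⟨(LayerBrauer.layer_brauer hB hU hV hVU).2.2, (LayerBrauer.layer_brauer hB hU hV hVU).2.1⟩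

end Fermat.Agent.CFT.LocalBr.ResRule
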