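/-
PROGRAM CFT / local duality by local devissage: the BASE CASE, abstract form (tasks row 350).

`H` a leveled group (`𝒱`), `χ : H →* kˣ`, `inv` a functional on `H²(H, μ)`, `U ≤ H` containing a
level, of index invertible in `k`, with `χ|_U = 1`.  For the permutation module
`N0 = M0 k U = Fun(U \ H, k) = coind_U^H k` the local package `LocPkg 𝒱 χ hμ inv N0` holds
(`H¹(N0) × H¹(N0^*(χ)) → k` epi, `H²(N0) × H⁰(N0^*(χ)) → k` mono) provided
* `inv ≠ 0`,
* `H²(U, k)` is at most a line (`hline`),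
* the cup pairing `Hom(U, k) × Hom(U, k) → H²(U, k)` has trivial right kernel (`hhilb`),
* `Hom(U, k)` is finite-dimensional (`hfin`),
all three for level cochains of `U` (level family `Shapiro.subLevel 𝒱 U`).

Proof: `N0` is self-dual via `Ψ f' = (f ↦ τ(f f'))`, `τ f = Σ_{yU} χ(y) f(y⁻¹)`; the unit
`η a = (x ↦ χ(x) a)` satisfies `τ ∘ η = [H : U]`; Shapiro (`sh₁`, `sh₂`, evaluation at `1`) is
bijective on level cohomology and multiplicative for the pointwise product of `N0`.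

Main statement: `locPkg_M0`.
-/
import Fermat.Agent.S55.Abs.Reduce
import Fermat.Agent.S55.Abs.LocPkg
import Fermat.Agent.S55.Shapiro.AbsLevel

set_option autoImplicit false

open CategoryTheory groupCohomology
open Fermat.Agent.S55.Abs Fermat.Agent.S55.Shapiro

namespace Fermat.Agent.CFT.LocalBr.TDBase

noncomputable section

variable {k H : Type} [Field k] [Group H]

/-! ### The permutation module `N0 = Fun(U \ H, k)` -/

section Module

variable (U : Subgroup H)

theorem M0_apply_mul (f : M0 k U) (u : U) (x : H) : f.1 ((u : H) * x) = f.1 x := by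
  have := f.2 u x
  simpa using this

theorem M0_apply_mul_of_mem (f : M0 k U) {u : H} (hu : u ∈ U) (x : H) : f.1 (u * x) = f.1 x :=
  M0_apply_mul U f ⟨u, hu⟩ x

theorem M0_ρ_apply (g : H) (f : M0 k U) (x : H) : ((M0 k U).ρ g f).1 x = f.1 (x * g) := rfl

theorem M0_ext {f f' : M0 k U} (h : ∀ x, f.1 x = f'.1 x) : f = f' :=
  Subtype.ext (funext h)

/-- Coordinates on `N0`: `f ↦ (yU ↦ f y⁻¹)`. -/
def toQ : M0 k U ≃ₗ[k] (H ⧸ U → k) where
  toFun f c := Quotient.liftOn' c (fun y => f.1 y⁻¹) (by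
    intro y z hyz
    have h : y⁻¹ * z ∈ U := QuotientGroup.leftRel_apply.mp hyz
    show f.1 y⁻¹ = f.1 z⁻¹
    have e : y⁻¹ = (y⁻¹ * z) * z⁻¹ := by group
    rw [e, M0_apply_mul_of_mem U f h])
  map_add' f f' := by
    funext c
    induction c using QuotientGroup.induction_on
    rfl
  map_smul' a f := by
    funext c
    induction c using QuotientGroup.induction_on
    rfl
  invFun a := ⟨fun x => a (QuotientGroup.mk x⁻¹), by
    intro u x
    show a (QuotientGroup.mk ((u : H) * x)⁻¹) = (Rep.trivial k U k).ρ u (a (QuotientGroup.mk x⁻¹))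
    have e : ((u : H) * x)⁻¹ = x⁻¹ * ((u : H))⁻¹ := by group
    rw [e, QuotientGroup.mk_mul_of_mem _ (U.inv_mem u.2)]
    rfl⟩
  left_inv f := by
    apply M0_ext
    intro x
    show f.1 (x⁻¹)⁻¹ = f.1 x
    rw [inv_inv]
  right_inv a := by
    funext c
    induction c using QuotientGroup.induction_on
    rename_i y
    show a (QuotientGroup.mk (y⁻¹)⁻¹) = a (QuotientGroup.mk y)
    rw [inv_inv]

@[simp] theorem toQ_mk (f : M0 k U) (y : H) : toQ U f (QuotientGroup.mk y) = f.1 y⁻¹ := rfl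

theorem toQ_ρ (g : H) (f : M0 k U) (c : H ⧸ U) :
    toQ U ((M0 k U).ρ g f) c = toQ U f (g⁻¹ • c) := by
  induction c using QuotientGroup.induction_on
  rename_i y
  show f.1 (y⁻¹ * g) = f.1 (g⁻¹ * y)⁻¹
  rw [mul_inv_rev, inv_inv]

/-- Pointwise multiplication `N0 × N0 → N0`. -/
def mulM0 : EqPairing (M0 k U) (M0 k U) (M0 k U) where
  toFun := LinearMap.mk₂ k
    (fun f f' => (⟨fun x => f.1 x * f'.1 x, by
      intro u x
      show f.1 ((u : H) * x) * f'.1 ((u : H) * x) = (Rep.trivial k U k).ρ u (f.1 x * f'.1 x)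
      rw [M0_apply_mul, M0_apply_mul]
      rfl⟩ : M0 k U))
    (fun f₁ f₂ f' => M0_ext U fun x => by
      show (f₁.1 x + f₂.1 x) * f'.1 x = f₁.1 x * f'.1 x + f₂.1 x * f'.1 x
      ring)
    (fun a f f' => M0_ext U fun x => by
      show (a * f.1 x) * f'.1 x = a * (f.1 x * f'.1 x)
      ring)
    (fun f f₁ f₂ => M0_ext U fun x => by
      show f.1 x * (f₁.1 x + f₂.1 x) = f.1 x * f₁.1 x + f.1 x * f₂.1 x
      ring)
    (fun a f f' => M0_ext U fun x => by
      show f.1 x * (a * f'.1 x) = a * (f.1 x * f'.1 x)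
      ring)
  equivariant g f f' := M0_ext U fun x => rfl

@[simp] theorem mulM0_apply (f f' : M0 k U) (x : H) :
    ((mulM0 U).toFun f f').1 x = f.1 x * f'.1 x := rfl

theorem toQ_mulM0 (f f' : M0 k U) (c : H ⧸ U) :
    toQ U ((mulM0 U).toFun f f') c = toQ U f c * toQ U f' c := by
  induction c using QuotientGroup.induction_on
  rfl

end Module

/-! ### Trace, unit and self-duality of `N0` -/

section Tau

variable (U : Subgroup H) (χ : H →* kˣ) (hχ : ∀ u ∈ U, χ u = 1)

/-- `χ` as a function on `H ⧸ U` (it is trivial on `U`). -/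
def wχ : H ⧸ U → k := fun c => Quotient.liftOn' c (fun y => (χ y : k)) (by
  intro y z hyz
  have h : y⁻¹ * z ∈ U := QuotientGroup.leftRel_apply.mp hyz
  show (χ y : k) = (χ z : k)
  have e : χ z = χ y * χ (y⁻¹ * z) := by
    rw [← map_mul]
    congr 1
    group
  rw [e, hχ _ h, mul_one])

@[simp] theorem wχ_mk (y : H) : wχ U χ hχ (QuotientGroup.mk y) = (χ y : k) := rfl

theorem wχ_smul (g : H) (c : H ⧸ U) : wχ U χ hχ (g • c) = (χ g : k) * wχ U χ hχ c := by
  induction c using QuotientGroup.induction_on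
  rename_i y
  show ((χ (g * y) : kˣ) : k) = (χ g : k) * (χ y : k)
  rw [map_mul, Units.val_mul]

theorem wχ_ne_zero (c : H ⧸ U) : wχ U χ hχ c ≠ 0 := by
  induction c using QuotientGroup.induction_on
  rename_i y
  exact (χ y).ne_zero

variable [U.FiniteIndex]

local instance fintypeQuotTD : Fintype (H ⧸ U) := Subgroup.fintypeQuotientOfFiniteIndex

/-- The trace `τ : N0 → k`, `f ↦ Σ_{yU} χ(y) f(y⁻¹)`. -/
def tauL : M0 k U →ₗ[k] k where
  toFun f := ∑ c : H ⧸ U, wχ U χ hχ c * toQ U f c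
  map_add' f f' := by
    simp only [map_add, Pi.add_apply, mul_add, Finset.sum_add_distrib]
  map_smul' a f := by
    simp only [map_smul, Pi.smul_apply, smul_eq_mul, RingHom.id_apply, Finset.mul_sum]
    refine Finset.sum_congr rfl fun c _ => ?_
    ring

theorem tauL_apply (f : M0 k U) : tauL U χ hχ f = ∑ c : H ⧸ U, wχ U χ hχ c * toQ U f c := rfl

theorem tauL_ρ (g : H) (f : M0 k U) :
    tauL U χ hχ ((M0 k U).ρ g f) = (χ g : k) * tauL U χ hχ f := by
  rw [tauL_apply, tauL_apply, Finset.mul_sum]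
  rw [← Equiv.sum_comp (MulAction.toPerm g : Equiv.Perm (H ⧸ U))]
  refine Finset.sum_congr rfl fun c _ => ?_
  rw [toQ_ρ, MulAction.toPerm_apply, inv_smul_smul, wχ_smul, mul_assoc]

/-- `τ` as a morphism `N0 ⟶ μ`. -/
def tauHom : M0 k U ⟶ muRep χ :=
  Rep.ofHom (LinearMap.intertwiningMap_of_isIntertwiningMap _ _ (tauL U χ hχ) (by
    intro g f
    show tauL U χ hχ ((M0 k U).ρ g f) = (muRep χ).ρ g (tauL U χ hχ f)
    rw [tauL_ρ, muRep_ρ_apply]))

@[simp] theorem tauHom_apply (f : M0 k U) : (tauHom U χ hχ).hom f = tauL U χ hχ f := rfl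

/-- The unit `η : k → N0`, `a ↦ (x ↦ χ(x) a)`. -/
def etaL : k →ₗ[k] M0 k U where
  toFun a := ⟨fun x => (χ x : k) * a, by
    intro u x
    show ((χ ((u : H) * x) : kˣ) : k) * a = (Rep.trivial k U k).ρ u ((χ x : k) * a)
    rw [map_mul, hχ _ u.2, one_mul]
    rfl⟩
  map_add' a b := M0_ext U fun x => by
    show (χ x : k) * (a + b) = (χ x : k) * a + (χ x : k) * b
    ring
  map_smul' c a := M0_ext U fun x => by
    show (χ x : k) * (c * a) = c * ((χ x : k) * a)
    ring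

@[simp] theorem etaL_apply (a : k) (x : H) : (etaL U χ hχ a).1 x = (χ x : k) * a := rfl

omit [U.FiniteIndex] in
theorem wχ_mul_toQ_etaL (a : k) (c : H ⧸ U) : wχ U χ hχ c * toQ U (etaL U χ hχ a) c = a := by
  induction c using QuotientGroup.induction_on
  rename_i y
  show (χ y : k) * (((χ y⁻¹ : kˣ) : k) * a) = a
  rw [← mul_assoc, ← Units.val_mul, ← map_mul, mul_inv_cancel, map_one, Units.val_one, one_mul]

theorem tauL_etaL (a : k) : tauL U χ hχ (etaL U χ hχ a) = (U.index : k) * a := by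
  rw [tauL_apply, Finset.sum_congr rfl (fun c _ => wχ_mul_toQ_etaL U χ hχ a c),
    Finset.sum_const, Finset.card_univ, nsmul_eq_mul, Subgroup.index_eq_card,
    Nat.card_eq_fintype_card]

/-- `η` as a morphism `μ ⟶ N0`. -/
def etaHom : muRep χ ⟶ M0 k U :=
  Rep.ofHom (LinearMap.intertwiningMap_of_isIntertwiningMap _ _ (etaL U χ hχ) (by
    intro g a
    apply M0_ext
    intro x
    show (χ x : k) * ((muRep χ).ρ g a) = ((χ (x * g) : kˣ) : k) * a
    rw [muRep_ρ_apply, map_mul, Units.val_mul]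
    ring))

@[simp] theorem etaHom_apply (a : k) : (etaHom U χ hχ).hom a = etaL U χ hχ a := rfl

/-- The self-duality `Ψ : N0 → N0^*`, `f' ↦ (f ↦ τ(f f'))`. -/
def psiL : M0 k U →ₗ[k] Module.Dual k (M0 k U) :=
  LinearMap.mk₂ k (fun f' f => tauL U χ hχ ((mulM0 U).toFun f f'))
    (fun f₁ f₂ f => by rw [map_add, map_add])
    (fun a f' f => by rw [map_smul, map_smul])
    (fun f' f₁ f₂ => by rw [map_add, LinearMap.add_apply, map_add])
    (fun a f' f => by rw [map_smul, LinearMap.smul_apply, map_smul])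

@[simp] theorem psiL_apply (f' f : M0 k U) :
    psiL U χ hχ f' f = tauL U χ hχ ((mulM0 U).toFun f f') := rfl

theorem psiL_eq_sum (f' f : M0 k U) :
    psiL U χ hχ f' f = ∑ c : H ⧸ U, wχ U χ hχ c * (toQ U f c * toQ U f' c) := by
  rw [psiL_apply, tauL_apply]
  exact Finset.sum_congr rfl (fun c _ => by rw [toQ_mulM0])

theorem psiL_injective : Function.Injective (psiL U χ hχ) := by
  classical
  rw [← LinearMap.ker_eq_bot, LinearMap.ker_eq_bot']
  intro f' hf'
  apply (toQ U).injective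
  rw [map_zero]
  funext c₀
  have h := congrArg (fun φ : Module.Dual k (M0 k U) => φ ((toQ U).symm (Pi.single c₀ 1))) hf'
  simp only [LinearMap.zero_apply] at h
  rw [psiL_eq_sum] at h
  simp only [LinearEquiv.apply_symm_apply] at h
  rw [Finset.sum_eq_single c₀] at h
  · rw [Pi.single_eq_same, one_mul] at h
    exact (mul_eq_zero.mp h).resolve_left (wχ_ne_zero U χ hχ c₀)
  · intro c _ hc
    rw [Pi.single_eq_of_ne hc, zero_mul, mul_zero]
  · intro h'
    exact absurd (Finset.mem_univ c₀) h'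

theorem psiL_surjective : Function.Surjective (psiL U χ hχ) := by
  classical
  intro φ
  refine ⟨(toQ U).symm (fun c => (wχ U χ hχ c)⁻¹ * φ ((toQ U).symm (Pi.single c 1))), ?_⟩
  apply LinearMap.ext
  intro f
  rw [psiL_eq_sum]
  simp only [LinearEquiv.apply_symm_apply]
  have hf : f = ∑ c : H ⧸ U, toQ U f c • (toQ U).symm (Pi.single c 1) := by
    apply (toQ U).injective
    rw [map_sum]
    simp only [map_smul, LinearEquiv.apply_symm_apply]
    funext c₀
    rw [Finset.sum_apply]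
    simp only [Pi.smul_apply, smul_eq_mul]
    rw [Finset.sum_eq_single c₀]
    · rw [Pi.single_eq_same, mul_one]
    · intro c _ hc
      rw [Pi.single_eq_of_ne (Ne.symm hc), mul_zero]
    · intro h'
      exact absurd (Finset.mem_univ c₀) h'
  conv_rhs => rw [hf]
  rw [map_sum]
  refine Finset.sum_congr rfl fun c _ => ?_
  rw [map_smul, smul_eq_mul, ← mul_assoc, ← mul_assoc, mul_comm (wχ U χ hχ c) (toQ U f c),
    mul_assoc (toQ U f c), mul_inv_cancel₀ (wχ_ne_zero U χ hχ c), mul_one]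

/-- `Ψ` as a morphism `N0 ⟶ N0^*(χ)`. -/
def psiHom : M0 k U ⟶ (M0 k U).dualTwist χ :=
  Rep.ofHom (LinearMap.intertwiningMap_of_isIntertwiningMap _ _ (psiL U χ hχ) (by
    intro g f'
    apply LinearMap.ext
    intro f
    show psiL U χ hχ ((M0 k U).ρ g f') f = ((M0 k U).dualTwist χ).ρ g (psiL U χ hχ f') f
    rw [Rep.dualTwist_ρ_apply]
    show tauL U χ hχ ((mulM0 U).toFun f ((M0 k U).ρ g f'))
      = (χ g : k) * tauL U χ hχ ((mulM0 U).toFun ((M0 k U).ρ g⁻¹ f) f')
    rw [← tauL_ρ, ← (mulM0 U).equivariant]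
    congr 2
    rw [← Module.End.mul_apply, ← map_mul, mul_inv_cancel, map_one]
    rfl))

@[simp] theorem psiHom_apply (f' : M0 k U) : (psiHom U χ hχ).hom f' = psiL U χ hχ f' := rfl

/-- The evaluation pairing against `Ψ f'` is `τ` of the product. -/
theorem evPairing_psi (f f' : M0 k U) :
    (evPairing χ (M0 k U)).toFun f ((psiHom U χ hχ).hom f')
      = (tauHom U χ hχ).hom ((mulM0 U).toFun f f') := rfl

end Tau

/-! ### Level Shapiro: surjectivity on cocycles in degree 1 -/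

theorem exists_sh₁_eq {𝒱 : LevelFamily H} {U : Subgroup H} {A : Rep.{0} k U}
    (hU : ∃ W ∈ 𝒱.sets, W ≤ U) {β : U → A} (hβ : β ∈ Z1 (subLevel 𝒱 U) A) :
    ∃ c ∈ Z1 𝒱 (Rep.coind U.subtype A), sh₁ U A c = β := by
  obtain ⟨R⟩ := Retr.nonempty U
  exact ⟨ind₁ A R β, ind₁_mem_Z1 R hU hβ, sh₁_ind₁ R β⟩

/-! ### The inverse of the self-duality, the unit function -/

section PsiInv

variable (U : Subgroup H) (χ : H →* kˣ) (hχ : ∀ u ∈ U, χ u = 1) [U.FiniteIndex]

/-- `Ψ` as a linear equivalence. -/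
def psiEquiv : M0 k U ≃ₗ[k] Module.Dual k (M0 k U) :=
  LinearEquiv.ofBijective (psiL U χ hχ) ⟨psiL_injective U χ hχ, psiL_surjective U χ hχ⟩

@[simp] theorem psiEquiv_apply (f : M0 k U) : psiEquiv U χ hχ f = psiL U χ hχ f := rfl

/-- The inverse `Ψ⁻¹ : N0^*(χ) ⟶ N0`. -/
def psiInvHom : (M0 k U).dualTwist χ ⟶ M0 k U :=
  Rep.ofHom (LinearMap.intertwiningMap_of_isIntertwiningMap _ _
    ((psiEquiv U χ hχ).symm : Module.Dual k (M0 k U) →ₗ[k] M0 k U) (by
    intro g φ
    apply (psiEquiv U χ hχ).injective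
    show psiEquiv U χ hχ ((psiEquiv U χ hχ).symm (((M0 k U).dualTwist χ).ρ g φ))
      = (psiHom U χ hχ).hom ((M0 k U).ρ g ((psiEquiv U χ hχ).symm φ))
    rw [LinearEquiv.apply_symm_apply, Rep.hom_comm_apply]
    show ((M0 k U).dualTwist χ).ρ g φ
      = ((M0 k U).dualTwist χ).ρ g (psiEquiv U χ hχ ((psiEquiv U χ hχ).symm φ))
    rw [LinearEquiv.apply_symm_apply]))

theorem psi_psiInv (φ : (M0 k U).dualTwist χ) :
    (psiHom U χ hχ).hom ((psiInvHom U χ hχ).hom φ) = φ :=
  (psiEquiv U χ hχ).apply_symm_apply φ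

theorem psiInv_psi (f : M0 k U) : (psiInvHom U χ hχ).hom ((psiHom U χ hχ).hom f) = f :=
  (psiEquiv U χ hχ).symm_apply_apply f

omit [U.FiniteIndex] in
/-- The constant function `1`. -/
def oneM0 : M0 k U := ⟨fun _ => 1, fun _ _ => rfl⟩

omit [U.FiniteIndex] in
theorem oneM0_ρ (g : H) : (M0 k U).ρ g (oneM0 U) = oneM0 U := M0_ext U fun _ => rfl

omit [U.FiniteIndex] in
theorem mulM0_one (f : M0 k U) : (mulM0 U).toFun f (oneM0 U) = f :=
  M0_ext U fun x => by
    show f.1 x * 1 = f.1 x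
    rw [mul_one]

theorem psi_one_mem_invariants :
    (psiHom U χ hχ).hom (oneM0 U) ∈ ((M0 k U).dualTwist χ).ρ.invariants := by
  intro g
  rw [← Rep.hom_comm_apply, oneM0_ρ]

end PsiInv

/-! ### The base case -/

section Base

variable (U : Subgroup H)

/-- Multiplication on the trivial module `k` of `U`. -/
def mulTriv : EqPairing (Rep.trivial k U k) (Rep.trivial k U k) (Rep.trivial k U k) where
  toFun := LinearMap.mul k k
  equivariant _ _ _ := rfl

@[simp] theorem mulTriv_apply (a b : k) : (mulTriv (k := k) U).toFun a b = a * b := rfl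

/-- Evaluation at `1` is compatible with cup products. -/
theorem sh₂_cup11_mulM0 (x y : H → M0 k U) :
    sh₂ U (Rep.trivial k U k) (cup11 (mulM0 U) x y)
      = cup11 (mulTriv U) (sh₁ U (Rep.trivial k U k) x) (sh₁ U (Rep.trivial k U k) y) := by
  funext p
  show (x (p.1 : H)).1 1 * ((M0 k U).ρ (p.1 : H) (y (p.2 : H))).1 1
    = (x (p.1 : H)).1 1 * (y (p.2 : H)).1 1
  rw [M0_ρ_apply, one_mul]
  have h := M0_apply_mul U (y (p.2 : H)) p.1 1
  rw [mul_one] at h
  rw [h]

variable (𝒱 : LevelFamily H) (χ : H →* kˣ) (hχ : ∀ u ∈ U, χ u = 1) [U.FiniteIndex]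

theorem H2map_tau_eta (w : H2 𝒱 (muRep χ)) :
    H2map 𝒱 (tauHom U χ hχ) (H2map 𝒱 (etaHom U χ hχ) w) = (U.index : k) • w := by
  induction w using Submodule.Quotient.induction_on with
  | H z =>
    rw [LES_H2map_mk, LES_H2map_mk, ← Submodule.Quotient.mk_smul]
    congr 1
    apply Subtype.ext
    funext g
    show tauL U χ hχ (etaL U χ hχ (z.1 g)) = (U.index : k) • z.1 g
    rw [tauL_etaL]
    rfl

variable (inv : H2 𝒱 (muRep χ) →ₗ[k] k)

/-- **Core, degree 2**: a class of `H²(N0)` killed by `inv ∘ τ` is zero. -/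
theorem H2_eq_zero_of_inv_tau (hU : ∃ W ∈ 𝒱.sets, W ≤ U) (hn : (U.index : k) ≠ 0)
    (hinv : inv ≠ 0)
    (hline : ∀ z z' : H2 (subLevel 𝒱 U) (Rep.trivial k U k), z ≠ 0 → ∃ c : k, z' = c • z)
    (ξ : H2 𝒱 (M0 k U)) (h : inv (H2map 𝒱 (tauHom U χ hχ) ξ) = 0) : ξ = 0 := by
  by_contra hξ
  obtain ⟨w, hw⟩ : ∃ w, inv w ≠ 0 := by
    by_contra hcon
    exact hinv (LinearMap.ext fun w => by_contra fun hw => hcon ⟨w, hw⟩)
  obtain ⟨c, hc⟩ := hline (shH2 𝒱 U (Rep.trivial k U k) ξ)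
    (shH2 𝒱 U (Rep.trivial k U k) (H2map 𝒱 (etaHom U χ hχ) w))
    (fun h0 => hξ (shH2_injective hU (h0.trans (map_zero _).symm)))
  have hζ : H2map 𝒱 (etaHom U χ hχ) w = c • ξ :=
    shH2_injective hU (by rw [hc, map_smul])
  have h1 := H2map_tau_eta U 𝒱 χ hχ w
  rw [hζ, map_smul] at h1
  have h2 := congrArg inv h1
  rw [map_smul, map_smul, h, smul_zero] at h2
  exact hw ((smul_eq_zero.mp h2.symm).resolve_left hn)

/-- Linear algebra: a pairing with finite-dimensional right factor and trivial right kernel is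
epi. -/
theorem pairEpi_of_flip_injective {X T : Type*} [AddCommGroup X] [Module k X] [AddCommGroup T]
    [Module k T] [FiniteDimensional k T] (P : X →ₗ[k] T →ₗ[k] k)
    (h : ∀ t : T, (∀ x, P x t = 0) → t = 0) : PairEpi P := by
  have hinj : Function.Injective P.flip := by
    rw [injective_iff_map_eq_zero]
    intro t ht
    exact h t fun x => by
      have := congrArg (fun φ : X →ₗ[k] k => φ x) ht
      simpa using this
  intro φ
  obtain ⟨x, hx⟩ := (LinearMap.flip_injective_iff₂.mp hinj) φ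
  exact ⟨x, fun t => by rw [← hx]⟩

/-- Linear algebra: `Z ⧸ B` is finite-dimensional if `Z` maps to a finite-dimensional space with
kernel inside `B`. -/
theorem finite_quot_of_ker_le {E E' : Type*} [AddCommGroup E] [Module k E] [AddCommGroup E']
    [Module k E'] (Z B : Submodule k E) (Z' : Submodule k E') [Module.Finite k ↥Z']
    (F : ↥Z →ₗ[k] ↥Z') (hle : LinearMap.ker F ≤ B.comap Z.subtype) :
    Module.Finite k (↥Z ⧸ B.comap Z.subtype) := by
  have : Module.Finite k (↥Z ⧸ LinearMap.ker F) :=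
    Module.Finite.equiv F.quotKerEquivRange.symm
  exact Module.Finite.of_surjective (Submodule.factor hle) (Submodule.factor_surjective hle)

include hχ in
/-- `H¹` of the dual of `N0` is finite-dimensional. -/
theorem finite_H1_dual
    (hfin : Module.Finite k ↥(Z1 (subLevel 𝒱 U) (Rep.trivial k U k))) :
    Module.Finite k (H1 𝒱 ((M0 k U).dualTwist χ)) := by
  refine finite_quot_of_ker_le (Z1 𝒱 ((M0 k U).dualTwist χ))
    (coboundaries₁ ((M0 k U).dualTwist χ)) (Z1 (subLevel 𝒱 U) (Rep.trivial k U k))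
    (((sh₁ U (Rep.trivial k U k)) ∘ₗ (cmap₁ (psiInvHom U χ hχ))).restrict
      (fun y hy => sh₁_mem_Z1 (cmap₁_mem_Z1 (psiInvHom U χ hχ) hy))) ?_
  intro y hy
  have h0 : sh₁ U (Rep.trivial k U k) (cmap₁ (psiInvHom U χ hχ) y.1) = 0 :=
    congrArg Subtype.val (LinearMap.mem_ker.mp hy)
  have hcoc : cmap₁ (psiInvHom U χ hχ) y.1 ∈ cocycles₁ (M0 k U) :=
    (cmap₁_mem_Z1 (𝒰 := 𝒱) (psiInvHom U χ hχ) y.2).2
  have hcob : cmap₁ (psiInvHom U χ hχ) y.1 ∈ coboundaries₁ (M0 k U) := by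
    rw [mem_coboundaries₁_iff_sh₁ hcoc, h0]
    exact zero_mem _
  have hy' : cmap₁ (psiHom U χ hχ) (cmap₁ (psiInvHom U χ hχ) y.1) = y.1 := by
    funext g
    exact psi_psiInv U χ hχ (y.1 g)
  show y.1 ∈ coboundaries₁ ((M0 k U).dualTwist χ)
  rw [← hy']
  exact cmap₁_mem_coboundaries₁ (psiHom U χ hχ) hcob

/-- The cup product with `Ψ ∘ y'` against the evaluation pairing is `τ` of the product cup. -/
theorem cup11_ev_psi (x y' : H → M0 k U) :
    cup11 (evPairing χ (M0 k U)) x (cmap₁ (psiHom U χ hχ) y')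
      = cmap₂ (tauHom U χ hχ) (cup11 (mulM0 U) x y') := by
  funext p
  show (evPairing χ (M0 k U)).toFun (x p.1)
      (((M0 k U).dualTwist χ).ρ p.1 ((psiHom U χ hχ).hom (y' p.2)))
    = (tauHom U χ hχ).hom ((mulM0 U).toFun (x p.1) ((M0 k U).ρ p.1 (y' p.2)))
  rw [← Rep.hom_comm_apply, evPairing_psi]

/-- The cup product with the invariant `Ψ 1` against the evaluation pairing is `τ`. -/
theorem cup20_ev_psi_one (x : H × H → M0 k U) :
    cup20 (evPairing χ (M0 k U)) x ((psiHom U χ hχ).hom (oneM0 U))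
      = cmap₂ (tauHom U χ hχ) x := by
  funext p
  show (evPairing χ (M0 k U)).toFun (x p)
      (((M0 k U).dualTwist χ).ρ (p.1 * p.2) ((psiHom U χ hχ).hom (oneM0 U)))
    = (tauHom U χ hχ).hom (x p)
  rw [psi_one_mem_invariants U χ hχ (p.1 * p.2), evPairing_psi, mulM0_one]

/-- **Base case of the local devissage.**  For `U ≤ H` of index invertible in `k`, containing a
level, with `χ|_U = 1`: the local package holds for `N0 = Fun(U \ H, k)` as soon as `inv ≠ 0`,
`H²(U, k)` is at most a line, the cup pairing `Hom(U, k) × Hom(U, k) → H²(U, k)` has trivial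
right kernel and `Hom(U, k)` is finite-dimensional (all for level cochains of `U`, level family
`Shapiro.subLevel 𝒱 U`). -/
theorem locPkg_M0 (hχ : ∀ u ∈ U, χ u = 1) (hμ : IsDisc 𝒱 (muRep χ)) (hU : ∃ W ∈ 𝒱.sets, W ≤ U)
    (hn : (U.index : k) ≠ 0) (hinv : inv ≠ 0)
    (hline : ∀ z z' : H2 (subLevel 𝒱 U) (Rep.trivial k U k), z ≠ 0 → ∃ c : k, z' = c • z)
    (hhilb : ∀ c ∈ Z1 (subLevel 𝒱 U) (Rep.trivial k U k), c ≠ 0 →
      ∃ a ∈ Z1 (subLevel 𝒱 U) (Rep.trivial k U k),
        cup11 (mulTriv U) a c ∉ B2 (subLevel 𝒱 U) (Rep.trivial k U k))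
    (hfin : Module.Finite k ↥(Z1 (subLevel 𝒱 U) (Rep.trivial k U k))) :
    LocPkg 𝒱 χ hμ inv (M0 k U) := by
  have hN0 : IsDisc 𝒱 (M0 k U) := isDisc_coindTriv 𝒱 U hU k
  have hN0' : IsDisc 𝒱 ((M0 k U).dualTwist χ) := isDisc_dualTwist 𝒱 χ hμ hN0
  refine ⟨hN0, ?_, ?_⟩
  · -- `H¹ × H¹` epi
    have : Module.Finite k (H1 𝒱 ((M0 k U).dualTwist χ)) := finite_H1_dual U 𝒱 χ hχ hfin
    apply pairEpi_of_flip_injective
    intro t ht
    obtain ⟨⟨y, hy⟩, rfl⟩ := Submodule.Quotient.mk_surjective _ t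
    by_contra hne
    have hyB : y ∉ coboundaries₁ ((M0 k U).dualTwist χ) :=
      fun hB => hne ((Submodule.Quotient.mk_eq_zero _).mpr hB)
    have hy' : cmap₁ (psiInvHom U χ hχ) y ∈ Z1 𝒱 (M0 k U) := cmap₁_mem_Z1 _ hy
    have hyy' : cmap₁ (psiHom U χ hχ) (cmap₁ (psiInvHom U χ hχ) y) = y := by
      funext g
      exact psi_psiInv U χ hχ (y g)
    have hy'B : cmap₁ (psiInvHom U χ hχ) y ∉ coboundaries₁ (M0 k U) := by
      intro hB
      apply hyB
      rw [← hyy']
      exact cmap₁_mem_coboundaries₁ (psiHom U χ hχ) hB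
    have hsh : sh₁ U (Rep.trivial k U k) (cmap₁ (psiInvHom U χ hχ) y) ≠ 0 := by
      intro h0
      apply hy'B
      rw [mem_coboundaries₁_iff_sh₁ hy'.2, h0]
      exact zero_mem _
    obtain ⟨a, ha, hac⟩ := hhilb _ (sh₁_mem_Z1 hy') hsh
    obtain ⟨x, hx, rfl⟩ := exists_sh₁_eq hU ha
    apply hac
    rw [← sh₂_cup11_mulM0]
    apply sh₂_mem_B2
    have hcup : cup11 (mulM0 U) x (cmap₁ (psiInvHom U χ hχ) y) ∈ Z2 𝒱 (M0 k U) :=
      cup11_mem_Z2 𝒱 (mulM0 U) hN0 hN0 hx hy'
    have hzero := H2_eq_zero_of_inv_tau U 𝒱 χ hχ inv hU hn hinv hline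
      (Submodule.Quotient.mk ⟨_, hcup⟩) (by
        have h1 := ht (Submodule.Quotient.mk ⟨x, hx⟩)
        rw [LES_H2map_mk]
        have key : cup11 (evPairing χ (M0 k U)) x y
            = cmap₂ (tauHom U χ hχ) (cup11 (mulM0 U) x (cmap₁ (psiInvHom U χ hχ) y)) := by
          rw [← cup11_ev_psi, hyy']
        rw [← h1]
        exact congrArg inv (congrArg Submodule.Quotient.mk (Subtype.ext key.symm)))
    rw [Submodule.Quotient.mk_eq_zero] at hzero
    exact hzero
  · -- `H² × H⁰` mono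
    intro ξ hξ
    apply H2_eq_zero_of_inv_tau U 𝒱 χ hχ inv hU hn hinv hline
    obtain ⟨⟨x, hx⟩, rfl⟩ := Submodule.Quotient.mk_surjective _ ξ
    have h1 := hξ ⟨_, psi_one_mem_invariants U χ hχ⟩
    rw [LES_H2map_mk, ← h1]
    exact congrArg inv (congrArg Submodule.Quotient.mk
      (Subtype.ext (cup20_ev_psi_one U χ hχ x).symm))

end Base

end

end Fermat.Agent.CFT.LocalBr.TDBase
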