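/-
PROGRAM CFT / LD-Q: the base case of the local devissage at every prime, UNCONDITIONALLY in the
local arithmetic ((C) = `LocalBr.finrank_H2mu`, (E) = Hilbert symbol, LOC-FIN are all proved),
for ANY nonzero functional `inv` on `H²(G_w, μ_p)`.

* `h_base_primeLocal` : hypothesis `h_base` of `Abs.locPkg_of_base` at `primeLocalGaloisGroup w`.
* `locPkg_primeLocal_of_ne_zero` : `LocPkg` for every finite discrete `𝔽_p[G_w]`-module.
* `baseAt_of_invH_ne_zero`, `baseAt_of_exists` : `LDQ.BaseAt I w` (the one local hypothesis of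
  the base-case assembly) from `I.datum.invH w ≠ 0`, resp. from one level 2-cocycle with nonzero
  invariant.
-/
import Fermat.Agent.CFT.LocalBr.TDBase
import Fermat.Agent.CFT.LocalBr.Main
import Fermat.Agent.S55.Base.LDQ

set_option autoImplicit false

open CategoryTheory groupCohomology ExtCitation
open Fermat.Agent.S55.Abs Fermat.Agent.S55.Shapiro

namespace Fermat.Agent.CFT.LocalBr.TDBase

variable (p : ℕ) [Fact p.Prime]

/-- **Base case of the local devissage at the prime `w`**, for any nonzero functional `inv` on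
`H²(G_w, μ_p)`: the local package for `coind_U 𝔽_p`, `U` of finite index prime to `p` containing
a level, with the cyclotomic character trivial on `U`. -/
theorem h_base_primeLocal (w : Nat.Primes)
    (hμ : IsDisc (localLevel (primeLocalToGlobal w))
      (muRep ((cycloChar p).comp (primeLocalToGlobal w))))
    (inv : H2 (localLevel (primeLocalToGlobal w))
      (muRep ((cycloChar p).comp (primeLocalToGlobal w))) →ₗ[ZMod p] ZMod p)
    (hinv : inv ≠ 0) :
    ∀ U : Subgroup (primeLocalGaloisGroup w), U.FiniteIndex →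
      (∃ W ∈ (localLevel (primeLocalToGlobal w)).sets, W ≤ U) →
      (∀ u ∈ U, ((cycloChar p).comp (primeLocalToGlobal w)) u = 1) → ¬ p ∣ U.index →
      LocPkg (localLevel (primeLocalToGlobal w)) ((cycloChar p).comp (primeLocalToGlobal w))
        hμ inv (M0 (ZMod p) U) :=
  haveI : Fact (w : ℕ).Prime := ⟨w.2⟩
  h_base_Gq (q := (w : ℕ)) p hμ inv hinv (fun _ hU => finrank_H2mu p hU)

/-- **Local duality package at the prime `w` for every finite discrete `𝔽_p[G_w]`-module**, for
any nonzero functional `inv` on `H²(G_w, μ_p)`. -/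
theorem locPkg_primeLocal_of_ne_zero (w : Nat.Primes)
    (hμ : IsDisc (localLevel (primeLocalToGlobal w))
      (muRep ((cycloChar p).comp (primeLocalToGlobal w))))
    (inv : H2 (localLevel (primeLocalToGlobal w))
      (muRep ((cycloChar p).comp (primeLocalToGlobal w))) →ₗ[ZMod p] ZMod p)
    (hinv : inv ≠ 0)
    (X : Rep.{0} (ZMod p) (primeLocalGaloisGroup w)) [Module.Finite (ZMod p) X]
    (hX : IsDisc (localLevel (primeLocalToGlobal w)) X) :
    LocPkg (localLevel (primeLocalToGlobal w)) ((cycloChar p).comp (primeLocalToGlobal w))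
      hμ inv X :=
  locPkg_of_base (localLevel (primeLocalToGlobal w)) ((cycloChar p).comp (primeLocalToGlobal w))
    hμ inv (h_base_primeLocal p w hμ inv hinv) X hX

variable {p} {S : Finset Nat.Primes}

open Fermat.Agent.S55.Base

/-- **`LDQ.BaseAt I w`** from the non-vanishing of the class functional of `I.inv w`. -/
theorem baseAt_of_invH_ne_zero (I : EvalQ.ArithInput p S) (w : Nat.Primes)
    (hinv : I.datum.invH w ≠ 0) : LDQ.BaseAt I w :=
  h_base_primeLocal p w (LDQ.disc_mu p w) (I.datum.invH w) hinv

/-- **`LDQ.BaseAt I w`** from one level 2-cocycle of `μ_p` at `w` with nonzero invariant. -/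
theorem baseAt_of_exists (I : EvalQ.ArithInput p S) (w : Nat.Primes)
    (h : ∃ z ∈ Z2 (localLevel (primeLocalToGlobal w))
      (Rep.res (primeLocalToGlobal w) (muRep (cycloChar p))), I.inv w z ≠ 0) :
    LDQ.BaseAt I w := by
  obtain ⟨z, hz, hne⟩ := h
  refine baseAt_of_invH_ne_zero I w fun h0 => hne ?_
  have h1 := LinearMap.congr_fun h0 (Submodule.Quotient.mk ⟨z, hz⟩)
  exact h1

end Fermat.Agent.CFT.LocalBr.TDBase
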