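import Fermat.Agent.CFT.LocalBr.Main

/-!
# LOC at the top group: `↥(⊤ : Subgroup (Gq q))` versus `Gq q`

The LOC package (`LocalBr/Main.lean`) is stated for open subgroups `U ≤ Gq q` with the level
structure `lvl q U` on the subtype `↥U`.  Consumers "at the top" (the local invariant `inv_q`, the
hypothesis `hinv` of the local duality base case) use cochains on `Gq q` itself with the level
structure `localGaloisToGlobal q`, or on the Prelude's `primeLocalGaloisGroup q` with
`primeLocalToGlobal q`.  This file is the dictionary.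

* `isOpenSub_top`           : `IsOpenSub q ⊤`;
* `pullTop`, `pushTop`      : the two transports of `2`-cochains, mutually inverse;
* `mem_levelCocycles₂_top_iff`, `mem_levelCoboundaries₂_top_iff` : membership is transported;
* `h2TopEquiv`              : `continuousH2 (localGaloisToGlobal q) A ≃ₗ H2loc A ⊤`;
* `finrank_continuousH2_mu` : **(C) at the top**, `dim H²(G_q, μ_p) = 1` in the `Gq`-language;
* `exists_smul_sub_mem`     : every level-constant `2`-cocycle is, modulo level coboundaries, a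
  multiple of any fixed level-constant cocycle which is not a level coboundary;
* `mem_levelCoboundaries₂_of_functional` : a functional killing the level coboundaries and not
  a given cocycle detects the level coboundaries among the level cocycles (`inv_q` is injective on
  classes);
* the same statements for `primeLocalGaloisGroup q`, `primeLocalToGlobal q` (`q : Nat.Primes`).
-/

set_option autoImplicit false

open CategoryTheory groupCohomology ExtCitation

namespace Fermat.Agent.CFT.LocalBr.TopDict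

open Fermat.Agent.CFT.LocalBr

variable {q : ℕ} [Fact q.Prime]

/-- The whole local Galois group is open: it is the fixing subgroup of `ℚ_q`. -/
theorem isOpenSub_top : IsOpenSub q (⊤ : Subgroup (Gq q)) :=
  ⟨⊥, inferInstance, (IntermediateField.fixingSubgroup_bot).symm⟩

section Generic

variable {k : Type} [CommRing k] (A : Rep k (Gq q))

/-- The inclusion of the top subgroup, as a group homomorphism to `Gq q`. -/
noncomputable abbrev topIncl (q : ℕ) [Fact q.Prime] : ↥(⊤ : Subgroup (Gq q)) →* Gq q :=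
  (⊤ : Subgroup (Gq q)).subtype

/-- The inverse of `topIncl`. -/
noncomputable abbrev topProj (q : ℕ) [Fact q.Prime] : Gq q →* ↥(⊤ : Subgroup (Gq q)) :=
  (Subgroup.topEquiv (G := Gq q)).symm.toMonoidHom

/-- Transport of a `2`-cochain of `Gq q` to the top subgroup. -/
noncomputable abbrev pullTop : (Gq q × Gq q → A) →ₗ[k] (↥(⊤ : Subgroup (Gq q)) × ↥(⊤ : Subgroup (Gq q)) →
    (Rep.res (⊤ : Subgroup (Gq q)).subtype A)) :=
  cochainsPullPush₂ (topIncl q) (LinearMap.id : A →ₗ[k] (Rep.res (⊤ : Subgroup (Gq q)).subtype A))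

/-- Transport of a `2`-cochain of the top subgroup to `Gq q`. -/
noncomputable abbrev pushTop : (↥(⊤ : Subgroup (Gq q)) × ↥(⊤ : Subgroup (Gq q)) →
    (Rep.res (⊤ : Subgroup (Gq q)).subtype A)) →ₗ[k] (Gq q × Gq q → A) :=
  cochainsPullPush₂ (topProj q) (LinearMap.id : (Rep.res (⊤ : Subgroup (Gq q)).subtype A) →ₗ[k] A)

@[simp] theorem pullTop_apply (f : Gq q × Gq q → A) (x : ↥(⊤ : Subgroup (Gq q)) × ↥(⊤ : Subgroup (Gq q))) :
    pullTop A f x = f ((x.1 : Gq q), (x.2 : Gq q)) := rfl

@[simp] theorem pushTop_apply (f : ↥(⊤ : Subgroup (Gq q)) × ↥(⊤ : Subgroup (Gq q)) →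
    (Rep.res (⊤ : Subgroup (Gq q)).subtype A)) (x : Gq q × Gq q) :
    pushTop A f x = f (⟨x.1, Subgroup.mem_top _⟩, ⟨x.2, Subgroup.mem_top _⟩) := rfl

theorem pushTop_pullTop (f : Gq q × Gq q → A) : pushTop A (pullTop A f) = f := rfl

theorem pullTop_pushTop (f : ↥(⊤ : Subgroup (Gq q)) × ↥(⊤ : Subgroup (Gq q)) →
    (Rep.res (⊤ : Subgroup (Gq q)).subtype A)) : pullTop A (pushTop A f) = f := rfl

theorem pullTop_mem_levelCocycles₂ {f : Gq q × Gq q → A}
    (hf : f ∈ levelCocycles₂ (localGaloisToGlobal q) A) :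
    pullTop A f ∈ levelCocycles₂ (lvl q ⊤) (Rep.res (⊤ : Subgroup (Gq q)).subtype A) :=
  cochainsPullPush₂_mem_levelCocycles₂ (rH := localGaloisToGlobal q) (rG := lvl q ⊤) (topIncl q)
    (fun _ => rfl) _ (fun _ _ => rfl) hf

theorem pushTop_mem_levelCocycles₂ {f : ↥(⊤ : Subgroup (Gq q)) × ↥(⊤ : Subgroup (Gq q)) →
    (Rep.res (⊤ : Subgroup (Gq q)).subtype A)}
    (hf : f ∈ levelCocycles₂ (lvl q ⊤) (Rep.res (⊤ : Subgroup (Gq q)).subtype A)) :
    pushTop A f ∈ levelCocycles₂ (localGaloisToGlobal q) A :=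
  cochainsPullPush₂_mem_levelCocycles₂ (rH := lvl q ⊤) (rG := localGaloisToGlobal q) (topProj q)
    (fun _ => rfl) _ (fun _ _ => rfl) hf

theorem pullTop_mem_levelCoboundaries₂ {f : Gq q × Gq q → A}
    (hf : f ∈ levelCoboundaries₂ (localGaloisToGlobal q) A) :
    pullTop A f ∈ levelCoboundaries₂ (lvl q ⊤) (Rep.res (⊤ : Subgroup (Gq q)).subtype A) :=
  cochainsPullPush₂_mem_levelCoboundaries₂ (rH := localGaloisToGlobal q) (rG := lvl q ⊤)
    (topIncl q) (fun _ => rfl) _ (fun _ _ => rfl) hf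

theorem pushTop_mem_levelCoboundaries₂ {f : ↥(⊤ : Subgroup (Gq q)) × ↥(⊤ : Subgroup (Gq q)) →
    (Rep.res (⊤ : Subgroup (Gq q)).subtype A)}
    (hf : f ∈ levelCoboundaries₂ (lvl q ⊤) (Rep.res (⊤ : Subgroup (Gq q)).subtype A)) :
    pushTop A f ∈ levelCoboundaries₂ (localGaloisToGlobal q) A :=
  cochainsPullPush₂_mem_levelCoboundaries₂ (rH := lvl q ⊤) (rG := localGaloisToGlobal q)
    (topProj q) (fun _ => rfl) _ (fun _ _ => rfl) hf

/-- Level cocycles of `Gq q` are the level cocycles of the top subgroup. -/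
theorem mem_levelCocycles₂_top_iff (f : Gq q × Gq q → A) :
    f ∈ levelCocycles₂ (localGaloisToGlobal q) A ↔
      pullTop A f ∈ levelCocycles₂ (lvl q ⊤) (Rep.res (⊤ : Subgroup (Gq q)).subtype A) :=
  ⟨pullTop_mem_levelCocycles₂ A, fun h => pushTop_mem_levelCocycles₂ A h⟩

/-- Level coboundaries of `Gq q` are the level coboundaries of the top subgroup. -/
theorem mem_levelCoboundaries₂_top_iff (f : Gq q × Gq q → A) :
    f ∈ levelCoboundaries₂ (localGaloisToGlobal q) A ↔
      pullTop A f ∈ levelCoboundaries₂ (lvl q ⊤) (Rep.res (⊤ : Subgroup (Gq q)).subtype A) :=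
  ⟨pullTop_mem_levelCoboundaries₂ A, fun h => pushTop_mem_levelCoboundaries₂ A h⟩

/-- `H²` of `Gq q` (level structure `localGaloisToGlobal q`) to `H²` of the top subgroup. -/
noncomputable def toTop : continuousH2 (localGaloisToGlobal q) A →ₗ[k] H2loc A ⊤ :=
  continuousH2Map (rH := localGaloisToGlobal q) (rG := lvl q ⊤) (topIncl q) (fun _ => rfl)
    (LinearMap.id : A →ₗ[k] (Rep.res (⊤ : Subgroup (Gq q)).subtype A)) (fun _ _ => rfl)

/-- `H²` of the top subgroup to `H²` of `Gq q`. -/
noncomputable def ofTop : H2loc A ⊤ →ₗ[k] continuousH2 (localGaloisToGlobal q) A :=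
  continuousH2Map (rH := lvl q ⊤) (rG := localGaloisToGlobal q) (topProj q) (fun _ => rfl)
    (LinearMap.id : (Rep.res (⊤ : Subgroup (Gq q)).subtype A) →ₗ[k] A) (fun _ _ => rfl)

theorem ofTop_toTop (x : continuousH2 (localGaloisToGlobal q) A) : ofTop A (toTop A x) = x := by
  induction x using Submodule.Quotient.induction_on with
  | _ c => rfl

theorem toTop_ofTop (x : H2loc A ⊤) : toTop A (ofTop A x) = x := by
  induction x using Submodule.Quotient.induction_on with
  | _ c => rfl

/-- **Dictionary on `H²`**: the level-constant `H²` of `Gq q` is `H2loc A ⊤`. -/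
noncomputable def h2TopEquiv : continuousH2 (localGaloisToGlobal q) A ≃ₗ[k] H2loc A ⊤ :=
  LinearEquiv.ofLinearMap (toTop A) (ofTop A) (LinearMap.ext (toTop_ofTop A))
    (LinearMap.ext (ofTop_toTop A))

theorem h2TopEquiv_mk (c : ↥(levelCocycles₂ (localGaloisToGlobal q) A)) :
    h2TopEquiv A (continuousH2π (localGaloisToGlobal q) A c) =
      continuousH2π (lvl q ⊤) (Rep.res (⊤ : Subgroup (Gq q)).subtype A)
        ⟨pullTop A c.1, pullTop_mem_levelCocycles₂ A c.2⟩ := rfl

end Generic

section Disc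

local notation "Qb" => AlgebraicClosure ℚ

local instance isAlgebraicQbar_td : Algebra.IsAlgebraic ℚ (AlgebraicClosure ℚ) :=
  AlgebraicClosure.isAlgebraic ℚ
local instance isAlgClosureQbar_td : IsAlgClosure ℚ (AlgebraicClosure ℚ) :=
  ⟨inferInstance, inferInstance⟩
local instance normalQbar_td : Normal ℚ (AlgebraicClosure ℚ) :=
  IsAlgClosure.normal ℚ (AlgebraicClosure ℚ)

/-- The fixing subgroup of a normal extension is stable under conjugation. -/
theorem conj_mem_fixingSubgroup (F : IntermediateField ℚ Qb) [Normal ℚ F] {s : Qb ≃ₐ[ℚ] Qb}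
    (hs : s ∈ F.fixingSubgroup) (σ : Qb ≃ₐ[ℚ] Qb) : σ⁻¹ * s * σ ∈ F.fixingSubgroup := by
  have hker := @IntermediateField.restrictNormalHom_ker ℚ Qb _ _ _ F ‹Normal ℚ F›
  rw [← hker, MonoidHom.mem_ker] at hs ⊢
  rw [map_mul, map_mul, hs, mul_one, map_inv, inv_mul_cancel]

/-- For a discrete module (some finite level acts trivially) the differential of a
level-constant `1`-cochain is a level-constant `2`-cochain. -/
theorem d₁₂_isLevelConstant₂ {k : Type} [CommRing k] {G : Type} [Group G]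
    (r : G →* (Qb ≃ₐ[ℚ] Qb)) (M : Rep k G)
    (hM : ∃ F₀ : IntermediateField ℚ Qb, FiniteDimensional ℚ F₀ ∧
      ∀ s : G, r s ∈ F₀.fixingSubgroup → ∀ m : M, M.ρ s m = m)
    {x : G → M} (hx : IsLevelConstant₁ r x) : IsLevelConstant₂ r ((d₁₂ M).hom x) := by
  obtain ⟨F₁, hF₁, h₁⟩ := hx
  obtain ⟨F₀, hF₀, h₀⟩ := hM
  haveI := hF₁
  haveI := hF₀
  obtain ⟨F, hF, hFn, hF₁F, hF₀F, -⟩ := ResRule.exists_normal_level F₁ F₀ ⊥
  haveI := hFn
  refine ⟨F, hF, fun g g' s s' hs hs' => ?_⟩
  have hs₁ := IntermediateField.fixingSubgroup_antitone hF₁F hs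
  have hs'₁ := IntermediateField.fixingSubgroup_antitone hF₁F hs'
  have hs₀ := IntermediateField.fixingSubgroup_antitone hF₀F hs
  have hconj : r (g'⁻¹ * s * g' * s') ∈ F₁.fixingSubgroup := by
    apply IntermediateField.fixingSubgroup_antitone hF₁F
    rw [map_mul, map_mul, map_mul, map_inv]
    exact Subgroup.mul_mem _ (conj_mem_fixingSubgroup F hs (r g')) hs'
  have e1 : g * s * (g' * s') = g * g' * (g'⁻¹ * s * g' * s') := by group
  rw [d₁₂_hom_apply, d₁₂_hom_apply, h₁ g' s' hs'₁, h₁ g s hs₁, e1, h₁ (g * g') _ hconj, map_mul,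
    Module.End.mul_apply, h₀ s hs₀]

/-- For a discrete module, level coboundaries are level cocycles. -/
theorem levelCoboundaries₂_le_levelCocycles₂ {k : Type} [CommRing k] {G : Type} [Group G]
    (r : G →* (Qb ≃ₐ[ℚ] Qb)) (M : Rep k G)
    (hM : ∃ F₀ : IntermediateField ℚ Qb, FiniteDimensional ℚ F₀ ∧
      ∀ s : G, r s ∈ F₀.fixingSubgroup → ∀ m : M, M.ρ s m = m) :
    levelCoboundaries₂ r M ≤ levelCocycles₂ r M := by
  intro f hf
  refine ⟨levelCoboundaries₂_le_cocycles₂ _ _ hf, ?_⟩
  obtain ⟨x, hx, rfl⟩ := (mem_levelCoboundaries₂_iff _ _ f).1 hf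
  exact d₁₂_isLevelConstant₂ r M hM hx

end Disc

section Mu

variable (p : ℕ) [Fact p.Prime]

/-- `μ_p` is a discrete module of the local Galois group. -/
theorem isDisc_muLoc : ∃ F₀ : IntermediateField ℚ (AlgebraicClosure ℚ), FiniteDimensional ℚ F₀ ∧
    ∀ s : Gq q, localGaloisToGlobal q s ∈ F₀.fixingSubgroup →
      ∀ m : muLoc q p, (muLoc q p).ρ s m = m :=
  ⟨Cup.muField p, Cup.finiteDimensional_muField p, fun _ hs m => Cup.muLoc_ρ_eq_of_mem p hs m⟩

/-- Level coboundaries of `μ_p`-valued cochains on `Gq q` are level cocycles. -/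
theorem levelCoboundaries₂_le_levelCocycles₂_mu :
    levelCoboundaries₂ (localGaloisToGlobal q) (muLoc q p) ≤
      levelCocycles₂ (localGaloisToGlobal q) (muLoc q p) :=
  levelCoboundaries₂_le_levelCocycles₂ _ _ (isDisc_muLoc p)

/-- **(C) at the top**: `H²(G_q, μ_p)` (level-constant cochains on `Gq q`) is a line. -/
theorem finrank_continuousH2_mu :
    Module.finrank (ZMod p) (continuousH2 (localGaloisToGlobal q) (muLoc q p)) = 1 := by
  rw [(h2TopEquiv (muLoc q p)).finrank_eq]
  exact finrank_H2mu p isOpenSub_top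

/-- **The line, cochain form.**  If `c₀` is a level-constant `2`-cocycle of `Gq q` with values in
`μ_p` which is not a level coboundary, every level-constant `2`-cocycle is a multiple of `c₀`
modulo level coboundaries. -/
theorem exists_smul_sub_mem {c₀ : Gq q × Gq q → muLoc q p}
    (hc₀ : c₀ ∈ levelCocycles₂ (localGaloisToGlobal q) (muLoc q p))
    (hc₀' : c₀ ∉ levelCoboundaries₂ (localGaloisToGlobal q) (muLoc q p))
    {z : Gq q × Gq q → muLoc q p} (hz : z ∈ levelCocycles₂ (localGaloisToGlobal q) (muLoc q p)) :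
    ∃ a : ZMod p, z - a • c₀ ∈ levelCoboundaries₂ (localGaloisToGlobal q) (muLoc q p) := by
  have h1 := finrank_continuousH2_mu (q := q) p
  have hne : continuousH2π (localGaloisToGlobal q) (muLoc q p) ⟨c₀, hc₀⟩ ≠ 0 := fun h0 =>
    hc₀' ((continuousH2π_eq_zero_iff _ _ _).1 h0)
  obtain ⟨a, ha⟩ := (finrank_eq_one_iff_of_nonzero' _ hne).1 h1
    (continuousH2π (localGaloisToGlobal q) (muLoc q p) ⟨z, hz⟩)
  refine ⟨a, ?_⟩
  have h2 : continuousH2π (localGaloisToGlobal q) (muLoc q p)
      (⟨z, hz⟩ - a • ⟨c₀, hc₀⟩) = 0 := by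
    rw [map_sub, map_smul, ha, sub_self]
  exact (continuousH2π_eq_zero_iff _ _ _).1 h2

/-- **Injectivity of a local invariant on classes.**  A linear functional on the `2`-cochains
which kills the level coboundaries and does not kill some level-constant cocycle `c₀` detects
the level coboundaries among the level-constant cocycles. -/
theorem mem_levelCoboundaries₂_of_functional
    (lam : (Gq q × Gq q → muLoc q p) →ₗ[ZMod p] ZMod p)
    (hB : ∀ b ∈ levelCoboundaries₂ (localGaloisToGlobal q) (muLoc q p), lam b = 0)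
    {c₀ : Gq q × Gq q → muLoc q p}
    (hc₀ : c₀ ∈ levelCocycles₂ (localGaloisToGlobal q) (muLoc q p)) (hlam : lam c₀ ≠ 0)
    {z : Gq q × Gq q → muLoc q p} (hz : z ∈ levelCocycles₂ (localGaloisToGlobal q) (muLoc q p))
    (h0 : lam z = 0) : z ∈ levelCoboundaries₂ (localGaloisToGlobal q) (muLoc q p) := by
  have hc₀' : c₀ ∉ levelCoboundaries₂ (localGaloisToGlobal q) (muLoc q p) := fun h =>
    hlam (hB _ h)
  obtain ⟨a, ha⟩ := exists_smul_sub_mem p hc₀ hc₀' hz
  have h1 := hB _ ha
  rw [map_sub, map_smul, h0, zero_sub, neg_eq_zero, smul_eq_mul] at h1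
  have ha0 : a = 0 := (mul_eq_zero.1 h1).resolve_right hlam
  rw [ha0, zero_smul, sub_zero] at ha
  exact ha

end Mu

/-! ### The Prelude indexing `q : Nat.Primes` -/

section Primes

variable (p : ℕ) [Fact p.Prime]

/-- `μ_p` restricted to the local group at `q : Nat.Primes` (Prelude shape). -/
noncomputable abbrev muP (q : Nat.Primes) : Rep (ZMod p) (primeLocalGaloisGroup q) :=
  Rep.res (primeLocalToGlobal q) (ofChar (k := ZMod p) (cycloChar p))

/-- **(C) at the top**, Prelude indexing. -/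
theorem finrank_continuousH2_muP (q : Nat.Primes) :
    Module.finrank (ZMod p) (continuousH2 (primeLocalToGlobal q) (muP p q)) = 1 :=
  letI : Fact (q : ℕ).Prime := ⟨q.2⟩
  finrank_continuousH2_mu (q := (q : ℕ)) p

theorem levelCoboundaries₂_le_levelCocycles₂_muP (q : Nat.Primes) :
    levelCoboundaries₂ (primeLocalToGlobal q) (muP p q) ≤
      levelCocycles₂ (primeLocalToGlobal q) (muP p q) :=
  letI : Fact (q : ℕ).Prime := ⟨q.2⟩
  levelCoboundaries₂_le_levelCocycles₂_mu (q := (q : ℕ)) p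

theorem exists_smul_sub_mem_muP (q : Nat.Primes)
    {c₀ : primeLocalGaloisGroup q × primeLocalGaloisGroup q → muP p q}
    (hc₀ : c₀ ∈ levelCocycles₂ (primeLocalToGlobal q) (muP p q))
    (hc₀' : c₀ ∉ levelCoboundaries₂ (primeLocalToGlobal q) (muP p q))
    {z : primeLocalGaloisGroup q × primeLocalGaloisGroup q → muP p q}
    (hz : z ∈ levelCocycles₂ (primeLocalToGlobal q) (muP p q)) :
    ∃ a : ZMod p, z - a • c₀ ∈ levelCoboundaries₂ (primeLocalToGlobal q) (muP p q) :=
  letI : Fact (q : ℕ).Prime := ⟨q.2⟩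
  exists_smul_sub_mem (q := (q : ℕ)) p hc₀ hc₀' hz

theorem mem_levelCoboundaries₂_of_functional_muP (q : Nat.Primes)
    (lam : (primeLocalGaloisGroup q × primeLocalGaloisGroup q → muP p q) →ₗ[ZMod p] ZMod p)
    (hB : ∀ b ∈ levelCoboundaries₂ (primeLocalToGlobal q) (muP p q), lam b = 0)
    {c₀ : primeLocalGaloisGroup q × primeLocalGaloisGroup q → muP p q}
    (hc₀ : c₀ ∈ levelCocycles₂ (primeLocalToGlobal q) (muP p q)) (hlam : lam c₀ ≠ 0)
    {z : primeLocalGaloisGroup q × primeLocalGaloisGroup q → muP p q}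
    (hz : z ∈ levelCocycles₂ (primeLocalToGlobal q) (muP p q))
    (h0 : lam z = 0) : z ∈ levelCoboundaries₂ (primeLocalToGlobal q) (muP p q) :=
  letI : Fact (q : ℕ).Prime := ⟨q.2⟩
  mem_levelCoboundaries₂_of_functional (q := (q : ℕ)) p lam hB hc₀ hlam hz h0

end Primes

end Fermat.Agent.CFT.LocalBr.TopDict
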