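import Fermat.Agent.CFT.LocalBr.TopDict
import Fermat.Agent.S55.Abs.Bridge

/-!
# (C) at the top in the vocabulary of the abstract layer

`Abs.H2 (localLevel r) M` (level families) versus the Prelude's `continuousH2 r M`, and the
consequences of `dim H²(G_q, μ_p) = 1` for the local invariants:

* `Z2_localLevel_eq`, `B2_localLevel_eq`, `absH2Equiv` : the dictionary (identity on cochains);
* `finrank_absH2_mu`, `finrank_absH2_muRes` : `dim_{𝔽_p} H²(G_q, μ_p) = 1` for
  `Abs.H2 (localLevel (primeLocalToGlobal q))` with coefficients `muRep (χ_cyc ∘ loc_q)`, resp.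
  `Rep.res loc_q (muRep χ_cyc)`;
* `injective_of_ne_zero`, `injective_of_ne_zero_res` : a non-zero functional on this `H²` is
  injective (`hinv` of the local duality base case from `inv q ≠ 0`);
* `mem_B2_of_inv_eq_zero` : cochain form.
-/

set_option autoImplicit false

open CategoryTheory groupCohomology ExtCitation

namespace Fermat.Agent.CFT.LocalBr.TopDict

open Fermat.Agent.S55.Abs

section Generic

variable {k H : Type} [Field k] [Group H]
  (r : H →* (AlgebraicClosure ℚ ≃ₐ[ℚ] AlgebraicClosure ℚ)) (M : Rep.{0} k H)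

theorem C1_localLevel_eq : C1 (localLevel r) M = levelCochains₁ r M := by
  ext f
  exact (isLevelConstant₁_iff r f).symm

theorem Z2_localLevel_eq : Z2 (localLevel r) M = levelCocycles₂ r M := by
  ext f
  rw [Z2, Submodule.mem_inf, mem_C2_iff, mem_levelCocycles₂_iff, ← isLevelConstant₂_iff]
  exact and_comm

theorem B2_localLevel_eq : B2 (localLevel r) M = levelCoboundaries₂ r M := by
  rw [B2, levelCoboundaries₂, C1_localLevel_eq]

/-- **Dictionary**: the level cohomology `Abs.H2 (localLevel r) M` is the Prelude's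
`continuousH2 r M` (identity on cochains). -/
noncomputable def absH2Equiv : H2 (localLevel r) M ≃ₗ[k] continuousH2 r M :=
  Submodule.Quotient.equiv _ _ (LinearEquiv.ofEq _ _ (Z2_localLevel_eq r M)) (by
    ext x
    rw [Submodule.mem_map, Submodule.mem_comap]
    constructor
    · rintro ⟨y, hy, rfl⟩
      rw [Submodule.mem_comap, B2_localLevel_eq] at hy
      exact hy
    · intro hx
      refine ⟨⟨x.1, (Z2_localLevel_eq r M).symm ▸ x.2⟩, ?_, rfl⟩
      rw [Submodule.mem_comap, B2_localLevel_eq]
      exact hx)

theorem absH2Equiv_mk (z : H × H → M) (hz : z ∈ Z2 (localLevel r) M) :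
    absH2Equiv r M (Submodule.Quotient.mk ⟨z, hz⟩) =
      continuousH2π r M ⟨z, (Z2_localLevel_eq r M) ▸ hz⟩ := rfl

/-- A non-zero functional on a line is injective. -/
theorem injective_of_finrank_eq_one {V : Type*} [AddCommGroup V] [Module k V]
    (h1 : Module.finrank k V = 1) (f : V →ₗ[k] k) (hf : f ≠ 0) : Function.Injective f := by
  obtain ⟨v, hv⟩ : ∃ v, f v ≠ 0 := by
    by_contra h
    exact hf (LinearMap.ext fun v => not_not.1 fun hv => h ⟨v, hv⟩)
  have hv0 : v ≠ 0 := fun h => hv (by rw [h, map_zero])
  rw [injective_iff_map_eq_zero]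
  intro w hw
  obtain ⟨a, rfl⟩ := (finrank_eq_one_iff_of_nonzero' v hv0).1 h1 w
  rw [map_smul, smul_eq_mul] at hw
  rcases mul_eq_zero.1 hw with h | h
  · rw [h, zero_smul]
  · exact absurd h hv

end Generic

section Mu

variable (p : ℕ) [Fact p.Prime]

/-- **(C) at the top, abstract vocabulary** (coefficients `Rep.res loc_q (muRep χ_cyc)`,
i.e. `Trace.LamS.muLoc p q`). -/
theorem finrank_absH2_muRes (q : Nat.Primes) :
    Module.finrank (ZMod p) (H2 (localLevel (primeLocalToGlobal q))
      (Rep.res (primeLocalToGlobal q) (muRep (cycloChar p)))) = 1 := by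
  rw [(absH2Equiv (primeLocalToGlobal q)
    (Rep.res (primeLocalToGlobal q) (muRep (cycloChar p)))).finrank_eq]
  exact finrank_continuousH2_muP p q

/-- **(C) at the top, abstract vocabulary** (coefficients `muRep (χ_cyc ∘ loc_q)`, the shape of
`Abs/LocFinal`). -/
theorem finrank_absH2_mu (q : Nat.Primes) :
    Module.finrank (ZMod p) (H2 (localLevel (primeLocalToGlobal q))
      (muRep ((cycloChar p).comp (primeLocalToGlobal q)))) = 1 :=
  finrank_absH2_muRes p q

/-- A non-zero local invariant is injective on `H²(G_q, μ_p)`. -/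
theorem injective_of_ne_zero_res (q : Nat.Primes)
    (inv : H2 (localLevel (primeLocalToGlobal q))
      (Rep.res (primeLocalToGlobal q) (muRep (cycloChar p))) →ₗ[ZMod p] ZMod p)
    (h : inv ≠ 0) : Function.Injective inv :=
  injective_of_finrank_eq_one (finrank_absH2_muRes p q) inv h

/-- A non-zero local invariant is injective on `H²(G_q, μ_p)` (shape of `Abs/LocFinal`). -/
theorem injective_of_ne_zero (q : Nat.Primes)
    (inv : H2 (localLevel (primeLocalToGlobal q))
      (muRep ((cycloChar p).comp (primeLocalToGlobal q))) →ₗ[ZMod p] ZMod p)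
    (h : inv ≠ 0) : Function.Injective inv :=
  injective_of_finrank_eq_one (finrank_absH2_mu p q) inv h

/-- Cochain form: a level `2`-cocycle with trivial (non-zero) invariant is a level coboundary. -/
theorem mem_B2_of_inv_eq_zero (q : Nat.Primes)
    (inv : H2 (localLevel (primeLocalToGlobal q))
      (Rep.res (primeLocalToGlobal q) (muRep (cycloChar p))) →ₗ[ZMod p] ZMod p)
    (h : inv ≠ 0)
    {z : primeLocalGaloisGroup q × primeLocalGaloisGroup q →
      Rep.res (primeLocalToGlobal q) (muRep (cycloChar p))}
    (hz : z ∈ Z2 (localLevel (primeLocalToGlobal q))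
      (Rep.res (primeLocalToGlobal q) (muRep (cycloChar p))))
    (h0 : inv (Submodule.Quotient.mk ⟨z, hz⟩) = 0) :
    z ∈ B2 (localLevel (primeLocalToGlobal q))
      (Rep.res (primeLocalToGlobal q) (muRep (cycloChar p))) := by
  have h1 := injective_of_ne_zero_res p q inv h (h0.trans (map_zero inv).symm)
  rw [Submodule.Quotient.mk_eq_zero] at h1
  exact h1

end Mu

end Fermat.Agent.CFT.LocalBr.TopDict
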