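/-
PROGRAM CFT (helper187), row 285 LOC-UNR, brick (U): the quotient `D'/I'` of the local group
`D' = D_A ⊓ G_K` of a number field `K ≤ Qb` at a valuation subring `A` of `Qb` by its inertia
subgroup is procyclic, in finite-level form.

Route: `M` := normal closure of `F ⊔ K`.  `Fr σ i` := `σ x ≡ x ^ (q ^ i)` modulo `m_A` on the
integers of `M`.  Every element of `D_A` has an exponent; exponents add under products and subtract
under `σ τ⁻¹`; Euclid on the least positive exponent realised in `D'`, then inertia lifting.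
-/
import Mathlib
import Fermat.Prelude.Def_FLTPrelim_Ramification
import Fermat.Agent.Lib.DecompLift
import Fermat.Agent.S14.Wiring.ValRing
import Fermat.Agent.S55.Glue.UnramLevel

set_option autoImplicit false

open scoped NumberField Pointwise

namespace Fermat.Agent.CFT.LocalBr.UnramFrob

open Fermat.Agent.S14.Wiring.ValRing Fermat.Agent.S55.Glue.UnramLevel Fermat.Agent.Lib.CycloChar

local notation "Qb" => AlgebraicClosure ℚ
local notation "Gq" => (AlgebraicClosure ℚ ≃ₐ[ℚ] AlgebraicClosure ℚ)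

local instance isAlgebraicQbar_uf : Algebra.IsAlgebraic ℚ (AlgebraicClosure ℚ) :=
  AlgebraicClosure.isAlgebraic ℚ
local instance isAlgClosureQbar_uf : IsAlgClosure ℚ (AlgebraicClosure ℚ) :=
  ⟨inferInstance, inferInstance⟩
local instance normalQbar_uf : Normal ℚ (AlgebraicClosure ℚ) :=
  IsAlgClosure.normal ℚ (AlgebraicClosure ℚ)

variable (A : ValuationSubring Qb)

/-- `σ` acts as the `i`-th power of the `q`-Frobenius modulo `m_A` on the integers of `M`. -/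
def Fr (q : ℕ) (M : IntermediateField ℚ Qb) (σ : Gq) (i : ℕ) : Prop :=
  ∀ x ∈ M, IsIntegral ℤ x → σ x - x ^ (q ^ i) ∈ A.nonunits

/-- Every element of the decomposition group of `A` acts on the residue field of a finite Galois
`M/ℚ` as a power of Frobenius. -/
theorem exists_fr {q : ℕ} (hq : q.Prime) (hA : A.LiesOverPrime q)
    (M : IntermediateField ℚ Qb) [FiniteDimensional ℚ M] [Normal ℚ M] {σ : Gq}
    (hσ : σ ∈ A.decompositionSubgroup ℚ) : ∃ i : ℕ, Fr A q M σ i := by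
  have : NumberField M := ⟨⟩
  have : Fact q.Prime := ⟨hq⟩
  let P : Ideal (𝓞 M) := primeUnder M A
  have hPne : P ≠ ⊥ := primeUnder_ne_bot M A hq hA
  have hPmax : P.IsMaximal := (primeUnder_isPrime M A).isMaximal hPne
  have : P.LiesOver (Ideal.span {(q : ℤ)}) := by
    constructor
    have hmax : (Ideal.span {(q : ℤ)}).IsMaximal := inferInstance
    refine hmax.eq_of_le ?_ ?_
    · exact (Ideal.IsPrime.under ℤ P).ne_top
    · rw [Ideal.span_singleton_le_iff_mem, Ideal.under_def, Ideal.mem_comap]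
      have := (natCast_mem_primeUnder_iff M A q).2 hA
      simpa using this
  have hcoe : ∀ (τ : Gq) (x : 𝓞 M),
      (((τ.restrictNormal M • x : 𝓞 M) : M) : Qb) = τ ((x : M) : Qb) := by
    intro τ x
    exact AlgEquiv.restrictNormal_commutes τ M (x : M)
  have hstab1 : ∀ τ ∈ A.decompositionSubgroup ℚ, ∀ x : 𝓞 M, x ∈ P →
      (τ.restrictNormal M) • x ∈ P := by
    intro τ hτ x hx
    have hx' := (mem_primeUnder M A x).1 hx
    rw [← A.mem_nonunits_iff] at hx'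
    show (τ.restrictNormal M) • x ∈ primeUnder M A
    rw [mem_primeUnder, ← A.mem_nonunits_iff, hcoe]
    exact (map_mem_nonunits_iff A hτ _).2 hx'
  have hstab : σ.restrictNormal M ∈ MulAction.stabilizer Gal(M/ℚ) P := by
    rw [MulAction.mem_stabilizer_iff]
    ext x
    rw [Ideal.mem_pointwise_smul_iff_inv_smul_mem]
    constructor
    · intro h
      have := hstab1 σ hσ _ h
      rwa [smul_inv_smul] at this
    · intro h
      have h2 : (σ.restrictNormal M)⁻¹ = (σ⁻¹).restrictNormal M :=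
        (map_inv (AlgEquiv.restrictNormalHom M) σ).symm
      rw [h2]
      exact hstab1 σ⁻¹ (inv_mem hσ) x h
  obtain ⟨i, hi⟩ := exists_pow_of_mem_stabilizer M q P hstab
  refine ⟨i, ?_⟩
  intro x hxM hxint
  have hxint' : IsIntegral ℤ (⟨x, hxM⟩ : M) := by
    rw [← isIntegral_algebraMap_iff (B := Qb) (algebraMap M Qb).injective]
    exact hxint
  let y : 𝓞 M := ⟨⟨x, hxM⟩, hxint'⟩
  have h1 : σ.restrictNormal M • y - y ^ (q ^ i) ∈ primeUnder M A := hi y
  rw [mem_primeUnder, ← A.mem_nonunits_iff] at h1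
  have h3 : (((σ.restrictNormal M • y - y ^ (q ^ i) : 𝓞 M) : M) : Qb) = σ x - x ^ (q ^ i) := by
    have e1 : (((σ.restrictNormal M • y : 𝓞 M) : M) : Qb) = σ x := hcoe σ y
    rw [← e1]
    rfl
  rw [h3] at h1
  exact h1

/-! ### Arithmetic of Frobenius exponents -/

theorem mul_mem_nonunits {a c : Qb} (ha : a ∈ A.nonunits) (hc : c ∈ A) : a * c ∈ A.nonunits := by
  rw [mul_comm]
  exact nonunits_mul A hc ha

theorem pow_sub_pow_mem_nonunits {a b : Qb} (ha : a ∈ A) (hb : b ∈ A)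
    (hab : a - b ∈ A.nonunits) (n : ℕ) : a ^ n - b ^ n ∈ A.nonunits := by
  obtain ⟨c, hc⟩ := sub_dvd_pow_sub_pow (⟨a, ha⟩ : A) ⟨b, hb⟩ n
  have h1 : a ^ n - b ^ n = (a - b) * (c : Qb) := by
    have := congrArg (fun z : A => (z : Qb)) hc
    simpa using this
  rw [h1]
  exact mul_mem_nonunits A hab c.2

variable {A}

theorem map_mem_of_normal (M : IntermediateField ℚ Qb) [Normal ℚ M] (τ : Gq) {x : Qb}
    (hx : x ∈ M) : τ x ∈ M := by
  have h := AlgEquiv.restrictNormal_commutes τ M ⟨x, hx⟩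
  have h2 : τ x = ((τ.restrictNormal M ⟨x, hx⟩ : M) : Qb) := h.symm
  rw [h2]
  exact (τ.restrictNormal M ⟨x, hx⟩).2

theorem Fr.mul {q : ℕ} {M : IntermediateField ℚ Qb} [Normal ℚ M] {σ τ : Gq} {i j : ℕ}
    (hσ : Fr A q M σ i) (hτ : Fr A q M τ j) : Fr A q M (σ * τ) (i + j) := by
  intro x hx hxi
  have hτx : τ x ∈ M := map_mem_of_normal M τ hx
  have hτxi : IsIntegral ℤ (τ x) := map_isIntegral_int τ hxi
  have h1 := hσ (τ x) hτx hτxi
  have h2 := hτ x hx hxi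
  have h3 := pow_sub_pow_mem_nonunits A (mem_of_isIntegral A hτxi)
    (A.pow_mem (mem_of_isIntegral A hxi) _) h2 (q ^ i)
  have e : (σ * τ) x - x ^ (q ^ (i + j)) =
      (σ (τ x) - (τ x) ^ (q ^ i)) + ((τ x) ^ (q ^ i) - (x ^ (q ^ j)) ^ (q ^ i)) := by
    rw [AlgEquiv.mul_apply, ← pow_mul, ← pow_add, add_comm j i]
    ring
  rw [e]
  exact nonunits_add A h1 h3

theorem Fr.mul_inv {q : ℕ} {M : IntermediateField ℚ Qb} [Normal ℚ M] {σ τ : Gq} {i j : ℕ}
    (hσ : Fr A q M σ i) (hτ : Fr A q M τ j) (hji : j ≤ i) : Fr A q M (σ * τ⁻¹) (i - j) := by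
  intro x hx hxi
  set z : Qb := τ⁻¹ x with hz
  have hzM : z ∈ M := map_mem_of_normal M τ⁻¹ hx
  have hzi : IsIntegral ℤ z := map_isIntegral_int τ⁻¹ hxi
  have hτz : τ z = x := by
    rw [hz]
    exact τ.apply_symm_apply x
  have h1 := hσ z hzM hzi
  have h2 := hτ z hzM hzi
  rw [hτz] at h2
  have h3 := pow_sub_pow_mem_nonunits A (mem_of_isIntegral A hxi)
    (A.pow_mem (mem_of_isIntegral A hzi) _) h2 (q ^ (i - j))
  have e : (σ * τ⁻¹) x - x ^ (q ^ (i - j)) =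
      (σ z - z ^ (q ^ i)) - (x ^ (q ^ (i - j)) - (z ^ (q ^ j)) ^ (q ^ (i - j))) := by
    rw [AlgEquiv.mul_apply, ← pow_mul, ← pow_add, Nat.add_sub_cancel' hji]
    ring
  rw [e]
  exact nonunits_sub' A h1 h3

theorem Fr.zero_iff {q : ℕ} {M : IntermediateField ℚ Qb} {σ : Gq} :
    Fr A q M σ 0 ↔ ∀ x ∈ M, IsIntegral ℤ x → σ x - x ∈ A.nonunits := by
  unfold Fr
  simp only [pow_zero, pow_one]

theorem Fr.conj {q : ℕ} {M : IntermediateField ℚ Qb} [Normal ℚ M] {τ ρ : Gq}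
    (hτ : Fr A q M τ 0) (hρ : ρ ∈ A.decompositionSubgroup ℚ) : Fr A q M (ρ⁻¹ * τ * ρ) 0 := by
  rw [Fr.zero_iff] at hτ ⊢
  intro x hx hxi
  have h1 := hτ (ρ x) (map_mem_of_normal M ρ hx) (map_isIntegral_int ρ hxi)
  have e : (ρ⁻¹ * τ * ρ) x - x = ρ⁻¹ (τ (ρ x) - ρ x) := by
    rw [map_sub, AlgEquiv.mul_apply, AlgEquiv.mul_apply]
    congr 1
    exact (ρ.symm_apply_apply x).symm
  rw [e]
  exact (map_mem_nonunits_iff A (inv_mem hρ) _).2 h1

/-- Euclid on the least positive Frobenius exponent realised in a subgroup of `D_A`. -/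
theorem exists_generator_aux (D' : Subgroup Gq) (hD' : D' ≤ A.decompositionSubgroup ℚ)
    {q : ℕ} (hq : q.Prime) (hA : A.LiesOverPrime q)
    (M : IntermediateField ℚ Qb) [FiniteDimensional ℚ M] [Normal ℚ M] :
    ∃ ρ ∈ D', ∀ σ ∈ D', ∃ a : ℕ, Fr A q M ((ρ ^ a)⁻¹ * σ) 0 := by
  classical
  by_cases hex : ∃ i : ℕ, 0 < i ∧ ∃ ρ ∈ D', Fr A q M ρ i
  · obtain ⟨hd0, ρ, hρ, hρd⟩ := Nat.find_spec hex
    have hmin : ∀ i : ℕ, 0 < i → (∃ σ ∈ D', Fr A q M σ i) → Nat.find hex ≤ i := by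
      intro i hi hσ
      exact Nat.find_min' hex ⟨hi, hσ⟩
    have claim : ∀ i : ℕ, ∀ σ ∈ D', Fr A q M σ i → ∃ a : ℕ, Fr A q M (σ * (ρ ^ a)⁻¹) 0 := by
      intro i
      induction i using Nat.strong_induction_on with
      | _ i ih =>
        intro σ hσ hσi
        rcases Nat.eq_zero_or_pos i with h0 | hpos
        · refine ⟨0, ?_⟩
          rw [pow_zero, inv_one, mul_one, ← h0]
          exact hσi
        · have hle : Nat.find hex ≤ i := hmin i hpos ⟨σ, hσ, hσi⟩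
          have h1 : Fr A q M (σ * ρ⁻¹) (i - Nat.find hex) := hσi.mul_inv hρd hle
          obtain ⟨a, ha⟩ := ih (i - Nat.find hex) (Nat.sub_lt hpos hd0) (σ * ρ⁻¹)
            (D'.mul_mem hσ (D'.inv_mem hρ)) h1
          refine ⟨a + 1, ?_⟩
          have e : σ * (ρ ^ (a + 1))⁻¹ = σ * ρ⁻¹ * (ρ ^ a)⁻¹ := by
            rw [pow_succ, mul_inv_rev, mul_assoc]
          rw [e]
          exact ha
    refine ⟨ρ, hρ, ?_⟩
    intro σ hσ
    obtain ⟨i, hi⟩ := exists_fr A hq hA M (hD' hσ)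
    obtain ⟨a, ha⟩ := claim i σ hσ hi
    refine ⟨a, ?_⟩
    have hρa : ρ ^ a ∈ A.decompositionSubgroup ℚ := pow_mem (hD' hρ) a
    have h2 := ha.conj hρa
    have e : (ρ ^ a)⁻¹ * (σ * (ρ ^ a)⁻¹) * ρ ^ a = (ρ ^ a)⁻¹ * σ := by
      rw [mul_assoc, mul_assoc, inv_mul_cancel, mul_one]
    rw [e] at h2
    exact h2
  · refine ⟨1, D'.one_mem, ?_⟩
    intro σ hσ
    obtain ⟨i, hi⟩ := exists_fr A hq hA M (hD' hσ)
    have hi0 : i = 0 := by
      by_contra hne
      exact hex ⟨i, Nat.pos_of_ne_zero hne, σ, hσ, hi⟩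
    refine ⟨0, ?_⟩
    rw [pow_zero, inv_one, one_mul, ← hi0]
    exact hi

/-- **(U): `D'/I'` is procyclic** (finite-level form): for every finite level `F` there is
`ρ ∈ D' = D_A ⊓ G_K` such that every `σ ∈ D'` is `ρ ^ a * ι * t` with `ι ∈ I_A ⊓ G_K` and
`t ∈ Fix F`. -/
theorem exists_generator_mod_inertia (K : IntermediateField ℚ Qb) [FiniteDimensional ℚ K]
    {q : ℕ} (hq : q.Prime) (hA : A.LiesOverPrime q)
    (F : IntermediateField ℚ Qb) [FiniteDimensional ℚ F] :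
    ∃ ρ : Gq, ρ ∈ A.decompositionSubgroup ℚ ⊓ K.fixingSubgroup ∧
      ∀ σ : Gq, σ ∈ A.decompositionSubgroup ℚ ⊓ K.fixingSubgroup → ∃ (a : ℕ) (ι : Gq),
        ι ∈ A.inertiaSubgroupIn ℚ ∧ ι ∈ K.fixingSubgroup ∧
          ι⁻¹ * ((ρ ^ a)⁻¹ * σ) ∈ F.fixingSubgroup := by
  let M : IntermediateField ℚ Qb := IntermediateField.normalClosure ℚ ↥(F ⊔ K) Qb
  have : Normal ℚ M := normalClosure.normal ℚ ↥(F ⊔ K) Qb
  have : FiniteDimensional ℚ M := normalClosure.is_finiteDimensional ℚ ↥(F ⊔ K) Qb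
  have hFKM : F ⊔ K ≤ M := IntermediateField.le_normalClosure (F ⊔ K)
  have hFM : F ≤ M := le_sup_left.trans hFKM
  have hKM : K ≤ M := le_sup_right.trans hFKM
  obtain ⟨ρ, hρ, h⟩ := exists_generator_aux (A := A)
    (A.decompositionSubgroup ℚ ⊓ K.fixingSubgroup) inf_le_left hq hA M
  refine ⟨ρ, hρ, ?_⟩
  intro σ hσ
  obtain ⟨a, ha⟩ := h σ hσ
  have hτmem : (ρ ^ a)⁻¹ * σ ∈ A.decompositionSubgroup ℚ ⊓ K.fixingSubgroup :=
    Subgroup.mul_mem _ (Subgroup.inv_mem _ (Subgroup.pow_mem _ hρ a)) hσ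
  obtain ⟨ι, hι, hιM⟩ := Fermat.Agent.Lib.DecompLift.exists_inertia_lift M A hq hA _
    (Fr.zero_iff.1 ha)
  refine ⟨a, ι, hι, ?_, ?_⟩
  · rw [IntermediateField.mem_fixingSubgroup_iff]
    intro x hx
    rw [hιM x (hKM hx)]
    exact (IntermediateField.mem_fixingSubgroup_iff K _).1 hτmem.2 x hx
  · rw [IntermediateField.mem_fixingSubgroup_iff]
    intro x hx
    rw [AlgEquiv.mul_apply, ← hιM x (hFM hx)]
    exact ι.symm_apply_apply x

end Fermat.Agent.CFT.LocalBr.UnramFrob
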