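import Mathlib
import Fermat.Prelude.Def_FLTPrelim_Ramification
import Fermat.Agent.S14.Wiring.ValRing
import Fermat.Agent.Lib.InertiaBridge
import Fermat.Agent.Lib.ValAut

/-!
# LOC-UNR: tame inertia is procyclic (finite-level form)

`A` a valuation subring of `AlgebraicClosure ℚ` over the prime `q`, `J` a subgroup of its inertia
group, `F` a finite level.  `exists_generator_of_le_inertia`: there is `ι₀ ∈ J` such that every
`ι ∈ J` is `ι₀ ^ a * w` with `w ^ (q ^ n)` acting trivially on `F`.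

Proof: for a uniformiser `ϖ` of a finite normal level `L ⊇ F`, `ι ↦ ι ϖ / ϖ mod 𝔪` is a
homomorphism from inertia to the units of the residue field, with finite (hence cyclic) image;
an element `w` of its kernel moves every `x ∈ L` by at most `|ϖ| |x|`, hence `w ^ (q ^ n)` moves
`x` by at most `|ϖ| ^ (n + 1) |x|`, and `w` has finite order on `L`.
-/

set_option autoImplicit false

open scoped NumberField
open IsDedekindDomain

namespace Fermat.Agent.CFT.LocalBr.Unram

local notation "Qb" => AlgebraicClosure ℚ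
local notation "GQ" => (AlgebraicClosure ℚ ≃ₐ[ℚ] AlgebraicClosure ℚ)

open Fermat.Agent.S14.Wiring Fermat.Agent.Lib

attribute [local instance] Fermat.Agent.Lib.FrobProfinite.isAlgebraic_Qb
  Fermat.Agent.Lib.FrobProfinite.isAlgClosure_Qb

/-- Every finite level is contained in a finite normal level. -/
theorem exists_normal_level (F : IntermediateField ℚ Qb) [FiniteDimensional ℚ F] :
    ∃ L : IntermediateField ℚ Qb, FiniteDimensional ℚ L ∧ Normal ℚ L ∧ F ≤ L :=
  ⟨IntermediateField.normalClosure ℚ F Qb, inferInstance, normalClosure.normal ℚ F Qb,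
    IntermediateField.le_normalClosure F⟩

/-- A normal intermediate field is stable under the Galois group. -/
theorem map_mem_of_normal (L : IntermediateField ℚ Qb) [Normal ℚ L] (σ : GQ) {x : Qb}
    (hx : x ∈ L) : σ x ∈ L := by
  have h := AlgEquiv.restrictNormal_commutes σ L ⟨x, hx⟩
  have h2 : σ x = ((σ.restrictNormal L ⟨x, hx⟩ : L) : Qb) := h.symm
  rw [h2]
  exact (σ.restrictNormal L ⟨x, hx⟩).2

/-- The valuation of `A` restricted to a number field `L` is discrete. -/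
theorem exists_uniformizer (L : IntermediateField ℚ Qb) [FiniteDimensional ℚ L]
    (A : ValuationSubring Qb) {q : ℕ} (hq : q.Prime) (hA : A.LiesOverPrime q) :
    ∃ ϖ : Qb, ϖ ∈ L ∧ ϖ ≠ 0 ∧ A.valuation ϖ < 1 ∧
      ∀ x ∈ L, x ≠ 0 → ∃ m : ℤ, A.valuation x = A.valuation ϖ ^ m := by
  have : NumberField L := { to_charZero := inferInstance, to_finiteDimensional := inferInstance }
  set v : HeightOneSpectrum (𝓞 L) := ValRing.placeUnder L A hq hA with hvdef
  have hv : v.asIdeal = ValRing.primeUnder L A := rfl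
  obtain ⟨π, hπ⟩ := v.valuation_exists_uniformizer L
  have hπ0 : π ≠ 0 := by
    rintro rfl
    rw [map_zero] at hπ
    exact WithZero.exp_ne_zero hπ.symm
  have hπ0' : (π : Qb) ≠ 0 := fun h => hπ0 (Subtype.ext h)
  have hπ1 : A.valuation (π : Qb) < 1 := by
    refine (ValRing.valuation_lt_one_iff hv π).mp ?_
    rw [hπ, ← WithZero.exp_zero, WithZero.exp_lt_exp]
    norm_num
  refine ⟨π, π.2, hπ0', hπ1, fun x hx hx0 => ?_⟩
  set c : L := ⟨x, hx⟩ with hc
  have hc0 : c ≠ 0 := fun h => hx0 (congrArg Subtype.val h)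
  have hvc : v.valuation L c ≠ 0 := by rw [Ne, map_eq_zero]; exact hc0
  set n := WithZero.log (v.valuation L c) with hn
  have h1 : v.valuation L (c * π ^ n) = 1 := by
    rw [map_mul, map_zpow₀, hπ, ← WithZero.exp_zsmul, ← WithZero.exp_log hvc, ← hn,
      ← WithZero.exp_add, ← WithZero.exp_zero]
    congr 1
    simp
  have h2 := (ValRing.valuation_eq_one_iff hv _).mp h1
  have e1 : ((c * π ^ n : L) : Qb) = x * (π : Qb) ^ n := by
    push_cast; rfl
  rw [e1, map_mul, map_zpow₀] at h2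
  refine ⟨-n, ?_⟩
  rw [zpow_neg]
  exact eq_inv_of_mul_eq_one_left h2


section Tame

variable (A : ValuationSubring Qb)

/-- `ι u / u` is a principal unit for `ι` in the inertia group and `u` a unit of `A`. -/
theorem inertia_div_sub_one_lt {ι : GQ} (hι : ι ∈ A.inertiaSubgroupIn ℚ) {u : Qb}
    (hu : A.valuation u = 1) : A.valuation (ι u / u - 1) < 1 := by
  have hu0 : u ≠ 0 := by
    rintro rfl
    simp at hu
  have hmem : u ∈ A := (A.valuation_le_one_iff _).mp hu.le
  have h1 := A.mem_nonunits_iff.mp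
    (InertiaBridge.sub_mem_of_mem_inertiaSubgroupIn A ι hι u hmem)
  have h2 : ι u / u - 1 = (ι u - u) / u := by field_simp
  rw [h2, map_div₀, hu, div_one]
  exact h1

/-- `σ` moves every element `x` of `L` by at most `c * |x|`. -/
def Wild (L : IntermediateField ℚ Qb) (σ : GQ) (c : A.ValueGroup) : Prop :=
  ∀ x ∈ L, A.valuation (σ x - x) ≤ c * A.valuation x

variable {A}

theorem Wild.pow {L : IntermediateField ℚ Qb} [Normal ℚ L] {σ : GQ}
    (hσ : σ ∈ A.decompositionSubgroup ℚ) {c : A.ValueGroup} (h : Wild A L σ c) (i : ℕ) :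
    Wild A L (σ ^ i) c := by
  induction i with
  | zero =>
    intro x _
    simp
  | succ i ih =>
    intro x hx
    have hix : (σ ^ i) x ∈ L := map_mem_of_normal L (σ ^ i) hx
    have hval : A.valuation ((σ ^ i) x) = A.valuation x :=
      ValAut.valuation_map_eq_of_mem_decomposition ℚ A (σ ^ i) (Subgroup.pow_mem _ hσ i) x
    have e : (σ ^ (i + 1)) x - x = (σ ((σ ^ i) x) - (σ ^ i) x) + ((σ ^ i) x - x) := by
      rw [pow_succ', AlgEquiv.mul_apply]
      ring
    rw [e]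
    refine (A.valuation.map_add_le ?_ (ih x hx))
    have := h _ hix
    rwa [hval] at this

theorem Wild.pow_prime {L : IntermediateField ℚ Qb} [Normal ℚ L] {σ : GQ}
    (hσ : σ ∈ A.decompositionSubgroup ℚ) {c lam : A.ValueGroup} (h : Wild A L σ c)
    (hc : c ≤ lam) (q : ℕ) (hq : A.valuation (q : Qb) ≤ lam) : Wild A L (σ ^ q) (c * lam) := by
  intro x hx
  set y : Qb := ∑ i ∈ Finset.range q, (σ ^ i) x with hy
  have hyL : y ∈ L := by
    rw [hy]
    exact sum_mem fun i _ => map_mem_of_normal L (σ ^ i) hx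
  have e1 : (σ ^ q) x - x = σ y - y := by
    rw [hy, map_sum, ← Finset.sum_sub_distrib]
    have : ∀ i ∈ Finset.range q, σ ((σ ^ i) x) - (σ ^ i) x = (σ ^ (i + 1)) x - (σ ^ i) x := by
      intro i _
      rw [pow_succ', AlgEquiv.mul_apply]
    rw [Finset.sum_congr rfl this, Finset.sum_range_sub (fun i => (σ ^ i) x)]
    simp
  have e2 : y = (q : Qb) * x + ∑ i ∈ Finset.range q, ((σ ^ i) x - x) := by
    rw [hy, Finset.sum_sub_distrib]
    simp
  have hy1 : A.valuation y ≤ lam * A.valuation x := by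
    rw [e2]
    refine A.valuation.map_add_le ?_ ?_
    · rw [map_mul]
      gcongr
    · refine A.valuation.map_sum_le fun i _ => ?_
      refine (Wild.pow hσ h i x hx).trans ?_
      gcongr
  rw [e1]
  calc A.valuation (σ y - y) ≤ c * A.valuation y := h y hyL
    _ ≤ c * (lam * A.valuation x) := by gcongr
    _ = c * lam * A.valuation x := by rw [mul_assoc]


/-- An inertia element acting trivially on a uniformiser modulo principal units moves every
element of `L` by a factor at most `|ϖ|`. -/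
theorem wild_of_div_sub_one_lt {L : IntermediateField ℚ Qb} [Normal ℚ L] {ϖ : Qb}
    (hϖ0 : ϖ ≠ 0) (hϖ1 : A.valuation ϖ < 1)
    (hdisc : ∀ x ∈ L, x ≠ 0 → ∃ m : ℤ, A.valuation x = A.valuation ϖ ^ m)
    {w : GQ} (hw : w ∈ A.inertiaSubgroupIn ℚ) (hχ : A.valuation (w ϖ / ϖ - 1) < 1) :
    Wild A L w (A.valuation ϖ) := by
  intro x hx
  by_cases hx0 : x = 0
  · subst hx0
    simp
  have hlam0 : A.valuation ϖ ≠ 0 := by rw [Ne, map_eq_zero]; exact hϖ0
  have hlampos : 0 < A.valuation ϖ := zero_lt_iff.mpr hlam0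
  obtain ⟨m, hm⟩ := hdisc x hx hx0
  -- the unit part
  set u : Qb := x / ϖ ^ m with hu
  have hu1 : A.valuation u = 1 := by
    rw [hu, map_div₀, map_zpow₀, hm, div_self (zpow_ne_zero _ hlam0)]
  have hu0 : u ≠ 0 := by
    intro h
    rw [h, map_zero] at hu1
    exact zero_ne_one hu1
  have hxu : x = ϖ ^ m * u := by
    rw [hu, mul_div_cancel₀ _ (zpow_ne_zero _ hϖ0)]
  have hwϖ0 : w ϖ ≠ 0 := by simpa using hϖ0
  have hwu0 : w u ≠ 0 := by simpa using hu0
  -- principal units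
  set a : Qbˣ := Units.mk0 (w ϖ / ϖ) (div_ne_zero hwϖ0 hϖ0) with ha
  set b : Qbˣ := Units.mk0 (w u / u) (div_ne_zero hwu0 hu0) with hb
  have haP : a ∈ A.principalUnitGroup := by
    rw [A.mem_principalUnitGroup_iff]
    exact hχ
  have hbP : b ∈ A.principalUnitGroup := by
    rw [A.mem_principalUnitGroup_iff]
    exact inertia_div_sub_one_lt A hw hu1
  have habP : a ^ m * b ∈ A.principalUnitGroup :=
    Subgroup.mul_mem _ (Subgroup.zpow_mem _ haP m) hbP
  rw [A.mem_principalUnitGroup_iff] at habP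
  have hval : ((a ^ m * b : Qbˣ) : Qb) = w x / x := by
    rw [Units.val_mul, Units.val_zpow_eq_zpow_val, ha, hb, Units.val_mk0, Units.val_mk0, hxu,
      map_mul, map_zpow₀, div_zpow]
    field_simp
  rw [hval] at habP
  have hxpos : 0 < A.valuation x := by
    rw [zero_lt_iff, Ne, map_eq_zero]; exact hx0
  have hlt : A.valuation (w x - x) < A.valuation x := by
    have e : w x - x = (w x / x - 1) * x := by field_simp
    rw [e, map_mul]
    exact mul_lt_of_lt_one_left hxpos habP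
  -- discreteness
  by_cases hz : w x - x = 0
  · rw [hz, map_zero]
    exact zero_le
  have hzL : w x - x ∈ L := sub_mem (map_mem_of_normal L w hx) hx
  obtain ⟨m', hm'⟩ := hdisc _ hzL hz
  rw [hm', hm] at hlt
  rw [hm', hm, ← zpow_one_add₀ hlam0]
  have hmm : m < m' := by
    by_contra hcon
    rw [not_lt] at hcon
    exact absurd hlt (not_lt.mpr (zpow_le_zpow_right_of_le_one₀ hlampos hϖ1.le hcon))
  exact zpow_le_zpow_right_of_le_one₀ hlampos hϖ1.le (by omega)


/-- Two elements of the Galois group with the same restriction to a normal `L` agree on `L`. -/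
theorem apply_eq_of_restrictNormalHom_eq (L : IntermediateField ℚ Qb) [Normal ℚ L] {σ τ : GQ}
    (h : AlgEquiv.restrictNormalHom L σ = AlgEquiv.restrictNormalHom L τ) {x : Qb} (hx : x ∈ L) :
    σ x = τ x := by
  have h1 : ((AlgEquiv.restrictNormalHom L σ ⟨x, hx⟩ : L) : Qb) = σ x :=
    AlgEquiv.restrictNormal_commutes σ L ⟨x, hx⟩
  have h2 : ((AlgEquiv.restrictNormalHom L τ ⟨x, hx⟩ : L) : Qb) = τ x :=
    AlgEquiv.restrictNormal_commutes τ L ⟨x, hx⟩
  rw [h] at h1
  exact h1.symm.trans h2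

/-- An element of the decomposition group whose `q ^ n`-th powers are `|ϖ| ^ (n + 1)`-close to
the identity on the finite normal level `L` has a `q`-power acting trivially on `L`. -/
theorem exists_pow_mem_fixingSubgroup_of_wild {L : IntermediateField ℚ Qb}
    [FiniteDimensional ℚ L] [Normal ℚ L] {ϖ : Qb} (hϖ0 : ϖ ≠ 0) (hϖ1 : A.valuation ϖ < 1)
    (hdisc : ∀ x ∈ L, x ≠ 0 → ∃ m : ℤ, A.valuation x = A.valuation ϖ ^ m)
    {w : GQ} (q : ℕ) (hW : ∀ n : ℕ, Wild A L (w ^ q ^ n) (A.valuation ϖ ^ (n + 1))) :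
    ∃ n : ℕ, w ^ q ^ n ∈ L.fixingSubgroup := by
  have hlam0 : A.valuation ϖ ≠ 0 := by rw [Ne, map_eq_zero]; exact hϖ0
  have hlampos : 0 < A.valuation ϖ := zero_lt_iff.mpr hlam0
  set r : L ≃ₐ[ℚ] L := AlgEquiv.restrictNormalHom L w with hr
  -- pigeonhole on the sequence `r ^ q ^ n`
  obtain ⟨n₁, n₂, hlt, heq⟩ : ∃ n₁ n₂ : ℕ, n₁ < n₂ ∧ r ^ q ^ n₁ = r ^ q ^ n₂ := by
    obtain ⟨a, b, hab, hf⟩ := Finite.exists_ne_map_eq_of_infinite (fun n : ℕ => r ^ q ^ n)
    rcases lt_or_gt_of_ne hab with h | h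
    · exact ⟨a, b, h, hf⟩
    · exact ⟨b, a, h, hf.symm⟩
  obtain ⟨d, hd0, rfl⟩ : ∃ d : ℕ, 0 < d ∧ n₂ = n₁ + d := ⟨n₂ - n₁, by omega, by omega⟩
  have key : ∀ k : ℕ, r ^ q ^ (n₁ + d * k) = r ^ q ^ n₁ := by
    intro k
    induction k with
    | zero => simp
    | succ k ih =>
      have e : q ^ (n₁ + d * (k + 1)) = q ^ (n₁ + d * k) * q ^ d := by
        rw [← pow_add]; congr 1; ring
      rw [e, pow_mul, ih, ← pow_mul, ← pow_add]
      exact heq.symm
  refine ⟨n₁, ?_⟩
  rw [IntermediateField.mem_fixingSubgroup_iff]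
  intro x hx
  by_contra hne
  have hz : (w ^ q ^ n₁) x - x ≠ 0 := sub_ne_zero.mpr hne
  have hzL : (w ^ q ^ n₁) x - x ∈ L := sub_mem (map_mem_of_normal L _ hx) hx
  have hx0 : x ≠ 0 := by
    rintro rfl
    simp at hne
  obtain ⟨m, hm⟩ := hdisc _ hzL hz
  obtain ⟨m₀, hm₀⟩ := hdisc x hx hx0
  -- choose `k` large
  set k : ℕ := (m - m₀).toNat with hk
  have hagree : (w ^ q ^ (n₁ + d * k)) x = (w ^ q ^ n₁) x := by
    apply apply_eq_of_restrictNormalHom_eq L _ hx
    rw [map_pow, map_pow]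
    exact key k
  have h1 := hW (n₁ + d * k) x hx
  rw [hagree, hm, hm₀, ← zpow_natCast, ← zpow_add₀ hlam0] at h1
  have h2 : m < ((n₁ + d * k + 1 : ℕ) : ℤ) + m₀ := by
    have h3 : m - m₀ ≤ (k : ℤ) := by rw [hk]; exact Int.self_le_toNat _
    have h4 : (k : ℤ) ≤ (d * k : ℕ) := by
      exact_mod_cast Nat.le_mul_of_pos_left k hd0
    push_cast at h4 ⊢
    omega
  exact absurd h1 (not_le.mpr (zpow_lt_zpow_right_of_lt_one₀ hlampos hϖ1 h2))


/-- **Tame inertia is procyclic** (finite-level form).  Let `J` be a subgroup of the inertia group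
of `A` (over the prime `q`) and `F` a finite level.  There is `ι₀ ∈ J` such that every `ι ∈ J` is
`ι₀ ^ a * w` where a `q`-power of `w` acts trivially on `F`. -/
theorem exists_generator_of_le_inertia {q : ℕ} (hq : q.Prime) (hA : A.LiesOverPrime q)
    (J : Subgroup GQ) (hJ : J ≤ A.inertiaSubgroupIn ℚ)
    (F : IntermediateField ℚ Qb) [FiniteDimensional ℚ F] :
    ∃ ι₀ ∈ J, ∀ ι ∈ J, ∃ a n : ℕ, ((ι₀ ^ a)⁻¹ * ι) ^ (q ^ n) ∈ F.fixingSubgroup := by
  obtain ⟨L, hLfin, hLnorm, hFL⟩ := exists_normal_level F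
  obtain ⟨ϖ, hϖL, hϖ0, hϖ1, hdisc⟩ := exists_uniformizer L A hq hA
  have hlam0 : A.valuation ϖ ≠ 0 := by rw [Ne, map_eq_zero]; exact hϖ0
  have hunit : ∀ ι ∈ A.inertiaSubgroupIn ℚ, A.valuation (ι ϖ / ϖ) = 1 := by
    intro ι hι
    rw [map_div₀, ValAut.valuation_map_eq_of_mem_inertia A ι hι, div_self hlam0]
  have hne : ∀ ι : GQ, ι ϖ / ϖ ≠ 0 := fun ι => div_ne_zero (by simpa using hϖ0) hϖ0
  let dfun : ↥J → ↥A.unitGroup := fun ι =>
    ⟨Units.mk0 ((ι : GQ) ϖ / ϖ) (hne ι), hunit ι (hJ ι.2)⟩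
  have hdval : ∀ ι : ↥J, (((dfun ι : ↥A.unitGroup) : Qbˣ) : Qb) = (ι : GQ) ϖ / ϖ := fun ι => rfl
  have hmul : ∀ ι ι' : ↥J, A.unitGroupToResidueFieldUnits (dfun (ι * ι')) =
      A.unitGroupToResidueFieldUnits (dfun ι) * A.unitGroupToResidueFieldUnits (dfun ι') := by
    intro ι ι'
    rw [← map_mul, MonoidHom.eq_iff, A.ker_unitGroupToResidueFieldUnits, Subgroup.mem_comap,
      A.mem_principalUnitGroup_iff]
    have hu' : A.valuation ((ι' : GQ) ϖ / ϖ) = 1 := hunit ι' (hJ ι'.2)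
    have key : (((A.unitGroup.subtype ((dfun ι * dfun ι')⁻¹ * dfun (ι * ι')) : Qbˣ)) : Qb)
        = (ι : GQ) ((ι' : GQ) ϖ / ϖ) / ((ι' : GQ) ϖ / ϖ) := by
      simp only [Subgroup.coe_subtype, Subgroup.coe_mul, Subgroup.coe_inv, Units.val_mul,
        Units.val_inv_eq_inv_val, hdval, map_div₀, AlgEquiv.mul_apply]
      have h1 : (ι : GQ) ϖ ≠ 0 := by simpa using hϖ0
      have h2 : (ι' : GQ) ϖ ≠ 0 := by simpa using hϖ0
      have h3 : (ι : GQ) ((ι' : GQ) ϖ) ≠ 0 := by simpa using h2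
      field_simp
    rw [key]
    exact inertia_div_sub_one_lt A (hJ ι.2) hu'
  let χ : ↥J →* (IsLocalRing.ResidueField A)ˣ :=
    MonoidHom.mk' (fun ι => A.unitGroupToResidueFieldUnits (dfun ι)) hmul
  have hχ : ∀ ι : ↥J, χ ι = A.unitGroupToResidueFieldUnits (dfun ι) := fun ι => rfl
  have hker : ∀ w : ↥J, χ w = 1 → A.valuation ((w : GQ) ϖ / ϖ - 1) < 1 := by
    intro w hw
    have h1 : dfun w ∈ A.unitGroupToResidueFieldUnits.ker := by
      rw [MonoidHom.mem_ker, ← hχ]; exact hw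
    rw [A.ker_unitGroupToResidueFieldUnits, Subgroup.mem_comap, A.mem_principalUnitGroup_iff] at h1
    exact h1
  -- the image of `χ` is finite
  set N : ℕ := Nat.card (L ≃ₐ[ℚ] L) with hN
  have hNpos : 0 < N := Nat.card_pos
  have : NeZero N := ⟨hNpos.ne'⟩
  have hfixN : ∀ ι : GQ, ∀ x ∈ L, (ι ^ N) x = x := by
    intro ι x hx
    have h1 : AlgEquiv.restrictNormalHom L (ι ^ N) = AlgEquiv.restrictNormalHom L (1 : GQ) := by
      rw [map_pow, map_one, hN]
      exact pow_card_eq_one'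
    simpa using apply_eq_of_restrictNormalHom_eq L h1 hx
  have hpowN : ∀ ι : ↥J, χ ι ^ N = 1 := by
    intro ι
    rw [← map_pow, hχ]
    have h1 : dfun (ι ^ N) = 1 := by
      apply Subtype.ext
      apply Units.ext
      rw [hdval, Subgroup.coe_pow, hfixN _ ϖ hϖL, div_self hϖ0]
      rfl
    rw [h1, map_one]
  have hle : χ.range ≤ rootsOfUnity N (IsLocalRing.ResidueField A) := by
    rintro _ ⟨ι, rfl⟩
    rw [mem_rootsOfUnity]
    exact hpowN ι
  have : Finite ↥χ.range :=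
    Finite.of_injective (Subgroup.inclusion hle) (Subgroup.inclusion_injective hle)
  have : IsCyclic ↥χ.range := inferInstance
  obtain ⟨g, hg⟩ := IsCyclic.exists_generator (α := ↥χ.range)
  obtain ⟨ι₀, hι₀⟩ := g.2
  refine ⟨ι₀.1, ι₀.2, fun ι hι => ?_⟩
  have h1 := hg ⟨χ ⟨ι, hι⟩, ⟨_, rfl⟩⟩
  rw [← mem_powers_iff_mem_zpowers, Submonoid.mem_powers_iff] at h1
  obtain ⟨a, ha⟩ := h1
  have ha' : χ ι₀ ^ a = χ ⟨ι, hι⟩ := by
    have := congrArg Subtype.val ha
    rw [SubgroupClass.coe_pow, ← hι₀] at this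
    exact this
  set w : ↥J := (ι₀ ^ a)⁻¹ * ⟨ι, hι⟩ with hw
  have hχw : χ w = 1 := by
    rw [hw, map_mul, map_inv, map_pow, ha', inv_mul_cancel]
  have hwI : (w : GQ) ∈ A.inertiaSubgroupIn ℚ := hJ w.2
  have hwD : (w : GQ) ∈ A.decompositionSubgroup ℚ :=
    ValAut.mem_decomposition_of_mem_inertia ℚ A _ hwI
  have hW1 : Wild A L (w : GQ) (A.valuation ϖ) :=
    wild_of_div_sub_one_lt hϖ0 hϖ1 hdisc hwI (hker w hχw)
  have hqlam : A.valuation (q : Qb) ≤ A.valuation ϖ := by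
    have hqL : (q : Qb) ∈ L := natCast_mem L q
    have hq0 : (q : Qb) ≠ 0 := by exact_mod_cast hq.ne_zero
    obtain ⟨m, hm⟩ := hdisc _ hqL hq0
    have hq1 : A.valuation (q : Qb) < 1 := A.mem_nonunits_iff.mp hA
    rw [hm] at hq1 ⊢
    have hlampos : 0 < A.valuation ϖ := zero_lt_iff.mpr hlam0
    have hm1 : 1 ≤ m := by
      by_contra hcon
      have hm0 : m ≤ 0 := by omega
      have := zpow_le_zpow_right_of_le_one₀ hlampos hϖ1.le hm0
      rw [zpow_zero] at this
      exact absurd hq1 (not_lt.mpr this)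
    have := zpow_le_zpow_right_of_le_one₀ hlampos hϖ1.le hm1
    rwa [zpow_one] at this
  have hWn : ∀ n : ℕ, Wild A L ((w : GQ) ^ q ^ n) (A.valuation ϖ ^ (n + 1)) := by
    intro n
    induction n with
    | zero => simpa using hW1
    | succ n ih =>
      have hle1 : A.valuation ϖ ^ (n + 1) ≤ A.valuation ϖ :=
        pow_le_of_le_one zero_le hϖ1.le (by omega)
      have := Wild.pow_prime (Subgroup.pow_mem _ hwD (q ^ n)) ih hle1 q hqlam
      rwa [← pow_mul, ← pow_succ, ← pow_succ] at this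
  obtain ⟨n, hn⟩ := exists_pow_mem_fixingSubgroup_of_wild hϖ0 hϖ1 hdisc q hWn
  refine ⟨a, n, ?_⟩
  have h2 : ((w : GQ) ^ q ^ n) = ((ι₀.1 ^ a)⁻¹ * ι) ^ (q ^ n) := by
    rw [hw]
    rfl
  rw [← h2]
  exact IntermediateField.fixingSubgroup_antitone hFL hn

end Tame

end Fermat.Agent.CFT.LocalBr.Unram
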