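import Mathlib
import Fermat.Prelude.Def_GroupCohomology_ContinuousUnramified
import Fermat.Agent.CFT.Kummer.Ram
import Fermat.Agent.CFT.Kummer.Gen
import Fermat.Agent.CFT.LocalBr.UnramTame
import Fermat.Agent.CFT.LocalBr.UnramFrob
import Fermat.Agent.S55.Glue.UnramIntrinsic

/-!
# LOC-UNR: the unramified / tame local symbol at a place prime to `p` (K-side language)

`Qb = AlgebraicClosure ℚ`, `K ≤ Qb` finite over `ℚ`, `A` a valuation subring of `Qb` over the prime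
number `q`.  The local group of `K` at `A` is `D' = D_A ⊓ G_K`
(`A.decompositionSubgroup ℚ ⊓ K.fixingSubgroup`), its inertia subgroup is `I_A ⊓ G_K`.
Cochains are functions on `↥D'`, level-constant w.r.t. `D'.subtype` (Prelude `IsLevelConstant₁`);
coefficients are any `ZMod p`-module `M` with TRIVIAL action (e.g. `μ_p` when `μ_p ⊂ K`), so the
coboundary of `g` is `(s, t) ↦ g t - g (s * t) + g s` and the cup product of a character `η` with
`y` is `(s, t) ↦ η s • y t`.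

* `exists_generator_mod_inertia` : `D'/I'` is procyclic (finite-level form).
* `exists_generator_inertia`     : the prime-to-`q` part of `I'` is procyclic (finite-level form).
* (UNR-1) `unram_cup_unram`      : `η`, `y` unramified ⇒ `η ∪ y` is a level-constant coboundary.
* (UNR-2) `eq_zero_of_kummer_cup_eq_d` : `κ_π ∪ y = d g`, `y` unramified ⇒ `y = 0`.
* (UNR-3) `existsUnique_tame_coeff`   : every character is `κ_π • d + unramified`, `d` unique.
* (UNR-4) `cup_unram_eq`         : `η ∪ y = d • (κ_π ∪ y) + coboundary` for `y` unramified.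
* (UNR-5) `kummer_tame_coeff`    : the tame coefficient of the Kummer character of `γ ∈ Kˣ` is
  `ord(γ)`: `κ_γ - m • κ_π` is unramified when `v(γ) = v(π) ^ m`.
* `exists_inertia_kummer_ne_zero` : `κ_π` is ramified;  `kummer_uniformizer_add`,
  `kummer_uniformizer_isLevelConstant` : it is a level-constant character.

Everything here is proved (no placeholder); the file cites `UnramTame` (tame inertia),
`UnramFrob` (helper187: `D'/I'`), `UnramIntrinsic` (helper96: UNR-1) and `Kummer.Ram` (helper75).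
-/

set_option autoImplicit false

open groupCohomology
open scoped NumberField IntermediateField
open IsDedekindDomain

namespace Fermat.Agent.CFT.LocalBr.Unram

local notation "Qb" => AlgebraicClosure ℚ
local notation "GQ" => (AlgebraicClosure ℚ ≃ₐ[ℚ] AlgebraicClosure ℚ)

open Fermat.Agent.S14.Wiring Fermat.Agent.Lib

variable (K : IntermediateField ℚ Qb) (A : ValuationSubring Qb)

/-- The local group of `K` at `A`: `D' = D_A ⊓ G_K`. -/
noncomputable abbrev Dloc : Subgroup GQ := A.decompositionSubgroup ℚ ⊓ K.fixingSubgroup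

/-- The inertia subgroup of the local group of `K` at `A`: `I' = I_A ⊓ G_K`. -/
noncomputable abbrev Iloc : Subgroup GQ := A.inertiaSubgroupIn ℚ ⊓ K.fixingSubgroup

theorem Iloc_le_Dloc : Iloc K A ≤ Dloc K A := fun σ hσ =>
  ⟨ValAut.mem_decomposition_of_mem_inertia ℚ A σ hσ.1, hσ.2⟩

/-- A function on `D'` is unramified: it vanishes on the inertia subgroup `I_A ⊓ G_K`. -/
def IsUnram {X : Type*} [Zero X] (η : ↥(Dloc K A) → X) : Prop :=
  ∀ s : ↥(Dloc K A), (s : GQ) ∈ A.inertiaSubgroupIn ℚ → η s = 0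

/-- `π ∈ K` is a uniformiser of `K` at `A`: it generates the maximal ideal of `A ∩ K`. -/
def IsUniformizerAt (π : K) : Prop :=
  A.valuation (π : Qb) < 1 ∧
    ∀ x : K, A.valuation (x : Qb) < 1 → A.valuation (x : Qb) ≤ A.valuation (π : Qb)

variable {K A}

/-! ### Additive functions on a group -/

section Additive

variable {G : Type*} [Group G] {M : Type*} [AddCommGroup M] {f : G → M}

theorem add_map_one (hf : ∀ s t, f (s * t) = f s + f t) : f 1 = 0 := by
  have h := hf 1 1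
  rw [mul_one] at h
  exact (add_left_cancel (a := f 1) (by rw [add_zero]; exact h)).symm

theorem add_map_inv (hf : ∀ s t, f (s * t) = f s + f t) (s : G) : f s⁻¹ = -f s := by
  have h := hf s s⁻¹
  rw [mul_inv_cancel, add_map_one hf] at h
  exact eq_neg_of_add_eq_zero_right h.symm

theorem add_map_pow (hf : ∀ s t, f (s * t) = f s + f t) (s : G) (n : ℕ) :
    f (s ^ n) = n • f s := by
  induction n with
  | zero => rw [pow_zero, zero_smul, add_map_one hf]
  | succ n ih => rw [pow_succ, hf, ih, succ_nsmul]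

end Additive

theorem finiteDimensional_adjoin_rat (θ : Qb) : FiniteDimensional ℚ ℚ⟮θ⟯ :=
  IntermediateField.adjoin.finiteDimensional
    ((AlgebraicClosure.isAlgebraic ℚ).isAlgebraic θ).isIntegral

/-! ### Kummer characters on a subgroup of `G_K` -/

section KummerChar

variable {p : ℕ} [Fact p.Prime] {D : Subgroup GQ} (hDK : D ≤ K.fixingSubgroup)
  {ζ : K} (hζ : IsPrimitiveRoot ζ p) {θ : Qb} (hθ0 : θ ≠ 0)
  {κ : ↥D → ZMod p} (hκ : ∀ σ : ↥D, (σ : GQ) θ = (ζ : Qb) ^ (κ σ).val * θ)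

include hDK hζ hθ0 hκ

theorem kummer_add (s t : ↥D) : κ (s * t) = κ s + κ t := by
  have hp : p.Prime := Fact.out
  have : NeZero p := ⟨hp.ne_zero⟩
  have hz : IsPrimitiveRoot (ζ : Qb) p := hζ.map_of_injective (f := K.val) K.val.injective
  have hfixz : (s : GQ) (ζ : Qb) = ζ :=
    (IntermediateField.mem_fixingSubgroup_iff K _).mp (hDK s.2) _ ζ.2
  have h1 : ((s * t : ↥D) : GQ) θ = (ζ : Qb) ^ ((κ s).val + (κ t).val) * θ := by
    rw [Subgroup.coe_mul, AlgEquiv.mul_apply, hκ t, map_mul, map_pow, hfixz, hκ s, pow_add]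
    ring
  rw [hκ (s * t)] at h1
  have h3 : (ζ : Qb) ^ ((κ s).val + (κ t).val) = (ζ : Qb) ^ (κ (s * t)).val :=
    (mul_right_cancel₀ hθ0 h1).symm
  have h4 := Kummer.natCast_eq_of_pow_eq_pow_val hz _ _ h3
  rw [← h4]
  push_cast
  rw [ZMod.natCast_zmod_val, ZMod.natCast_zmod_val]

omit hDK in
theorem kummer_eq_zero_iff (σ : ↥D) : κ σ = 0 ↔ (σ : GQ) θ = θ := by
  have hp : p.Prime := Fact.out
  have : NeZero p := ⟨hp.ne_zero⟩
  have hz : IsPrimitiveRoot (ζ : Qb) p := hζ.map_of_injective (f := K.val) K.val.injective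
  constructor
  · intro h
    rw [hκ σ, h, ZMod.val_zero, pow_zero, one_mul]
  · intro h
    have h1 : (ζ : Qb) ^ (κ σ).val * θ = 1 * θ := by rw [← hκ σ, h, one_mul]
    have h2 : (ζ : Qb) ^ 0 = (ζ : Qb) ^ (κ σ).val := by
      rw [pow_zero]; exact (mul_right_cancel₀ hθ0 h1).symm
    have h4 := Kummer.natCast_eq_of_pow_eq_pow_val hz _ _ h2
    rw [← h4, Nat.cast_zero]

omit hDK in
theorem kummer_eq_zero_of_mem_fixingSubgroup (σ : ↥D)
    (hσ : (σ : GQ) ∈ (ℚ⟮θ⟯).fixingSubgroup) : κ σ = 0 :=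
  (kummer_eq_zero_iff hζ hθ0 hκ σ).mpr
    ((IntermediateField.mem_fixingSubgroup_iff _ _).mp hσ θ
      (IntermediateField.mem_adjoin_simple_self ℚ θ))

theorem kummer_isLevelConstant : IsLevelConstant₁ D.subtype κ := by
  refine ⟨ℚ⟮θ⟯, finiteDimensional_adjoin_rat θ, fun g s hs => ?_⟩
  rw [kummer_add hDK hζ hθ0 hκ, kummer_eq_zero_of_mem_fixingSubgroup hζ hθ0 hκ s hs,
    add_zero]

end KummerChar

/-! ### The Kummer character of a uniformiser is ramified -/

section Ramified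

variable {p q : ℕ} [Fact p.Prime]

theorem uniformizer_ne_zero (hq : q.Prime) (hA : A.LiesOverPrime q) {π : K}
    (hπ : IsUniformizerAt K A π) : π ≠ 0 := by
  rintro rfl
  have hcoe : (((q : ℕ) : K) : Qb) = ((q : ℕ) : Qb) := by simp
  have h1 : A.valuation ((((q : ℕ) : K)) : Qb) < 1 := by
    rw [hcoe]
    exact A.mem_nonunits_iff.mp hA
  have h2 := hπ.2 (q : K) h1
  rw [show ((0 : K) : Qb) = 0 from rfl, map_zero, le_zero_iff, map_eq_zero, hcoe] at h2
  exact hq.ne_zero (by exact_mod_cast h2)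

/-- Some element of `I_A ⊓ G_K` moves a `p`-th root of a uniformiser. -/
theorem exists_inertia_not_fix [FiniteDimensional ℚ K] (hq : q.Prime) (hA : A.LiesOverPrime q)
    {π : K} (hπ : IsUniformizerAt K A π) {θ : Qb} (hθ : θ ^ p = (π : Qb)) :
    ∃ ι : GQ, ι ∈ Iloc K A ∧ ι θ ≠ θ := by
  have hp : p.Prime := Fact.out
  have hπ0 := uniformizer_ne_zero hq hA hπ
  by_contra hcon
  push Not at hcon
  have : NumberField K := { to_charZero := inferInstance, to_finiteDimensional := inferInstance }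
  let v := ValRing.placeUnder K A hq hA
  have hv : v.asIdeal = ValRing.primeUnder K A := rfl
  obtain ⟨x, hx0, hx⟩ := Kummer.exists_valuation_eq_one_of_inertia K θ π hπ0 hθ v A
    (fun x => (ValRing.valuation_le_one_iff hv x).symm) (fun σ hσ hσK => hcon σ ⟨hσ, hσK⟩)
  have h1 : A.valuation (((π * x ^ p : K) : K) : Qb) = 1 :=
    (ValRing.valuation_eq_one_iff hv _).mp hx
  have hcoe : (((π * x ^ p : K) : K) : Qb) = (π : Qb) * (x : Qb) ^ p := by simp
  rw [hcoe, map_mul, map_pow] at h1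
  have hxv : A.valuation (x : Qb) ≠ 0 := by
    rw [Ne, map_eq_zero]
    exact fun h => hx0 (Subtype.ext h)
  set c := A.valuation ((x⁻¹ : K) : Qb) with hc
  have hc' : c = (A.valuation (x : Qb))⁻¹ := by
    rw [hc, ValRing.coe_inv_eq, map_inv₀]
  have h3 : A.valuation (π : Qb) = c ^ p := by
    rw [hc', inv_pow]
    exact eq_inv_of_mul_eq_one_left h1
  have hc1 : c < 1 := by
    by_contra hge
    rw [not_lt] at hge
    have h4 := one_le_pow₀ hge (n := p)
    rw [← h3] at h4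
    exact absurd hπ.1 (not_lt.mpr h4)
  have h4 := hπ.2 x⁻¹ hc1
  rw [← hc, h3] at h4
  have hc0 : c ≠ 0 := by
    rw [hc']
    exact inv_ne_zero hxv
  exact absurd (pow_lt_self_of_lt_one₀ (zero_lt_iff.mpr hc0) hc1 hp.one_lt) (not_lt.mpr h4)

end Ramified

/-! ### Characters of inertia are multiples of the Kummer character -/

section Core

variable {p q : ℕ} [Fact p.Prime] {M : Type*} [AddCommGroup M] [Module (ZMod p) M]

theorem eq_zero_of_prime_pow_nsmul (hq : q.Prime) (hpq : p ≠ q) (n : ℕ) (m : M)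
    (h : (q ^ n) • m = 0) : m = 0 := by
  have hp : p.Prime := Fact.out
  have hc : ((q ^ n : ℕ) : ZMod p) ≠ 0 := by
    rw [Ne, ZMod.natCast_eq_zero_iff]
    intro hdvd
    exact hpq ((Nat.prime_dvd_prime_iff_eq hp hq).mp (hp.dvd_of_dvd_pow hdvd))
  rw [← Nat.cast_smul_eq_nsmul (ZMod p)] at h
  rw [← inv_smul_smul₀ hc m, h, smul_zero]

/-- A character of a subgroup `J` of `I_A ⊓ G_K` which is trivial on `J ⊓ Fix F₁` (`F₁` finite)
is a multiple of any Kummer character of `J` which is nontrivial. -/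
theorem exists_eq_kummer_smul (hq : q.Prime) (hA : A.LiesOverPrime q) (hpq : p ≠ q)
    {J : Subgroup GQ} (hJI : J ≤ A.inertiaSubgroupIn ℚ) (hJK : J ≤ K.fixingSubgroup)
    {ζ : K} (hζ : IsPrimitiveRoot ζ p) {θ : Qb} (hθ0 : θ ≠ 0)
    {κ : ↥J → ZMod p} (hκ : ∀ σ : ↥J, (σ : GQ) θ = (ζ : Qb) ^ (κ σ).val * θ)
    (hram : ∃ τ : ↥J, κ τ ≠ 0)
    {f : ↥J → M} (hf : ∀ s t, f (s * t) = f s + f t)
    (F₁ : IntermediateField ℚ Qb) [FiniteDimensional ℚ F₁]
    (hfF : ∀ s : ↥J, (s : GQ) ∈ F₁.fixingSubgroup → f s = 0) :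
    ∃ d : M, ∀ s, f s = κ s • d := by
  have hκadd := kummer_add hJK hζ hθ0 hκ
  have : FiniteDimensional ℚ ℚ⟮θ⟯ := finiteDimensional_adjoin_rat θ
  obtain ⟨ι₀, hι₀J, hgen⟩ := exists_generator_of_le_inertia hq hA J hJI (F₁ ⊔ ℚ⟮θ⟯)
  have hwild : ∀ (w : ↥J) (n : ℕ), ((w : GQ)) ^ (q ^ n) ∈ (F₁ ⊔ ℚ⟮θ⟯).fixingSubgroup →
      f w = 0 ∧ κ w = 0 := by
    intro w n hw
    rw [IntermediateField.fixingSubgroup_sup] at hw
    have h1 : f (w ^ (q ^ n)) = 0 := hfF _ hw.1
    have h2 : κ (w ^ (q ^ n)) = 0 := kummer_eq_zero_of_mem_fixingSubgroup hζ hθ0 hκ _ hw.2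
    rw [add_map_pow hf] at h1
    rw [add_map_pow hκadd] at h2
    exact ⟨eq_zero_of_prime_pow_nsmul hq hpq n _ h1, eq_zero_of_prime_pow_nsmul hq hpq n _ h2⟩
  set ι₁ : ↥J := ⟨ι₀, hι₀J⟩ with hι₁
  have hdecomp : ∀ s : ↥J, ∃ a : ℕ, f s = a • f ι₁ ∧ κ s = a • κ ι₁ := by
    intro s
    obtain ⟨a, n, h⟩ := hgen s s.2
    have hw : (((ι₁ ^ a)⁻¹ * s : ↥J) : GQ) = (ι₀ ^ a)⁻¹ * (s : GQ) := by
      rw [Subgroup.coe_mul, Subgroup.coe_inv, Subgroup.coe_pow]
    rw [← hw] at h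
    obtain ⟨h1, h1'⟩ := hwild _ n h
    have h2 : s = ι₁ ^ a * ((ι₁ ^ a)⁻¹ * s) := by group
    refine ⟨a, ?_, ?_⟩
    · rw [h2, hf, h1, add_zero, add_map_pow hf]
    · rw [h2, hκadd, h1', add_zero, add_map_pow hκadd]
  have hκ0 : κ ι₁ ≠ 0 := by
    obtain ⟨τ, hτ⟩ := hram
    obtain ⟨a, -, ha⟩ := hdecomp τ
    intro h0
    rw [h0, smul_zero] at ha
    exact hτ ha
  refine ⟨(κ ι₁)⁻¹ • f ι₁, fun s => ?_⟩
  obtain ⟨a, h1, h2⟩ := hdecomp s
  rw [h1, h2, ← Nat.cast_smul_eq_nsmul (ZMod p) a (κ ι₁), smul_eq_mul, mul_smul,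
    smul_inv_smul₀ hκ0, Nat.cast_smul_eq_nsmul]

end Core

/-! ### Level-constant functions on the local group -/

section Level

variable {X : Type*}

theorem isLevelConstant_map₂ {Y Z : Type*} (φ : X → Y → Z) {f : ↥(Dloc K A) → X}
    {g : ↥(Dloc K A) → Y} (hf : IsLevelConstant₁ (Dloc K A).subtype f)
    (hg : IsLevelConstant₁ (Dloc K A).subtype g) :
    IsLevelConstant₁ (Dloc K A).subtype (fun s => φ (f s) (g s)) := by
  obtain ⟨F, hF, h⟩ := hf
  obtain ⟨F', hF', h'⟩ := hg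
  refine ⟨F ⊔ F', IntermediateField.finiteDimensional_sup F F', fun a s hs => ?_⟩
  rw [IntermediateField.fixingSubgroup_sup] at hs
  show φ (f (a * s)) (g (a * s)) = φ (f a) (g a)
  rw [h a s hs.1, h' a s hs.2]

end Level

/-! ### Conjugation by the decomposition group preserves inertia -/

theorem conj_mem_inertiaSubgroupIn {s ι : GQ} (hs : s ∈ A.decompositionSubgroup ℚ)
    (hι : ι ∈ A.inertiaSubgroupIn ℚ) : s * ι * s⁻¹ ∈ A.inertiaSubgroupIn ℚ := by
  have hι' : ι ∈ (A.inertiaSubgroup ℚ).map (A.decompositionSubgroup ℚ).subtype := hι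
  rw [Subgroup.mem_map] at hι'
  obtain ⟨ι₁, hι₁, hι₁'⟩ := hι'
  have hn : (A.inertiaSubgroup ℚ).Normal := MonoidHom.normal_ker _
  have h1 := hn.conj_mem ι₁ hι₁ ⟨s, hs⟩
  show s * ι * s⁻¹ ∈ (A.inertiaSubgroup ℚ).map (A.decompositionSubgroup ℚ).subtype
  rw [Subgroup.mem_map]
  refine ⟨_, h1, ?_⟩
  rw [map_mul, map_mul, map_inv, hι₁']
  rfl

variable {q : ℕ}

/-- **`D'/I'` is procyclic** (finite-level form): for every finite level `F` there is `ρ ∈ D'`
such that every `σ ∈ D'` is `ρ ^ a * ι * t` with `ι ∈ I_A ⊓ G_K` and `t ∈ Fix F`. -/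
theorem exists_generator_mod_inertia [FiniteDimensional ℚ K] (hq : q.Prime)
    (hA : A.LiesOverPrime q) (F : IntermediateField ℚ Qb) [FiniteDimensional ℚ F] :
    ∃ ρ : GQ, ρ ∈ Dloc K A ∧ ∀ σ : GQ, σ ∈ Dloc K A → ∃ (a : ℕ) (ι : GQ),
      ι ∈ A.inertiaSubgroupIn ℚ ∧ ι ∈ K.fixingSubgroup ∧
        ι⁻¹ * ((ρ ^ a)⁻¹ * σ) ∈ F.fixingSubgroup :=
  Fermat.Agent.CFT.LocalBr.UnramFrob.exists_generator_mod_inertia K hq hA F

/-- **The prime-to-`q` part of inertia is procyclic** (finite-level form): for every finite level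
`F` there is `ι₀ ∈ I_A ⊓ G_K` such that every `ι ∈ I_A ⊓ G_K` is `ι₀ ^ a * w` with `w ^ (q ^ n)`
in `Fix F`. -/
theorem exists_generator_inertia [FiniteDimensional ℚ K] (hq : q.Prime)
    (hA : A.LiesOverPrime q) (F : IntermediateField ℚ Qb) [FiniteDimensional ℚ F] :
    ∃ ι₀ : GQ, ι₀ ∈ A.inertiaSubgroupIn ℚ ∧ ι₀ ∈ K.fixingSubgroup ∧
      ∀ ι : GQ, ι ∈ A.inertiaSubgroupIn ℚ → ι ∈ K.fixingSubgroup →
        ∃ a n : ℕ, ((ι₀ ^ a)⁻¹ * ι) ^ (q ^ n) ∈ F.fixingSubgroup := by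
  obtain ⟨ι₀, hι₀, h⟩ := exists_generator_of_le_inertia hq hA (Iloc K A) inf_le_left F
  exact ⟨ι₀, hι₀.1, hι₀.2, fun ι h1 h2 => h ι ⟨h1, h2⟩⟩

variable {p : ℕ} [Fact p.Prime] {M : Type*} [AddCommGroup M] [Module (ZMod p) M]

/-- **(UNR-1)** The cup product of two unramified characters is a level-constant coboundary
(no hypothesis on `p`, `q`, no roots of unity needed; `hp2` is kept for interface stability). -/
theorem unram_cup_unram [FiniteDimensional ℚ K] (hp2 : p ≠ 2) (hq : q.Prime)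
    (hA : A.LiesOverPrime q)
    (η : ↥(Dloc K A) → ZMod p) (hη : ∀ s t, η (s * t) = η s + η t)
    (hηl : IsLevelConstant₁ (Dloc K A).subtype η) (hηu : IsUnram K A η)
    (y : ↥(Dloc K A) → M) (hy : ∀ s t, y (s * t) = y s + y t)
    (hyl : IsLevelConstant₁ (Dloc K A).subtype y) (hyu : IsUnram K A y) :
    ∃ g : ↥(Dloc K A) → M, IsLevelConstant₁ (Dloc K A).subtype g ∧
      ∀ s t, η s • y t = g t - g (s * t) + g s := by
  have _ := hp2
  exact Fermat.Agent.S55.Glue.UnramIntrinsic.unram_cup_unram A K hq hA η hη hηl hηu y hy hyl hyu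

section Kummer

variable [FiniteDimensional ℚ K] (hq : q.Prime) (hA : A.LiesOverPrime q) (hpq : p ≠ q)
  (ζ : K) (hζ : IsPrimitiveRoot ζ p) (π : K) (hπ : IsUniformizerAt K A π)
  (θ : Qb) (hθ : θ ^ p = (π : Qb))
  (κ : ↥(Dloc K A) → ZMod p) (hκ : ∀ σ : ↥(Dloc K A), (σ : GQ) θ = (ζ : Qb) ^ (κ σ).val * θ)

include hq hA hpq hζ hπ hθ hκ

omit [FiniteDimensional ℚ K] hpq hζ hκ in
theorem root_uniformizer_ne_zero : θ ≠ 0 := by
  have hp : p.Prime := Fact.out
  intro h0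
  rw [h0, zero_pow hp.ne_zero] at hθ
  exact uniformizer_ne_zero hq hA hπ (Subtype.ext hθ.symm)

omit [FiniteDimensional ℚ K] hpq in
/-- The Kummer character of a uniformiser is additive. -/
theorem kummer_uniformizer_add (s t : ↥(Dloc K A)) : κ (s * t) = κ s + κ t :=
  kummer_add (D := Dloc K A) inf_le_right hζ (root_uniformizer_ne_zero hq hA π hπ θ hθ)
    hκ s t

omit [FiniteDimensional ℚ K] hpq in
/-- The Kummer character of a uniformiser is level-constant. -/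
theorem kummer_uniformizer_isLevelConstant : IsLevelConstant₁ (Dloc K A).subtype κ :=
  kummer_isLevelConstant (D := Dloc K A) inf_le_right hζ
    (root_uniformizer_ne_zero hq hA π hπ θ hθ) hκ

omit hpq in
/-- **The Kummer character of a uniformiser is ramified.** -/
theorem exists_inertia_kummer_ne_zero :
    ∃ τ : ↥(Dloc K A), (τ : GQ) ∈ A.inertiaSubgroupIn ℚ ∧ κ τ ≠ 0 := by
  obtain ⟨ι, hι, hne⟩ := exists_inertia_not_fix hq hA hπ hθ
  refine ⟨⟨ι, Iloc_le_Dloc K A hι⟩, hι.1, fun h0 => hne ?_⟩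
  exact (kummer_eq_zero_iff hζ (root_uniformizer_ne_zero hq hA π hπ θ hθ) hκ _).mp h0

/-- Core of (UNR-2)/(UNR-3): a function on `D'` which is additive on inertia and trivial on
`I' ⊓ Fix F₁` coincides on inertia with a multiple of `κ_π`. -/
theorem exists_eq_kummer_smul_on_inertia
    (f : ↥(Dloc K A) → M)
    (hf : ∀ s t : ↥(Dloc K A), (s : GQ) ∈ A.inertiaSubgroupIn ℚ →
      (t : GQ) ∈ A.inertiaSubgroupIn ℚ → f (s * t) = f s + f t)
    (F₁ : IntermediateField ℚ Qb) [FiniteDimensional ℚ F₁]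
    (hfF : ∀ s : ↥(Dloc K A), (s : GQ) ∈ A.inertiaSubgroupIn ℚ → (s : GQ) ∈ F₁.fixingSubgroup →
      f s = 0) :
    ∃ d : M, ∀ s : ↥(Dloc K A), (s : GQ) ∈ A.inertiaSubgroupIn ℚ → f s = κ s • d := by
  have hθ0 := root_uniformizer_ne_zero hq hA π hπ θ hθ
  obtain ⟨τ, hτI, hτ⟩ := exists_inertia_kummer_ne_zero hq hA ζ hζ π hπ θ hθ κ hκ
  let incl : ↥(Iloc K A) → ↥(Dloc K A) := fun s => ⟨s, Iloc_le_Dloc K A s.2⟩
  have hincl_mul : ∀ s t : ↥(Iloc K A), incl (s * t) = incl s * incl t := fun s t => rfl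
  obtain ⟨d, hd⟩ := exists_eq_kummer_smul (K := K) (A := A) (M := M) hq hA hpq
    (J := Iloc K A) inf_le_left inf_le_right hζ hθ0
    (κ := fun s => κ (incl s)) (fun σ => hκ (incl σ))
    ⟨⟨τ, hτI, τ.2.2⟩, hτ⟩
    (f := fun s => f (incl s)) (fun s t => by
      show f (incl (s * t)) = f (incl s) + f (incl t)
      rw [hincl_mul]
      exact hf _ _ s.2.1 t.2.1)
    F₁ (fun s hs => hfF (incl s) s.2.1 hs)
  exact ⟨d, fun s hs => hd ⟨s, hs, s.2.2⟩⟩

/-- **(UNR-3)** Every level-constant character of `D'` is `κ_π • d + (unramified)` for a unique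
`d` (the tame coefficient; for `M = ZMod p`, `d = ord_v` of a Kummer generator). -/
theorem existsUnique_tame_coeff
    (η : ↥(Dloc K A) → M) (hη : ∀ s t, η (s * t) = η s + η t)
    (hηl : IsLevelConstant₁ (Dloc K A).subtype η) :
    ∃! d : M, IsUnram K A (fun s => η s - κ s • d) := by
  obtain ⟨F₁, hF₁, hconst⟩ := hηl
  obtain ⟨d, hd⟩ := exists_eq_kummer_smul_on_inertia hq hA hpq ζ hζ π hπ θ hθ κ hκ η
    (fun s t _ _ => hη s t) F₁ (fun s _ hs => by
      have h := hconst 1 s hs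
      rw [one_mul, add_map_one hη] at h
      exact h)
  refine ⟨d, fun s hs => ?_, fun d' hd' => ?_⟩
  · show η s - κ s • d = 0
    rw [hd s hs, sub_self]
  · obtain ⟨τ, hτI, hτ⟩ := exists_inertia_kummer_ne_zero hq hA ζ hζ π hπ θ hθ κ hκ
    have h1 : η τ - κ τ • d' = 0 := hd' τ hτI
    rw [hd τ hτI, ← smul_sub] at h1
    have h2 := (smul_eq_zero_iff_right hτ).mp h1
    exact (sub_eq_zero.mp h2).symm

/-- **(UNR-2)** If the cup product of the Kummer character `κ_π` of a uniformiser with an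
unramified character `y` is a level-constant coboundary, then `y = 0`. -/
theorem eq_zero_of_kummer_cup_eq_d
    (y : ↥(Dloc K A) → M) (hy : ∀ s t, y (s * t) = y s + y t) (hyu : IsUnram K A y)
    (g : ↥(Dloc K A) → M) (hgl : IsLevelConstant₁ (Dloc K A).subtype g)
    (hg : ∀ s t, κ s • y t = g t - g (s * t) + g s) : y = 0 := by
  have hκadd := kummer_uniformizer_add hq hA ζ hζ π hπ θ hθ κ hκ
  have hgmul : ∀ s t, g (s * t) = g s + g t - κ s • y t := by
    intro s t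
    rw [hg s t]
    abel
  have hg1 : g 1 = 0 := by
    have h := hg 1 1
    rw [add_map_one hy, smul_zero, mul_one, sub_self, zero_add] at h
    exact h.symm
  have hgI : ∀ s t : ↥(Dloc K A), (t : GQ) ∈ A.inertiaSubgroupIn ℚ →
      g (s * t) = g s + g t := by
    intro s t ht
    rw [hgmul, hyu t ht, smul_zero, sub_zero]
  obtain ⟨F₁, hF₁, hconst⟩ := hgl
  obtain ⟨m₁, hm₁⟩ := exists_eq_kummer_smul_on_inertia hq hA hpq ζ hζ π hπ θ hθ κ hκ g
    (fun s t _ ht => hgI s t ht) F₁ (fun s _ hs => by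
      have h := hconst 1 s hs
      rw [one_mul, hg1] at h
      exact h)
  obtain ⟨τ, hτI, hτ⟩ := exists_inertia_kummer_ne_zero hq hA ζ hζ π hπ θ hθ κ hκ
  funext s
  show y s = 0
  have hτ'I : ((s * τ * s⁻¹ : ↥(Dloc K A)) : GQ) ∈ A.inertiaSubgroupIn ℚ := by
    rw [Subgroup.coe_mul, Subgroup.coe_mul, Subgroup.coe_inv]
    exact conj_mem_inertiaSubgroupIn s.2.1 hτI
  have hκτ' : κ (s * τ * s⁻¹) = κ τ := by
    rw [hκadd, hκadd, add_map_inv hκadd]
    abel
  have h1 : g (s * τ) = g s + g τ := hgI s τ hτI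
  have h2 : g (s * τ * s⁻¹ * s) = g (s * τ * s⁻¹) + g s - κ (s * τ * s⁻¹) • y s := hgmul _ _
  rw [inv_mul_cancel_right, h1, hm₁ _ hτ'I, hκτ', hm₁ τ hτI] at h2
  have h3 : κ τ • y s = 0 := by
    have h4 : κ τ • y s = κ τ • m₁ + g s - (g s + κ τ • m₁) := by
      rw [h2]
      abel
    rw [h4]
    abel
  exact (smul_eq_zero_iff_right hτ).mp h3

omit hpq in
/-- **(UNR-4)** The symbol formula: for any character `η` with tame coefficient `d` and any
unramified character `y`, `η ∪ y = d • (κ_π ∪ y) + coboundary`. -/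
theorem cup_unram_eq (hp2 : p ≠ 2)
    (η : ↥(Dloc K A) → ZMod p) (hη : ∀ s t, η (s * t) = η s + η t)
    (hηl : IsLevelConstant₁ (Dloc K A).subtype η)
    (d : ZMod p) (hd : IsUnram K A (fun s => η s - κ s * d))
    (y : ↥(Dloc K A) → M) (hy : ∀ s t, y (s * t) = y s + y t)
    (hyl : IsLevelConstant₁ (Dloc K A).subtype y) (hyu : IsUnram K A y) :
    ∃ g : ↥(Dloc K A) → M, IsLevelConstant₁ (Dloc K A).subtype g ∧
      ∀ s t, η s • y t = d • (κ s • y t) + (g t - g (s * t) + g s) := by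
  have hκadd := kummer_uniformizer_add hq hA ζ hζ π hπ θ hθ κ hκ
  have hκl := kummer_uniformizer_isLevelConstant hq hA ζ hζ π hπ θ hθ κ hκ
  obtain ⟨g, hgl, hg⟩ := unram_cup_unram hp2 hq hA (fun s => η s - κ s * d)
    (fun s t => by
      show η (s * t) - κ (s * t) * d = (η s - κ s * d) + (η t - κ t * d)
      rw [hη, hκadd]
      ring)
    (isLevelConstant_map₂ (fun a b => a - b * d) hηl hκl) hd y hy hyl hyu
  refine ⟨g, hgl, fun s t => ?_⟩
  have h := hg s t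
  change (η s - κ s * d) • y t = _ at h
  rw [← h, smul_smul, ← add_smul]
  congr 1
  ring

omit [FiniteDimensional ℚ K] in
/-- **(UNR-5)** The tame coefficient of a Kummer character is the valuation: if `β ^ p = γ ∈ K`
and `v(γ) = v(π) ^ m`, then `κ_γ - m • κ_π` is unramified. -/
theorem kummer_tame_coeff (γ : K) (β : Qb) (hβ : β ^ p = (γ : Qb))
    (κγ : ↥(Dloc K A) → ZMod p)
    (hκγ : ∀ σ : ↥(Dloc K A), (σ : GQ) β = (ζ : Qb) ^ (κγ σ).val * β)
    (m : ℤ) (hm : A.valuation (γ : Qb) = A.valuation (π : Qb) ^ m) :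
    IsUnram K A (fun s => κγ s - κ s * (m : ZMod p)) := by
  have hp : p.Prime := Fact.out
  have : NeZero p := ⟨hp.ne_zero⟩
  have hπ0 := uniformizer_ne_zero hq hA hπ
  have hπ0' : (π : Qb) ≠ 0 := fun h => hπ0 (Subtype.ext h)
  have hθ0 := root_uniformizer_ne_zero hq hA π hπ θ hθ
  have hvπ : A.valuation (π : Qb) ≠ 0 := by
    rw [Ne, map_eq_zero]
    exact hπ0'
  have hγ0 : (γ : Qb) ≠ 0 := by
    intro h
    rw [h, map_zero] at hm
    exact zpow_ne_zero m hvπ hm.symm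
  have hβ0 : β ≠ 0 := by
    intro h
    rw [h, zero_pow hp.ne_zero] at hβ
    exact hγ0 hβ.symm
  have hz : IsPrimitiveRoot (ζ : Qb) p := hζ.map_of_injective (f := K.val) K.val.injective
  have hz0 : (ζ : Qb) ≠ 0 := hz.ne_zero hp.ne_zero
  intro s hs
  show κγ s - κ s * (m : ZMod p) = 0
  have hcoe : ((γ * (π ^ m)⁻¹ : K) : Qb) = (γ : Qb) * ((π : Qb) ^ m)⁻¹ := by
    push_cast
    rfl
  have hθ' : (β * (θ ^ m)⁻¹) ^ p = ((γ * (π ^ m)⁻¹ : K) : Qb) := by
    rw [hcoe, mul_pow, hβ, inv_pow, ← zpow_natCast (θ ^ m) p, ← zpow_mul, mul_comm m,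
      zpow_mul, zpow_natCast, hθ]
  have hx : A.valuation (((γ * (π ^ m)⁻¹ : K) : Qb) * ((1 : K) : Qb) ^ p) = 1 := by
    rw [hcoe, show ((1 : K) : Qb) = 1 from rfl, one_pow, mul_one, map_mul, map_inv₀, map_zpow₀,
      hm]
    exact mul_inv_cancel₀ (zpow_ne_zero m hvπ)
  have hfix := Kummer.inertia_fixes_of_valuation_eq_one K (β * (θ ^ m)⁻¹) (γ * (π ^ m)⁻¹) hθ' A q
    ((Nat.coprime_primes hq hp).mpr (Ne.symm hpq)) hA 1 hx (s : GQ) hs s.2.2
  rw [map_mul, map_inv₀, map_zpow₀, hκγ s, hκ s, mul_zpow] at hfix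
  have h1 : (ζ : Qb) ^ (((κγ s).val : ℤ) - ((κ s).val : ℤ) * m) = 1 := by
    rw [zpow_sub₀ hz0, zpow_mul, zpow_natCast, zpow_natCast]
    have hθm : θ ^ m ≠ 0 := zpow_ne_zero m hθ0
    have hζbm : ((ζ : Qb) ^ (κ s).val) ^ m ≠ 0 := zpow_ne_zero m (pow_ne_zero _ hz0)
    rw [div_eq_one_iff_eq hζbm]
    have h5 : (ζ : Qb) ^ (κγ s).val * β * (((ζ : Qb) ^ (κ s).val) ^ m * θ ^ m)⁻¹
        * (((ζ : Qb) ^ (κ s).val) ^ m * θ ^ m) = β * (θ ^ m)⁻¹
        * (((ζ : Qb) ^ (κ s).val) ^ m * θ ^ m) := by rw [hfix]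
    rw [inv_mul_cancel_right₀ (mul_ne_zero hζbm hθm)] at h5
    have h6 : β * (θ ^ m)⁻¹ * (((ζ : Qb) ^ (κ s).val) ^ m * θ ^ m)
        = ((ζ : Qb) ^ (κ s).val) ^ m * β := by
      field_simp
    rw [h6] at h5
    exact mul_right_cancel₀ hβ0 h5
  have h2 := (hz.zpow_eq_one_iff_dvd _).mp h1
  have h3 : ((((κγ s).val : ℤ) - ((κ s).val : ℤ) * m : ℤ) : ZMod p) = 0 :=
    (ZMod.intCast_zmod_eq_zero_iff_dvd _ p).mpr h2
  push_cast at h3
  rw [ZMod.natCast_zmod_val, ZMod.natCast_zmod_val] at h3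
  exact h3

end Kummer

end Fermat.Agent.CFT.LocalBr.Unram
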