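import Mathlib
import Fermat.Agent.CFT.LocalBr.Unram
import Fermat.Agent.S54.Frobenius
import Fermat.Agent.S55.Glue.UnramLevel
import Fermat.Agent.S55.Glue.LevelGalois

/-!
# LOC-UNR, complement: one cyclotomic level kills every unramified character

`K ≤ Qb` finite over `ℚ`, `q` a prime number, `p` a prime.  There is `m ≠ 0` prime to `q`
(`m = q ^ (p ^ g) - 1`, `g = |Gal(K'/ℚ)|`, `K'` the normal closure of `K`) such that for EVERY
valuation subring `A` of `Qb` over `q` and every level-constant character `η` of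
`D' = D_A ⊓ G_K` with values in a `ZMod p`-module which is trivial on inertia, `η` is trivial on
`D' ⊓ Fix ℚ(μ_m)` (`exists_cyclo_level_of_isUnram`).  No hypothesis `p ≠ q`, none on the
ramification of `K`.
-/

set_option autoImplicit false

open groupCohomology
open scoped IntermediateField

namespace Fermat.Agent.CFT.LocalBr.Unram

local notation "Qb" => AlgebraicClosure ℚ
local notation "GQ" => (AlgebraicClosure ℚ ≃ₐ[ℚ] AlgebraicClosure ℚ)

open Fermat.Agent.S55.Glue Fermat.Agent.S55.Glue.UnramLevel Fermat.Agent.Lib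

attribute [local instance] Fermat.Agent.Lib.FrobProfinite.isAlgebraic_Qb
  Fermat.Agent.Lib.FrobProfinite.isAlgClosure_Qb

universe u

/-- The order of `q` modulo `q ^ N - 1` is `N`. -/
theorem modEq_of_pow_modEq_pow_sub_one {q N : ℕ} (hq : 2 ≤ q) (hN : 2 ≤ N) {x y : ℕ}
    (h : q ^ x ≡ q ^ y [MOD q ^ N - 1]) : x ≡ y [MOD N] := by
  have h1 : 1 ≤ q ^ N := Nat.one_le_pow _ _ (by omega)
  have hqN : q ^ N ≡ 1 [MOD q ^ N - 1] := ((Nat.modEq_iff_dvd' h1).mpr dvd_rfl).symm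
  have hred : ∀ z : ℕ, q ^ z ≡ q ^ (z % N) [MOD q ^ N - 1] := by
    intro z
    have e : q ^ z = (q ^ N) ^ (z / N) * q ^ (z % N) := by
      rw [← pow_mul, ← pow_add, Nat.div_add_mod]
    rw [e]
    calc (q ^ N) ^ (z / N) * q ^ (z % N) ≡ 1 ^ (z / N) * q ^ (z % N) [MOD q ^ N - 1] :=
          (hqN.pow _).mul_right _
      _ = q ^ (z % N) := by rw [one_pow, one_mul]
  have h2 : q ^ (x % N) ≡ q ^ (y % N) [MOD q ^ N - 1] := ((hred x).symm.trans h).trans (hred y)
  have hlt : ∀ z : ℕ, q ^ (z % N) < q ^ N - 1 := by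
    intro z
    have hz : z % N ≤ N - 1 := by
      have := Nat.mod_lt z (by omega : N > 0)
      omega
    have h3 : q ^ (z % N) ≤ q ^ (N - 1) := Nat.pow_le_pow_right (by omega) hz
    have h4 : q ^ N = q * q ^ (N - 1) := by
      rw [← pow_succ']
      congr 1
      omega
    have h5 : 2 ≤ q ^ (N - 1) := by
      calc 2 ≤ q := hq
        _ = q ^ 1 := (pow_one q).symm
        _ ≤ q ^ (N - 1) := Nat.pow_le_pow_right (by omega) (by omega)
    have h6 : 2 * q ^ (N - 1) ≤ q ^ N := by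
      rw [h4]
      exact Nat.mul_le_mul_right _ hq
    omega
  have h6 : q ^ (x % N) = q ^ (y % N) := Nat.ModEq.eq_of_lt_of_lt h2 (hlt x) (hlt y)
  exact Nat.pow_right_injective hq h6

/-- Every automorphism to the power `|Gal(L/ℚ)|` fixes the finite normal `L`. -/
theorem pow_card_mem_fixingSubgroup (L : IntermediateField ℚ Qb) [Normal ℚ L] (σ : GQ) :
    σ ^ Nat.card (L ≃ₐ[ℚ] L) ∈ L.fixingSubgroup := by
  rw [IntermediateField.mem_fixingSubgroup_iff]
  intro x hx
  have h : AlgEquiv.restrictNormalHom L (σ ^ Nat.card (L ≃ₐ[ℚ] L)) =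
      AlgEquiv.restrictNormalHom L (1 : GQ) := by
    rw [map_pow, map_one]
    exact pow_card_eq_one'
  exact apply_eq_of_restrictNormalHom_eq L h hx

/-- **(UNR-6)** One cyclotomic level, uniform in the place above `q`, kills every unramified
character of the local groups `D_A ⊓ G_K` with values in a `ZMod p`-module. -/
theorem exists_cyclo_level_of_isUnram (K : IntermediateField ℚ Qb) [FiniteDimensional ℚ K]
    (p : ℕ) [Fact p.Prime] {q : ℕ} (hq : q.Prime) :
    ∃ m : ℕ, m ≠ 0 ∧ m.Coprime q ∧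
      ∀ (A : ValuationSubring Qb), A.LiesOverPrime q →
        ∀ {M : Type u} [AddCommGroup M] [Module (ZMod p) M] (η : ↥(Dloc K A) → M),
          (∀ s t, η (s * t) = η s + η t) → IsLevelConstant₁ (Dloc K A).subtype η →
          IsUnram K A η →
          ∀ s : ↥(Dloc K A), (s : GQ) ∈ (cycloField m).fixingSubgroup → η s = 0 := by
  have hp : p.Prime := Fact.out
  -- the normal closure of `K` and the exponent `g`
  let K' : IntermediateField ℚ Qb := IntermediateField.normalClosure ℚ K Qb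
  have hK'n : Normal ℚ K' := normalClosure.normal ℚ K Qb
  have hK'f : FiniteDimensional ℚ K' := normalClosure.is_finiteDimensional ℚ K Qb
  have hKK' : K ≤ K' := IntermediateField.le_normalClosure K
  obtain ⟨g, hg⟩ : ∃ g : ℕ, g = Nat.card (K' ≃ₐ[ℚ] K') := ⟨_, rfl⟩
  have hg0 : 0 < g := by
    rw [hg]
    exact Nat.card_pos
  have hgK' : ∀ σ : GQ, σ ^ g ∈ K'.fixingSubgroup := by
    intro σ
    rw [hg]
    exact pow_card_mem_fixingSubgroup K' σ
  obtain ⟨N, hN⟩ : ∃ N : ℕ, N = p ^ g := ⟨_, rfl⟩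
  have hgN : g < N := by
    rw [hN]
    exact Nat.lt_pow_self hp.one_lt
  have hN2 : 2 ≤ N := by omega
  have hNcop : ∀ a : ℕ, ¬ p ∣ a → Nat.Coprime N a := by
    intro a hna
    rw [hN]
    exact Nat.Coprime.pow_left g ((Nat.Prime.coprime_iff_not_dvd hp).mpr hna)
  obtain ⟨m, hm⟩ : ∃ m : ℕ, m = q ^ N - 1 := ⟨_, rfl⟩
  have hmcop : m.Coprime q := by
    rw [hm]
    exact coprime_pow_sub_one hq.pos N (by omega)
  have hm0 : m ≠ 0 := by
    have h1 : q ^ 1 < q ^ N := Nat.pow_lt_pow_right hq.one_lt (by omega)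
    have h2 : 2 ≤ q := hq.two_le
    rw [pow_one] at h1
    omega
  have hmod : ∀ x y : ℕ, q ^ x ≡ q ^ y [MOD m] → x ≡ y [MOD N] := by
    intro x y hxy
    rw [hm] at hxy
    exact modEq_of_pow_modEq_pow_sub_one hq.two_le hN2 hxy
  clear_value K'
  clear hm hN hg
  refine ⟨m, hm0, hmcop, ?_⟩
  intro A hA M _ _ η hη hηl hηu s hs
  -- a primitive `m`-th root of unity
  have : NeZero (m : Qb) := ⟨Nat.cast_ne_zero.mpr hm0⟩
  obtain ⟨ζ, hζ⟩ := HasEnoughRootsOfUnity.exists_primitiveRoot Qb m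
  have hζm : ζ ^ m = 1 := hζ.pow_eq_one
  have hpow_inj : ∀ x y : ℕ, ζ ^ (q ^ x) = ζ ^ (q ^ y) → x ≡ y [MOD N] := by
    intro x y hxy
    have hmpos : 0 < m := Nat.pos_of_ne_zero hm0
    rw [pow_eq_pow_mod (q ^ x) hζm, pow_eq_pow_mod (q ^ y) hζm] at hxy
    exact hmod _ _ (hζ.pow_inj (Nat.mod_lt _ hmpos) (Nat.mod_lt _ hmpos) hxy)
  -- Frobenius
  obtain ⟨φ, hφ⟩ := Fermat.Agent.S54.Frobenius.exists_isFrobeniusAt A hq hA
  have hφD : φ ∈ A.decompositionSubgroup ℚ := hφ.mem_decompositionSubgroup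
  -- the level and the generator
  obtain ⟨F₁, hF₁, hconst⟩ := hηl
  have hcf : FiniteDimensional ℚ (cycloField m) := finiteDimensional_cycloField m hm0
  have hcn : Normal ℚ (cycloField m) := normal_cycloField m
  obtain ⟨ρ, hρ, hgen⟩ := exists_generator_mod_inertia (K := K) hq hA (F₁ ⊔ cycloField m)
  -- `ρ` acts on `ζ` by a power of `q`
  obtain ⟨d, ι', hι', hρF⟩ := Fermat.Agent.S55.Glue.UnramIntrinsic.exists_frob_pow_inertia_eq_on
    A hq hA hφ (cycloField m) hρ.1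
  have hζF : ζ ∈ cycloField m := IntermediateField.subset_adjoin ℚ _ hζm
  have hρζ : ∀ μ : Qb, μ ^ m = 1 → ρ μ = μ ^ (q ^ d) := by
    intro μ hμ
    have hμF : μ ∈ cycloField m := IntermediateField.subset_adjoin ℚ _ hμ
    rw [hρF μ hμF, CycloChar.inertia_root A hA ι' hι' hmcop hμ,
      frob_pow_root A hA hφ hmcop d hμ]
  have hρpow : ∀ a : ℕ, (ρ ^ a) ζ = ζ ^ (q ^ (d * a)) := by
    intro a
    induction a with
    | zero => simp
    | succ a ih =>
      have h1 : (ζ ^ (q ^ (d * a))) ^ m = 1 := by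
        rw [← pow_mul, mul_comm, pow_mul, hζm, one_pow]
      rw [pow_succ', AlgEquiv.mul_apply, ih, hρζ _ h1, ← pow_mul, ← pow_add, Nat.mul_succ]
  -- the action of an arbitrary element of `D'` on `ζ`
  have hact : ∀ σ : ↥(Dloc K A), ∃ a : ℕ, (σ : GQ) ζ = ζ ^ (q ^ (d * a)) ∧
      η σ = a • η ⟨ρ, hρ⟩ := by
    intro σ
    obtain ⟨a, ι, hιI, hιK, ht⟩ := hgen σ σ.2
    rw [IntermediateField.fixingSubgroup_sup] at ht
    set ρ' : ↥(Dloc K A) := ⟨ρ, hρ⟩ with hρ'
    set ι₁ : ↥(Dloc K A) := ⟨ι, ValAut.mem_decomposition_of_mem_inertia ℚ A ι hιI, hιK⟩ with hι₁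
    set t : ↥(Dloc K A) := ι₁⁻¹ * ((ρ' ^ a)⁻¹ * σ) with ht'
    have htc : (t : GQ) = ι⁻¹ * ((ρ ^ a)⁻¹ * (σ : GQ)) := by
      rw [ht', Subgroup.coe_mul, Subgroup.coe_inv, Subgroup.coe_mul, Subgroup.coe_inv,
        Subgroup.coe_pow]
    have hσ : σ = ρ' ^ a * (ι₁ * t) := by
      rw [ht']
      group
    refine ⟨a, ?_, ?_⟩
    · have htζ : (t : GQ) ζ = ζ := by
        rw [htc]
        exact (mem_fixingSubgroup_cycloField_iff m _).mp ht.2 ζ hζm
      have hιζ : ι ζ = ζ := CycloChar.inertia_root A hA ι hιI hmcop hζm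
      have hσc : (σ : GQ) = ρ ^ a * (ι * (t : GQ)) := by
        rw [htc]
        group
      rw [hσc, AlgEquiv.mul_apply, AlgEquiv.mul_apply, htζ, hιζ, hρpow]
    · have h1 : η ι₁ = 0 := hηu ι₁ hιI
      have h2 : η t = 0 := by
        have h3 := hconst 1 t (by
          show (t : GQ) ∈ F₁.fixingSubgroup
          rw [htc]
          exact ht.1)
        rw [one_mul, add_map_one hη] at h3
        exact h3
      rw [hσ, hη, hη, h1, h2, add_zero, add_zero, add_map_pow hη]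
  -- the element `φ ^ g` of `D'`
  have hσ₀K : φ ^ g ∈ K.fixingSubgroup :=
    IntermediateField.fixingSubgroup_antitone hKK' (hgK' φ)
  have hσ₀D : φ ^ g ∈ Dloc K A := ⟨Subgroup.pow_mem (A.decompositionSubgroup ℚ) hφD g, hσ₀K⟩
  obtain ⟨a₀, ha₀, -⟩ := hact ⟨φ ^ g, hσ₀D⟩
  rw [Subgroup.coe_mk, frob_pow_root A hA hφ hmcop g hζm] at ha₀
  have h1 : g ≡ d * a₀ [MOD N] := hpow_inj _ _ ha₀
  have hNd : ¬ N ∣ d := by
    intro hdvd
    have h2 : d * a₀ ≡ 0 [MOD N] := (Nat.modEq_zero_iff_dvd).mpr (Dvd.dvd.mul_right hdvd a₀)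
    have h3 : N ∣ g := (Nat.modEq_zero_iff_dvd).mp (h1.trans h2)
    exact absurd (Nat.le_of_dvd hg0 h3) (not_le.mpr hgN)
  -- conclusion
  obtain ⟨a, ha, hηa⟩ := hact s
  have hsζ : (s : GQ) ζ = ζ := (mem_fixingSubgroup_cycloField_iff m _).mp hs ζ hζm
  rw [hsζ] at ha
  have h4 : ζ ^ (q ^ 0) = ζ ^ (q ^ (d * a)) := by
    rw [pow_zero, pow_one]
    exact ha
  have h5 : N ∣ d * a := (Nat.modEq_zero_iff_dvd).mp (hpow_inj _ _ h4).symm
  have hpa : p ∣ a := by
    by_contra hna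
    exact hNd ((hNcop a hna).dvd_of_dvd_mul_right h5)
  obtain ⟨b, rfl⟩ := hpa
  rw [hηa, mul_smul, ← Nat.cast_smul_eq_nsmul (ZMod p) p, ZMod.natCast_self, zero_smul]

/-- **(UNR-6), packaged.** For `K` unramified outside `S` and a prime `l ∉ S` there is a finite
Galois `F₂ ⊇ K`, unramified outside `S' ∌ l`, such that every unramified level-constant character
(values in a `ZMod p`-module) of every local group `D_A ⊓ G_K`, `A` over `l`, is constant modulo
`Fix F₂`. -/
theorem exists_unramified_level_of_isUnram (K : IntermediateField ℚ Qb) (p : ℕ) [Fact p.Prime]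
    (S : Finset Nat.Primes) (hK : K.IsUnramifiedOutside S) (l : Nat.Primes) (hl : l ∉ S) :
    ∃ (S' : Finset Nat.Primes) (F₂ : IntermediateField ℚ Qb), S ⊆ S' ∧ l ∉ S' ∧ K ≤ F₂ ∧
      F₂.IsUnramifiedOutside S' ∧ Normal ℚ F₂ ∧
      ∀ (A : ValuationSubring Qb), A.LiesOverPrime (l : ℕ) →
        ∀ {M : Type u} [AddCommGroup M] [Module (ZMod p) M] (η : ↥(Dloc K A) → M),
          (∀ s t, η (s * t) = η s + η t) → IsLevelConstant₁ (Dloc K A).subtype η →
          IsUnram K A η →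
          ∀ g s : ↥(Dloc K A), (s : GQ) ∈ F₂.fixingSubgroup → η (g * s) = η g := by
  have := hK.1
  obtain ⟨m, hm0, hmcop, h⟩ := exists_cyclo_level_of_isUnram.{u} K p l.2
  refine ⟨S ∪ primesDvd m, IntermediateField.normalClosure ℚ K Qb ⊔ cycloField m,
    Finset.subset_union_left, ?_, le_sup_of_le_left (IntermediateField.le_normalClosure K),
    isUnramifiedOutside_sup_cycloField (Fermat.Agent.S55.Glue.isUnramifiedOutside_normalClosure hK)
      hm0, ?_, ?_⟩
  · rw [Finset.mem_union, not_or]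
    refine ⟨hl, ?_⟩
    rw [mem_primesDvd hm0]
    intro hdvd
    exact l.2.one_lt.ne' (Nat.Coprime.eq_one_of_dvd hmcop.symm hdvd)
  · exact @IntermediateField.normal_sup ℚ Qb _ _ _ _ (cycloField m) (normalClosure.normal ℚ K Qb)
      (normal_cycloField m)
  · intro A hA M _ _ η hη hηl hηu g s hs
    rw [IntermediateField.fixingSubgroup_sup] at hs
    rw [hη, h A hA η hη hηl hηu s hs.2, add_zero]

end Fermat.Agent.CFT.LocalBr.Unram
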