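import Fermat.Agent.CFT.Cyclic.Galois

/-!
# Norm criterion for the Kummer cup product on a fixing subgroup `Fix(E)` (LOC-UNR)

helper177's `Cyclic.kummerCup_coboundary_iff_norm` is stated for the full Galois group
`Gal(Ω/K)`.  Here it is transported to the fixing subgroup `U = E.fixingSubgroup ≤ Gal(Ω/K₀)` of an
intermediate field `E` (finite over `K₀`), i.e. to the local Galois group of a finite extension
`E/ℚ_q` inside `Gal(ℚ̄_q/ℚ_q)`:

`χ : U → ZMod n` additive with kernel `Fix(L)` (`L/E` finite cyclic Galois), `β ^ n = b ∈ E`.  Then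
`χ ∪ δ(b)` is the coboundary of a level-constant cochain `U → μ_n(Ω)` iff `b` is a norm from `L`.
-/

set_option autoImplicit false
set_option linter.unusedSectionVars false

namespace Fermat.Agent.CFT.LocalBr.UnramSymbol

open Fermat.Agent.CFT.Cyclic

variable {K₀ Ω : Type} [Field K₀] [Field Ω] [Algebra K₀ Ω] [IsGalois K₀ Ω]
variable (E : IntermediateField K₀ Ω)

/-- The identification `Fix(E) ≃ Gal(Ω/E)`. -/
noncomputable abbrev fixEquiv : ↥E.fixingSubgroup ≃* (Ω ≃ₐ[E] Ω) :=
  IntermediateField.fixingSubgroupEquiv E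

theorem fixEquiv_apply (u : ↥E.fixingSubgroup) (x : Ω) :
    fixEquiv E u x = (u : Ω ≃ₐ[K₀] Ω) x := rfl

theorem fixEquiv_symm_apply (g : Ω ≃ₐ[E] Ω) (x : Ω) :
    (((fixEquiv E).symm g : ↥E.fixingSubgroup) : Ω ≃ₐ[K₀] Ω) x = g x := rfl

theorem fixEquiv_smul_units (u : ↥E.fixingSubgroup) (x : Ωˣ) :
    fixEquiv E u • x = u • x := by
  ext
  rfl

theorem fixEquiv_symm_smul_units (g : Ω ≃ₐ[E] Ω) (x : Ωˣ) :
    (fixEquiv E).symm g • x = g • x := by
  ext
  rfl

theorem dOne_comp_fixEquiv_symm (h : ↥E.fixingSubgroup → Ωˣ) (σ τ : Ω ≃ₐ[E] Ω) :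
    dOne (h ∘ (fixEquiv E).symm) (σ, τ) =
      dOne h ((fixEquiv E).symm σ, (fixEquiv E).symm τ) := by
  simp only [dOne_apply, Function.comp_apply, map_mul, fixEquiv_symm_smul_units]

theorem kummerCup_comp_fixEquiv_symm {n : ℕ} [NeZero n] (χ : ↥E.fixingSubgroup → ZMod n)
    (β : Ωˣ) (σ τ : Ω ≃ₐ[E] Ω) :
    kummerCup (χ ∘ (fixEquiv E).symm) β (σ, τ) =
      kummerCup χ β ((fixEquiv E).symm σ, (fixEquiv E).symm τ) := by
  simp only [kummerCup_apply, Function.comp_apply, fixEquiv_symm_smul_units]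

/-- An intermediate field `F ≥ E` which is finite over `K₀` is finite over `E`. -/
theorem finiteDimensional_extendScalars {E F : IntermediateField K₀ Ω} (h : E ≤ F)
    [FiniteDimensional K₀ F] : FiniteDimensional E (IntermediateField.extendScalars h) := by
  let f : F →ₗ[K₀] IntermediateField.extendScalars h :=
    { toFun := fun x => ⟨x.1, x.2⟩
      map_add' := fun _ _ => rfl
      map_smul' := fun _ _ => rfl }
  have hf : Function.Surjective f := fun x => ⟨⟨x.1, x.2⟩, rfl⟩
  have : Module.Finite K₀ (IntermediateField.extendScalars h) := Module.Finite.of_surjective f hf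
  exact FiniteDimensional.right K₀ E _

/-- A field finite over `E` (finite over `K₀`) is finite over `K₀`. -/
theorem finiteDimensional_restrictScalars_of_finite (E : IntermediateField K₀ Ω)
    [FiniteDimensional K₀ E] (F' : IntermediateField E Ω) [FiniteDimensional E F'] :
    FiniteDimensional K₀ (F'.restrictScalars K₀) := by
  have : FiniteDimensional K₀ F' := FiniteDimensional.trans K₀ E F'
  let f : F' →ₗ[K₀] F'.restrictScalars K₀ :=
    { toFun := fun x => ⟨x.1, x.2⟩
      map_add' := fun _ _ => rfl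
      map_smul' := fun _ _ => rfl }
  exact Module.Finite.of_surjective f (fun x => ⟨⟨x.1, x.2⟩, rfl⟩)

/-- **Norm criterion for the Kummer cup product on `U = Fix(E)`.**  Let `Ω/K₀` be Galois with `Ω`
algebraically closed, `E/K₀` a finite subextension, `U = E.fixingSubgroup`, `L/E` a finite cyclic
Galois extension inside `Ω` cut out by the additive character `χ : U → ZMod n`
(`ker χ = Fix(L)`, `χ s = 1`), `b ∈ E` and `β ^ n = b`.  Then the cup product `χ ∪ δ(b)` is the
coboundary of a level-constant cochain `U → μ_n(Ω)` iff `b` is a norm from `L`. -/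
theorem kummerCup_coboundary_iff_norm_fixing [IsAlgClosed Ω] [FiniteDimensional K₀ E]
    (L : IntermediateField E Ω) [FiniteDimensional E L] [IsGalois E L]
    {n : ℕ} [NeZero n] {χ : ↥E.fixingSubgroup → ZMod n}
    (hχ : ∀ σ τ, χ (σ * τ) = χ σ + χ τ)
    (hker : ∀ g : ↥E.fixingSubgroup, χ g = 0 ↔ ∀ x ∈ L, (g : Ω ≃ₐ[K₀] Ω) x = x)
    {s : ↥E.fixingSubgroup} (hs : χ s = 1) (b : E) (β : Ωˣ) (hβ : (β : Ω) ^ n = (b : Ω)) :
    (∃ h : ↥E.fixingSubgroup → Ωˣ, (∀ σ, h σ ^ n = 1) ∧
      (∃ F : IntermediateField K₀ Ω, FiniteDimensional K₀ F ∧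
        ∀ g t : ↥E.fixingSubgroup, (t : Ω ≃ₐ[K₀] Ω) ∈ F.fixingSubgroup → h (g * t) = h g) ∧
      ∀ σ τ, dOne h (σ, τ) = kummerCup χ β (σ, τ)) ↔
    b ∈ Set.range (Algebra.norm E : L → E) := by
  have hχ' : ∀ σ τ : Ω ≃ₐ[E] Ω, (χ ∘ (fixEquiv E).symm) (σ * τ) =
      (χ ∘ (fixEquiv E).symm) σ + (χ ∘ (fixEquiv E).symm) τ := by
    intro σ τ
    simp only [Function.comp_apply, map_mul, hχ]
  have hker' : ∀ g : Ω ≃ₐ[E] Ω, (χ ∘ (fixEquiv E).symm) g = 0 ↔ g ∈ L.fixingSubgroup := by
    intro g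
    rw [Function.comp_apply, hker, IntermediateField.mem_fixingSubgroup_iff]
    rfl
  have hs' : (χ ∘ (fixEquiv E).symm) (fixEquiv E s) = 1 := by
    simp only [Function.comp_apply, MulEquiv.symm_apply_apply, hs]
  have hβ' : (β : Ω) ^ n = algebraMap E Ω b := hβ
  rw [← kummerCup_coboundary_iff_norm L hχ' hker' hs' b β hβ']
  constructor
  · rintro ⟨h, hn, ⟨F, hFfin, hF⟩, hh⟩
    refine ⟨h ∘ (fixEquiv E).symm, fun σ => hn _, ?_, ?_⟩
    · have := hFfin
      have : FiniteDimensional K₀ ↥(E ⊔ F) := IntermediateField.finiteDimensional_sup E F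
      refine ⟨IntermediateField.extendScalars (le_sup_left : E ≤ E ⊔ F),
        finiteDimensional_extendScalars _, ?_⟩
      intro g t ht
      simp only [Function.comp_apply, map_mul]
      apply hF
      rw [IntermediateField.mem_fixingSubgroup_iff]
      intro x hx
      rw [IntermediateField.mem_fixingSubgroup_iff] at ht
      exact ht x ((le_sup_right : F ≤ E ⊔ F) hx)
    · intro σ τ
      rw [dOne_comp_fixEquiv_symm, kummerCup_comp_fixEquiv_symm, hh]
  · rintro ⟨h', hn, ⟨F', hFfin, hF'⟩, hh⟩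
    refine ⟨h' ∘ fixEquiv E, fun σ => hn _, ?_, ?_⟩
    · have := hFfin
      refine ⟨F'.restrictScalars K₀, finiteDimensional_restrictScalars_of_finite E F', ?_⟩
      intro g t ht
      simp only [Function.comp_apply, map_mul]
      apply hF'
      rw [IntermediateField.mem_fixingSubgroup_iff]
      intro x hx
      rw [IntermediateField.mem_fixingSubgroup_iff] at ht
      exact ht x hx
    · intro σ τ
      have h1 := hh (fixEquiv E σ) (fixEquiv E τ)
      have h2 := dOne_comp_fixEquiv_symm E (h' ∘ fixEquiv E) (fixEquiv E σ) (fixEquiv E τ)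
      have h3 := kummerCup_comp_fixEquiv_symm E χ β (fixEquiv E σ) (fixEquiv E τ)
      simp only [MulEquiv.symm_apply_apply] at h2 h3
      rw [← h2, ← h3, ← h1]
      congr 1

end Fermat.Agent.CFT.LocalBr.UnramSymbol
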