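import Mathlib
import Fermat.Agent.CFT.Local.NormedLocal

/-!
# A uniformiser is not a norm from an unramified extension (LOC-UNR, arithmetic core)

`K` a local field in the sense of `NormedLocal` (proper ultrametric nontrivially normed field),
`L / K` a finite Galois normed extension.

* `norm_algebraNorm` : `‖N_{L/K} y‖ = ‖y‖ ^ [L : K]`.
* `norm_algebraNorm_eq_zpow` : if `L / K` is unramified (`e = 1`) then
  `‖N_{L/K} y‖ = ‖ϖ‖ ^ (k * [L : K])` for some `k : ℤ` (`ϖ` any uniformiser of `K`, `y ≠ 0`).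
* `algebraNorm_ne_irreducible` : if moreover `1 < [L : K]`, a uniformiser of `K` is not a norm
  from `L`; more generally `algebraNorm_ne_of_norm_eq_zpow` : an element of `K` whose norm is
  `‖ϖ‖ ^ m` with `[L : K] ∤ m` is not a norm from `L`.
-/

set_option autoImplicit false
set_option linter.unusedSectionVars false

namespace Fermat.Agent.CFT.LocalBr.UnramSymbol

open scoped NNReal NormedField Valued
open IsLocalRing Fermat.Agent.CFT.Local.NormedLocal

variable {K : Type*} [NontriviallyNormedField K] [IsUltrametricDist K] [ProperSpace K]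
variable {L : Type*} [NontriviallyNormedField L] [IsUltrametricDist L] [NormedAlgebra K L]
  [FiniteDimensional K L] [IsGalois K L]

/-- `‖N_{L/K} y‖ = ‖y‖ ^ [L : K]` for a finite Galois extension of local fields. -/
theorem norm_algebraNorm (y : L) : ‖Algebra.norm K y‖ = ‖y‖ ^ Module.finrank K L := by
  have h := Algebra.norm_eq_prod_automorphisms K y
  have h1 : ‖algebraMap K L (Algebra.norm K y)‖ = ‖Algebra.norm K y‖ := norm_algebraMap' L _
  rw [← h1, h, norm_prod]
  have h2 : ∀ σ ∈ (Finset.univ : Finset (L ≃ₐ[K] L)), ‖σ y‖ = ‖y‖ :=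
    fun σ _ => norm_algEquiv_eq σ y
  rw [Finset.prod_congr rfl h2, Finset.prod_const, Finset.card_univ,
    ← Nat.card_eq_fintype_card, IsGalois.card_aut_eq_finrank]

/-- In an unramified extension the norm of a nonzero element has valuation divisible by the
degree. -/
theorem norm_algebraNorm_eq_zpow (he : (𝓂[L]).ramificationIdx 𝒪[K] = 1)
    {ϖ : 𝒪[K]} (hϖ : Irreducible ϖ) {y : L} (hy : y ≠ 0) :
    ∃ k : ℤ, ‖Algebra.norm K y‖ = ‖(ϖ : K)‖ ^ (k * (Module.finrank K L : ℤ)) := by
  have : ProperSpace L := FiniteDimensional.proper K L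
  obtain ⟨ϖL, hϖL⟩ := IsDiscreteValuationRing.exists_irreducible 𝒪[L]
  have h1 : ‖(ϖ : K)‖ = ‖(ϖL : L)‖ := by
    rw [norm_irreducible_eq_pow hϖ hϖL, he, pow_one]
  obtain ⟨k, hk⟩ := exists_norm_eq_zpow hϖL hy
  refine ⟨k, ?_⟩
  rw [norm_algebraNorm, hk, ← h1, ← zpow_natCast, ← zpow_mul]

/-- In an unramified extension of degree `n`, an element of `K` of valuation not divisible by `n`
is not a norm. -/
theorem algebraNorm_ne_of_norm_eq_zpow (he : (𝓂[L]).ramificationIdx 𝒪[K] = 1)
    {ϖ : 𝒪[K]} (hϖ : Irreducible ϖ) {b : K} {m : ℤ} (hb : ‖b‖ = ‖(ϖ : K)‖ ^ m)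
    (hm : ¬ (Module.finrank K L : ℤ) ∣ m) (y : L) : Algebra.norm K y ≠ b := by
  intro h
  have hpos : 0 < ‖(ϖ : K)‖ := Valued.integer.norm_irreducible_pos hϖ
  have hlt : ‖(ϖ : K)‖ < 1 := Valued.integer.norm_irreducible_lt_one hϖ
  have hb0 : b ≠ 0 := by
    intro hb0
    rw [hb0, norm_zero] at hb
    exact (zpow_pos hpos m).ne hb
  have hy : y ≠ 0 := by
    rintro rfl
    rw [Algebra.norm_zero] at h
    exact hb0 h.symm
  obtain ⟨k, hk⟩ := norm_algebraNorm_eq_zpow he hϖ hy
  rw [h, hb] at hk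
  have := zpow_right_injective₀ hpos hlt.ne hk
  exact hm ⟨k, by rw [this, mul_comm]⟩

/-- A uniformiser of `K` is not a norm from an unramified extension of degree `> 1`. -/
theorem algebraNorm_ne_irreducible (he : (𝓂[L]).ramificationIdx 𝒪[K] = 1)
    (hn : 1 < Module.finrank K L) {ϖ : 𝒪[K]} (hϖ : Irreducible ϖ) (y : L) :
    Algebra.norm K y ≠ (ϖ : K) := by
  refine algebraNorm_ne_of_norm_eq_zpow he hϖ (m := 1) (by rw [zpow_one]) ?_ y
  intro hdvd
  have h1 : (Module.finrank K L : ℤ) ≤ 1 := Int.le_of_dvd one_pos hdvd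
  omega

end Fermat.Agent.CFT.LocalBr.UnramSymbol
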