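import Mathlib
import Fermat.Agent.CFT.Local.NormedLocal
import Fermat.Agent.CFT.Local.Unramified
import Fermat.Agent.CFT.LocalBr.UnramSymbolNorm

/-!
# Norms from a tamely, totally ramified Kummer extension (LOC-UNR, arithmetic core)

`K` a local field in the sense of `NormedLocal`, `L / K` a finite Galois normed extension of prime
degree `p` generated by a `p`-th root of a uniformiser (`β ^ p = ϖ`).

* `exists_pow_eq_of_norm_sub_lt_one` (Hensel): if `‖(p : K)‖ = 1`, a unit `u` which is a `p`-th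
  power modulo the maximal ideal is a `p`-th power.
* `ramificationIdx_eq_of_pow_eq` : `e (L / K) = p` and `f (L / K) = 1`.
* `exists_norm_sub_pow_lt_one` : if `f (L / K) = 1`, the norm of a unit `c` of `L` is congruent to
  a `p`-th power `a ^ p`, `a` a unit of `K`.
* `exists_pow_eq_of_eq_algebraNorm` : hence (for `‖(p : K)‖ = 1`) a unit of `K` which is a norm
  from `L` is a `p`-th power in `K` (the tame symbol `(ϖ, u)` is nontrivial for non-`p`-th powers
  `u`).
-/

set_option autoImplicit false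
set_option linter.unusedSectionVars false

namespace Fermat.Agent.CFT.LocalBr.UnramSymbol

open scoped NNReal NormedField Valued
open IsLocalRing Polynomial Fermat.Agent.CFT.Local.NormedLocal Fermat.Agent.CFT.Local.Unramified

section Hensel

variable {K : Type*} [NontriviallyNormedField K] [IsUltrametricDist K] [ProperSpace K]

/-- **Hensel.** If `p` is a unit of `𝒪[K]`, a unit `u` with `u ≡ a ^ p` modulo the maximal ideal
is a `p`-th power in `K`. -/
theorem exists_pow_eq_of_norm_sub_lt_one {p : ℕ} (hp0 : p ≠ 0) (hp : ‖(p : K)‖ = 1) {u a : K}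
    (hu : ‖u‖ = 1) (ha : ‖a‖ = 1) (h : ‖u - a ^ p‖ < 1) : ∃ t : K, t ^ p = u := by
  let u' : 𝒪[K] := ⟨u, Valued.integer.mem_iff.mpr hu.le⟩
  let a' : 𝒪[K] := ⟨a, Valued.integer.mem_iff.mpr ha.le⟩
  let f : 𝒪[K][X] := X ^ p - C u'
  have hf : f.Monic := monic_X_pow_sub_C u' hp0
  have h1 : f.eval a' ∈ maximalIdeal 𝒪[K] := by
    have he : f.eval a' = a' ^ p - u' := by simp [f]
    rw [he, IsLocalRing.mem_maximalIdeal, mem_nonunits_iff,
      Valued.integer.isUnit_iff_norm_eq_one]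
    have h2 : ‖(a' ^ p - u' : 𝒪[K])‖ = ‖a ^ p - u‖ := rfl
    rw [h2, norm_sub_rev]
    exact h.ne
  have h2 : IsUnit (f.derivative.eval a') := by
    have he : f.derivative.eval a' = (p : 𝒪[K]) * a' ^ (p - 1) := by
      simp [f, derivative_X_pow]
    rw [he, Valued.integer.isUnit_iff_norm_eq_one]
    have h3 : ‖((p : 𝒪[K]) * a' ^ (p - 1) : 𝒪[K])‖ = ‖(p : K) * a ^ (p - 1)‖ := rfl
    rw [h3, norm_mul, norm_pow, hp, ha, one_pow, one_mul]
  obtain ⟨t, ht, -⟩ := HenselianLocalRing.is_henselian f hf a' h1 h2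
  refine ⟨(t : K), ?_⟩
  have h3 : t ^ p - u' = 0 := by simpa [f, IsRoot] using ht
  exact congrArg Subtype.val (sub_eq_zero.mp h3)

end Hensel

section Ultrametric

variable {L : Type*} [NormedField L] [IsUltrametricDist L]

/-- In an ultrametric normed field, two products of integral elements which are termwise
congruent modulo the maximal ideal are congruent. -/
theorem norm_prod_sub_prod_lt_one {ι : Type*} (s : Finset ι) (x y : ι → L)
    (hx : ∀ i ∈ s, ‖x i‖ ≤ 1) (hy : ∀ i ∈ s, ‖y i‖ ≤ 1) (hxy : ∀ i ∈ s, ‖x i - y i‖ < 1)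
    (hs : s.Nonempty) : ‖∏ i ∈ s, x i - ∏ i ∈ s, y i‖ < 1 := by
  classical
  induction hs using Finset.Nonempty.cons_induction with
  | singleton a => simpa using hxy a (Finset.mem_singleton_self a)
  | cons a s ha hs ih =>
    rw [Finset.prod_cons, Finset.prod_cons]
    have hx' : ∀ i ∈ s, ‖x i‖ ≤ 1 := fun i hi => hx i (Finset.mem_cons_of_mem hi)
    have hy' : ∀ i ∈ s, ‖y i‖ ≤ 1 := fun i hi => hy i (Finset.mem_cons_of_mem hi)
    have hxy' : ∀ i ∈ s, ‖x i - y i‖ < 1 := fun i hi => hxy i (Finset.mem_cons_of_mem hi)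
    have ih' := ih hx' hy' hxy'
    have hxa := hx a (Finset.mem_cons_self a s)
    have hxya := hxy a (Finset.mem_cons_self a s)
    have hprod : ‖∏ i ∈ s, y i‖ ≤ 1 := by
      rw [norm_prod]
      exact Finset.prod_le_one (fun i _ => norm_nonneg _) hy'
    have hdecomp : x a * ∏ i ∈ s, x i - y a * ∏ i ∈ s, y i =
        x a * (∏ i ∈ s, x i - ∏ i ∈ s, y i) + (x a - y a) * ∏ i ∈ s, y i := by ring
    rw [hdecomp]
    refine lt_of_le_of_lt (IsUltrametricDist.norm_add_le_max _ _) (max_lt ?_ ?_)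
    · rw [norm_mul]
      calc ‖x a‖ * ‖∏ i ∈ s, x i - ∏ i ∈ s, y i‖ ≤ 1 * ‖∏ i ∈ s, x i - ∏ i ∈ s, y i‖ :=
            mul_le_mul_of_nonneg_right hxa (norm_nonneg _)
        _ < 1 := by rw [one_mul]; exact ih'
    · rw [norm_mul]
      calc ‖x a - y a‖ * ‖∏ i ∈ s, y i‖ ≤ ‖x a - y a‖ * 1 :=
            mul_le_mul_of_nonneg_left hprod (norm_nonneg _)
        _ < 1 := by rw [mul_one]; exact hxya

end Ultrametric

section Tame

variable {K : Type*} [NontriviallyNormedField K] [IsUltrametricDist K] [ProperSpace K]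
variable {L : Type*} [NontriviallyNormedField L] [IsUltrametricDist L] [NormedAlgebra K L]
  [FiniteDimensional K L] [IsGalois K L]

/-- An extension of prime degree `p` containing a `p`-th root of a uniformiser is totally
ramified: `e = p`, `f = 1`. -/
theorem ramificationIdx_eq_of_pow_eq {p : ℕ} (hp : p.Prime) (hdeg : Module.finrank K L = p)
    {ϖ : 𝒪[K]} (hϖ : Irreducible ϖ) {β : L} (hβ : β ^ p = algebraMap K L (ϖ : K)) :
    (𝓂[L]).ramificationIdx 𝒪[K] = p ∧ (𝓂[L]).inertiaDeg 𝒪[K] = 1 := by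
  have : ProperSpace L := FiniteDimensional.proper K L
  obtain ⟨ϖL, hϖL⟩ := IsDiscreteValuationRing.exists_irreducible 𝒪[L]
  have h1 : ‖(ϖ : K)‖ = ‖(ϖL : L)‖ ^ (𝓂[L]).ramificationIdx 𝒪[K] :=
    norm_irreducible_eq_pow hϖ hϖL
  have hϖ0 : (ϖ : K) ≠ 0 := fun h => hϖ.ne_zero (Subtype.ext h)
  have hβ0 : β ≠ 0 := by
    rintro rfl
    rw [zero_pow hp.ne_zero] at hβ
    exact hϖ0 ((map_eq_zero (algebraMap K L)).1 hβ.symm)
  obtain ⟨k, hk⟩ := exists_norm_eq_zpow hϖL hβ0
  have h2 : ‖(ϖ : K)‖ = ‖β‖ ^ p := by rw [← norm_pow, hβ, norm_algebraMap']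
  have hpos : 0 < ‖(ϖL : L)‖ := Valued.integer.norm_irreducible_pos hϖL
  have hlt : ‖(ϖL : L)‖ < 1 := Valued.integer.norm_irreducible_lt_one hϖL
  have h3 : ‖(ϖL : L)‖ ^ ((𝓂[L]).ramificationIdx 𝒪[K] : ℤ) = ‖(ϖL : L)‖ ^ (k * (p : ℤ)) := by
    rw [zpow_natCast, ← h1, h2, hk, zpow_mul, zpow_natCast]
  have h4 : ((𝓂[L]).ramificationIdx 𝒪[K] : ℤ) = k * (p : ℤ) :=
    zpow_right_injective₀ hpos hlt.ne h3
  have hef := ramificationIdx_mul_inertiaDeg K L
  rw [hdeg] at hef
  have he0 : (𝓂[L]).ramificationIdx 𝒪[K] ≠ 0 := by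
    intro h0
    rw [h0, zero_mul] at hef
    exact hp.ne_zero hef.symm
  have hdvd : p ∣ (𝓂[L]).ramificationIdx 𝒪[K] := by
    have : (p : ℤ) ∣ ((𝓂[L]).ramificationIdx 𝒪[K] : ℤ) := ⟨k, by rw [h4, mul_comm]⟩
    exact Int.natCast_dvd_natCast.1 this
  have hle : (𝓂[L]).ramificationIdx 𝒪[K] ≤ p :=
    Nat.le_of_dvd hp.pos ⟨_, hef.symm⟩
  have hep : (𝓂[L]).ramificationIdx 𝒪[K] = p :=
    le_antisymm hle (Nat.le_of_dvd (Nat.pos_of_ne_zero he0) hdvd)
  refine ⟨hep, ?_⟩
  rw [hep] at hef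
  exact Nat.eq_of_mul_eq_mul_left hp.pos (by rw [hef, mul_one])

/-- If the residue field does not grow, every unit of `L` is congruent to a unit of `K`. -/
theorem exists_norm_sub_lt_one (hf : (𝓂[L]).inertiaDeg 𝒪[K] = 1) {c : L} (hc : ‖c‖ = 1) :
    ∃ a : K, ‖a‖ = 1 ∧ ‖c - algebraMap K L a‖ < 1 := by
  have : ProperSpace L := FiniteDimensional.proper K L
  have hcard : Nat.card 𝓀[L] = Nat.card 𝓀[K] := by
    rw [card_residueField_eq_pow K L, hf, pow_one]
  have hbij : Function.Bijective (algebraMap 𝓀[K] 𝓀[L]) :=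
    (Nat.bijective_iff_injective_and_card _).2 ⟨(algebraMap 𝓀[K] 𝓀[L]).injective, hcard.symm⟩
  let c' : 𝒪[L] := ⟨c, Valued.integer.mem_iff.mpr hc.le⟩
  obtain ⟨abar, habar⟩ := hbij.2 (IsLocalRing.residue 𝒪[L] c')
  obtain ⟨a', rfl⟩ := IsLocalRing.residue_surjective abar
  rw [IsLocalRing.ResidueField.algebraMap_residue] at habar
  have hlt : ‖(algebraMap 𝒪[K] 𝒪[L] a' : L) - c‖ < 1 :=
    (residue_eq_iff_norm_sub_lt_one _ _).1 habar
  have hcoe : (algebraMap 𝒪[K] 𝒪[L] a' : L) = algebraMap K L (a' : K) := rfl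
  rw [hcoe] at hlt
  refine ⟨(a' : K), ?_, by rw [norm_sub_rev]; exact hlt⟩
  have h1 : ‖algebraMap K L (a' : K)‖ = ‖c‖ := by
    rw [hc]
    have hle : ‖algebraMap K L (a' : K)‖ ≤ 1 := by
      rw [norm_algebraMap']
      exact Valued.integer.norm_le_one a'
    refine le_antisymm hle ?_
    by_contra hcon
    rw [not_le] at hcon
    have h2 : c = algebraMap K L (a' : K) + (c - algebraMap K L (a' : K)) := by ring
    have h3 : ‖c‖ ≤ max ‖algebraMap K L (a' : K)‖ ‖c - algebraMap K L (a' : K)‖ := by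
      conv_lhs => rw [h2]
      exact IsUltrametricDist.norm_add_le_max _ _
    rw [hc, norm_sub_rev c] at h3
    exact absurd h3 (not_le.2 (max_lt hcon hlt))
  rw [← norm_algebraMap' L (a' : K), h1, hc]

/-- If the residue field does not grow (`f = 1`), the norm of a unit of `L` is congruent to the
`[L : K]`-th power of a unit of `K`. -/
theorem exists_norm_sub_pow_lt_one (hf : (𝓂[L]).inertiaDeg 𝒪[K] = 1) {c : L} (hc : ‖c‖ = 1) :
    ∃ a : K, ‖a‖ = 1 ∧ ‖Algebra.norm K c - a ^ Module.finrank K L‖ < 1 := by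
  obtain ⟨a, ha, hca⟩ := exists_norm_sub_lt_one hf hc
  refine ⟨a, ha, ?_⟩
  have h1 : ‖algebraMap K L (Algebra.norm K c - a ^ Module.finrank K L)‖ =
      ‖Algebra.norm K c - a ^ Module.finrank K L‖ := norm_algebraMap' L _
  rw [← h1, map_sub, map_pow, Algebra.norm_eq_prod_automorphisms K c]
  have hconst : algebraMap K L a ^ Module.finrank K L =
      ∏ _σ : L ≃ₐ[K] L, algebraMap K L a := by
    rw [Finset.prod_const, Finset.card_univ, ← Nat.card_eq_fintype_card,
      IsGalois.card_aut_eq_finrank]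
  rw [hconst]
  refine norm_prod_sub_prod_lt_one _ _ _ (fun σ _ => ?_) (fun σ _ => ?_) (fun σ _ => ?_)
    Finset.univ_nonempty
  · rw [norm_algEquiv_eq σ c, hc]
  · rw [norm_algebraMap', ha]
  · have h2 : σ c - algebraMap K L a = σ (c - algebraMap K L a) := by
      rw [map_sub, AlgEquiv.commutes]
    rw [h2, norm_algEquiv_eq σ]
    exact hca

/-- **Tame symbol, arithmetic core.** Let `L / K` be Galois of prime degree `p` generated by a
`p`-th root of a uniformiser of `K`, with `p` prime to the residue characteristic.  A unit of `K`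
which is a norm from `L` is a `p`-th power in `K`. -/
theorem exists_pow_eq_of_eq_algebraNorm {p : ℕ} (hp : p.Prime) (hpK : ‖(p : K)‖ = 1)
    (hdeg : Module.finrank K L = p) {ϖ : 𝒪[K]} (hϖ : Irreducible ϖ) {β : L}
    (hβ : β ^ p = algebraMap K L (ϖ : K)) {u : K} (hu : ‖u‖ = 1) {c : L}
    (hc : Algebra.norm K c = u) : ∃ t : K, t ^ p = u := by
  obtain ⟨-, hf⟩ := ramificationIdx_eq_of_pow_eq hp hdeg hϖ hβ
  have hc1 : ‖c‖ = 1 := by
    have h1 : ‖c‖ ^ p = 1 := by rw [← hdeg, ← norm_algebraNorm (K := K) c, hc, hu]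
    exact (pow_eq_one_iff_of_nonneg (norm_nonneg c) hp.ne_zero).1 h1
  obtain ⟨a, ha, hca⟩ := exists_norm_sub_pow_lt_one (K := K) hf hc1
  rw [hc, hdeg] at hca
  exact exists_pow_eq_of_norm_sub_lt_one hp.ne_zero hpK hu ha hca

end Tame

end Fermat.Agent.CFT.LocalBr.UnramSymbol
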