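import Mathlib
import Fermat.Agent.CFT.LocalBr.Unram

/-!
# LOC-UNR, complements: uniformisers of `K` at `A` and the dictionary with `v.valuation`

`IsUniformizerAt K A π` (see `Unram.lean`) is intrinsic to the valuation subring `A` of `Qb`.
This file provides

* `exists_isUniformizerAt` : uniformisers exist;
* `IsUniformizerAt.exists_valuation_eq_zpow` : every `x ∈ Kˣ` has `v(x) = v(π) ^ m`;
* `isUniformizerAt_iff` : `π` is a uniformiser iff `v.valuation K π = exp (-1)` for the prime `v`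
  of `𝓞 K` under `A`;
* `valuation_eq_zpow_iff` : `A.valuation γ = A.valuation π ^ m ↔ v.valuation K γ = exp (-m)`
  (the integer `m` of (UNR-5) `kummer_tame_coeff` is `ord_v γ`).
-/

set_option autoImplicit false

open scoped NumberField IntermediateField
open IsDedekindDomain

namespace Fermat.Agent.CFT.LocalBr.Unram

local notation "Qb" => AlgebraicClosure ℚ
local notation "GQ" => (AlgebraicClosure ℚ ≃ₐ[ℚ] AlgebraicClosure ℚ)

open Fermat.Agent.S14.Wiring Fermat.Agent.Lib

variable {K : IntermediateField ℚ Qb} {A : ValuationSubring Qb} {q : ℕ}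

/-- Uniformisers of `K` at `A` exist. -/
theorem exists_isUniformizerAt [FiniteDimensional ℚ K] (hq : q.Prime) (hA : A.LiesOverPrime q) :
    ∃ π : K, IsUniformizerAt K A π := by
  obtain ⟨ϖ, hϖK, hϖ0, hϖ1, hgen⟩ := exists_uniformizer K A hq hA
  have hv0 : 0 < A.valuation ϖ := by
    rw [zero_lt_iff, Ne, map_eq_zero]
    exact hϖ0
  refine ⟨⟨ϖ, hϖK⟩, hϖ1, fun x hx => ?_⟩
  by_cases hx0 : x = 0
  · subst hx0
    rw [show ((0 : K) : Qb) = 0 from rfl, map_zero]
    exact zero_le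
  obtain ⟨m, hm⟩ := hgen x x.2 (fun h => hx0 (Subtype.ext h))
  rw [hm] at hx ⊢
  have hm1 : 1 ≤ m := by
    by_contra h
    have h0 : m ≤ 0 := by omega
    have h2 := zpow_le_zpow_right_of_le_one₀ hv0 hϖ1.le h0
    rw [zpow_zero] at h2
    exact absurd hx (not_lt.mpr h2)
  calc A.valuation ϖ ^ m ≤ A.valuation ϖ ^ (1 : ℤ) :=
        zpow_le_zpow_right_of_le_one₀ hv0 hϖ1.le hm1
    _ = A.valuation ϖ := zpow_one _

/-- The value group of `K` at `A` is generated by the value of any uniformiser. -/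
theorem IsUniformizerAt.exists_valuation_eq_zpow [FiniteDimensional ℚ K] (hq : q.Prime)
    (hA : A.LiesOverPrime q) {π : K} (hπ : IsUniformizerAt K A π) (x : K) (hx : x ≠ 0) :
    ∃ m : ℤ, A.valuation (x : Qb) = A.valuation (π : Qb) ^ m := by
  obtain ⟨ϖ, hϖK, hϖ0, hϖ1, hgen⟩ := exists_uniformizer K A hq hA
  have hv0 : 0 < A.valuation ϖ := by
    rw [zero_lt_iff, Ne, map_eq_zero]
    exact hϖ0
  have hπ0 := uniformizer_ne_zero hq hA hπ
  have h1 : A.valuation ϖ ≤ A.valuation (π : Qb) := hπ.2 ⟨ϖ, hϖK⟩ hϖ1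
  obtain ⟨k, hk⟩ := hgen π π.2 (fun h => hπ0 (Subtype.ext h))
  have h2 : A.valuation (π : Qb) ≤ A.valuation ϖ := by
    have hlt := hπ.1
    rw [hk] at hlt ⊢
    have hk1 : 1 ≤ k := by
      by_contra h
      have h0 : k ≤ 0 := by omega
      have h2 := zpow_le_zpow_right_of_le_one₀ hv0 hϖ1.le h0
      rw [zpow_zero] at h2
      exact absurd hlt (not_lt.mpr h2)
    calc A.valuation ϖ ^ k ≤ A.valuation ϖ ^ (1 : ℤ) :=
          zpow_le_zpow_right_of_le_one₀ hv0 hϖ1.le hk1
      _ = A.valuation ϖ := zpow_one _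
  obtain ⟨m, hm⟩ := hgen x x.2 (fun h => hx (Subtype.ext h))
  exact ⟨m, by rw [hm, le_antisymm h2 h1]⟩

section Dictionary

variable [NumberField K] {v : HeightOneSpectrum (𝓞 K)}

/-- In `ℤᵐ⁰`, being `< 1` means being `≤ exp (-1)`. -/
theorem withZero_lt_one_iff_le_exp_neg_one (c : WithZero (Multiplicative ℤ)) :
    c < 1 ↔ c ≤ WithZero.exp (-1 : ℤ) := by
  by_cases hc : c = 0
  · subst hc
    exact ⟨fun _ => zero_le, fun _ => zero_lt_one⟩
  · rw [← WithZero.exp_log hc, ← WithZero.exp_zero, WithZero.exp_lt_exp, WithZero.exp_le_exp]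
    omega

/-- `π` is a uniformiser of `K` at `A` iff it is a uniformiser for the prime of `𝓞 K` under
`A`. -/
theorem isUniformizerAt_iff (hv : v.asIdeal = ValRing.primeUnder K A) (π : K) :
    IsUniformizerAt K A π ↔ v.valuation K π = WithZero.exp (-1 : ℤ) := by
  obtain ⟨ϖ, hϖ⟩ := v.valuation_exists_uniformizer K
  have hϖ1 : v.valuation K ϖ < 1 := by
    rw [withZero_lt_one_iff_le_exp_neg_one, hϖ]
  constructor
  · intro hπ
    have h1 : v.valuation K π ≤ WithZero.exp (-1 : ℤ) :=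
      (withZero_lt_one_iff_le_exp_neg_one _).mp ((ValRing.valuation_lt_one_iff hv π).mpr hπ.1)
    have h2 : v.valuation K ϖ ≤ v.valuation K π :=
      (ValRing.valuation_le_iff hv ϖ π).mpr (hπ.2 ϖ ((ValRing.valuation_lt_one_iff hv ϖ).mp hϖ1))
    rw [hϖ] at h2
    exact le_antisymm h1 h2
  · intro hπ
    refine ⟨(ValRing.valuation_lt_one_iff hv π).mp ?_, fun x hx => ?_⟩
    · rw [withZero_lt_one_iff_le_exp_neg_one, hπ]
    · refine (ValRing.valuation_le_iff hv x π).mp ?_
      rw [hπ]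
      exact (withZero_lt_one_iff_le_exp_neg_one _).mp ((ValRing.valuation_lt_one_iff hv x).mpr hx)

/-- The exponent `m` of (UNR-5) is `ord_v γ`. -/
theorem valuation_eq_zpow_iff (hv : v.asIdeal = ValRing.primeUnder K A) {π : K}
    (hπ : IsUniformizerAt K A π) (γ : K) (m : ℤ) :
    A.valuation (γ : Qb) = A.valuation (π : Qb) ^ m ↔
      v.valuation K γ = WithZero.exp (-m) := by
  have hcoe : ((π ^ m : K) : Qb) = (π : Qb) ^ m := rfl
  have h1 := ValRing.valuation_eq_iff hv γ (π ^ m)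
  rw [hcoe, map_zpow₀, map_zpow₀, (isUniformizerAt_iff hv π).mp hπ, ← WithZero.exp_zsmul] at h1
  rw [← h1]
  simp

end Dictionary

end Fermat.Agent.CFT.LocalBr.Unram
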